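/-
S59, walls M3 (LOWER-Q, `q ≡ 1 mod p`) and R1 (MIN'): the K-machine for a GENERAL semistable
curve `W`, piece KSETUP-W (helper22).

`s59lk_KSetupW W p M` is the `W`-twin of `RT.Prod.KSetup P N q` (RT/Prod/FinalPlan.lean), with
the SAME field names (so that the files over `KSetup` can be ported field by field):

* `O` (K1-O2 ring), `lam`, `ζ` (primitive `p`-th root of unity), `h2`;
* `ρbar` over `k = ResidueField O`, `Smin` (GENERAL: `p` and the primes where `ρbar` ramifies;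
  the Frey twin had `Smin = {2, p}`), with `hSmin_mem : q ∈ Smin ↔ q = p ∨ ρbar ramified at q`;
* the trivial primes `r : ι → ℕ` = the primes of `M` outside `Smin`
  (`hr : ℓ ∈ image r ↔ ℓ.Prime ∧ ℓ ∣ M ∧ ℓ ∉ Smin`), `hyp : TWHyp`, `hT : IsTrivSet`;
* LOC-gen generators `σ i`, `φ i`, square roots `s i` of `r i` with the sign of `ρbar (φ i)`;
* `hbar` : characteristic polynomials of Frobenius at the good primes `ℓ ≠ p` of `W`;
* `hunip` : `ρbar` is unipotent on inertia at EVERY prime `q ≠ p` (the Frey twin: `hunip2`);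
* `hunram` : the dictionary `ρbar.IsUnramifiedAt q ↔ s59lq_Unram W p q` (pointwise on `E[p]`).

MAIN RESULT (sorry-free):
  `s59lk_exists_setupW : p = 3 ∨ p = 5 → W.Δ ≠ 0 → W.IsSemistableModel → W.ModRepIsIrreducible p →
     M ≠ 0 → (every prime r ≠ p of M at which E[p] is unramified is a trivial prime)
     → Nonempty (s59lk_KSetupW W p M)`
with `O = k1o2Ring p`, `ρbar = s59feBar W hΔ p (s59feKφ p) _`, `Smin = s59feSmin W hΔ p`.
-/
import Fermat.Agent.RT.Prod.Hyp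
import Fermat.Agent.RT.K1.TameGenFinal
import Fermat.Agent.S59.FinEK
import Fermat.Agent.S59.LowQ.Plan

set_option autoImplicit false
set_option linter.unusedSectionVars false
set_option linter.unusedVariables false
set_option linter.style.haveILetI false
set_option linter.style.longLine false

noncomputable section

namespace Fermat.Agent.S59.LowK

open IsLocalRing Polynomial Fermat.Agent.TW Fermat.Agent.RT Fermat.Agent.RT.K1
  Fermat.Agent.RT.Prod Fermat.Agent.EC Fermat.Agent.S59 Fermat.Agent.S59.LowQ ExtCitation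
open WeierstrassCurve WeierstrassCurve.Affine WeierstrassCurve.Affine.Point

/-- **The situation of the K-machine for a general curve**: the `W`-twin of
`RT.Prod.KSetup P N q`. -/
structure s59lk_KSetupW (W : WeierstrassCurve ℤ) (p M : ℕ) : Type 1 where
  /-- the coefficient ring -/
  O : Type
  [instCommRing : CommRing O]
  [instIsDomain : IsDomain O]
  [instDVR : IsDiscreteValuationRing O]
  [instComplete : IsAdicComplete (maximalIdeal O) O]
  [instFinite : Finite (ResidueField O)]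
  [instCharZero : CharZero O]
  lam : O
  hlam : maximalIdeal O = Ideal.span {lam}
  h2 : IsUnit (2 : O)
  /-- a primitive `p`-th root of unity -/
  ζ : O
  hζ : IsPrimitiveRoot ζ p
  /-- the residual representation -/
  ρbar : ResidualGaloisRep (ResidueField O)
  Smin : Finset ℕ
  /-- `Smin` = `p` and the primes at which `ρbar` is ramified -/
  hSmin_mem : ∀ q : ℕ, q.Prime → (q ∈ Smin ↔ q = p ∨ ¬ ρbar.IsUnramifiedAt q)
  /-- the trivial primes = the primes of `M` outside `Smin` -/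
  ι : Type
  [instFintype : Fintype ι]
  r : ι → ℕ
  r_inj : Function.Injective r
  hr : ∀ ℓ : ℕ, ℓ ∈ Finset.univ.image r ↔ ℓ.Prime ∧ ℓ ∣ M ∧ ℓ ∉ Smin
  hyp : TWHyp O p ρbar (Smin ∪ Finset.univ.image r) Smin
  hT : IsTrivSet p ρbar Smin (Finset.univ.image r)
  /-- the LOC-gen generators -/
  σ : ι → RtpaG
  φ : ι → RtpaG
  hloc : ∀ i, ∀ [Fact (r i).Prime], IsLocGenAt p (r i) (σ i) (φ i)
  /-- the square roots of the trivial primes -/
  s : ι → O
  hs2 : ∀ i, s i ^ 2 = (r i : O)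
  hs : ∀ i, (ρbar.ρ (φ i) = 1 ∧ s i - 1 ∈ maximalIdeal O) ∨
    (ρbar.ρ (φ i) = -1 ∧ s i + 1 ∈ maximalIdeal O)
  /-- the link with the curve: Frobenius at the good primes -/
  hbar : ∀ ℓ : ℕ, ℓ.Prime → ℓ ≠ p → W.IsGoodPrimeFor ℓ →
    ∀ 𝔄 : ValuationSubring (AlgebraicClosure ℚ), 𝔄.LiesOverPrime ℓ →
      ∀ τ : RtpaG, 𝔄.IsFrobeniusAt τ ℓ →
        LinearMap.charpoly (ρbar.ρ τ) =
          X ^ 2 - C (((W.apOfModel ℓ : ℤ) : ResidueField O)) * X + C ((ℓ : ResidueField O))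
  /-- `ρbar` is unipotent on the inertia groups at every prime `q ≠ p` (`W` is semistable) -/
  hunip : ∀ q : ℕ, q.Prime → q ≠ p →
    ∀ 𝔄 : ValuationSubring (AlgebraicClosure ℚ), 𝔄.LiesOverPrime q →
      ∀ s ∈ 𝔄.inertiaSubgroupIn ℚ, LinearMap.charpoly (ρbar.ρ s) = (X - 1) ^ 2
  /-- the dictionary with the pointwise unramifiedness of `E[p]` -/
  hunram : ∀ q : ℕ, ρbar.IsUnramifiedAt q ↔ s59lq_Unram W p q

attribute [instance] s59lk_KSetupW.instCommRing s59lk_KSetupW.instIsDomain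
  s59lk_KSetupW.instDVR s59lk_KSetupW.instComplete s59lk_KSetupW.instFinite
  s59lk_KSetupW.instCharZero s59lk_KSetupW.instFintype

/-- the curve of the setup (the twin of the field `KSetup.W`) -/
abbrev s59lk_KSetupW.W {W₀ : WeierstrassCurve ℤ} {p M : ℕ} (_Y : s59lk_KSetupW W₀ p M) :
    WeierstrassCurve ℤ := W₀

namespace s59lk_KSetupW

variable {W : WeierstrassCurve ℤ} {p M : ℕ} (Y : s59lk_KSetupW W p M)

/-- `1/2` -/
noncomputable def half : Y.O := ((Y.h2.unit⁻¹ : Y.Oˣ) : Y.O)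

/-- `tχ = (ζ + ζ⁻¹)/2` (the same for all trivial primes) -/
noncomputable def tχ : Y.ι → Y.O := fun _ => Y.half * (Y.ζ + Y.ζ ^ (p - 1))

/-- `δ = (ζ − ζ⁻¹)/2` -/
noncomputable def δ : Y.ι → Y.O := fun _ => Y.half * (Y.ζ - Y.ζ ^ (p - 1))

/-- the set `T` of trivial primes -/
def T : Finset ℕ := Finset.univ.image Y.r

/-- the number of variables of `S`: `h` Taylor–Wiles variables and `4` framing variables for
every trivial prime -/
def m (h : ℕ) : ℕ := h + 4 * Fintype.card Y.ι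

theorem p_mem_Smin (hp : p.Prime) : p ∈ Y.Smin := (Y.hSmin_mem p hp).2 (Or.inl rfl)

theorem r_prime (i : Y.ι) : (Y.r i).Prime :=
  ((Y.hr (Y.r i)).1 (Finset.mem_image_of_mem _ (Finset.mem_univ i))).1

theorem r_dvd (i : Y.ι) : Y.r i ∣ M :=
  ((Y.hr (Y.r i)).1 (Finset.mem_image_of_mem _ (Finset.mem_univ i))).2.1

theorem r_not_mem_Smin (i : Y.ι) : Y.r i ∉ Y.Smin :=
  ((Y.hr (Y.r i)).1 (Finset.mem_image_of_mem _ (Finset.mem_univ i))).2.2

theorem r_ne_p (hp : p.Prime) (i : Y.ι) : Y.r i ≠ p := fun h =>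
  Y.r_not_mem_Smin i (by rw [h]; exact Y.p_mem_Smin hp)

theorem r_unram (i : Y.ι) : Y.ρbar.IsUnramifiedAt (Y.r i) := by
  by_contra h
  exact Y.r_not_mem_Smin i ((Y.hSmin_mem _ (Y.r_prime i)).2 (Or.inr h))

theorem r_dvd_sub_one (i : Y.ι) : p ∣ Y.r i - 1 :=
  (Y.hT (Y.r i) (Finset.mem_image_of_mem _ (Finset.mem_univ i))).2.2.1

/-- every prime of the level is in `Smin` or is a trivial prime -/
theorem mem_of_dvd {ℓ : ℕ} (hℓ : ℓ.Prime) (hM : ℓ ∣ M) : ℓ ∈ Y.Smin ∪ Finset.univ.image Y.r := by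
  by_cases h : ℓ ∈ Y.Smin
  · exact Finset.mem_union_left _ h
  · exact Finset.mem_union_right _ ((Y.hr ℓ).2 ⟨hℓ, hM, h⟩)

/-- a prime `q ≠ p` of the level at which `E[p]` is unramified is one of the trivial primes -/
theorem exists_index {q : ℕ} (hq : q.Prime) (hqp : q ≠ p) (hqM : q ∣ M)
    (hunr : s59lq_Unram W p q) : ∃ i : Y.ι, Y.r i = q := by
  have h : q ∉ Y.Smin := by
    rw [Y.hSmin_mem q hq, not_or, not_not]
    exact ⟨hqp, (Y.hunram q).2 hunr⟩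
  obtain ⟨i, -, hi⟩ := Finset.mem_image.1 ((Y.hr q).2 ⟨hq, hqM, h⟩)
  exact ⟨i, hi⟩

end s59lk_KSetupW

/-! ### The residual representation of `W` over `k1o2Ring p` -/

section Rho

variable (W : WeierstrassCurve ℤ) (hΔ : W.Δ ≠ 0) (p : ℕ) [hp : Fact p.Prime]
  [hp2 : Fact (p ≠ 2)]

/-- `G_ℚ` -/
local notation "GQ" => (AlgebraicClosure ℚ ≃ₐ[ℚ] AlgebraicClosure ℚ)

/-- the residual representation of `W` over the residue field of `ℤ_p` -/
abbrev s59lkRho₁ : ResidualGaloisRep (ResidueField ℤ_[p]) := (tateRepInt W hΔ p).residual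

/-- the residual representation of `W` over the residue field of `k1o2Ring p` -/
abbrev s59lkRho : ResidualGaloisRep (ResidueField (k1o2Ring p)) :=
  s59feBar W hΔ p (s59feKφ p) (s59feK_isLocalHom p)

theorem s59lk_rho1_one_iff (σ : GQ) :
    (s59lkRho₁ W hΔ p).ρ σ = 1 ↔ ∀ x : s59lq_Tors W p, σ • x = x :=
  rtph_res_eq_one_iff (W.map (Int.castRingHom ℚ)) (tate_map_Δ_ne_zero W hΔ) p σ

theorem s59lk_rho1_neg_one_iff (σ : GQ) :
    (s59lkRho₁ W hΔ p).ρ σ = -1 ↔ ∀ x : s59lq_Tors W p, σ • x = -x :=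
  rtph_res_eq_neg_one_iff (W.map (Int.castRingHom ℚ)) (tate_map_Δ_ne_zero W hΔ) p σ

/-- the dictionary for `ρ̄₁` -/
theorem s59lk_rho1_unram_iff (q : ℕ) :
    (s59lkRho₁ W hΔ p).IsUnramifiedAt q ↔ s59lq_Unram W p q := by
  constructor
  · intro h A hA τ hτ y
    exact (s59lk_rho1_one_iff W hΔ p τ).1 (h A hA τ hτ) y
  · intro h A hA τ hτ
    exact (s59lk_rho1_one_iff W hΔ p τ).2 (fun y => h A hA τ hτ y)

/-- the dictionary for `ρbar` -/
theorem s59lk_rho_unram_iff (q : ℕ) :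
    (s59lkRho W hΔ p).IsUnramifiedAt q ↔ s59lq_Unram W p q := by
  rw [s59lkRho, s59feBar, rtphw_isUnramifiedAt_iff]
  exact s59lk_rho1_unram_iff W hΔ p q

/-- `ρbar` is unipotent on inertia at every prime `q ≠ p`. -/
theorem s59lk_rho_unip (hss : W.IsSemistableModel) {q : ℕ} (hq : q.Prime) (hqp : q ≠ p)
    (A : ValuationSubring (AlgebraicClosure ℚ)) (hA : A.LiesOverPrime q)
    (s : GQ) (hs : s ∈ A.inertiaSubgroupIn ℚ) :
    LinearMap.charpoly ((s59lkRho W hΔ p).ρ s) = (X - 1) ^ 2 := by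
  have h1 := Fermat.Agent.RED.tateRepInt_isUnipotentOnInertiaAt_of_semistable_all W hΔ hss p
    hp2.out hq hqp A hA s hs
  have h2 : LinearMap.charpoly ((s59lkRho₁ W hΔ p).ρ s) = (X - 1) ^ 2 := by
    have h3 := rtphw_charpoly_residual (tateRepInt W hΔ p) s
    rw [h1] at h3
    simpa using h3
  rw [s59lkRho, s59feBar, rtphw_charpoly, h2]
  simp

/-- At a trivial prime of `W`, every element of every decomposition group acts as `±1`
(the `W`-twin of `rtph_frey_triv`). -/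
theorem s59lk_rho1_triv {r : ℕ} (hr : s59lq_IsTrivialPrime W p r)
    (hunr : (s59lkRho₁ W hΔ p).IsUnramifiedAt r)
    (A : ValuationSubring (AlgebraicClosure ℚ)) (hA : A.LiesOverPrime r) (σ : GQ)
    (hσ : σ ∈ A.decompositionSubgroup ℚ) :
    (s59lkRho₁ W hΔ p).ρ σ = 1 ∨ (s59lkRho₁ W hΔ p).ρ σ = -1 := by
  obtain ⟨hrp, hrne, -, ε, hε, hfrob⟩ := hr
  have : Fact r.Prime := ⟨hrp⟩
  have hlies := Fermat.Agent.TW.L.lfrobex_liesOverPrime r
  obtain ⟨σ₀, hσ₀, φ, hφ, huniv⟩ := Fermat.Agent.RT.K1.stmtLocGen r p hrne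
  have htame : Fermat.Agent.RT.K1.IsTameP r p (s59lkRho₁ W hΔ p).ρ :=
    ⟨(s59lkRho₁ W hΔ p).factorsThroughFiniteLevel, fun τ hτ =>
      ⟨0, by rw [pow_zero, pow_one]; exact hunr _ hlies τ hτ⟩⟩
  obtain ⟨-, hD, -⟩ := huniv _ (s59lkRho₁ W hΔ p).ρ htame
  have hσ₀1 : (s59lkRho₁ W hΔ p).ρ σ₀ = 1 := hunr _ hlies σ₀ hσ₀
  have hφε : (s59lkRho₁ W hΔ p).ρ φ = 1 ∨ (s59lkRho₁ W hΔ p).ρ φ = -1 := by
    rcases hε with rfl | rfl
    · left
      rw [s59lk_rho1_one_iff]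
      intro x
      have := hfrob _ hlies φ hφ x
      rwa [one_smul] at this
    · right
      rw [s59lk_rho1_neg_one_iff]
      intro x
      have := hfrob _ hlies φ hφ x
      rwa [neg_smul, one_smul] at this
  obtain ⟨g, hg⟩ := Fermat.Agent.TW.S.sconjp_exists_smul_eq r hrp A (padicPlace r) hA hlies
  have hτ : g * σ * g⁻¹ ∈ (padicPlace r).decompositionSubgroup ℚ := by
    have := rtph_conj_mem_decomp A g σ hσ
    rwa [hg] at this
  obtain ⟨m, n, hmn⟩ := hD _ hτ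
  rw [hσ₀1, one_pow, one_mul] at hmn
  have hpm : (s59lkRho₁ W hΔ p).ρ (g * σ * g⁻¹) = 1 ∨
      (s59lkRho₁ W hΔ p).ρ (g * σ * g⁻¹) = -1 := by
    rw [hmn]
    rcases hφε with h | h
    · left; rw [h, one_pow]
    · rw [h]
      rcases neg_one_pow_eq_or
          (Module.End (IsLocalRing.ResidueField ℤ_[p]) (s59lkRho₁ W hΔ p).V) n with h' | h'
      · left; exact h'
      · right; exact h'
  have hσeq : (s59lkRho₁ W hΔ p).ρ σ
      = (s59lkRho₁ W hΔ p).ρ g⁻¹ * (s59lkRho₁ W hΔ p).ρ (g * σ * g⁻¹) *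
          (s59lkRho₁ W hΔ p).ρ g := by
    rw [← map_mul, ← map_mul]
    congr 1
    group
  have hinv : (s59lkRho₁ W hΔ p).ρ g⁻¹ * (s59lkRho₁ W hΔ p).ρ g = 1 := by
    rw [← map_mul, inv_mul_cancel, map_one]
  rcases hpm with h | h
  · left
    rw [hσeq, h, mul_one, hinv]
  · right
    rw [hσeq, h, mul_neg, mul_one, neg_mul, hinv]

end Rho

/-! ### Existence of the setup -/

open Classical in
/-- the trivial primes: the primes of `M` outside `Smin` -/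
def s59lkT (W : WeierstrassCurve ℤ) (hΔ : W.Δ ≠ 0) (p : ℕ) [Fact p.Prime] (M : ℕ) : Finset ℕ :=
  M.primeFactors.filter fun ℓ => ℓ ∉ s59feSmin W hΔ p

theorem s59lk_mem_T (W : WeierstrassCurve ℤ) (hΔ : W.Δ ≠ 0) (p : ℕ) [Fact p.Prime] {M : ℕ}
    (hM : M ≠ 0) (ℓ : ℕ) :
    ℓ ∈ s59lkT W hΔ p M ↔ ℓ.Prime ∧ ℓ ∣ M ∧ ℓ ∉ s59feSmin W hΔ p := by
  classical
  rw [s59lkT, Finset.mem_filter, Nat.mem_primeFactors]
  constructor
  · rintro ⟨⟨h1, h2, -⟩, h3⟩
    exact ⟨h1, h2, h3⟩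
  · rintro ⟨h1, h2, h3⟩
    exact ⟨⟨h1, h2, hM⟩, h3⟩

/-- **KSETUP-W.** -/
theorem s59lk_exists_setupW (p : ℕ) [hp : Fact p.Prime] (hp35 : p = 3 ∨ p = 5)
    (W : WeierstrassCurve ℤ) (hΔ : W.Δ ≠ 0) (hss : W.IsSemistableModel)
    (hirr : W.ModRepIsIrreducible p) (M : ℕ) (hM : M ≠ 0)
    (htriv : ∀ r : ℕ, r.Prime → r ≠ p → r ∣ M → s59lq_Unram W p r →
      s59lq_IsTrivialPrime W p r) :
    Nonempty (s59lk_KSetupW W p M) := by
  haveI hp2 : Fact (p ≠ 2) := ⟨by rcases hp35 with rfl | rfl <;> decide⟩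
  -- membership in `Smin`
  have hmin : ∀ q : ℕ, q.Prime → q ≠ p →
      (q ∈ s59feSmin W hΔ p ↔ ¬ (s59lkRho W hΔ p).IsUnramifiedAt q) := fun q hq hne =>
    s59fe_hmin W hΔ p (s59feKφ p) (s59feK_isLocalHom p) hq hne
  have hSmin_mem : ∀ q : ℕ, q.Prime →
      (q ∈ s59feSmin W hΔ p ↔ q = p ∨ ¬ (s59lkRho W hΔ p).IsUnramifiedAt q) := by
    intro q hq
    by_cases hqp : q = p
    · subst hqp
      exact ⟨fun _ => Or.inl rfl, fun _ => s59fe_p_mem_Smin W hΔ q⟩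
    · rw [hmin q hq hqp]
      exact ⟨fun h => Or.inr h, fun h => h.resolve_left hqp⟩
  -- facts on the trivial primes
  have hTmem := s59lk_mem_T W hΔ p hM
  have hprime : ∀ i : s59lkT W hΔ p M, (i : ℕ).Prime := fun i => ((hTmem _).1 i.2).1
  have hne : ∀ i : s59lkT W hΔ p M, (i : ℕ) ≠ p := by
    intro i h
    exact ((hTmem _).1 i.2).2.2 (by rw [h]; exact s59fe_p_mem_Smin W hΔ p)
  have hunr : ∀ ℓ ∈ s59lkT W hΔ p M, (s59lkRho W hΔ p).IsUnramifiedAt ℓ := by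
    intro ℓ hℓ
    obtain ⟨h1, -, h3⟩ := (hTmem ℓ).1 hℓ
    by_contra h
    exact h3 ((hSmin_mem ℓ h1).2 (Or.inr h))
  have htr : ∀ ℓ ∈ s59lkT W hΔ p M, s59lq_IsTrivialPrime W p ℓ := by
    intro ℓ hℓ
    obtain ⟨h1, h2, h3⟩ := (hTmem ℓ).1 hℓ
    have hℓp : ℓ ≠ p := fun h => h3 (by rw [h]; exact s59fe_p_mem_Smin W hΔ p)
    exact htriv ℓ h1 hℓp h2 ((s59lk_rho_unram_iff W hΔ p ℓ).1 (hunr ℓ hℓ))
  -- TWHyp
  have hyp : TWHyp (k1o2Ring p) p (s59lkRho W hΔ p)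
      (s59feSmin W hΔ p ∪ s59lkT W hΔ p M) (s59feSmin W hΔ p) :=
    s59feK_twHyp p W hΔ hp35 hss hirr _ Finset.subset_union_left (fun q hq => by
      rcases Finset.mem_union.1 hq with h | h
      · exact s59fe_prime_of_mem_Smin W hΔ p h
      · exact ((hTmem q).1 h).1)
  -- IsTrivSet
  have hT : IsTrivSet p (s59lkRho W hΔ p) (s59feSmin W hΔ p) (s59lkT W hΔ p M) := by
    intro r hr
    obtain ⟨h1, -, h3⟩ := (hTmem r).1 hr
    refine ⟨h1, h3, (htr r hr).2.2.1, ?_⟩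
    intro A hA σ hσ
    show (s59lkRho W hΔ p).ρ σ = 1 ∨ (s59lkRho W hΔ p).ρ σ = -1
    rw [s59lkRho, s59feBar, rtphw_one_iff, rtphw_neg_one_iff]
    refine s59lk_rho1_triv W hΔ p (htr r hr) ?_ A hA σ hσ
    exact (s59lk_rho1_unram_iff W hΔ p r).2 ((s59lk_rho_unram_iff W hΔ p r).1 (hunr r hr))
  -- LOC-gen
  have hloc : ∀ i : s59lkT W hΔ p M, ∃ σ φ : RtpaG,
      ∀ [Fact (i : ℕ).Prime], IsLocGenAt p (i : ℕ) σ φ := by
    intro i
    haveI : Fact (i : ℕ).Prime := ⟨hprime i⟩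
    obtain ⟨σ, φ, h⟩ := exists_isLocGenAt Fermat.Agent.RT.K1.stmtLocGen p (i : ℕ) (hne i)
    exact ⟨σ, φ, fun {_} => h⟩
  choose σ φ hσφ using hloc
  -- the square roots
  have hsq : ∀ i : s59lkT W hΔ p M, ∃ s : k1o2Ring p, s ^ 2 = ((i : ℕ) : k1o2Ring p) ∧
      (((s59lkRho W hΔ p).ρ (φ i) = 1 ∧ s - 1 ∈ maximalIdeal (k1o2Ring p)) ∨
        ((s59lkRho W hΔ p).ρ (φ i) = -1 ∧ s + 1 ∈ maximalIdeal (k1o2Ring p))) := by
    intro i
    haveI : Fact (i : ℕ).Prime := ⟨hprime i⟩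
    have htr' := hT (i : ℕ) i.2
    have hdvd : (p : ℤ) ∣ ((i : ℕ) : ℤ) - 1 := rtps_int_dvd (hprime i).one_le htr'.2.2.1
    obtain ⟨-, -, s, t, hs2, hst⟩ := k1o2_exists_sqrt_nat p (i : ℕ) hdvd (hprime i).ne_one
    have hmem : k1o2Lam p * t ∈ maximalIdeal (k1o2Ring p) := by
      rw [k1o2_maximalIdeal_eq]
      exact Ideal.mul_mem_right _ _ (Ideal.mem_span_singleton_self _)
    rcases rtps_sign hT i.2 (hσφ i).frob with h1 | h1
    · refine ⟨s, hs2, Or.inl ⟨h1, ?_⟩⟩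
      rw [hst, add_sub_cancel_left]
      exact hmem
    · refine ⟨-s, by rw [neg_pow_two, hs2], Or.inr ⟨h1, ?_⟩⟩
      rw [hst]
      have : -(1 + k1o2Lam p * t) + 1 = -(k1o2Lam p * t) := by ring
      rw [this]
      exact (Ideal.neg_mem_iff _).2 hmem
  choose s hs2 hs using hsq
  have himg := rtps_image_val (s59lkT W hΔ p M)
  exact ⟨{
    O := k1o2Ring p
    lam := k1o2Lam p
    hlam := k1o2_maximalIdeal_eq p
    h2 := k1o2_isUnit_two p
    ζ := k1o2Zeta p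
    hζ := k1o2_zeta_primitive p
    ρbar := s59lkRho W hΔ p
    Smin := s59feSmin W hΔ p
    hSmin_mem := hSmin_mem
    ι := s59lkT W hΔ p M
    r := fun i => (i : ℕ)
    r_inj := Subtype.val_injective
    hr := fun ℓ => by rw [himg]; exact hTmem ℓ
    hyp := by rw [himg]; exact hyp
    hT := by rw [himg]; exact hT
    σ := σ
    φ := φ
    hloc := fun i => hσφ i
    s := s
    hs2 := hs2
    hs := hs
    hbar := fun ℓ hℓ hne hgood A hA τ hτ =>
      rtphw_hbar W hΔ p _ hℓ hne hgood A hA τ hτ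
    hunip := fun q hq hqp A hA s hs => s59lk_rho_unip W hΔ p hss hq hqp A hA s hs
    hunram := fun q => s59lk_rho_unram_iff W hΔ p q }⟩

end Fermat.Agent.S59.LowK

end
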