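/-
S59, walls M3 / R1 (K-machine for a general semistable `W`): the `W`-twin of the contracts of
`RT/Prod/FinalPlan.lean` (helper22; original by helper70).

* `HeckeDataW Y h`   : what the HECKE side delivers over a setup `Y : s59lk_KSetupW W p M` for `h`
  Taylor–Wiles primes (the twin of `RT.Prod.HeckeData`, field by field; level `M`);
* `StmtKSetupW p`    : in the situation of `s59lq_StmtTR p` there is a setup
                        (PROVED for `p = 3, 5`: `stmtKSetupW`);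
* `StmtHeckeW p`     : over every setup, for every `h`, the Hecke side delivers its data
                        (levels `M` prime to `p`: the FLAT machine).
-/
import Fermat.Agent.S59.LowK.SetupW
import Fermat.Agent.RT.Prod.FinalPlan

set_option autoImplicit false
set_option linter.unusedSectionVars false
set_option linter.unusedVariables false
set_option linter.style.longLine false

noncomputable section

namespace Fermat.Agent.S59.LowK

open IsLocalRing Polynomial Fermat.Agent.TW Fermat.Agent.RT Fermat.Agent.RT.K1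
  Fermat.Agent.RT.Prod Fermat.Agent.S59.LowQ ExtCitation
open WeierstrassCurve WeierstrassCurve.Affine WeierstrassCurve.Affine.Point

/-- **What the Hecke side delivers** over a setup `Y` for `W`, for `h` Taylor–Wiles primes
(the twin of `RT.Prod.HeckeData`). -/
structure HeckeDataW {W : WeierstrassCurve ℤ} {p M : ℕ} [NeZero M] (Y : s59lk_KSetupW W p M)
    (h : ℕ) : Type 1 where
  d : ℕ
  hd : 0 < d
  /-- the base Hecke ring -/
  T0 : Type
  [instCommRingT0 : CommRing T0]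
  [instIsLocalRingT0 : IsLocalRing T0]
  [instAlgebraT0 : Algebra Y.O T0]
  [instFiniteT0 : Module.Finite Y.O T0]
  j0 : T0 →ₐ[Y.O] Matrix (Fin d) (Fin d) Y.O
  hj0 : Function.Injective j0
  /-- the base representation -/
  ρ0 : GaloisRepAdic T0
  b0 : Module.Basis (Fin 2) T0 ρ0.V
  hdet0 : ρ0.DetIsCyclotomic p
  ι0 : ResidueField Y.O →+* ResidueField T0
  hres0 : ρ0.residual.IsEquiv (Y.ρbar.baseChangeAlong ι0)
  habs0 : ρ0.residual.IsAbsolutelyIrreducible
  /-- the excluded primes and the Hecke eigenvalues -/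
  S' : Finset ℕ
  hpS' : p ∈ S'
  hNS' : ∀ ℓ : ℕ, ℓ.Prime → ℓ ∣ M → ℓ ∈ S'
  a : Nat.Primes → T0
  hocc : ∀ t ∈ MvPolynomial.supported ℤ (Fermat.Agent.S31.outsideVars (↑S' : Set ℕ)),
    CuspForm.heckeEvalForms M 2 t = 0 → MvPolynomial.aeval a t = 0
  hcong : ∀ ℓ : Nat.Primes, (ℓ : ℕ) ∉ S' → W.IsGoodPrimeFor ℓ →
    a ℓ - ((W.apOfModel ℓ : ℤ) : T0) ∈ maximalIdeal T0
  hfrob : ∀ ℓ : Nat.Primes, (ℓ : ℕ) ∉ S' →
    ∀ 𝔄 : ValuationSubring (AlgebraicClosure ℚ), 𝔄.LiesOverPrime ℓ →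
      ∀ τ : RtpaG, 𝔄.IsFrobeniusAt τ ℓ →
        LinearMap.charpoly (ρ0.ρ τ) = X ^ 2 - C (a ℓ) * X + C (((ℓ : ℕ) : T0))
  /-- the levels -/
  level : ∀ (n : ℕ) (qv : Fin h → ℕ),
    IsTWFamily p Y.ρbar (Y.Smin ∪ Finset.univ.image Y.r) n h qv →
    ∃ (A : Type) (_ : CommRing A) (_ : IsLocalRing A) (_ : Algebra Y.O A)
      (ιA : ResidueField Y.O →+* ResidueField A) (ρ : GaloisRepAdic A)
      (b : Module.Basis (Fin 2) A ρ.V) (β βi : ℕ → Matrix (Fin 2) (Fin 2) A)
      (π1 πχ : A →ₐ[Y.O] Matrix (Fin d) (Fin d)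
        (RttwS Y.O (Y.m h) ⧸ maximalIdeal (RttwS Y.O (Y.m h)) ^ n)),
      TWGal p Y.ρbar Y.Smin (Finset.univ.image qv) Y.r Y.σ Y.φ Y.tχ Y.lam (Y.m h) d j0
        (fun i => LinearMap.toMatrix b0 b0 (ρ0.ρ (Y.σ i)))
        (fun i => LinearMap.toMatrix b0 b0 (ρ0.ρ (Y.φ i))) n (rttwEvenQ Y.O (Y.m h) h n)
        ιA ρ b β βi π1 πχ

attribute [instance] HeckeDataW.instCommRingT0 HeckeDataW.instIsLocalRingT0
  HeckeDataW.instAlgebraT0 HeckeDataW.instFiniteT0

/-- **SETUP for `W`**: in the situation of `s59lq_StmtTR p` there is a setup. -/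
def StmtKSetupW (p : ℕ) : Prop :=
  ∀ [Fact p.Prime] (W : WeierstrassCurve ℤ), W.Δ ≠ 0 → W.IsSemistableModel →
    W.ModRepIsIrreducible p → ∀ M : ℕ, Squarefree M →
    W.IsResiduallyModularOfLevel p M →
    (∀ r : ℕ, r.Prime → r ≠ p → r ∣ M → s59lq_Unram W p r → s59lq_IsTrivialPrime W p r) →
    Nonempty (s59lk_KSetupW W p M)

/-- **SETUP for `W`**, `p = 3, 5`. -/
theorem stmtKSetupW (p : ℕ) (hp35 : p = 3 ∨ p = 5) : StmtKSetupW p := by
  intro _ W hΔ hss hirr M hM _ htriv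
  exact s59lk_exists_setupW p hp35 W hΔ hss hirr M (fun h => by
    subst h
    exact not_squarefree_zero hM) htriv

/-- **HECKE for `W`** (K5 + K6 + K7 + FLAT + BASE-BRIDGE), levels prime to `p`: over every
setup, for every number `h` of Taylor–Wiles primes, the Hecke side delivers its data. -/
def StmtHeckeW (p : ℕ) : Prop :=
  ∀ [Fact p.Prime] (W : WeierstrassCurve ℤ) (M q : ℕ) [NeZero M], W.Δ ≠ 0 →
    W.IsSemistableModel → W.ModRepIsIrreducible p → Squarefree M → ¬ p ∣ M → q.Prime →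
    q ≠ p → q ∣ M → s59lq_Unram W p q → W.IsResiduallyModularOfLevel p M →
    (∀ r : ℕ, r.Prime → r ≠ p → r ∣ M → s59lq_Unram W p r → s59lq_IsTrivialPrime W p r) →
    ∀ (Y : s59lk_KSetupW W p M) (h : ℕ), Nonempty (HeckeDataW Y h)

end Fermat.Agent.S59.LowK

end
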