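/-
S59, walls M3 / R1 (K-machine for a general semistable `W`), PROD (helper70): the `W`-twin of
`RT/Prod/FinalNum.lean` — the numerics of a setup `s59lk_KSetupW W p M`
(`S59/LowK/SetupW.lean`):
`tχ² − δ² = 1`, `tχ + δ = ζ`, `δ ≠ 0`, `tχ ≡ 1`, `δ ≡ 0`, `s ≡ ±1`, `r ≡ 1`, `r ≠ 1`.

The generic lemmas `rtpf_*` of `RT/Prod/FinalNum.lean` are reused unchanged.  The lemmas
`r_prime`, `r_ne_p`, `r_dvd`, `r_unram`, `r_dvd_sub_one`, `p_mem_Smin` are in `SetupW.lean`.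
-/
import Fermat.Agent.S59.LowK.FinalPlanW
import Fermat.Agent.RT.Prod.FinalNum

set_option autoImplicit false
set_option linter.style.haveILetI false
set_option linter.unusedSectionVars false
set_option linter.unusedVariables false

namespace Fermat.Agent.S59.LowK

open IsLocalRing Fermat.Agent.TW Fermat.Agent.RT Fermat.Agent.RT.K1 Fermat.Agent.RT.Prod
  ExtCitation Polynomial
open WeierstrassCurve WeierstrassCurve.Affine WeierstrassCurve.Affine.Point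

namespace s59lk_KSetupW

variable {W : WeierstrassCurve ℤ} {p M : ℕ} [hp : Fact p.Prime] (Y : s59lk_KSetupW W p M)

theorem two_mul_half : 2 * Y.half = 1 := by
  have h := Y.h2.unit.mul_inv
  rw [IsUnit.unit_spec] at h
  exact h

theorem zeta_mul : Y.ζ * Y.ζ ^ (p - 1) = 1 := by
  rw [← pow_succ', Nat.sub_add_cancel hp.out.one_le, Y.hζ.pow_eq_one]

theorem zeta_sub_one_mem : Y.ζ - 1 ∈ maximalIdeal Y.O :=
  rtpf_zeta_sub_one_mem hp.out Y.hyp.hp𝒪 Y.hζ.pow_eq_one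

theorem zeta_inv_sub_one_mem : Y.ζ ^ (p - 1) - 1 ∈ maximalIdeal Y.O :=
  rtpf_zeta_sub_one_mem hp.out Y.hyp.hp𝒪 (by rw [← pow_mul, mul_comm, pow_mul, Y.hζ.pow_eq_one,
    one_pow])

theorem htδ (i : Y.ι) : Y.tχ i ^ 2 - Y.δ i ^ 2 = 1 :=
  rtpf_num_sq Y.half Y.ζ p Y.two_mul_half Y.zeta_mul

theorem tχ_add_δ (i : Y.ι) : Y.tχ i + Y.δ i = Y.ζ :=
  rtpf_num_add Y.half Y.ζ p Y.two_mul_half

theorem two_mul_δ_ne (i : Y.ι) : 2 * Y.δ i ≠ 0 := by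
  show 2 * (Y.half * (Y.ζ - Y.ζ ^ (p - 1))) ≠ 0
  rw [rtpf_num_two_delta Y.half Y.ζ p Y.two_mul_half]
  exact rtpf_num_delta_ne hp.out Y.hyp.hp2 Y.hζ

theorem δ_ne (i : Y.ι) : Y.δ i ≠ 0 := fun h => Y.two_mul_δ_ne i (by rw [h, mul_zero])

theorem tχ_sub_one_mem (i : Y.ι) : Y.tχ i - 1 ∈ maximalIdeal Y.O := by
  have e : Y.tχ i - 1 = Y.half * ((Y.ζ - 1) + (Y.ζ ^ (p - 1) - 1)) := by
    show Y.half * (Y.ζ + Y.ζ ^ (p - 1)) - 1 = _
    have := Y.two_mul_half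
    linear_combination this
  rw [e]
  exact Ideal.mul_mem_left _ _ (Ideal.add_mem _ Y.zeta_sub_one_mem Y.zeta_inv_sub_one_mem)

theorem δ_mem (i : Y.ι) : Y.δ i ∈ maximalIdeal Y.O := by
  have e : Y.δ i = Y.half * ((Y.ζ - 1) - (Y.ζ ^ (p - 1) - 1)) := by
    show Y.half * (Y.ζ - Y.ζ ^ (p - 1)) = _
    ring
  rw [e]
  exact Ideal.mul_mem_left _ _ (Ideal.sub_mem _ Y.zeta_sub_one_mem Y.zeta_inv_sub_one_mem)

theorem mem_T (i : Y.ι) : Y.r i ∈ Finset.univ.image Y.r :=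
  Finset.mem_image_of_mem Y.r (Finset.mem_univ i)

/-- the twin of `KSetup.p_dvd` (the same statement as `r_dvd_sub_one` of `SetupW.lean`) -/
theorem p_dvd (i : Y.ι) : p ∣ Y.r i - 1 := (Y.hT (Y.r i) (Y.mem_T i)).2.2.1

theorem card_T : (Finset.univ.image Y.r).card = Fintype.card Y.ι := by
  rw [Finset.card_image_of_injective _ Y.r_inj, Finset.card_univ]

theorem s_mem (i : Y.ι) : Y.s i - 1 ∈ maximalIdeal Y.O ∨ Y.s i + 1 ∈ maximalIdeal Y.O := by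
  rcases Y.hs i with ⟨-, h⟩ | ⟨-, h⟩
  · exact Or.inl h
  · exact Or.inr h

theorem hs1 (i : Y.ι) : ∃ c, Y.s i = 1 + Y.lam * c ∨ Y.s i = -1 + Y.lam * c := by
  rcases Y.s_mem i with h | h
  · obtain ⟨c, hc⟩ := rtpf_exists_of_mem Y.hlam h
    exact ⟨c, Or.inl hc⟩
  · have h' : Y.s i - (-1) ∈ maximalIdeal Y.O := by rwa [sub_neg_eq_add]
    obtain ⟨c, hc⟩ := rtpf_exists_of_mem Y.hlam h'
    exact ⟨c, Or.inr hc⟩

theorem hqq (i : Y.ι) : ∃ c, (Y.r i : Y.O) = 1 + Y.lam * c := by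
  apply rtpf_exists_of_mem Y.hlam
  have e : (Y.r i : Y.O) - 1 = (Y.s i - 1) * (Y.s i + 1) := by
    rw [← Y.hs2 i]
    ring
  rw [e]
  rcases Y.s_mem i with h | h
  · exact Ideal.mul_mem_right _ _ h
  · exact Ideal.mul_mem_left _ _ h

theorem hqq1 (i : Y.ι) : (Y.r i : Y.O) ≠ 1 := by
  intro h
  have h1 : (Y.r i : Y.O) = ((1 : ℕ) : Y.O) := by rw [h, Nat.cast_one]
  have h2 := Nat.cast_injective h1
  exact (Y.r_prime i).one_lt.ne' h2

end s59lk_KSetupW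

end Fermat.Agent.S59.LowK
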