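/-
S59, walls M3 / R1 (K-machine for a general semistable `W`): the `W`-twin of the contracts of
`RT/Hecke/Plan.lean` (helper59; ledger NOTES/S59-LowK.md, depth 2).

The abstract structures `HkLevel`, `HkOut`, `HkBase` of `RT/Hecke/Plan.lean` do not mention the
Frey package: they are CITED, not twinned.  Twinned here:

* `HkBaseOutW Y d σ₀ τ₀ S' a0` : twin of `HkBaseOut` over a setup `Y : s59lk_KSetupW W p M`;
* `StmtHkAbsBW p`              : twin of `StmtHkAbsB`;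
* `StmtHkModSideW p`           : twin of `StmtHkModSide` (hypotheses in the order of
                                 `StmtHeckeW`), with ONE more output, `HkUnipJ`;
* `HkUnipJ p Smin J`           : NEW.  The inertia groups at the primes `q ≠ p` of `Smin` with
                                 `p ∣ q ^ 2 - 1` (the NON-RIGID primes) act unipotently on the
                                 `p`-power torsion of `J`:
                                 `s • s • x + x = s • x + s • x`, i.e. `(s − 1)² x = 0`;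
* `StmtHkAbsLW`                : the variant of `StmtHkAbsL` for a GENERAL `Smin`.

WHY `HkUnipJ`.  `StmtHkAbsL` asks `¬ p ∣ q ^ 2 - 1` at every prime `q ≠ p` of `Smin` (K7-U2,
rigidity: unipotency on inertia is then automatic).  For the Frey curve `Smin = {2, p}` and
`p ≥ 5`.  For a general `W` the set `Smin` contains every prime at which `ρ̄` is ramified, and
for `p = 3` EVERY prime `q ≠ 3` has `3 ∣ q ^ 2 - 1`.  So for `W` the unipotency has to come from
the module side (semistable reduction of the twisted Jacobian at `q ∥ L`: the analogue of S34;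
helper4: it is the case `δ = 1` of the landed K6 (χ-J) when the primes of `Smin` are put into the
modulus `M` of the level): that is `HkUnipJ`.  `StmtHkAbsLW` takes, per prime `q`, the rigidity
(`¬ p ∣ q ^ 2 - 1`, with the residual unipotency) OR `HkUnipJ` (`p ∣ q ^ 2 - 1`).
-/
import Fermat.Agent.RT.Hecke.Plan
import Fermat.Agent.S59.LowK.FinalPlanW

set_option autoImplicit false
set_option linter.unusedSectionVars false
set_option linter.unusedVariables false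
set_option linter.style.longLine false

namespace Fermat.Agent.S59.LowK

open IsLocalRing Fermat.Agent.ES Fermat.Agent.S30 Fermat.Agent.W1 Fermat.Agent.TW
open Fermat.Agent.RT Fermat.Agent.RT.Prod Fermat.Agent.S59.LowQ ExtCitation
open WeierstrassCurve WeierstrassCurve.Affine WeierstrassCurve.Affine.Point

/-- **Unipotency on the module side**: the inertia groups at the NON-RIGID primes `q ≠ p` of
`Smin` (those with `p ∣ q ^ 2 - 1`) act unipotently on the `p`-power torsion of `J`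
(`(s − 1)² = 0`).  At the rigid primes (`¬ p ∣ q ^ 2 - 1`) nothing is asked: K7-U2. -/
def HkUnipJ (p : ℕ) (Smin : Finset ℕ) (J : Type) [AddCommGroup J] [DistribMulAction GQ J] :
    Prop :=
  ∀ q ∈ Smin, q.Prime → q ≠ p → p ∣ q ^ 2 - 1 →
    ∀ P : ValuationSubring (AlgebraicClosure ℚ), P.LiesOverPrime q →
      ∀ s ∈ P.inertiaSubgroupIn ℚ, ∀ (k : ℕ) (x : J), p ^ k • x = 0 →
        s • s • x + x = s • x + s • x

/-- **HK-ABS-L for a general `Smin`**: the module side at level `n`, with unipotent inertia at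
the non-rigid primes of `Smin`, gives the Galois side at level `n`.  [The proof of
`stmtHkAbsL_of`; at a prime `q` with `p ∣ q ^ 2 - 1`, `stmtK7U2` is replaced by: `2` is an exact
representative of every `s ∈ I_q`, so `tr ρ(s) = 2`, and `det ρ(s) = 1`.] -/
def StmtHkAbsLW : Prop :=
  Cheb.WeakChebotarev →
  ∀ (p : ℕ) [Fact p.Prime], p ≠ 2 →
  ∀ (O : Type) [CommRing O] [IsDomain O] [IsDiscreteValuationRing O]
    [IsAdicComplete (maximalIdeal O) O] [Finite (ResidueField O)]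
    (lam half : O), maximalIdeal O = Ideal.span {lam} → (p : O) ∈ maximalIdeal O →
    2 * half = 1 →
  ∀ (ρbar : ResidualGaloisRep (ResidueField O)), ρbar.IsAbsolutelyIrreducible →
    (GaloisRepAdic.ofResidualGaloisRep ρbar).DetIsCyclotomic p →
  ∀ (Smin QT : Finset ℕ),
    (∀ q ∈ Smin, q.Prime → q ≠ p →
      ∀ P : ValuationSubring (AlgebraicClosure ℚ), P.LiesOverPrime q →
        ∀ s ∈ P.inertiaSubgroupIn ℚ,
          LinearMap.charpoly (ρbar.ρ s) = (Polynomial.X - 1) ^ 2) →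
  ∀ (ι : Type) [Fintype ι] (σ φ : ι → GQ) (tχ : ι → O) (m h d n : ℕ), 0 < d → 0 < n →
  ∀ (σ₀ τ₀ : GQ),
    rtk7Xi (fun g => LinearMap.trace (ResidueField O) ρbar.V (ρbar.ρ g)) complexConjugation
      (residue O half) σ₀ τ₀ ≠ 0 →
  ∀ (T0 : Type) [CommRing T0] [IsLocalRing T0] [Algebra O T0] [Module.Finite O T0]
    (j0 : T0 →ₐ[O] Matrix (Fin d) (Fin d) O) (ρ0 : GaloisRepAdic T0)
    (b0 : Module.Basis (Fin 2) T0 ρ0.V) (u0 : T0),
    ρ0.DetIsCyclotomic p →
    (∀ g, LinearMap.toMatrix b0 b0 (ρ0.ρ g) =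
      rtk7Mat (fun g => LinearMap.trace T0 ρ0.V (ρ0.ρ g)) complexConjugation
        (algebraMap O T0 half) σ₀ τ₀ u0 g) →
    u0 * rtk7Xi (fun g => LinearMap.trace T0 ρ0.V (ρ0.ρ g)) complexConjugation
        (algebraMap O T0 half) σ₀ τ₀ = 1 →
  ∀ (S' : Finset ℕ) (a0 : ℕ → Matrix (Fin d) (Fin d) O),
    (∀ ℓ : ℕ, ℓ.Prime → ℓ ∉ S' →
      ∀ P : ValuationSubring (AlgebraicClosure ℚ), P.LiesOverPrime ℓ →
        ∀ τ : GQ, P.IsFrobeniusAt τ ℓ → j0 (LinearMap.trace T0 ρ0.V (ρ0.ρ τ)) = a0 ℓ) →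
  ∀ (L : ℕ) (𝕋 : Type) [CommRing 𝕋] (J : Type) [AddCommGroup J] [Module 𝕋 J]
    [DistribMulAction GQ J] (Tr : ℕ → 𝕋)
    (Φ1 Φχ : 𝕋 →+* Matrix (Fin d) (Fin d) (RthkSn O m n)),
    HkLevel p lam ρbar (Smin ∪ QT) σ tχ m h d n a0 L J Tr Φ1 Φχ →
    HkUnipJ p Smin J →
    ∃ (A₀ : Type) (_ : CommRing A₀) (_ : IsLocalRing A₀) (_ : Algebra O A₀)
      (ιA : ResidueField O →+* ResidueField A₀) (ρ : GaloisRepAdic A₀)
      (b : Module.Basis (Fin 2) A₀ ρ.V)
      (φ1 φχ : A₀ →ₐ[O] Matrix (Fin d) (Fin d) (RthkSn O m n)),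
      HkOut p lam ρbar Smin QT σ φ tχ m h d n j0
        (fun i => LinearMap.toMatrix b0 b0 (ρ0.ρ (σ i)))
        (fun i => LinearMap.toMatrix b0 b0 (ρ0.ρ (φ i))) ιA ρ b φ1 φχ

/-- **What the Galois side delivers at the base** over a setup for `W` (the twin of
`RT.HkBaseOut`). -/
structure HkBaseOutW {W : WeierstrassCurve ℤ} {p M : ℕ} [NeZero M] (Y : s59lk_KSetupW W p M)
    (d : ℕ) (σ₀ τ₀ : GQ) (S' : Finset ℕ) (a0 : ℕ → Matrix (Fin d) (Fin d) Y.O) : Type 1 where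
  /-- the base Hecke ring -/
  T0 : Type
  [instCommRingT0 : CommRing T0]
  [instIsLocalRingT0 : IsLocalRing T0]
  [instAlgebraT0 : Algebra Y.O T0]
  [instFiniteT0 : Module.Finite Y.O T0]
  j0 : T0 →ₐ[Y.O] Matrix (Fin d) (Fin d) Y.O
  hj0 : Function.Injective j0
  /-- the base representation -/
  ρ0 : GaloisRepAdic T0
  b0 : Module.Basis (Fin 2) T0 ρ0.V
  hdet0 : ρ0.DetIsCyclotomic p
  ι0 : ResidueField Y.O →+* ResidueField T0
  hres0 : ρ0.residual.IsEquiv (Y.ρbar.baseChangeAlong ι0)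
  habs0 : ρ0.residual.IsAbsolutelyIrreducible
  hpS' : p ∈ S'
  hNS' : ∀ ℓ : ℕ, ℓ.Prime → ℓ ∣ M → ℓ ∈ S'
  a : Nat.Primes → T0
  hocc : ∀ t ∈ MvPolynomial.supported ℤ (Fermat.Agent.S31.outsideVars (↑S' : Set ℕ)),
    CuspForm.heckeEvalForms M 2 t = 0 → MvPolynomial.aeval a t = 0
  hcong : ∀ ℓ : Nat.Primes, (ℓ : ℕ) ∉ S' → W.IsGoodPrimeFor ℓ →
    a ℓ - ((W.apOfModel ℓ : ℤ) : T0) ∈ maximalIdeal T0
  hfrob : ∀ ℓ : Nat.Primes, (ℓ : ℕ) ∉ S' →
    ∀ 𝔄 : ValuationSubring (AlgebraicClosure ℚ), 𝔄.LiesOverPrime ℓ →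
      ∀ τ : RtpaG, 𝔄.IsFrobeniusAt τ ℓ →
        LinearMap.charpoly (ρ0.ρ τ) =
          Polynomial.X ^ 2 - Polynomial.C (a ℓ) * Polynomial.X
            + Polynomial.C (((ℓ : ℕ) : T0))
  /-- the Wiles form -/
  u0 : T0
  hu0 : u0 * rtk7Xi (fun g => LinearMap.trace T0 ρ0.V (ρ0.ρ g)) complexConjugation
    (algebraMap Y.O T0 Y.half) σ₀ τ₀ = 1
  hmat : ∀ g, LinearMap.toMatrix b0 b0 (ρ0.ρ g) =
    rtk7Mat (fun g => LinearMap.trace T0 ρ0.V (ρ0.ρ g)) complexConjugation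
      (algebraMap Y.O T0 Y.half) σ₀ τ₀ u0 g
  /-- the link with the module side -/
  ha0 : ∀ ℓ : Nat.Primes, (ℓ : ℕ) ∉ S' → j0 (a ℓ) = a0 ℓ

attribute [instance] HkBaseOutW.instCommRingT0 HkBaseOutW.instIsLocalRingT0
  HkBaseOutW.instAlgebraT0 HkBaseOutW.instFiniteT0

/-- **HK-ABS-B for `W`** (the twin of `StmtHkAbsB`): the module side of the base gives the
Galois side of the base. -/
def StmtHkAbsBW (p : ℕ) : Prop :=
  Cheb.WeakChebotarev →
  ∀ [Fact p.Prime] (W : WeierstrassCurve ℤ) (M : ℕ) [NeZero M] (Y : s59lk_KSetupW W p M)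
    (d : ℕ), 0 < d →
  ∀ (σ₀ τ₀ : GQ),
    rtk7Xi (fun g => LinearMap.trace (ResidueField Y.O) Y.ρbar.V (Y.ρbar.ρ g))
      complexConjugation (residue Y.O Y.half) σ₀ τ₀ ≠ 0 →
  ∀ (S' : Finset ℕ), p ∈ S' → (∀ ℓ : ℕ, ℓ.Prime → ℓ ∣ M → ℓ ∈ S') →
  ∀ (𝕋 : Type) [CommRing 𝕋] (J : Type) [AddCommGroup J] [Module 𝕋 J]
    [DistribMulAction GQ J] (Tr : ℕ → 𝕋) (Φ0 : 𝕋 →+* Matrix (Fin d) (Fin d) Y.O),
    HkBase p Y.ρbar M S' d J Tr Φ0 →
    Nonempty (HkBaseOutW Y d σ₀ τ₀ S' (fun ℓ => Φ0 (Tr ℓ)))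

/-- **The module side for `W`** (the twin of `StmtHkModSide`; hypotheses in the order of
`StmtHeckeW`): over every setup `Y` and for every `h` the module side delivers a base and, for
every Taylor–Wiles family of level `n`, a level datum at level `n + 1` with the same `d` and the
same base matrices `a0`, on which the inertia groups at the primes of `Smin` are unipotent. -/
def StmtHkModSideW (p : ℕ) : Prop :=
  ∀ [Fact p.Prime] (W : WeierstrassCurve ℤ) (M q : ℕ) [NeZero M], W.Δ ≠ 0 →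
    W.IsSemistableModel → W.ModRepIsIrreducible p → Squarefree M → ¬ p ∣ M → q.Prime →
    q ≠ p → q ∣ M → s59lq_Unram W p q → W.IsResiduallyModularOfLevel p M →
    (∀ r : ℕ, r.Prime → r ≠ p → r ∣ M → s59lq_Unram W p r → s59lq_IsTrivialPrime W p r) →
    ∀ (Y : s59lk_KSetupW W p M) (h : ℕ),
      ∃ (d : ℕ) (_ : 0 < d) (S' : Finset ℕ) (_ : p ∈ S')
        (_ : ∀ ℓ : ℕ, ℓ.Prime → ℓ ∣ M → ℓ ∈ S')
        (𝕋₀ : Type) (_ : CommRing 𝕋₀) (J₀ : Type) (_ : AddCommGroup J₀) (_ : Module 𝕋₀ J₀)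
        (_ : DistribMulAction GQ J₀) (Tr₀ : ℕ → 𝕋₀)
        (Φ0 : 𝕋₀ →+* Matrix (Fin d) (Fin d) Y.O),
        HkBase p Y.ρbar M S' d J₀ Tr₀ Φ0 ∧
        ∀ (n : ℕ) (qv : Fin h → ℕ),
          IsTWFamily p Y.ρbar (Y.Smin ∪ Finset.univ.image Y.r) n h qv →
          ∃ (L : ℕ) (𝕋 : Type) (_ : CommRing 𝕋) (J : Type) (_ : AddCommGroup J)
            (_ : Module 𝕋 J) (_ : DistribMulAction GQ J) (Tr : ℕ → 𝕋)
            (Φ1 Φχ : 𝕋 →+* Matrix (Fin d) (Fin d) (RthkSn Y.O (Y.m h) (n + 1))),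
            HkLevel p Y.lam Y.ρbar
              (Y.Smin ∪ (Finset.univ.image qv ∪ Finset.univ.image Y.r)) Y.σ Y.tχ (Y.m h) h d
              (n + 1) (fun ℓ => Φ0 (Tr₀ ℓ)) L J Tr Φ1 Φχ ∧
            HkUnipJ p Y.Smin J

end Fermat.Agent.S59.LowK
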