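/-
S59 M3/R1, W-twin of the `KSetup` part of `RT/Hecke/AbsB.lean` (helper27; rules of
NOTES/S59-LowK.md): `Y : s59lk_KSetupW W p N`, `P.p ↦ p`, `P.pp ↦ Fact.out`.  The generic lemmas
`rthk_b_trace_bc`, `rthk_b_det_bc`, `rthk_b_irr_bc`, `rthk_b_det_of_cyc`, `rthk_b_det_frob` are
CITED from `RT/Hecke/AbsB.lean`.  No `5 ≤ p` is used.

* `rthk_b_outW` : the abstract form (`T0`, `j0`, `π`, Artin–Rees given);
* `stmtHkAbsBW_of p : StmtBaseRing → StmtHkAbsBW p`, `stmtHkAbsBW p : StmtHkAbsBW p`.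
-/
import Fermat.Agent.RT.Hecke.AbsB
import Fermat.Agent.S59.LowK.PlanW
import Fermat.Agent.S59.LowK.FinalNumW

set_option autoImplicit false
set_option linter.unusedSectionVars false

namespace Fermat.Agent.S59.LowK

open IsLocalRing Fermat.Agent.ES Fermat.Agent.S30 Fermat.Agent.W1 Fermat.Agent.TW
open Fermat.Agent.RT Fermat.Agent.RT.Prod ExtCitation
open WeierstrassCurve WeierstrassCurve.Affine WeierstrassCurve.Affine.Point

section Out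

variable {W : WeierstrassCurve ℤ} {p N : ℕ} [hp : Fact p.Prime] [NeZero N] (Y : s59lk_KSetupW W p N)

/-- **HK-ABS-B for `W`, abstract form**: the base Hecke ring `T0 ⊆ M_d(𝒪)` (commutative, local, finite
over `𝒪`) with `π : 𝕋 → T0`, `j0 ∘ π = Φ0` and the Artin–Rees property for `p` being given. -/
theorem rthk_b_outW (hcheb : Cheb.WeakChebotarev) (d : ℕ) (hd : 0 < d) (σ₀ τ₀ : GQ)
    (hξ : rtk7Xi (fun g => LinearMap.trace (ResidueField Y.O) Y.ρbar.V (Y.ρbar.ρ g))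
      complexConjugation (residue Y.O Y.half) σ₀ τ₀ ≠ 0)
    (S' : Finset ℕ) (hpS' : p ∈ S') (hNS' : ∀ ℓ : ℕ, ℓ.Prime → ℓ ∣ N → ℓ ∈ S')
    (𝕋 : Type) [CommRing 𝕋] (J : Type) [AddCommGroup J] [Module 𝕋 J]
    [DistribMulAction GQ J] (Tr : ℕ → 𝕋) (Φ0 : 𝕋 →+* Matrix (Fin d) (Fin d) Y.O)
    (hB : HkBase p Y.ρbar N S' d J Tr Φ0)
    (T0 : Type) [CommRing T0] [IsLocalRing T0] [Algebra Y.O T0] [Module.Finite Y.O T0]
    (j0 : T0 →ₐ[Y.O] Matrix (Fin d) (Fin d) Y.O) (hj0 : Function.Injective j0)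
    (π : 𝕋 →+* T0) (hπ : ∀ x, j0 (π x) = Φ0 x)
    (hAR : ∀ k : ℕ, ∃ n : ℕ, ∀ x : T0,
      (∀ i j, j0 x i j ∈ Ideal.span {(p : Y.O) ^ n}) → x ∈ Ideal.span {(p : T0) ^ k}) :
    Nonempty (HkBaseOutW Y d σ₀ τ₀ S' (fun ℓ => Φ0 (Tr ℓ))) := by
  classical
  have hpp : p.Prime := hp.out
  -- the ring theory of `T0`
  haveI hloc : IsLocalHom (algebraMap Y.O T0) := rthk_b_isLocalHom j0 hd
  haveI hnoeth : IsNoetherianRing T0 := rthk_b_isNoetherianRing (O := Y.O)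
  haveI hcomp : IsAdicComplete (maximalIdeal T0) T0 := rthk_b_isAdicComplete j0 hj0 hd
  haveI hfinres : Finite (ResidueField T0) := rthk_b_finite_residueField (O := Y.O)
  have hpT : (p : T0) ∈ maximalIdeal T0 := rthk_b_natCast_mem j0 hd Y.hyp.hp𝒪
  -- the residue field
  let ι0 : ResidueField Y.O →+* ResidueField T0 := ResidueField.map (algebraMap Y.O T0)
  have hι0 : ∀ x : Y.O, ι0 (residue Y.O x) = residue T0 (algebraMap Y.O T0 x) := fun x => rfl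
  -- `1/2`
  have hi2 : 2 * algebraMap Y.O T0 Y.half = 1 := by
    have h := congrArg (algebraMap Y.O T0) Y.two_mul_half
    rw [map_mul, map_ofNat, map_one] at h
    exact h
  -- faithfulness
  have hfaith : ∀ k : ℕ, ∃ n : ℕ, k ≤ n ∧ Rtk7bGood p J (⊤ : Subring 𝕋) π k n := by
    intro k
    obtain ⟨n₁, hn₁⟩ := hAR k
    obtain ⟨n₀, hn₀⟩ := hB.faith n₁
    refine ⟨max k n₀, le_max_left _ _, fun h _ hkill => hn₁ (π h) fun i j => ?_⟩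
    rw [hπ]
    exact hn₀ h (fun y hy => hkill y (rtk7b_tors_le (le_max_right k n₀) hy)) i j
  -- the residual representation over the residue field of `T0`
  have hirr : (Y.ρbar.baseChangeAlong ι0).IsIrreducible := rthk_b_irr_bc ι0 Y.ρbar Y.hyp.habs
  have hdetbar : ∀ (σ : GQ) (a : ℕ), (∀ μ : AlgebraicClosure ℚ, μ ^ p = 1 → σ μ = μ ^ a) →
      LinearMap.det ((Y.ρbar.baseChangeAlong ι0).ρ σ) = (a : ResidueField T0) := by
    intro σ a h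
    rw [rthk_b_det_bc, rthk_b_det_of_cyc Y.ρbar p Y.hyp.hdet σ a h, map_natCast]
  have hfrobbar : ∀ ℓ : ℕ, ℓ.Prime → ℓ ∉ S' →
      ∀ 𝔄 : ValuationSubring (AlgebraicClosure ℚ), 𝔄.LiesOverPrime ℓ →
        ∀ τ : GQ, 𝔄.IsFrobeniusAt τ ℓ →
          residue T0 (π (Tr ℓ)) = LinearMap.trace (ResidueField T0)
            (Y.ρbar.baseChangeAlong ι0).V ((Y.ρbar.baseChangeAlong ι0).ρ τ) := by
    intro ℓ hℓ hℓS 𝔄 h𝔄 τ hτ
    obtain ⟨c, e, hc, hce⟩ := hB.resid ℓ hℓ hℓS 𝔄 h𝔄 τ hτ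
    have h1 : π (Tr ℓ) - algebraMap Y.O T0 c ∈ maximalIdeal T0 := by
      refine rthk_b_mem_maximalIdeal j0 hd (e := e) fun i j => ?_
      rw [map_sub, hπ, AlgHom.commutes]
      exact hce i j
    have h2 := (residue_eq_zero_iff _).mpr h1
    rw [map_sub, sub_eq_zero] at h2
    rw [h2, ← hι0, hc, rthk_b_trace_bc]
  have hξ' : rtk7Xi (fun g => LinearMap.trace (ResidueField T0)
      (Y.ρbar.baseChangeAlong ι0).V ((Y.ρbar.baseChangeAlong ι0).ρ g)) complexConjugation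
      (residue T0 (algebraMap Y.O T0 Y.half)) σ₀ τ₀ ≠ 0 := by
    have e1 : (fun g => LinearMap.trace (ResidueField T0)
        (Y.ρbar.baseChangeAlong ι0).V ((Y.ρbar.baseChangeAlong ι0).ρ g))
        = fun g => ι0 (LinearMap.trace (ResidueField Y.O) Y.ρbar.V (Y.ρbar.ρ g)) :=
      funext fun g => rthk_b_trace_bc ι0 Y.ρbar g
    rw [e1, ← hι0, ← rtk7m_map_Xi ι0]
    exact (map_ne_zero ι0).mpr hξ
  -- K7-MAIN
  obtain ⟨t, u, ρ, b, hu, hmat, htr, htfrob, -, httr, hdetcyc, -, -, -, hresid⟩ :=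
    stmtK7MainAdic hcheb p N Y.hyp.hp2 𝕋 J Tr hB.pkg S' hB.primes (⊤ : Subring 𝕋)
      (fun _ _ _ => Subring.mem_top _) hB.model T0 hpT (algebraMap Y.O T0 Y.half) hi2 π hfaith
      (Y.ρbar.baseChangeAlong ι0) hirr hdetbar hfrobbar σ₀ τ₀ hξ'
  have htfun : (fun g => LinearMap.trace T0 ρ.V (ρ.ρ g)) = t := funext htr
  refine ⟨{
    T0 := T0
    j0 := j0
    hj0 := hj0
    ρ0 := ρ
    b0 := b
    hdet0 := hdetcyc
    ι0 := ι0
    hres0 := hresid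
    habs0 := rthu_absIrr_of_isEquiv ι0 Y.ρbar ρ.residual hresid Y.hyp.habs
    hpS' := hpS'
    hNS' := hNS'
    a := fun ℓ => π (Tr (ℓ : ℕ))
    hocc := ?_
    hcong := ?_
    hfrob := ?_
    u0 := u
    hu0 := ?_
    hmat := ?_
    ha0 := fun ℓ _ => hπ _ }⟩
  · -- hocc
    intro f hf hf0
    have h1 := hB.occ f hf hf0
    have h2 : MvPolynomial.aeval (fun ℓ : Nat.Primes => π (Tr (ℓ : ℕ))) f
        = π (MvPolynomial.aeval (fun ℓ : Nat.Primes => Tr (ℓ : ℕ)) f) :=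
      (MvPolynomial.comp_aeval_apply (fun ℓ : Nat.Primes => Tr (ℓ : ℕ)) π.toIntAlgHom f).symm
    rw [h2]
    apply hj0
    rw [hπ, h1, _root_.map_zero]
  · -- hcong
    intro ℓ hℓS hgood
    have hℓ : (ℓ : ℕ).Prime := ℓ.2
    have hℓp : (ℓ : ℕ) ≠ p := fun h => hℓS (h ▸ hpS')
    obtain ⟨𝔄, τ, h𝔄, hτ⟩ := Fermat.Agent.Common.exists_isFrobeniusAt (ℓ : ℕ) hℓ
    have h1 := httr τ
    rw [htfrob ℓ hℓ hℓS 𝔄 h𝔄 τ hτ, rthk_b_trace_bc,
      Fermat.Agent.S31.trace_of_charpoly Y.ρbar.finrank_eq (Y.ρbar.ρ τ) _ _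
        (Y.hbar ℓ hℓ hℓp hgood 𝔄 h𝔄 τ hτ), map_intCast] at h1
    rw [← residue_eq_zero_iff, map_sub, h1, map_intCast, sub_self]
  · -- hfrob
    intro ℓ hℓS 𝔄 h𝔄 τ hτ
    have hℓ : (ℓ : ℕ).Prime := ℓ.2
    have hℓp : (ℓ : ℕ) ≠ p := fun h => hℓS (h ▸ hpS')
    rw [Fermat.Agent.S34.charpoly_eq_of_finrank_two ρ.finrank_eq (ρ.ρ τ), htr,
      htfrob ℓ hℓ hℓS 𝔄 h𝔄 τ hτ, rthk_b_det_frob hpp ρ hdetcyc hℓ hℓp 𝔄 h𝔄 τ hτ]
  · -- hu0
    rw [htfun]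
    exact hu
  · -- hmat
    intro g
    rw [htfun]
    exact hmat g

end Out

/-- **HK-ABS-B for `W`** from BASE-AR. -/
theorem stmtHkAbsBW_of (p : ℕ) (hBR : StmtBaseRing) : StmtHkAbsBW p := by
  intro hcheb hp W N _ Y d hd σ₀ τ₀ hξ S' hpS' hNS' 𝕋 _ J _ _ _ Tr Φ0
  intro hB
  have hp0 : (p : Y.O) ≠ 0 := Nat.cast_ne_zero.mpr hp.out.ne_zero
  obtain ⟨T0, i1, i2, i3, i4, j0, π, hj0, hπ, hAR⟩ := hBR Y.O d hd 𝕋 Φ0 hB.nil (p : Y.O) hp0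
  refine rthk_b_outW Y hcheb d hd σ₀ τ₀ hξ S' hpS' hNS' 𝕋 J Tr Φ0 hB T0 j0 hj0 π hπ ?_
  intro k
  obtain ⟨n, hn⟩ := hAR k
  refine ⟨n, fun x hx => ?_⟩
  have := hn x hx
  rwa [map_natCast] at this

/-- **HK-ABS-B for `W`** (unconditional; BASE-AR = helper12's `rthk_ar_baseRing`). -/
theorem stmtHkAbsBW (p : ℕ) : StmtHkAbsBW p := stmtHkAbsBW_of p rthk_ar_baseRing

end Fermat.Agent.S59.LowK
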