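/-
S59, wall R1 (MIN′), leaf **DICT-τ-FEED, `hgen0` (EXPORT)** (helper76): the base Hecke ring `T0`
of the K-machine can be taken GENERATED over `𝒪` by the values `a ℓ`, `ℓ ∉ S'`.

`HkBaseOutW` has no generation field, and `stmtHkAbsBW` builds `T0 = 𝒪[Φ0(𝕋)]` from the WHOLE
abstract Hecke algebra `𝕋`.  Here the module side `HkBase` is first RESTRICTED to the subring
`𝕋' ⊆ 𝕋` generated by the `T_ℓ`, `ℓ ∉ S'` prime (`s59abg_hkBase`; this needs that `S'` contains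
no prime outside `M p`), and then the proof of `rthk_b_outW` is run over `𝕋'` with
`T0 = 𝒪[Φ0(𝕋')]`.

* `s59abgGen B` : `Algebra.adjoin 𝒪 {a ℓ | ℓ ∉ S'} = ⊤` in `B.T0`;
* `s59abg_hkBase` : the restriction of `HkBase` to `𝕋'`;
* `s59abg_outW` : the twin of `rthk_b_outW` with the generation carried along;
* **`s59abg_main p : StmtHkAbsBWGen p`** : the twin of `stmtHkAbsBW p` with `s59abgGen B`.
-/
import Fermat.Agent.S59.LowK.AbsBW

set_option autoImplicit false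
set_option linter.unusedSectionVars false
set_option linter.unusedVariables false
set_option linter.style.longLine false
set_option linter.style.haveILetI false

namespace Fermat.Agent.S59.LowK

open IsLocalRing Fermat.Agent.ES Fermat.Agent.S30 Fermat.Agent.W1 Fermat.Agent.TW
open Fermat.Agent.RT Fermat.Agent.RT.Prod ExtCitation
open WeierstrassCurve WeierstrassCurve.Affine WeierstrassCurve.Affine.Point

/-- **generation of the base Hecke ring** by the values `a ℓ`, `ℓ ∉ S'` -/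
def s59abgGen {W : WeierstrassCurve ℤ} {p M : ℕ} [NeZero M] {Y : s59lk_KSetupW W p M}
    {d : ℕ} {σ₀ τ₀ : GQ} {S' : Finset ℕ} {a0 : ℕ → Matrix (Fin d) (Fin d) Y.O}
    (B : HkBaseOutW Y d σ₀ τ₀ S' a0) : Prop :=
  Algebra.adjoin Y.O {y : B.T0 | ∃ ℓ : Nat.Primes, (ℓ : ℕ) ∉ S' ∧ y = B.a ℓ} = ⊤

section Restrict

variable {𝕋 : Type} [CommRing 𝕋]

/-- the subring generated by the `T_ℓ`, `ℓ ∉ S'` prime -/
def s59abgSub (Tr : ℕ → 𝕋) (S' : Finset ℕ) : Subring 𝕋 :=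
  Subring.closure {x | ∃ ℓ : ℕ, ℓ.Prime ∧ ℓ ∉ S' ∧ x = Tr ℓ}

open Classical in
/-- the restricted Hecke operators -/
noncomputable def s59abgTr (Tr : ℕ → 𝕋) (S' : Finset ℕ) (ℓ : ℕ) : s59abgSub Tr S' :=
  if h : ℓ.Prime ∧ ℓ ∉ S' then ⟨Tr ℓ, Subring.subset_closure ⟨ℓ, h.1, h.2, rfl⟩⟩ else 0

theorem s59abgTr_coe (Tr : ℕ → 𝕋) (S' : Finset ℕ) {ℓ : ℕ} (hℓ : ℓ.Prime) (hS : ℓ ∉ S') :
    ((s59abgTr Tr S' ℓ : s59abgSub Tr S') : 𝕋) = Tr ℓ := by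
  rw [s59abgTr, dif_pos ⟨hℓ, hS⟩]

/-- **the restriction of the module side of the base** to the subring generated by the `T_ℓ`,
`ℓ ∉ S'`. -/
theorem s59abg_hkBase {O : Type} [CommRing O] [IsLocalRing O] {p : ℕ} [Fact p.Prime]
    {ρbar : ResidualGaloisRep (ResidueField O)} {N : ℕ} [NeZero N] {S' : Finset ℕ} {d : ℕ}
    {J : Type} [AddCommGroup J] [Module 𝕋 J] [DistribMulAction GQ J] {Tr : ℕ → 𝕋}
    {Φ0 : 𝕋 →+* Matrix (Fin d) (Fin d) O} (hB : HkBase p ρbar N S' d J Tr Φ0)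
    (hS' : ∀ ℓ : ℕ, ℓ.Prime → ¬ ℓ ∣ N * p → ℓ ∉ S') :
    HkBase p ρbar N S' d J (s59abgTr Tr S') (Φ0.comp (s59abgSub Tr S').subtype) where
  pkg :=
    { smul_comm := fun σ t x => hB.pkg.smul_comm σ (t : 𝕋) x
      finite_level := hB.pkg.finite_level
      frob := fun ℓ hℓ hℓN A hA τ hτ n x hx => by
        have h1 := hB.pkg.frob ℓ hℓ hℓN A hA τ hτ n x hx
        rw [Subring.smul_def, s59abgTr_coe Tr S' hℓ (hS' ℓ hℓ hℓN)]
        exact h1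
      unram := hB.pkg.unram }
  primes := hB.primes
  model := hB.model
  faith := fun k => by
    obtain ⟨n₀, hn₀⟩ := hB.faith k
    exact ⟨n₀, fun x hx => hn₀ (x : 𝕋) hx⟩
  nil := fun x => hB.nil (x : 𝕋)
  resid := fun ℓ hℓ hℓS P hP τ hτ => by
    obtain ⟨c, e, hc, hce⟩ := hB.resid ℓ hℓ hℓS P hP τ hτ
    refine ⟨c, e, hc, ?_⟩
    rw [RingHom.comp_apply, Subring.coe_subtype, s59abgTr_coe Tr S' hℓ hℓS]
    exact hce
  occ := fun t ht ht0 => by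
    have h1 := hB.occ t ht ht0
    have h2 : (s59abgSub Tr S').subtype
        (MvPolynomial.aeval (fun ℓ : Nat.Primes => s59abgTr Tr S' (ℓ : ℕ)) t)
        = MvPolynomial.aeval
          (fun ℓ : Nat.Primes => ((s59abgTr Tr S' (ℓ : ℕ) : s59abgSub Tr S') : 𝕋)) t :=
      MvPolynomial.comp_aeval_apply (fun ℓ : Nat.Primes => s59abgTr Tr S' (ℓ : ℕ))
        (s59abgSub Tr S').subtype.toIntAlgHom t
    have h3 : MvPolynomial.aeval
          (fun ℓ : Nat.Primes => ((s59abgTr Tr S' (ℓ : ℕ) : s59abgSub Tr S') : 𝕋)) t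
        = MvPolynomial.aeval (fun ℓ : Nat.Primes => Tr (ℓ : ℕ)) t := by
      show MvPolynomial.eval₂Hom _ _ t = MvPolynomial.eval₂Hom _ _ t
      refine MvPolynomial.eval₂Hom_congr' rfl (fun ℓ hℓ _ => ?_) rfl
      have hℓS : ℓ ∈ Fermat.Agent.S31.outsideVars (↑S' : Set ℕ) :=
        MvPolynomial.mem_supported.mp ht (Finset.mem_coe.mpr hℓ)
      exact s59abgTr_coe Tr S' ℓ.2 (fun h => hℓS (Finset.mem_coe.mpr h))
    rw [RingHom.comp_apply, h2, h3]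
    exact h1

end Restrict

section Out

variable {W : WeierstrassCurve ℤ} {p N : ℕ} [hp : Fact p.Prime] [NeZero N] (Y : s59lk_KSetupW W p N)

/-- **HK-ABS-B for `W`, abstract form, with generation** (the proof of `rthk_b_outW`, helper27,
with the hypothesis `hgen` carried to the output). -/
theorem s59abg_outW (hcheb : Cheb.WeakChebotarev) (d : ℕ) (hd : 0 < d) (σ₀ τ₀ : GQ)
    (hξ : rtk7Xi (fun g => LinearMap.trace (ResidueField Y.O) Y.ρbar.V (Y.ρbar.ρ g))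
      complexConjugation (residue Y.O Y.half) σ₀ τ₀ ≠ 0)
    (S' : Finset ℕ) (hpS' : p ∈ S') (hNS' : ∀ ℓ : ℕ, ℓ.Prime → ℓ ∣ N → ℓ ∈ S')
    (𝕋 : Type) [CommRing 𝕋] (J : Type) [AddCommGroup J] [Module 𝕋 J]
    [DistribMulAction GQ J] (Tr : ℕ → 𝕋) (Φ0 : 𝕋 →+* Matrix (Fin d) (Fin d) Y.O)
    (hB : HkBase p Y.ρbar N S' d J Tr Φ0)
    (T0 : Type) [CommRing T0] [IsLocalRing T0] [Algebra Y.O T0] [Module.Finite Y.O T0]
    (j0 : T0 →ₐ[Y.O] Matrix (Fin d) (Fin d) Y.O) (hj0 : Function.Injective j0)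
    (π : 𝕋 →+* T0) (hπ : ∀ x, j0 (π x) = Φ0 x)
    (hAR : ∀ k : ℕ, ∃ n : ℕ, ∀ x : T0,
      (∀ i j, j0 x i j ∈ Ideal.span {(p : Y.O) ^ n}) → x ∈ Ideal.span {(p : T0) ^ k})
    (hgen : Algebra.adjoin Y.O
      {y : T0 | ∃ ℓ : Nat.Primes, (ℓ : ℕ) ∉ S' ∧ y = π (Tr (ℓ : ℕ))} = ⊤) :
    ∃ B : HkBaseOutW Y d σ₀ τ₀ S' (fun ℓ => Φ0 (Tr ℓ)), s59abgGen B := by
  classical
  have hpp : p.Prime := hp.out
  -- the ring theory of `T0`
  haveI hloc : IsLocalHom (algebraMap Y.O T0) := rthk_b_isLocalHom j0 hd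
  haveI hnoeth : IsNoetherianRing T0 := rthk_b_isNoetherianRing (O := Y.O)
  haveI hcomp : IsAdicComplete (maximalIdeal T0) T0 := rthk_b_isAdicComplete j0 hj0 hd
  haveI hfinres : Finite (ResidueField T0) := rthk_b_finite_residueField (O := Y.O)
  have hpT : (p : T0) ∈ maximalIdeal T0 := rthk_b_natCast_mem j0 hd Y.hyp.hp𝒪
  -- the residue field
  let ι0 : ResidueField Y.O →+* ResidueField T0 := ResidueField.map (algebraMap Y.O T0)
  have hι0 : ∀ x : Y.O, ι0 (residue Y.O x) = residue T0 (algebraMap Y.O T0 x) := fun x => rfl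
  -- `1/2`
  have hi2 : 2 * algebraMap Y.O T0 Y.half = 1 := by
    have h := congrArg (algebraMap Y.O T0) Y.two_mul_half
    rw [map_mul, map_ofNat, map_one] at h
    exact h
  -- faithfulness
  have hfaith : ∀ k : ℕ, ∃ n : ℕ, k ≤ n ∧ Rtk7bGood p J (⊤ : Subring 𝕋) π k n := by
    intro k
    obtain ⟨n₁, hn₁⟩ := hAR k
    obtain ⟨n₀, hn₀⟩ := hB.faith n₁
    refine ⟨max k n₀, le_max_left _ _, fun h _ hkill => hn₁ (π h) fun i j => ?_⟩
    rw [hπ]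
    exact hn₀ h (fun y hy => hkill y (rtk7b_tors_le (le_max_right k n₀) hy)) i j
  -- the residual representation over the residue field of `T0`
  have hirr : (Y.ρbar.baseChangeAlong ι0).IsIrreducible := rthk_b_irr_bc ι0 Y.ρbar Y.hyp.habs
  have hdetbar : ∀ (σ : GQ) (a : ℕ), (∀ μ : AlgebraicClosure ℚ, μ ^ p = 1 → σ μ = μ ^ a) →
      LinearMap.det ((Y.ρbar.baseChangeAlong ι0).ρ σ) = (a : ResidueField T0) := by
    intro σ a h
    rw [rthk_b_det_bc, rthk_b_det_of_cyc Y.ρbar p Y.hyp.hdet σ a h, map_natCast]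
  have hfrobbar : ∀ ℓ : ℕ, ℓ.Prime → ℓ ∉ S' →
      ∀ 𝔄 : ValuationSubring (AlgebraicClosure ℚ), 𝔄.LiesOverPrime ℓ →
        ∀ τ : GQ, 𝔄.IsFrobeniusAt τ ℓ →
          residue T0 (π (Tr ℓ)) = LinearMap.trace (ResidueField T0)
            (Y.ρbar.baseChangeAlong ι0).V ((Y.ρbar.baseChangeAlong ι0).ρ τ) := by
    intro ℓ hℓ hℓS 𝔄 h𝔄 τ hτ
    obtain ⟨c, e, hc, hce⟩ := hB.resid ℓ hℓ hℓS 𝔄 h𝔄 τ hτ
    have h1 : π (Tr ℓ) - algebraMap Y.O T0 c ∈ maximalIdeal T0 := by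
      refine rthk_b_mem_maximalIdeal j0 hd (e := e) fun i j => ?_
      rw [map_sub, hπ, AlgHom.commutes]
      exact hce i j
    have h2 := (residue_eq_zero_iff _).mpr h1
    rw [map_sub, sub_eq_zero] at h2
    rw [h2, ← hι0, hc, rthk_b_trace_bc]
  have hξ' : rtk7Xi (fun g => LinearMap.trace (ResidueField T0)
      (Y.ρbar.baseChangeAlong ι0).V ((Y.ρbar.baseChangeAlong ι0).ρ g)) complexConjugation
      (residue T0 (algebraMap Y.O T0 Y.half)) σ₀ τ₀ ≠ 0 := by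
    have e1 : (fun g => LinearMap.trace (ResidueField T0)
        (Y.ρbar.baseChangeAlong ι0).V ((Y.ρbar.baseChangeAlong ι0).ρ g))
        = fun g => ι0 (LinearMap.trace (ResidueField Y.O) Y.ρbar.V (Y.ρbar.ρ g)) :=
      funext fun g => rthk_b_trace_bc ι0 Y.ρbar g
    rw [e1, ← hι0, ← rtk7m_map_Xi ι0]
    exact (map_ne_zero ι0).mpr hξ
  -- K7-MAIN
  obtain ⟨t, u, ρ, b, hu, hmat, htr, htfrob, -, httr, hdetcyc, -, -, -, hresid⟩ :=
    stmtK7MainAdic hcheb p N Y.hyp.hp2 𝕋 J Tr hB.pkg S' hB.primes (⊤ : Subring 𝕋)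
      (fun _ _ _ => Subring.mem_top _) hB.model T0 hpT (algebraMap Y.O T0 Y.half) hi2 π hfaith
      (Y.ρbar.baseChangeAlong ι0) hirr hdetbar hfrobbar σ₀ τ₀ hξ'
  have htfun : (fun g => LinearMap.trace T0 ρ.V (ρ.ρ g)) = t := funext htr
  refine ⟨{
    T0 := T0
    j0 := j0
    hj0 := hj0
    ρ0 := ρ
    b0 := b
    hdet0 := hdetcyc
    ι0 := ι0
    hres0 := hresid
    habs0 := rthu_absIrr_of_isEquiv ι0 Y.ρbar ρ.residual hresid Y.hyp.habs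
    hpS' := hpS'
    hNS' := hNS'
    a := fun ℓ => π (Tr (ℓ : ℕ))
    hocc := ?_
    hcong := ?_
    hfrob := ?_
    u0 := u
    hu0 := ?_
    hmat := ?_
    ha0 := fun ℓ _ => hπ _ }, hgen⟩
  · -- hocc
    intro f hf hf0
    have h1 := hB.occ f hf hf0
    have h2 : MvPolynomial.aeval (fun ℓ : Nat.Primes => π (Tr (ℓ : ℕ))) f
        = π (MvPolynomial.aeval (fun ℓ : Nat.Primes => Tr (ℓ : ℕ)) f) :=
      (MvPolynomial.comp_aeval_apply (fun ℓ : Nat.Primes => Tr (ℓ : ℕ)) π.toIntAlgHom f).symm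
    rw [h2]
    apply hj0
    rw [hπ, h1, _root_.map_zero]
  · -- hcong
    intro ℓ hℓS hgood
    have hℓ : (ℓ : ℕ).Prime := ℓ.2
    have hℓp : (ℓ : ℕ) ≠ p := fun h => hℓS (h ▸ hpS')
    obtain ⟨𝔄, τ, h𝔄, hτ⟩ := Fermat.Agent.Common.exists_isFrobeniusAt (ℓ : ℕ) hℓ
    have h1 := httr τ
    rw [htfrob ℓ hℓ hℓS 𝔄 h𝔄 τ hτ, rthk_b_trace_bc,
      Fermat.Agent.S31.trace_of_charpoly Y.ρbar.finrank_eq (Y.ρbar.ρ τ) _ _
        (Y.hbar ℓ hℓ hℓp hgood 𝔄 h𝔄 τ hτ), map_intCast] at h1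
    rw [← residue_eq_zero_iff, map_sub, h1, map_intCast, sub_self]
  · -- hfrob
    intro ℓ hℓS 𝔄 h𝔄 τ hτ
    have hℓ : (ℓ : ℕ).Prime := ℓ.2
    have hℓp : (ℓ : ℕ) ≠ p := fun h => hℓS (h ▸ hpS')
    rw [Fermat.Agent.S34.charpoly_eq_of_finrank_two ρ.finrank_eq (ρ.ρ τ), htr,
      htfrob ℓ hℓ hℓS 𝔄 h𝔄 τ hτ, rthk_b_det_frob hpp ρ hdetcyc hℓ hℓp 𝔄 h𝔄 τ hτ]
  · -- hu0
    rw [htfun]
    exact hu
  · -- hmat
    intro g
    rw [htfun]
    exact hmat g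

end Out

/-- **HK-ABS-B for `W` with generation**: `StmtHkAbsBW` for sets `S'` without primes outside
`M p`, with the base Hecke ring generated over `𝒪` by the `a ℓ`, `ℓ ∉ S'`. -/
def StmtHkAbsBWGen (p : ℕ) : Prop :=
  Cheb.WeakChebotarev →
  ∀ [Fact p.Prime] (W : WeierstrassCurve ℤ) (M : ℕ) [NeZero M] (Y : s59lk_KSetupW W p M)
    (d : ℕ), 0 < d →
  ∀ (σ₀ τ₀ : GQ),
    rtk7Xi (fun g => LinearMap.trace (ResidueField Y.O) Y.ρbar.V (Y.ρbar.ρ g))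
      complexConjugation (residue Y.O Y.half) σ₀ τ₀ ≠ 0 →
  ∀ (S' : Finset ℕ), p ∈ S' → (∀ ℓ : ℕ, ℓ.Prime → ℓ ∣ M → ℓ ∈ S') →
  ∀ (𝕋 : Type) [CommRing 𝕋] (J : Type) [AddCommGroup J] [Module 𝕋 J]
    [DistribMulAction GQ J] (Tr : ℕ → 𝕋) (Φ0 : 𝕋 →+* Matrix (Fin d) (Fin d) Y.O),
    HkBase p Y.ρbar M S' d J Tr Φ0 →
    (∀ ℓ : ℕ, ℓ.Prime → ¬ ℓ ∣ M * p → ℓ ∉ S') →
    ∃ B : HkBaseOutW Y d σ₀ τ₀ S' (fun ℓ => Φ0 (Tr ℓ)), s59abgGen B

/-- **HK-ABS-B for `W` with generation** (unconditional). -/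
theorem s59abg_main (p : ℕ) : StmtHkAbsBWGen p := by
  intro hcheb hp W N _ Y d hd σ₀ τ₀ hξ S' hpS' hNS' 𝕋 _ J _ _ _ Tr Φ0 hB hS'
  classical
  have hB' := s59abg_hkBase hB hS'
  letI : CommRing (rthkArAdj (Φ0.comp (s59abgSub Tr S').subtype)) :=
    rthkArAdjCommRing (Φ0.comp (s59abgSub Tr S').subtype)
  haveI : IsLocalRing (rthkArAdj (Φ0.comp (s59abgSub Tr S').subtype)) :=
    rthk_ar_adjoin_isLocalRing (Φ0.comp (s59abgSub Tr S').subtype) hd hB'.nil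
  haveI : Module.Finite Y.O (rthkArAdj (Φ0.comp (s59abgSub Tr S').subtype)) :=
    rthk_ar_adjoin_finite (Φ0.comp (s59abgSub Tr S').subtype)
  have hAR : ∀ k : ℕ, ∃ n : ℕ, ∀ x : rthkArAdj (Φ0.comp (s59abgSub Tr S').subtype),
      (∀ i j, (rthkArAdj (Φ0.comp (s59abgSub Tr S').subtype)).val x i j
        ∈ Ideal.span {(p : Y.O) ^ n}) →
      x ∈ Ideal.span {(p : rthkArAdj (Φ0.comp (s59abgSub Tr S').subtype)) ^ k} := by
    intro k
    obtain ⟨n, hn⟩ := rthk_ar_span (rthkArAdj (Φ0.comp (s59abgSub Tr S').subtype)).val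
      Subtype.val_injective (p : Y.O) k
    refine ⟨n, fun x hx => ?_⟩
    have := hn x hx
    rwa [map_natCast] at this
  have hmem : ∀ (y : 𝕋) (hy : y ∈ s59abgSub Tr S'),
      rthkArAdjHom (Φ0.comp (s59abgSub Tr S').subtype) ⟨y, hy⟩ ∈ Algebra.adjoin Y.O
        {y : rthkArAdj (Φ0.comp (s59abgSub Tr S').subtype) | ∃ ℓ : Nat.Primes, (ℓ : ℕ) ∉ S' ∧
          y = rthkArAdjHom (Φ0.comp (s59abgSub Tr S').subtype) (s59abgTr Tr S' (ℓ : ℕ))} := by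
    intro y hy
    refine Subring.closure_induction
      (p := fun y hy => rthkArAdjHom (Φ0.comp (s59abgSub Tr S').subtype) ⟨y, hy⟩ ∈
        Algebra.adjoin Y.O
        {y : rthkArAdj (Φ0.comp (s59abgSub Tr S').subtype) | ∃ ℓ : Nat.Primes, (ℓ : ℕ) ∉ S' ∧
          y = rthkArAdjHom (Φ0.comp (s59abgSub Tr S').subtype) (s59abgTr Tr S' (ℓ : ℕ))})
      ?_ ?_ ?_ ?_ ?_ ?_ hy
    · rintro x ⟨ℓ, hℓ, hℓS, rfl⟩
      refine Algebra.subset_adjoin ⟨⟨ℓ, hℓ⟩, hℓS, congrArg _ (Subtype.ext ?_)⟩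
      exact (s59abgTr_coe Tr S' hℓ hℓS).symm
    · exact (map_zero (rthkArAdjHom (Φ0.comp (s59abgSub Tr S').subtype))).symm ▸ zero_mem _
    · exact (map_one (rthkArAdjHom (Φ0.comp (s59abgSub Tr S').subtype))).symm ▸ one_mem _
    · intro x y hx hy h1 h2
      have e := map_add (rthkArAdjHom (Φ0.comp (s59abgSub Tr S').subtype)) ⟨x, hx⟩ ⟨y, hy⟩
      exact e.symm ▸ add_mem h1 h2
    · intro x hx h1
      have e := map_neg (rthkArAdjHom (Φ0.comp (s59abgSub Tr S').subtype)) ⟨x, hx⟩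
      exact e.symm ▸ neg_mem h1
    · intro x y hx hy h1 h2
      have e := map_mul (rthkArAdjHom (Φ0.comp (s59abgSub Tr S').subtype)) ⟨x, hx⟩ ⟨y, hy⟩
      exact e.symm ▸ mul_mem h1 h2
  have hgen : Algebra.adjoin Y.O
      {y : rthkArAdj (Φ0.comp (s59abgSub Tr S').subtype) | ∃ ℓ : Nat.Primes, (ℓ : ℕ) ∉ S' ∧
        y = rthkArAdjHom (Φ0.comp (s59abgSub Tr S').subtype) (s59abgTr Tr S' (ℓ : ℕ))} = ⊤ := by
    refine top_unique ?_
    rw [← rthk_ar_adjoin_range_hom (Φ0.comp (s59abgSub Tr S').subtype)]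
    refine Algebra.adjoin_le ?_
    rintro _ ⟨x, rfl⟩
    exact hmem x.1 x.2
  obtain ⟨B', hB'gen⟩ := s59abg_outW Y hcheb d hd σ₀ τ₀ hξ S' hpS' hNS' (s59abgSub Tr S') J
    (s59abgTr Tr S') (Φ0.comp (s59abgSub Tr S').subtype) hB'
    (rthkArAdj (Φ0.comp (s59abgSub Tr S').subtype))
    (rthkArAdj (Φ0.comp (s59abgSub Tr S').subtype)).val Subtype.val_injective
    (rthkArAdjHom (Φ0.comp (s59abgSub Tr S').subtype)) (fun x => rfl) hAR hgen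
  refine ⟨{ B' with ha0 := fun ℓ hℓ => ?_ }, hB'gen⟩
  rw [B'.ha0 ℓ hℓ, RingHom.comp_apply, Subring.coe_subtype, s59abgTr_coe Tr S' ℓ.2 hℓ]

end Fermat.Agent.S59.LowK
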