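/-
S59, walls M3 / R1, PORT LEDGER (NOTES/S59-LowK.md), piece `RT/Hecke/CharsInst` ↦ `CharsInstW`
(helper27): the `KSetup` forms of CHARS-INST for the `W`-twin `s59lk_KSetupW W p M` of the setup.

Only the section "The `KSetup` forms" of `RT/Hecke/CharsInst.lean` mentions `KSetup`; the
abstract lemmas `rthkci_*` (local ring `O`, `2 ∈ Oˣ`, `p ∈ 𝔪_O`, `ζ ^ p = 1`) are used unchanged.
Names = old name + suffix `W`, in `namespace Fermat.Agent.S59.LowK`.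
-/
import Fermat.Agent.RT.Hecke.CharsInst
import Fermat.Agent.S59.LowK.SetupW

set_option autoImplicit false
set_option linter.unusedSectionVars false
set_option linter.unusedVariables false
set_option linter.style.longLine false

noncomputable section

namespace Fermat.Agent.S59.LowK

open IsLocalRing Fermat.Agent.TW Fermat.Agent.RT Fermat.Agent.RT.Prod

section Setup

variable {W : WeierstrassCurve ℤ} {p M : ℕ} (Y : s59lk_KSetupW W p M) (h ν : ℕ)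

/-- `2 * (1/2) = 1` in the coefficient ring of the setup (local twin of `KSetup.two_mul_half`) -/
theorem rthkci_two_mul_halfW : 2 * Y.half = 1 := by
  have h := Y.h2.unit.mul_inv
  rw [IsUnit.unit_spec] at h
  exact h

/-- `ζ - 1 ∈ 𝔪_O` (local twin of `KSetup.zeta_sub_one_mem`) -/
theorem rthkci_zeta_sub_one_memW [hp : Fact p.Prime] : Y.ζ - 1 ∈ maximalIdeal Y.O :=
  rtpf_zeta_sub_one_mem hp.out Y.hyp.hp𝒪 Y.hζ.pow_eq_one

theorem rthkci_Y_leW : h ≤ Y.m h := Nat.le_add_right _ _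

/-- the diamond group `Δ'` of the setup: `∏_{j < h} ℤ/p^ν × ∏_{i} ℤ/p` -/
abbrev RthkciGrpYW : Type := RthkchGrp p (rthkciExp h Y.ι ν)

/-- **`ψ1`** over a setup -/
def rthkciPsi1YW [Fact p.Prime] : RthkciGrpYW Y h ν →* RthkSn Y.O (Y.m h) ν :=
  rthkciPsi1 Y.h2 p Y.hyp.hp𝒪 (rthkci_Y_leW Y h) Y.ι ν

/-- **`ψχ`** over a setup -/
def rthkciPsiχYW [Fact p.Prime] : RthkciGrpYW Y h ν →* RthkSn Y.O (Y.m h) ν :=
  rthkciPsiχ Y.h2 p Y.hyp.hp𝒪 (rthkci_Y_leW Y h) Y.ι ν Y.ζ Y.hζ.pow_eq_one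

variable [Fact p.Prime]

/-- **`cong`** (verbatim the field of `HkConc`, on `Δ'`) -/
theorem rthkci_Y_congW (δ : RthkciGrpYW Y h ν) :
    Ideal.Quotient.factor (le_sup_right : maximalIdeal (RttwS Y.O (Y.m h)) ^ ν ≤
        rttwLam (Y.m h) Y.lam ⊔ maximalIdeal (RttwS Y.O (Y.m h)) ^ ν) (rthkciPsi1YW Y h ν δ) =
      Ideal.Quotient.factor (le_sup_right : maximalIdeal (RttwS Y.O (Y.m h)) ^ ν ≤
        rttwLam (Y.m h) Y.lam ⊔ maximalIdeal (RttwS Y.O (Y.m h)) ^ ν)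
        (rthkciPsiχYW Y h ν δ) :=
  rthkci_cong Y.h2 p Y.hyp.hp𝒪 (rthkci_Y_leW Y h) Y.ι ν Y.ζ Y.hζ.pow_eq_one Y.hlam
    (rthkci_zeta_sub_one_memW Y) δ

/-- **`aug`** (verbatim the field of `HkConc`, on `Δ'`) -/
theorem rthkci_Y_augW (δ : RthkciGrpYW Y h ν) :
    Ideal.Quotient.factor (le_sup_right : maximalIdeal (RttwS Y.O (Y.m h)) ^ ν ≤
        rttwAug Y.O (Y.m h) ⊔ maximalIdeal (RttwS Y.O (Y.m h)) ^ ν)
      (rthkciPsi1YW Y h ν δ) = 1 :=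
  rthkci_aug Y.h2 p Y.hyp.hp𝒪 (rthkci_Y_leW Y h) Y.ι ν δ

theorem rthkci_Y_two_tχW (i : Y.ι) : 2 * Y.tχ i = Y.ζ + Y.ζ ^ (p - 1) := by
  show 2 * (Y.half * (Y.ζ + Y.ζ ^ (p - 1))) = _
  rw [← mul_assoc, rthkci_two_mul_halfW Y, one_mul]

variable [DecidableEq (Fin h ⊕ Y.ι)]

/-- **`valT`** : the values of `ψ1`, `ψχ` at the generator `e_{inr i}` -/
theorem rthkci_Y_valTW (i : Y.ι) :
    rthkciPsi1YW Y h ν (rthkciGen p h Y.ι ν (Sum.inr i)) = 1 ∧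
      rthkciPsiχYW Y h ν (rthkciGen p h Y.ι ν (Sum.inr i))
          + rthkciPsiχYW Y h ν (rthkciGen p h Y.ι ν (Sum.inr i))⁻¹
        = algebraMap Y.O (RthkSn Y.O (Y.m h) ν) (2 * Y.tχ i) :=
  rthkci_valT Y.h2 p Y.hyp.hp𝒪 (rthkci_Y_leW Y h) Y.ι ν Y.ζ Y.hζ.pow_eq_one (Y.tχ i)
    (rthkci_Y_two_tχW Y i) i

/-- **`valQ`** : the values of `ψ1`, `ψχ` at the generator `e_{inl j}` -/
theorem rthkci_Y_valQW (j : Fin (Y.m h)) (hj : (j : ℕ) < h) :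
    rthkciPsi1YW Y h ν (rthkciGen p h Y.ι ν (Sum.inl ⟨j, hj⟩))
          - rthkciPsi1YW Y h ν (rthkciGen p h Y.ι ν (Sum.inl ⟨j, hj⟩))⁻¹
        = Ideal.Quotient.mk (maximalIdeal (RttwS Y.O (Y.m h)) ^ ν) (MvPowerSeries.X j) ∧
      rthkciPsiχYW Y h ν (rthkciGen p h Y.ι ν (Sum.inl ⟨j, hj⟩))
          - rthkciPsiχYW Y h ν (rthkciGen p h Y.ι ν (Sum.inl ⟨j, hj⟩))⁻¹
        = Ideal.Quotient.mk (maximalIdeal (RttwS Y.O (Y.m h)) ^ ν) (MvPowerSeries.X j) :=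
  ⟨rthkci_valQ1 Y.h2 p Y.hyp.hp𝒪 (rthkci_Y_leW Y h) Y.ι ν j hj,
    rthkci_valQχ Y.h2 p Y.hyp.hp𝒪 (rthkci_Y_leW Y h) Y.ι ν Y.ζ Y.hζ.pow_eq_one j hj⟩

/-- **CHARS-INST, packaged for HK-CONC** (the `W`-twin of `rthkci_Y_main`): for every
`κ : Δ →* Δ'` (HK-GRP), the characters `ψ1 := ψ1' ∘ κ`, `ψχ := ψχ' ∘ κ` satisfy `cong`, `aug` and
have the values required in `trT`, `trQ` at every `δ` over a generator. -/
theorem rthkci_Y_mainW {Δ : Type*} [Group Δ] (κ : Δ →* RthkciGrpYW Y h ν) :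
    (∀ δ : Δ,
      Ideal.Quotient.factor (le_sup_right : maximalIdeal (RttwS Y.O (Y.m h)) ^ ν ≤
          rttwLam (Y.m h) Y.lam ⊔ maximalIdeal (RttwS Y.O (Y.m h)) ^ ν)
          (((rthkciPsi1YW Y h ν).comp κ) δ) =
        Ideal.Quotient.factor (le_sup_right : maximalIdeal (RttwS Y.O (Y.m h)) ^ ν ≤
          rttwLam (Y.m h) Y.lam ⊔ maximalIdeal (RttwS Y.O (Y.m h)) ^ ν)
          (((rthkciPsiχYW Y h ν).comp κ) δ)) ∧
    (∀ δ : Δ,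
      Ideal.Quotient.factor (le_sup_right : maximalIdeal (RttwS Y.O (Y.m h)) ^ ν ≤
          rttwAug Y.O (Y.m h) ⊔ maximalIdeal (RttwS Y.O (Y.m h)) ^ ν)
        (((rthkciPsi1YW Y h ν).comp κ) δ) = 1) ∧
    (∀ (i : Y.ι) (δ : Δ), κ δ = rthkciGen p h Y.ι ν (Sum.inr i) →
      ((rthkciPsi1YW Y h ν).comp κ) δ = 1 ∧
        ((rthkciPsiχYW Y h ν).comp κ) δ + ((rthkciPsiχYW Y h ν).comp κ) δ⁻¹
          = algebraMap Y.O (RthkSn Y.O (Y.m h) ν) (2 * Y.tχ i)) ∧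
    (∀ (j : Fin (Y.m h)) (hj : (j : ℕ) < h) (δ : Δ),
      κ δ = rthkciGen p h Y.ι ν (Sum.inl ⟨j, hj⟩) →
      ((rthkciPsi1YW Y h ν).comp κ) δ - ((rthkciPsi1YW Y h ν).comp κ) δ⁻¹
          = Ideal.Quotient.mk (maximalIdeal (RttwS Y.O (Y.m h)) ^ ν) (MvPowerSeries.X j) ∧
        ((rthkciPsiχYW Y h ν).comp κ) δ - ((rthkciPsiχYW Y h ν).comp κ) δ⁻¹
          = Ideal.Quotient.mk (maximalIdeal (RttwS Y.O (Y.m h)) ^ ν) (MvPowerSeries.X j)) := by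
  refine ⟨fun δ => rthkci_Y_congW Y h ν (κ δ), fun δ => rthkci_Y_augW Y h ν (κ δ),
    fun i δ hδ => ?_, fun j hj δ hδ => ?_⟩
  · have key := rthkci_Y_valTW Y h ν i
    simp only [MonoidHom.comp_apply, map_inv, hδ]
    exact key
  · have key := rthkci_Y_valQW Y h ν j hj
    simp only [MonoidHom.comp_apply, map_inv, hδ]
    exact key

end Setup

end Fermat.Agent.S59.LowK
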