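/-
S59 M3/R1, W-twin of `RT/Hecke/CharsGrp.lean` (helper27; rules of NOTES/S59-LowK.md):
`Y : s59lk_KSetupW W p M`, `P.p ↦ p`, `P.pp ↦ Fact.out`.  No `5 ≤ p` is used.
-/
import Fermat.Agent.RT.Hecke.GrpBridge
import Fermat.Agent.S59.LowK.CharsInstW

/-!
# K-machine, HECKE-asm, piece CHARS-GRP, for a general curve

`Y : s59lk_KSetupW W p M`, `h n`, `qv : Fin h → ℕ` a Taylor–Wiles family of level `n`;
`κ = Fin h ⊕ Y.ι`, `v = rthkcgVW Y qv = Sum.elim qv Y.r`, `k = rthkciExp h Y.ι (n + 1)`.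

* `rthkcg_v_primeW`, `rthkcg_v_injW`, `rthkcg_pow_dvdW` : the hypotheses `hvp`, `hv`, `hk` of
  HK-GRP;
* `rthkcg_existsW` : for every `M' ≠ 0` with `v x ∣ M'` and every system of generators
  `γ : κ → (ℤ/M')ˣ` with (G1), (G2) there are
  `ψ1, ψχ : RthkdDelta M' (rthkdH p v k M' hM) →* S ⧸ 𝔪 ^ (n + 1)` with `cong`, `aug` and the
  values required in `trT`, `trQ` at `δ = mk (γ x)`.
-/

set_option autoImplicit false
set_option linter.unusedSectionVars false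
set_option linter.unusedVariables false
set_option linter.style.haveILetI false

namespace Fermat.Agent.S59.LowK

open IsLocalRing Fermat.Agent.RT Fermat.Agent.RT.Prod Fermat.Agent.TW

section Arith

variable {W : WeierstrassCurve ℤ} {p M : ℕ} (Y : s59lk_KSetupW W p M) {h : ℕ} (qv : Fin h → ℕ)

/-- the primes of the diamonds: the Taylor–Wiles primes and the trivial primes -/
def rthkcgVW : Fin h ⊕ Y.ι → ℕ := Sum.elim qv Y.r

@[simp] theorem rthkcgV_inlW (j : Fin h) : rthkcgVW Y qv (Sum.inl j) = qv j := rfl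

@[simp] theorem rthkcgV_inrW (i : Y.ι) : rthkcgVW Y qv (Sum.inr i) = Y.r i := rfl

variable {qv} {n : ℕ}

theorem rthkcg_v_primeW
    (hTW : IsTWFamily p Y.ρbar (Y.Smin ∪ Finset.univ.image Y.r) n h qv)
    (x : Fin h ⊕ Y.ι) : (rthkcgVW Y qv x).Prime := by
  rcases x with j | i
  · exact (hTW.2.1 j).1
  · exact Y.r_prime i

theorem rthkcg_v_injW
    (hTW : IsTWFamily p Y.ρbar (Y.Smin ∪ Finset.univ.image Y.r) n h qv) :
    Function.Injective (rthkcgVW Y qv) := by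
  have hne : ∀ (j : Fin h) (i : Y.ι), qv j ≠ Y.r i := by
    intro j i e
    refine (hTW.2.1 j).2.1 (Finset.mem_union_right _ ?_)
    rw [e]
    exact Finset.mem_image_of_mem _ (Finset.mem_univ i)
  rintro (j | i) (j' | i') e
  · exact congrArg Sum.inl (hTW.1 e)
  · exact absurd e (hne j i')
  · exact absurd e.symm (hne j' i)
  · exact congrArg Sum.inr (Y.r_inj e)

theorem rthkcg_pow_dvdW
    (hTW : IsTWFamily p Y.ρbar (Y.Smin ∪ Finset.univ.image Y.r) n h qv)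
    (x : Fin h ⊕ Y.ι) : p ^ rthkciExp h Y.ι (n + 1) x ∣ rthkcgVW Y qv x - 1 := by
  rcases x with j | i
  · exact (hTW.2.1 j).2.2
  · show p ^ 1 ∣ Y.r i - 1
    rw [pow_one]
    exact Y.r_dvd_sub_one i

theorem rthkcg_exp_leW (ν : ℕ) (hν : 1 ≤ ν) (x : Fin h ⊕ Y.ι) : rthkciExp h Y.ι ν x ≤ ν := by
  rcases x with j | i
  · exact le_rfl
  · exact hν

end Arith

section Chars

variable {W : WeierstrassCurve ℤ} {p M : ℕ} (Y : s59lk_KSetupW W p M) {h : ℕ} {qv : Fin h → ℕ}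
  {n : ℕ}

/-- **CHARS-GRP** for a general curve: the two characters on the concrete diamond group, with
`cong`, `aug` and the values at the classes of the generators `γ x`. -/
theorem rthkcg_existsW [hp : Fact p.Prime]
    (hTW : IsTWFamily p Y.ρbar (Y.Smin ∪ Finset.univ.image Y.r) n h qv)
    {M' : ℕ} (hM0 : M' ≠ 0) (hM : ∀ x, rthkcgVW Y qv x ∣ M') (γ : Fin h ⊕ Y.ι → (ZMod M')ˣ)
    (hγ1 : ∀ x y, y ≠ x → ZMod.unitsMap (hM y) (γ x) = 1)
    (hγ2 : ∀ x, ¬ ∃ y : (ZMod (rthkcgVW Y qv x))ˣ, y ^ p = ZMod.unitsMap (hM x) (γ x)) :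
    ∃ ψ1 ψχ : RthkdDelta M' (rthkdH p (rthkcgVW Y qv) (rthkciExp h Y.ι (n + 1)) M' hM) →*
        RthkSn Y.O (Y.m h) (n + 1),
      (∀ δ, Ideal.Quotient.factor
          (le_sup_right : maximalIdeal (RttwS Y.O (Y.m h)) ^ (n + 1) ≤
            rttwLam (Y.m h) Y.lam ⊔ maximalIdeal (RttwS Y.O (Y.m h)) ^ (n + 1)) (ψ1 δ) =
        Ideal.Quotient.factor
          (le_sup_right : maximalIdeal (RttwS Y.O (Y.m h)) ^ (n + 1) ≤
            rttwLam (Y.m h) Y.lam ⊔ maximalIdeal (RttwS Y.O (Y.m h)) ^ (n + 1)) (ψχ δ)) ∧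
      (∀ δ, Ideal.Quotient.factor
          (le_sup_right : maximalIdeal (RttwS Y.O (Y.m h)) ^ (n + 1) ≤
            rttwAug Y.O (Y.m h) ⊔ maximalIdeal (RttwS Y.O (Y.m h)) ^ (n + 1)) (ψ1 δ) = 1) ∧
      (∀ i : Y.ι,
        ψ1 (QuotientGroup.mk (γ (Sum.inr i))) = 1 ∧
        ψχ (QuotientGroup.mk (γ (Sum.inr i))) + ψχ (QuotientGroup.mk (γ (Sum.inr i)))⁻¹
          = algebraMap Y.O (RthkSn Y.O (Y.m h) (n + 1)) (2 * Y.tχ i)) ∧
      (∀ (j : Fin (Y.m h)) (hj : (j : ℕ) < h),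
        ψ1 (QuotientGroup.mk (γ (Sum.inl ⟨j, hj⟩)))
            - ψ1 (QuotientGroup.mk (γ (Sum.inl ⟨j, hj⟩)))⁻¹
          = Ideal.Quotient.mk (maximalIdeal (RttwS Y.O (Y.m h)) ^ (n + 1))
              (MvPowerSeries.X j) ∧
        ψχ (QuotientGroup.mk (γ (Sum.inl ⟨j, hj⟩)))
            - ψχ (QuotientGroup.mk (γ (Sum.inl ⟨j, hj⟩)))⁻¹
          = Ideal.Quotient.mk (maximalIdeal (RttwS Y.O (Y.m h)) ^ (n + 1))
              (MvPowerSeries.X j)) := by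
  classical
  obtain ⟨κγ, hgen, -⟩ := rthkgb_equiv (p := p) (k := rthkciExp h Y.ι (n + 1)) hp.out
    Y.hyp.hp2 (rthkcg_v_injW Y hTW) (rthkcg_v_primeW Y hTW) (rthkcg_pow_dvdW Y hTW) hM0 hM γ hγ1
    (fun x _ => hγ2 x)
  obtain ⟨h1, h2, h3, h4⟩ := rthkci_Y_mainW Y h (n + 1) κγ.toMonoidHom
  refine ⟨(rthkciPsi1YW Y h (n + 1)).comp κγ.toMonoidHom,
    (rthkciPsiχYW Y h (n + 1)).comp κγ.toMonoidHom, h1, h2, fun i => ?_, fun j hj => ?_⟩
  · exact h3 i _ (hgen (Sum.inr i))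
  · exact h4 j hj _ (hgen (Sum.inl ⟨j, hj⟩))

end Chars

end Fermat.Agent.S59.LowK
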