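import Fermat.Agent.RT.Hecke.ConcFinalPlan
import Fermat.Agent.S59.LowK.SetupW

/-!
# S59 M3/R1, W-twin of `RT/Hecke/ConcFinalPlan.lean` (helper9; rules of NOTES/S59-LowK.md)

The hypothesis prefix of both contracts is the one of `StmtHeckeW p` (`S59/LowK/FinalPlanW.lean`);
`p` is a parameter (`StmtHkfK5W p`, `StmtHkfTrW p`), `[Fact p.Prime]` is bound first.

The final glue `rthkf_top` (RT/Hecke/ConcFinal.lean) proves `StmtHkConcTop` from

* `StmtHkfK5W` : **the K5 side** over a setup `Y` and `h`: a modulus `M₀ ∣ N`, a family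
  `c : Fin r → Hom(Γ₀(N), 𝒪)` (`0 < r`), the matrices `a ℓ` of `tS ℓ` in `c`, the base
  `HkBase … Φ0` with `d = 2 ^ h * r` and `Φ0 (Tr₀ ℓ) = rthkcbBlock 𝒪 h r (a ℓ)`; and for every
  Taylor–Wiles family `qv` of level `n`: a Hecke expression `e` and an auxiliary prime `ℓ₀`
  avoiding `qv` such that the reductions of `c` are a basis of the `Θ_{e, ℓ₀}`-part of
  `Hom(Γ₀(N), 𝒪 ⧸ 𝔪 ^ (n + 1))`, the Taylor–Wiles condition `K5TWCond`, and the residual
  Frobenius traces (field `resid` of `HkConcSide`) on the `Θ_{e.twist Q, ℓ₀}`-part of level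
  `L = N * ∏ qv j`, `M = ∏ qv j * ∏ r i`, `H' = rthkdH …`;
* `StmtHkfTrW` : **the K6 side**: the characters `ψ1, ψχ` with `cong`, `aug`, `trT`, `trQ`.

The remaining fields (`pkg`, `primes`, `model`, `stable`, `free`, `faith`, `base`) are on main.
-/

set_option autoImplicit false
set_option linter.unusedSectionVars false
set_option linter.style.haveILetI false

noncomputable section

namespace Fermat.Agent.S59.LowK

open Fermat.Agent.RT Fermat.Agent.S59.LowQ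
open IsLocalRing Fermat.Agent.ES Fermat.Agent.S30 Fermat.Agent.W1 Fermat.Agent.TW
open Fermat.Agent.ES1 Fermat.Agent.RT.K5 Fermat.Agent.RT.K7F Fermat.Agent.RT.Prod
open ExtCitation WeierstrassCurve WeierstrassCurve.Affine WeierstrassCurve.Affine.Point
open scoped MatrixGroups

section data

variable {W : WeierstrassCurve ℤ} {p N : ℕ} [hp : Fact p.Prime] (Y : s59lk_KSetupW W p N)
  {h : ℕ} (qv : Fin h → ℕ) (n : ℕ)

/-- the subgroup `H'` of the final glue -/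
abbrev rthkfHW : Subgroup (ZMod (rthkdM (Sum.elim qv Y.r)))ˣ :=
  rthkdH p (Sum.elim qv Y.r) (Sum.elim (fun _ => n + 1) (fun _ => 1))
    (rthkdM (Sum.elim qv Y.r)) (rthkd_dvd_M _)

end data

/-- **The K5 side.** -/
def StmtHkfK5W (p : ℕ) : Prop :=
  ∀ [Fact p.Prime] (W : WeierstrassCurve ℤ) (N q : ℕ) [NeZero N], W.Δ ≠ 0 →
    W.IsSemistableModel → W.ModRepIsIrreducible p → Squarefree N → ¬ p ∣ N → q.Prime →
    q ≠ p → q ∣ N → s59lq_Unram W p q → W.IsResiduallyModularOfLevel p N →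
    (∀ r : ℕ, r.Prime → r ≠ p → r ∣ N → s59lq_Unram W p r → s59lq_IsTrivialPrime W p r) →
    ∀ (Y : s59lk_KSetupW W p N) (h : ℕ),
      ∃ (M₀ : ℕ) (_ : NeZero M₀) (_ : Fact (M₀ ∣ N)) (r : ℕ) (_ : 0 < r)
        (c : Fin r → HomS (gammaH N M₀ (⊤ : Subgroup (ZMod M₀)ˣ)) Y.O)
        (a : ℕ → Matrix (Fin r) (Fin r) Y.O)
        (S' : Finset ℕ) (_ : p ∈ S') (_ : ∀ ℓ : ℕ, ℓ.Prime → ℓ ∣ N → ℓ ∈ S')
        (𝕋₀ : Type) (_ : CommRing 𝕋₀) (J₀ : Type) (_ : AddCommGroup J₀) (_ : Module 𝕋₀ J₀)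
        (_ : DistribMulAction GQ J₀) (Tr₀ : ℕ → 𝕋₀)
        (Φ0 : 𝕋₀ →+* Matrix (Fin (2 ^ h * r)) (Fin (2 ^ h * r)) Y.O),
        HkBase p Y.ρbar N S' (2 ^ h * r) J₀ Tr₀ Φ0 ∧
        (∀ (ℓ : ℕ) [NeZero ℓ], ℓ.Prime → ¬ ℓ ∣ N * p →
          (∀ i', tS N M₀ ℓ ⊤ Y.O (c i') = ∑ i, a ℓ i i' • c i) ∧
            Φ0 (Tr₀ ℓ) = rthkcbBlock Y.O h r (a ℓ)) ∧
        ∀ (n : ℕ) (qv : Fin h → ℕ),
          IsTWFamily p Y.ρbar (Y.Smin ∪ Finset.univ.image Y.r) n h qv →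
          ∀ (_ : NeZero (N * rthkdM qv)) (_ : NeZero (rthkdM (Sum.elim qv Y.r)))
            (_ : Fact (rthkdM (Sum.elim qv Y.r) ∣ N * rthkdM qv)),
          ∃ (e : HExpr Y.O) (ℓ₀ : ℕ) (_ : NeZero ℓ₀), e.IsPrimes ∧ ℓ₀.Prime ∧ ¬ ℓ₀ ∣ N ∧
            ℓ₀ ≠ p ∧ (∀ j, qv j ≠ ℓ₀ ∧ e.Avoids (qv j)) ∧
            K5TWCond Y.O N M₀ ℓ₀ e (List.ofFn qv) (RthkdC Y.O (n + 1)) ∧
            K5IsBasis (RthkdC Y.O (n + 1))
              (etaPart (thetaN (e.eval N M₀) ℓ₀ (RthkdC Y.O (n + 1)) ⊤))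
              (fun i => mapS (Submodule.mkQ (maximalIdeal Y.O ^ (n + 1))).toAddMonoidHom
                (c i)) ∧
            ∀ ℓ : ℕ, ℓ.Prime → ¬ ℓ ∣ (N * rthkdM qv) * p →
              ∀ A : ValuationSubring (AlgebraicClosure ℚ), A.LiesOverPrime ℓ →
                ∀ τ : GQ, A.IsFrobeniusAt τ ℓ → ∃ (c' : Y.O) (k : ℕ),
                  residue Y.O c' = LinearMap.trace (ResidueField Y.O) Y.ρbar.V (Y.ρbar.ρ τ) ∧
                  ∀ ψ ∈ etaPart (thetaN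
                      ((e.twist (List.ofFn qv)).eval (N * rthkdM qv)
                        (rthkdM (Sum.elim qv Y.r))) ℓ₀ (RthkdC Y.O (n + 1))
                      (rthkfHW Y qv n)),
                    ((rthkdEval p (N * rthkdM qv) (rthkdM (Sum.elim qv Y.r))
                        (rthkfHW Y qv n) (RthkdC Y.O (n + 1))
                        (es1inftwTr (rthkdM (Sum.elim qv Y.r)) (rthkdE p (n + 1)) ℓ)
                      - rthkcsScal (N * rthkdM qv) (rthkdM (Sum.elim qv Y.r))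
                        (rthkfHW Y qv n) (n + 1) c') ^ k) ψ = 0

/-- **The K6 side**: the characters and the fields `cong`, `aug`, `trT`, `trQ`, for every
family `𝔲` and auxiliary prime `ℓ₀`. -/
def StmtHkfTrW (p : ℕ) : Prop :=
  ∀ [Fact p.Prime] (W : WeierstrassCurve ℤ) (N q : ℕ) [NeZero N], W.Δ ≠ 0 →
    W.IsSemistableModel → W.ModRepIsIrreducible p → Squarefree N → ¬ p ∣ N → q.Prime →
    q ≠ p → q ∣ N → s59lq_Unram W p q → W.IsResiduallyModularOfLevel p N →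
    (∀ r : ℕ, r.Prime → r ≠ p → r ∣ N → s59lq_Unram W p r → s59lq_IsTrivialPrime W p r) →
    ∀ (Y : s59lk_KSetupW W p N) (h n : ℕ) (qv : Fin h → ℕ),
      IsTWFamily p Y.ρbar (Y.Smin ∪ Finset.univ.image Y.r) n h qv →
      ∀ (_ : NeZero (N * rthkdM qv))
        (_ : NeZero (rthkdM (Sum.elim qv Y.r)))
        (_ : Fact (rthkdM (Sum.elim qv Y.r) ∣ N * rthkdM qv))
        (𝔲 : NatFam Y.O (N * rthkdM qv) (rthkdM (Sum.elim qv Y.r))) (ℓ₀ : ℕ) (_ : NeZero ℓ₀),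
      ∃ ψ1 ψχ : RthkdDelta (rthkdM (Sum.elim qv Y.r)) (rthkfHW Y qv n) →*
          RthkSn Y.O (Y.m h) (n + 1),
        (∀ δ, Ideal.Quotient.factor
            (le_sup_right : maximalIdeal (RttwS Y.O (Y.m h)) ^ (n + 1) ≤
              rttwLam (Y.m h) Y.lam ⊔ maximalIdeal (RttwS Y.O (Y.m h)) ^ (n + 1)) (ψ1 δ) =
          Ideal.Quotient.factor
            (le_sup_right : maximalIdeal (RttwS Y.O (Y.m h)) ^ (n + 1) ≤
              rttwLam (Y.m h) Y.lam ⊔ maximalIdeal (RttwS Y.O (Y.m h)) ^ (n + 1)) (ψχ δ)) ∧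
        (∀ δ, Ideal.Quotient.factor
            (le_sup_right : maximalIdeal (RttwS Y.O (Y.m h)) ^ (n + 1) ≤
              rttwAug Y.O (Y.m h) ⊔ maximalIdeal (RttwS Y.O (Y.m h)) ^ (n + 1)) (ψ1 δ) = 1) ∧
        (∀ i, ∃ (x : HDAlg (rthkdM (Sum.elim qv Y.r)))
            (u : (ZMod (rthkdM (Sum.elim qv Y.r)))ˣ),
          (∀ k, Rtk7bApprox p
            (es1inftwJ (N * rthkdM qv) (rthkdM (Sum.elim qv Y.r)) (rthkfHW Y qv n) p
              (k7ftwChar (rthkdM (Sum.elim qv Y.r)) (rthkdE p (n + 1))))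
            (fun n g => ((cycE p n g : ℕ) : HDAlg (rthkdM (Sum.elim qv Y.r)))) k
            (Y.σ i) x) ∧
          (∀ ψ ∈ etaPart (thetaN 𝔲 ℓ₀ (RthkdC Y.O (n + 1)) (rthkfHW Y qv n)),
            es1infHomEval (N * rthkdM qv) (rthkdM (Sum.elim qv Y.r)) (rthkfHW Y qv n)
                (Fact.out) p (RthkdC Y.O (n + 1)) x ψ
              = diamU (N * rthkdM qv) (rthkdM (Sum.elim qv Y.r)) (rthkfHW Y qv n)
                  (RthkdC Y.O (n + 1)) u ψ
                + diamU (N * rthkdM qv) (rthkdM (Sum.elim qv Y.r)) (rthkfHW Y qv n)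
                  (RthkdC Y.O (n + 1)) u⁻¹ ψ) ∧
          ψ1 (QuotientGroup.mk u) = 1 ∧
          ψχ (QuotientGroup.mk u) + ψχ (QuotientGroup.mk u)⁻¹
            = algebraMap Y.O (RthkSn Y.O (Y.m h) (n + 1)) (2 * Y.tχ i)) ∧
        (∀ j : Fin (Y.m h), (j : ℕ) < h → ∃ (g : GQ)
            (x : HDAlg (rthkdM (Sum.elim qv Y.r)))
            (u : (ZMod (rthkdM (Sum.elim qv Y.r)))ˣ),
          (∀ k, Rtk7bApprox p
            (es1inftwJ (N * rthkdM qv) (rthkdM (Sum.elim qv Y.r)) (rthkfHW Y qv n) p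
              (k7ftwChar (rthkdM (Sum.elim qv Y.r)) (rthkdE p (n + 1))))
            (fun n g => ((cycE p n g : ℕ) : HDAlg (rthkdM (Sum.elim qv Y.r)))) k g x) ∧
          (∀ ψ ∈ etaPart (thetaN 𝔲 ℓ₀ (RthkdC Y.O (n + 1)) (rthkfHW Y qv n)),
            es1infHomEval (N * rthkdM qv) (rthkdM (Sum.elim qv Y.r)) (rthkfHW Y qv n)
                (Fact.out) p (RthkdC Y.O (n + 1)) x ψ
              = diamU (N * rthkdM qv) (rthkdM (Sum.elim qv Y.r)) (rthkfHW Y qv n)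
                  (RthkdC Y.O (n + 1)) u ψ
                + diamU (N * rthkdM qv) (rthkdM (Sum.elim qv Y.r)) (rthkfHW Y qv n)
                  (RthkdC Y.O (n + 1)) u⁻¹ ψ) ∧
          ψ1 (QuotientGroup.mk u) - ψ1 (QuotientGroup.mk u)⁻¹
            = Ideal.Quotient.mk _ (MvPowerSeries.X j) ∧
          ψχ (QuotientGroup.mk u) - ψχ (QuotientGroup.mk u)⁻¹
            = Ideal.Quotient.mk _ (MvPowerSeries.X j))

end Fermat.Agent.S59.LowK
end
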