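import Fermat.Agent.RT.Hecke.ConcInst
import Fermat.Agent.S59.LowK.SetupW

/-!
# S59 M3/R1, W-twin of `RT/Hecke/ConcInst.lean` (helper9; rules of NOTES/S59-LowK.md)

`rthkdY_r_ne_two` is replaced by `rthkdY_r_not_memW : Y.r i ∉ Y.Smin`.

`Y : s59lk_KSetupW W p N`, `qv : Fin h → ℕ` a Taylor–Wiles family of level `n` for
`S = Y.Smin ∪ image Y.r`.  Index type `κ = Fin h ⊕ Y.ι`.

* `rthkdYvW Y qv = Sum.elim qv Y.r` : the primes of the diamonds;
  `rthkdYv_primeW`, `rthkdYv_injW`, `rthkdY_pow_dvdW : p ^ k x ∣ v x − 1` for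
  `k = Sum.elim (fun _ => n + 1) (fun _ => 1)` (`= rthkciExp h Y.ι (n + 1)`, by `rfl`);
* `rthkdYMW Y qv = ∏ v x` (the modulus), `rthkdYLW N qv = N * ∏ qv j` (the level);
  `rthkdYM_dvd_LW`, `rthkdYL_ne_zeroW`, `rthkdYM_ne_zeroW`, `rthkdY_p_not_dvd_LW`;
* `rthkdY_primesW` : the field `primes` of `HkConc` / `HkLevel` for
  `Sbad = Y.Smin ∪ (image qv ∪ image Y.r)`.
-/

set_option autoImplicit false
set_option linter.unusedSectionVars false

namespace Fermat.Agent.S59.LowK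

open Fermat.Agent.RT
open IsLocalRing Fermat.Agent.TW Fermat.Agent.RT.Prod

section inst

variable {W : WeierstrassCurve ℤ} {p N : ℕ} [hp : Fact p.Prime] (Y : s59lk_KSetupW W p N) {h : ℕ} (qv : Fin h → ℕ)

/-- the primes of the diamonds: the Taylor–Wiles primes and the trivial primes -/
def rthkdYvW : Fin h ⊕ Y.ι → ℕ := Sum.elim qv Y.r

/-- the exponents: `ν` at the Taylor–Wiles primes, `1` at the trivial primes -/
def rthkdYkW (ν : ℕ) : Fin h ⊕ Y.ι → ℕ := Sum.elim (fun _ => ν) (fun _ => 1)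

/-- the modulus `M = (∏ qv j) * ∏ r i` -/
def rthkdYMW : ℕ := rthkdM (rthkdYvW Y qv)

/-- the level `L = N * ∏ qv j` -/
def rthkdYLW (N : ℕ) (qv : Fin h → ℕ) : ℕ := N * rthkdM qv

theorem rthkdYk_leW (ν : ℕ) (hν : 1 ≤ ν) (x : Fin h ⊕ Y.ι) : rthkdYkW Y (h := h) ν x ≤ ν := by
  rcases x with j | i
  · exact le_rfl
  · exact hν

variable {Y qv}

theorem rthkdY_r_primeW (i : Y.ι) : (Y.r i).Prime :=
  ((Y.hr (Y.r i)).mp (Finset.mem_image_of_mem _ (Finset.mem_univ i))).1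

theorem rthkdY_r_not_memW (i : Y.ι) : Y.r i ∉ Y.Smin :=
  ((Y.hr (Y.r i)).mp (Finset.mem_image_of_mem _ (Finset.mem_univ i))).2.2

theorem rthkdY_r_dvdW (i : Y.ι) : Y.r i ∣ N :=
  ((Y.hr (Y.r i)).mp (Finset.mem_image_of_mem _ (Finset.mem_univ i))).2.1

theorem rthkdY_r_memW (i : Y.ι) : Y.r i ∈ Finset.univ.image Y.r :=
  Finset.mem_image_of_mem _ (Finset.mem_univ i)

variable {n : ℕ}

theorem rthkdYv_primeW
    (hqv : IsTWFamily p Y.ρbar (Y.Smin ∪ Finset.univ.image Y.r) n h qv)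
    (x : Fin h ⊕ Y.ι) : (rthkdYvW Y qv x).Prime := by
  rcases x with j | i
  · exact (hqv.2.1 j).1
  · exact rthkdY_r_primeW i

theorem rthkdYv_injW
    (hqv : IsTWFamily p Y.ρbar (Y.Smin ∪ Finset.univ.image Y.r) n h qv) :
    Function.Injective (rthkdYvW Y qv) := by
  rintro (j | i) (j' | i') hxy
  · exact congrArg Sum.inl (hqv.1 hxy)
  · exfalso
    apply (hqv.2.1 j).2.1
    have : qv j = Y.r i' := hxy
    rw [this]
    exact Finset.mem_union_right _ (rthkdY_r_memW i')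
  · exfalso
    apply (hqv.2.1 j').2.1
    have : Y.r i = qv j' := hxy
    rw [← this]
    exact Finset.mem_union_right _ (rthkdY_r_memW i)
  · exact congrArg Sum.inr (Y.r_inj hxy)

theorem rthkdY_pow_dvdW
    (hqv : IsTWFamily p Y.ρbar (Y.Smin ∪ Finset.univ.image Y.r) n h qv)
    (x : Fin h ⊕ Y.ι) : p ^ rthkdYkW Y (h := h) (n + 1) x ∣ rthkdYvW Y qv x - 1 := by
  rcases x with j | i
  · exact (hqv.2.1 j).2.2
  · have := (Y.hT (Y.r i) (rthkdY_r_memW i)).2.2.1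
    show p ^ 1 ∣ Y.r i - 1
    rwa [pow_one]

theorem rthkdYM_eqW : rthkdYMW Y qv = rthkdM qv * rthkdM Y.r :=
  rthkdM_sum qv Y.r

theorem rthkdY_r_prod_dvdW : rthkdM Y.r ∣ N :=
  rthkdM_dvd_of_primes Y.r (fun i => rthkdY_r_primeW i) Y.r_inj (fun i => rthkdY_r_dvdW i)

theorem rthkdYM_dvd_LW : rthkdYMW Y qv ∣ rthkdYLW N qv := by
  rw [rthkdYM_eqW, rthkdYLW, mul_comm]
  exact Nat.mul_dvd_mul_right rthkdY_r_prod_dvdW _

theorem rthkdYv_dvd_MW (x : Fin h ⊕ Y.ι) : rthkdYvW Y qv x ∣ rthkdYMW Y qv :=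
  rthkd_dvd_M _ x

theorem rthkdYM_ne_zeroW
    (hqv : IsTWFamily p Y.ρbar (Y.Smin ∪ Finset.univ.image Y.r) n h qv) :
    rthkdYMW Y qv ≠ 0 :=
  rthkdM_ne_zero _ fun x => (rthkdYv_primeW hqv x).ne_zero

theorem rthkdYL_ne_zeroW (hN : N ≠ 0)
    (hqv : IsTWFamily p Y.ρbar (Y.Smin ∪ Finset.univ.image Y.r) n h qv) :
    rthkdYLW N qv ≠ 0 :=
  Nat.mul_ne_zero hN (rthkdM_ne_zero _ fun j => (hqv.2.1 j).1.ne_zero)

/-- a prime dividing `∏ qv j` is one of the `qv j` -/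
theorem rthkdY_dvd_prod_qvW
    (hqv : IsTWFamily p Y.ρbar (Y.Smin ∪ Finset.univ.image Y.r) n h qv)
    {ℓ : ℕ} (hℓ : ℓ.Prime) (hd : ℓ ∣ rthkdM qv) : ℓ ∈ Finset.univ.image qv := by
  rw [rthkdM] at hd
  obtain ⟨j, -, hj⟩ := (Prime.dvd_finsetProd_iff hℓ.prime qv).mp hd
  have : ℓ = qv j := (Nat.prime_dvd_prime_iff_eq hℓ (hqv.2.1 j).1).mp hj
  rw [this]
  exact Finset.mem_image_of_mem _ (Finset.mem_univ j)

/-- the field `primes` -/
theorem rthkdY_primesW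
    (hqv : IsTWFamily p Y.ρbar (Y.Smin ∪ Finset.univ.image Y.r) n h qv)
    (ℓ : ℕ) (hℓ : ℓ.Prime)
    (hS : ℓ ∉ Y.Smin ∪ (Finset.univ.image qv ∪ Finset.univ.image Y.r)) :
    ¬ ℓ ∣ rthkdYLW N qv * p := by
  intro hd
  apply hS
  rcases (Nat.Prime.dvd_mul hℓ).mp hd with h1 | h1
  · rcases (Nat.Prime.dvd_mul hℓ).mp h1 with h2 | h2
    · rcases Finset.mem_union.mp (Y.mem_of_dvd hℓ h2) with h3 | h3
      · exact Finset.mem_union_left _ h3
      · exact Finset.mem_union_right _ (Finset.mem_union_right _ h3)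
    · exact Finset.mem_union_right _ (Finset.mem_union_left _ (rthkdY_dvd_prod_qvW hqv hℓ h2))
  · have : ℓ = p := (Nat.prime_dvd_prime_iff_eq hℓ hp.out).mp h1
    refine Finset.mem_union_left _ ?_
    rw [this]
    exact Y.p_mem_Smin hp.out

/-- `p ∤ L` -/
theorem rthkdY_p_not_dvd_LW (hpN : ¬ p ∣ N)
    (hqv : IsTWFamily p Y.ρbar (Y.Smin ∪ Finset.univ.image Y.r) n h qv) :
    ¬ p ∣ rthkdYLW N qv := by
  intro hd
  rcases (Nat.Prime.dvd_mul hp.out).mp hd with h1 | h1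
  · exact hpN h1
  · have h2 := rthkdY_dvd_prod_qvW hqv hp.out h1
    obtain ⟨j, -, hj⟩ := Finset.mem_image.mp h2
    apply (hqv.2.1 j).2.1
    refine Finset.mem_union_left _ ?_
    rw [hj]
    exact Y.p_mem_Smin hp.out

end inst

end Fermat.Agent.S59.LowK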