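import Fermat.Agent.RT.Hecke.GrpInst
import Fermat.Agent.S59.LowK.SetupW
import Fermat.Agent.S59.LowK.ConcInstW

/-!
# S59 M3/R1, W-twin of `RT/Hecke/GrpInst.lean` (helper9; rules of NOTES/S59-LowK.md)

The hypothesis `5 ≤ p` (field `h5` of `RthkgsHyp`, K6/K7F tameness) is an explicit hypothesis `hp5`;
`q` is any prime divisor of the level `N` (it only gives `2 ≤ N`).

For `Y : s59lk_KSetupW W p N`, `N ≠ 0`, `¬ p ∣ N`, `q` prime, `q ∣ N` and a Taylor–Wiles family `qv` of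
level `n` for `S = Y.Smin ∪ image Y.r`, with helper9's concrete objects (`RT/Hecke/ConcInst.lean`)
`v = rthkdYvW Y qv`, `k = rthkdYkW Y (n + 1)` (`= rthkciExp h Y.ι (n + 1)` by `rfl`),
`M = rthkdYMW Y qv`, `L = rthkdYLW N qv`, `H' = rthkgiHW Y qv n = rthkdH p v k M rthkdYv_dvd_MW`:

* `rthkgi_hypW` : the arithmetic hypotheses `RthkgsHyp p n N qv Y.r` of `RT/Hecke/GrpSum.lean`;
* `rthkgi_k7fLevelW`, `rthkgi_isStarStableW`, `rthkgi_isTameAtW`, `rthkgi_pmHW`, `rthkgi_hEW`,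
  `rthkgi_indexW`, `rthkgi_freeHyp_indexW`, `rthkgi_squarefreeW`, `rthkgi_exists_transversalW`;
* `rthkgi_equivW` : `κ_γ : RthkdDelta M H' ≃* RthkchGrp p k` normalised at generators `γ`.
-/

set_option autoImplicit false
set_option linter.unusedSectionVars false
set_option linter.style.haveILetI false

namespace Fermat.Agent.S59.LowK

open Fermat.Agent.RT
open Fermat.Agent.TW Fermat.Agent.RT.Prod
open Fermat.Agent.ES1 Fermat.Agent.RT.K5 Fermat.Agent.RT.K6 Fermat.Agent.RT.K7F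

section Inst

variable {W : WeierstrassCurve ℤ} {p N : ℕ} [hp : Fact p.Prime] (Y : s59lk_KSetupW W p N) {h : ℕ} (qv : Fin h → ℕ) (n : ℕ)

/-- the group `H'` of the Taylor–Wiles level, in helper9's notation -/
abbrev rthkgiHW : Subgroup (ZMod (rthkdYMW Y qv))ˣ :=
  rthkdH p (rthkdYvW Y qv) (rthkdYkW Y (n + 1)) (rthkdYMW Y qv) rthkdYv_dvd_MW

theorem rthkgiH_eqW : rthkgiHW Y qv n = rthkgsH p n qv Y.r := rfl

variable {Y qv n}

/-- **the arithmetic hypotheses of HK-GRP at a `KSetup`** -/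
theorem rthkgi_hypW {q : ℕ} (hp5 : 5 ≤ p) (hN0 : N ≠ 0) (hpN : ¬ p ∣ N) (hq : q.Prime) (hqN : q ∣ N)
    (hTW : IsTWFamily p Y.ρbar (Y.Smin ∪ Finset.univ.image Y.r) n h qv) :
    RthkgsHyp p n N qv Y.r where
  hp := hp.out
  h5 := hp5
  hpN := hpN
  hN := le_trans hq.two_le (Nat.le_of_dvd (Nat.pos_of_ne_zero hN0) hqN)
  qinj := hTW.1
  qprime := fun j => (hTW.2.1 j).1
  qp := fun j => (hTW.2.1 j).2.2
  qN := fun j hj => by
    have hS := (hTW.2.1 j).2.1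
    rw [Finset.mem_union, not_or] at hS
    exact hS.2 ((Y.hr (qv j)).mpr ⟨(hTW.2.1 j).1, hj, hS.1⟩)
  rinj := Y.r_inj
  rprime := fun i => rthkdY_r_primeW i
  rp := fun i => (Y.hT (Y.r i) (rthkdY_r_memW i)).2.2.1
  rN := fun i => rthkdY_r_dvdW i

variable {q : ℕ} (hp5 : 5 ≤ p) (hN0 : N ≠ 0) (hpN : ¬ p ∣ N) (hq : q.Prime) (hqN : q ∣ N)
  (hTW : IsTWFamily p Y.ρbar (Y.Smin ∪ Finset.univ.image Y.r) n h qv)

include hp5 hN0 hpN hq hqN hTW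

theorem rthkgi_squarefreeW : Squarefree (rthkdYMW Y qv) :=
  rthkgs_squarefree (rthkgi_hypW hp5 hN0 hpN hq hqN hTW)

/-- **`K7FLevel`** at the Taylor–Wiles level -/
theorem rthkgi_k7fLevelW : K7FLevel (rthkdYLW N qv) (rthkdYMW Y qv) (rthkgiHW Y qv n) p :=
  rthkgs_k7fLevel (rthkgi_hypW hp5 hN0 hpN hq hqN hTW)

theorem rthkgi_isStarStableW {ℓ : ℕ} (hℓ : ℓ.Prime) (hℓM : ℓ ∣ rthkdYMW Y qv) :
    IsStarStable (rthkdYMW Y qv) ℓ (rthkgiHW Y qv n) :=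
  rthkgs_isStarStable (rthkgi_hypW hp5 hN0 hpN hq hqN hTW) hℓ hℓM

theorem rthkgi_isTameAtW (ℓ : ℕ) :
    IsTameAt (rthkdYLW N qv) (rthkdYMW Y qv) ℓ (rthkgiHW Y qv n) :=
  rthkgs_isTameAt (rthkgi_hypW hp5 hN0 hpN hq hqN hTW) ℓ

theorem rthkgi_pmHW : pmH (rthkgiHW Y qv n) = rthkgiHW Y qv n :=
  rthkgs_pmH (rthkgi_hypW hp5 hN0 hpN hq hqN hTW)

/-- the input `hE` of `es1inftw_pkg` for `e = rthkdE p (n + 1)` -/
theorem rthkgi_hEW (c : (ZMod (rthkdYMW Y qv))ˣ) :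
    c ^ (2 * rthkdE p (n + 1) - 1) ∈ pmH (rthkgiHW Y qv n) :=
  rthkgs_hE (rthkgi_hypW hp5 hN0 hpN hq hqN hTW) c

theorem rthkgi_indexW :
    (pmH (rthkgiHW Y qv n)).index = p ^ (h * (n + 1) + Fintype.card Y.ι) :=
  rthkgs_index (rthkgi_hypW hp5 hN0 hpN hq hqN hTW)

theorem rthkgi_freeHyp_indexW :
    ((pmH (rthkgiHW Y qv n)).subgroupOf (pmH ⊤)).index
      = p ^ (h * (n + 1) + Fintype.card Y.ι) :=
  rthkgs_freeHyp_index (rthkgi_hypW hp5 hN0 hpN hq hqN hTW)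

theorem rthkgi_exists_transversalW :
    ∃ (m : ℕ) (u : Fin m → (ZMod (rthkdYMW Y qv))ˣ)
      (e : Fin m ≃ RthkdDelta (rthkdYMW Y qv) (rthkgiHW Y qv n)),
      m = p ^ (h * (n + 1) + Fintype.card Y.ι) ∧
      (∀ j, e j = QuotientGroup.mk (u j)) ∧ IsTransversal (rthkgiHW Y qv n) ⊤ u :=
  rthkgs_exists_transversal (rthkgi_hypW hp5 hN0 hpN hq hqN hTW)

/-- **`κ_γ`** at the Taylor–Wiles level -/
theorem rthkgi_equivW [DecidableEq (Fin h ⊕ Y.ι)]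
    (γ : Fin h ⊕ Y.ι → (ZMod (rthkdYMW Y qv))ˣ)
    (hγ1 : ∀ x y, y ≠ x → ZMod.unitsMap (rthkdYv_dvd_MW (Y := Y) (qv := qv) y) (γ x) = 1)
    (hγ2 : ∀ x, ¬ ∃ y : (ZMod (rthkdYvW Y qv x))ˣ,
      y ^ p = ZMod.unitsMap (rthkdYv_dvd_MW (Y := Y) (qv := qv) x) (γ x)) :
    ∃ κγ : RthkdDelta (rthkdYMW Y qv) (rthkgiHW Y qv n) ≃* RthkchGrp p (rthkdYkW Y (h := h) (n + 1)),
      (∀ x, κγ (QuotientGroup.mk (γ x)) = Pi.mulSingle x (Multiplicative.ofAdd 1)) ∧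
      (∀ (x : Fin h ⊕ Y.ι) (u u' : (ZMod (rthkdYMW Y qv))ˣ),
        ZMod.unitsMap (rthkdYv_dvd_MW (Y := Y) (qv := qv) x) u
          = ZMod.unitsMap (rthkdYv_dvd_MW (Y := Y) (qv := qv) x) u' →
        κγ (QuotientGroup.mk u) x = κγ (QuotientGroup.mk u') x) :=
  rthkgs_equiv (rthkgi_hypW hp5 hN0 hpN hq hqN hTW) γ hγ1 hγ2

end Inst

end Fermat.Agent.S59.LowK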