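import Fermat.Agent.RT.Hecke.ConcFinal
import Fermat.Agent.S59.LowK.ConcFinalPlanW
import Fermat.Agent.S59.LowK.ConcInstW
import Fermat.Agent.S59.LowK.GrpInstW

/-!
# S59 M3/R1, W-twin of the section `arith` of `RT/Hecke/ConcFinal.lean` (helper9)

(rules of NOTES/S59-LowK.md).  The arithmetic lemmas of the final glue, split off so that
`ConcFinalBW` (the contract `StmtHkfK5'W` of the K5 side) does not wait for the twins of
`ConcTop` / `ConcPkgG`:

* `rthkf_qv_not_dvdW`, `rthkf_sqfree_LW` (`hcond : Squarefree N`), `rthkf_coprime_MW`,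
  `rthkf_not_mem_QW`, `rthkf_prod_ofFnW`.
-/

set_option autoImplicit false
set_option linter.unusedSectionVars false
set_option linter.style.haveILetI false

noncomputable section

namespace Fermat.Agent.S59.LowK

open Fermat.Agent.RT Fermat.Agent.S59.LowQ
open IsLocalRing Fermat.Agent.ES Fermat.Agent.S30 Fermat.Agent.W1 Fermat.Agent.TW
open Fermat.Agent.ES1 Fermat.Agent.RT.K5 Fermat.Agent.RT.K7F Fermat.Agent.RT.Prod
open ExtCitation WeierstrassCurve WeierstrassCurve.Affine WeierstrassCurve.Affine.Point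
open scoped MatrixGroups

section arith

variable {W : WeierstrassCurve ℤ} {p N : ℕ} [hp : Fact p.Prime] {Y : s59lk_KSetupW W p N}
  {h n : ℕ} {qv : Fin h → ℕ}

/-- a Taylor–Wiles prime does not divide `N` -/
theorem rthkf_qv_not_dvdW
    (hqv : IsTWFamily p Y.ρbar (Y.Smin ∪ Finset.univ.image Y.r) n h qv) (j : Fin h) :
    ¬ qv j ∣ N := by
  intro hj
  have hS := (hqv.2.1 j).2.1
  rw [Finset.mem_union, not_or] at hS
  exact hS.2 ((Y.hr (qv j)).mpr ⟨(hqv.2.1 j).1, hj, hS.1⟩)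

/-- `L = N * ∏ qv j` is squarefree -/
theorem rthkf_sqfree_LW (hcond : Squarefree N)
    (hqv : IsTWFamily p Y.ρbar (Y.Smin ∪ Finset.univ.image Y.r) n h qv) :
    Squarefree (N * rthkdM qv) := by
  rw [Nat.squarefree_mul_iff]
  refine ⟨?_, hcond, ?_⟩
  · rw [rthkdM]
    refine Nat.Coprime.prod_right fun j _ => ?_
    exact (Nat.coprime_comm.mp ((Nat.Prime.coprime_iff_not_dvd (hqv.2.1 j).1).mpr
      (rthkf_qv_not_dvdW hqv j)))
  · exact rthkp_sqfree_prod qv hqv.1 (fun j => (hqv.2.1 j).1)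

/-- a prime not dividing `L * p` is prime to `M` -/
theorem rthkf_coprime_MW {ℓ : ℕ} (hℓ : ℓ.Prime)
    (hℓL : ¬ ℓ ∣ (N * rthkdM qv) * p) : Nat.Coprime ℓ (rthkdM (Sum.elim qv Y.r)) := by
  rw [Nat.Prime.coprime_iff_not_dvd hℓ]
  intro hd
  apply hℓL
  exact Dvd.dvd.mul_right (hd.trans (rthkdYM_dvd_LW (Y := Y) (qv := qv))) _

/-- a prime not dividing `L * p` is not a Taylor–Wiles prime -/
theorem rthkf_not_mem_QW {ℓ : ℕ} (hℓL : ¬ ℓ ∣ (N * rthkdM qv) * p) :
    ℓ ∉ List.ofFn qv := by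
  intro hmem
  rw [List.mem_ofFn] at hmem
  obtain ⟨j, rfl⟩ := hmem
  apply hℓL
  exact Dvd.dvd.mul_right (Dvd.dvd.mul_left (rthkd_dvd_M qv j) _) _

theorem rthkf_prod_ofFnW : N * rthkdM qv = N * (List.ofFn qv).prod := by
  rw [List.prod_ofFn]
  rfl

end arith

end Fermat.Agent.S59.LowK

end
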