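import Fermat.Agent.S59.LowK.ConcFinalAW

/-!
# S59 M3/R1, leaf HK-UNIP-W (helper9): the glue at the BIG modulus — definitions and contract

helper4's recipe for `HkUnipJ` (unipotent inertia at the non-rigid primes `q ≠ p` of `Smin`,
`p ∣ q ^ 2 - 1`): K6 (`RT.K6.StmtChiJDiv5`) gives `(σ − 1)(δσ − 1) = 0` at the primes `r ∣ M` of
the MODULUS, and `δ = 1` is a diamond of `c_M(σ)` when the classes at `r` are in `±H`.  So the
non-rigid primes of `Smin` have to divide the modulus: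

* `rthkfTUW Y` : `T` = the primes `q ∈ Y.Smin`, `q ≠ p`, `q ∣ N`, `p ∣ q ^ 2 - 1`;
* `rthkfMUW Y qv` : `M' = rthkdM (Sum.elim qv Y.r) * ∏ q ∈ T, q`;
* `rthkfHUW Y qv n` : `H'' = rthkdH p (Sum.elim qv Y.r) (Sum.elim (n + 1) 1) M' _`: the SAME index
  family `κ = Fin h ⊕ Y.ι` and the same exponents as `rthkfHW`, only the modulus grows (no
  condition at the primes of `T`);
* `rthkfMU_dvdW`, `rthkfT_dvd_MUW`, `rthkfMU_dvd_LW`, `rthkfMU_ne_zeroW`, `rthkfMU_squarefreeW`,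
  `rthkfT_ne_vW`;
* `StmtHkfTrUW p` : the K6 side (`StmtHkfTrW p`) at `(M', H'')`.
-/

set_option autoImplicit false
set_option linter.unusedSectionVars false
set_option linter.style.haveILetI false

noncomputable section

namespace Fermat.Agent.S59.LowK

open Fermat.Agent.RT Fermat.Agent.S59.LowQ
open IsLocalRing Fermat.Agent.ES Fermat.Agent.S30 Fermat.Agent.W1 Fermat.Agent.TW
open Fermat.Agent.ES1 Fermat.Agent.RT.K5 Fermat.Agent.RT.K7F Fermat.Agent.RT.Prod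
open ExtCitation WeierstrassCurve WeierstrassCurve.Affine WeierstrassCurve.Affine.Point
open scoped MatrixGroups

section data

variable {W : WeierstrassCurve ℤ} {p N : ℕ} [hp : Fact p.Prime] (Y : s59lk_KSetupW W p N)
  {h : ℕ} (qv : Fin h → ℕ) (n : ℕ)

open Classical in
/-- `T` : the non-rigid primes of `Smin` in the level -/
def rthkfTUW : Finset ℕ :=
  Y.Smin.filter fun q => q.Prime ∧ q ≠ p ∧ q ∣ N ∧ p ∣ q ^ 2 - 1

theorem rthkf_mem_TUW {q : ℕ} :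
    q ∈ rthkfTUW Y ↔ q ∈ Y.Smin ∧ q.Prime ∧ q ≠ p ∧ q ∣ N ∧ p ∣ q ^ 2 - 1 := by
  classical
  rw [rthkfTUW, Finset.mem_filter]

/-- the big modulus `M' = (∏ qv j) * (∏ r i) * ∏ q ∈ T, q` -/
def rthkfMUW : ℕ := rthkdM (Sum.elim qv Y.r) * ∏ q ∈ rthkfTUW Y, q

theorem rthkfMU_dvdW (x : Fin h ⊕ Y.ι) : Sum.elim qv Y.r x ∣ rthkfMUW Y qv :=
  Dvd.dvd.mul_right (rthkd_dvd_M _ x) _

theorem rthkfT_dvd_MUW {q : ℕ} (hq : q ∈ rthkfTUW Y) : q ∣ rthkfMUW Y qv :=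
  Dvd.dvd.mul_left (Finset.dvd_prod_of_mem _ hq) _

/-- the subgroup `H''` of the glue at the big modulus -/
abbrev rthkfHUW : Subgroup (ZMod (rthkfMUW Y qv))ˣ :=
  rthkdH p (Sum.elim qv Y.r) (Sum.elim (fun _ => n + 1) (fun _ => 1)) (rthkfMUW Y qv)
    (rthkfMU_dvdW Y qv)

variable {Y qv n}

/-- a prime of `T` is none of the primes of the diamonds -/
theorem rthkfT_ne_vW (hqv : IsTWFamily p Y.ρbar (Y.Smin ∪ Finset.univ.image Y.r) n h qv)
    {q : ℕ} (hq : q ∈ rthkfTUW Y) (x : Fin h ⊕ Y.ι) : Sum.elim qv Y.r x ≠ q := by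
  have hqS := ((rthkf_mem_TUW Y).mp hq).1
  rcases x with j | i
  · intro e
    apply (hqv.2.1 j).2.1
    rw [show qv j = q from e]
    exact Finset.mem_union_left _ hqS
  · intro e
    apply rthkdY_r_not_memW (Y := Y) i
    rw [show Y.r i = q from e]
    exact hqS

/-- `(∏ r i) * ∏ q ∈ T, q ∣ N` -/
theorem rthkfT_prod_dvdW : rthkdM Y.r * ∏ q ∈ rthkfTUW Y, q ∣ N := by
  refine Nat.Coprime.mul_dvd_of_dvd_of_dvd ?_ rthkdY_r_prod_dvdW ?_
  · rw [rthkdM]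
    refine Nat.Coprime.prod_left fun i _ => Nat.Coprime.prod_right fun q hq => ?_
    have hq' := (rthkf_mem_TUW Y).mp hq
    refine (Nat.coprime_primes (rthkdY_r_primeW i) hq'.2.1).mpr fun e => ?_
    apply rthkdY_r_not_memW (Y := Y) i
    rw [e]
    exact hq'.1
  · exact Finset.prod_primes_dvd N
      (fun q hq => Nat.prime_iff.mp ((rthkf_mem_TUW Y).mp hq).2.1)
      (fun q hq => ((rthkf_mem_TUW Y).mp hq).2.2.2.1)

/-- **`M' ∣ L`** -/
theorem rthkfMU_dvd_LW : rthkfMUW Y qv ∣ N * rthkdM qv := by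
  rw [rthkfMUW, rthkdM_sum, mul_assoc, mul_comm N]
  exact Nat.mul_dvd_mul_left _ rthkfT_prod_dvdW

theorem rthkfMU_ne_zeroW (hN0 : N ≠ 0)
    (hqv : IsTWFamily p Y.ρbar (Y.Smin ∪ Finset.univ.image Y.r) n h qv) :
    rthkfMUW Y qv ≠ 0 := fun e =>
  rthkdYL_ne_zeroW (Y := Y) hN0 hqv (Nat.eq_zero_of_zero_dvd (e ▸ rthkfMU_dvd_LW (Y := Y)))

/-- **`M'` is squarefree** -/
theorem rthkfMU_squarefreeW (hcond : Squarefree N)
    (hqv : IsTWFamily p Y.ρbar (Y.Smin ∪ Finset.univ.image Y.r) n h qv) :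
    Squarefree (rthkfMUW Y qv) :=
  (rthkf_sqfree_LW hcond hqv).squarefree_of_dvd rthkfMU_dvd_LW

end data

/-- **The K6 side at the big modulus** `M' = rthkfMUW Y qv`, `H'' = rthkfHUW Y qv n`: the
characters and the fields `cong`, `aug`, `trT`, `trQ`, for every family `𝔲` and auxiliary
prime `ℓ₀` (`StmtHkfTrW p` with `(M, H')` replaced by `(M', H'')`). -/
def StmtHkfTrUW (p : ℕ) : Prop :=
  ∀ [Fact p.Prime] (W : WeierstrassCurve ℤ) (N q : ℕ) [NeZero N], W.Δ ≠ 0 →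
    W.IsSemistableModel → W.ModRepIsIrreducible p → Squarefree N → ¬ p ∣ N → q.Prime →
    q ≠ p → q ∣ N → s59lq_Unram W p q → W.IsResiduallyModularOfLevel p N →
    (∀ r : ℕ, r.Prime → r ≠ p → r ∣ N → s59lq_Unram W p r → s59lq_IsTrivialPrime W p r) →
    ∀ (Y : s59lk_KSetupW W p N) (h n : ℕ) (qv : Fin h → ℕ),
      IsTWFamily p Y.ρbar (Y.Smin ∪ Finset.univ.image Y.r) n h qv →
      ∀ (_ : NeZero (N * rthkdM qv))
        (_ : NeZero (rthkfMUW Y qv))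
        (_ : Fact (rthkfMUW Y qv ∣ N * rthkdM qv))
        (𝔲 : NatFam Y.O (N * rthkdM qv) (rthkfMUW Y qv)) (ℓ₀ : ℕ) (_ : NeZero ℓ₀),
      ∃ ψ1 ψχ : RthkdDelta (rthkfMUW Y qv) (rthkfHUW Y qv n) →*
          RthkSn Y.O (Y.m h) (n + 1),
        (∀ δ, Ideal.Quotient.factor
            (le_sup_right : maximalIdeal (RttwS Y.O (Y.m h)) ^ (n + 1) ≤
              rttwLam (Y.m h) Y.lam ⊔ maximalIdeal (RttwS Y.O (Y.m h)) ^ (n + 1)) (ψ1 δ) =
          Ideal.Quotient.factor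
            (le_sup_right : maximalIdeal (RttwS Y.O (Y.m h)) ^ (n + 1) ≤
              rttwLam (Y.m h) Y.lam ⊔ maximalIdeal (RttwS Y.O (Y.m h)) ^ (n + 1)) (ψχ δ)) ∧
        (∀ δ, Ideal.Quotient.factor
            (le_sup_right : maximalIdeal (RttwS Y.O (Y.m h)) ^ (n + 1) ≤
              rttwAug Y.O (Y.m h) ⊔ maximalIdeal (RttwS Y.O (Y.m h)) ^ (n + 1)) (ψ1 δ) = 1) ∧
        (∀ i, ∃ (x : HDAlg (rthkfMUW Y qv))
            (u : (ZMod (rthkfMUW Y qv))ˣ),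
          (∀ k, Rtk7bApprox p
            (es1inftwJ (N * rthkdM qv) (rthkfMUW Y qv) (rthkfHUW Y qv n) p
              (k7ftwChar (rthkfMUW Y qv) (rthkdE p (n + 1))))
            (fun n g => ((cycE p n g : ℕ) : HDAlg (rthkfMUW Y qv))) k
            (Y.σ i) x) ∧
          (∀ ψ ∈ etaPart (thetaN 𝔲 ℓ₀ (RthkdC Y.O (n + 1)) (rthkfHUW Y qv n)),
            es1infHomEval (N * rthkdM qv) (rthkfMUW Y qv) (rthkfHUW Y qv n)
                (Fact.out) p (RthkdC Y.O (n + 1)) x ψ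
              = diamU (N * rthkdM qv) (rthkfMUW Y qv) (rthkfHUW Y qv n)
                  (RthkdC Y.O (n + 1)) u ψ
                + diamU (N * rthkdM qv) (rthkfMUW Y qv) (rthkfHUW Y qv n)
                  (RthkdC Y.O (n + 1)) u⁻¹ ψ) ∧
          ψ1 (QuotientGroup.mk u) = 1 ∧
          ψχ (QuotientGroup.mk u) + ψχ (QuotientGroup.mk u)⁻¹
            = algebraMap Y.O (RthkSn Y.O (Y.m h) (n + 1)) (2 * Y.tχ i)) ∧
        (∀ j : Fin (Y.m h), (j : ℕ) < h → ∃ (g : GQ)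
            (x : HDAlg (rthkfMUW Y qv))
            (u : (ZMod (rthkfMUW Y qv))ˣ),
          (∀ k, Rtk7bApprox p
            (es1inftwJ (N * rthkdM qv) (rthkfMUW Y qv) (rthkfHUW Y qv n) p
              (k7ftwChar (rthkfMUW Y qv) (rthkdE p (n + 1))))
            (fun n g => ((cycE p n g : ℕ) : HDAlg (rthkfMUW Y qv))) k g x) ∧
          (∀ ψ ∈ etaPart (thetaN 𝔲 ℓ₀ (RthkdC Y.O (n + 1)) (rthkfHUW Y qv n)),
            es1infHomEval (N * rthkdM qv) (rthkfMUW Y qv) (rthkfHUW Y qv n)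
                (Fact.out) p (RthkdC Y.O (n + 1)) x ψ
              = diamU (N * rthkdM qv) (rthkfMUW Y qv) (rthkfHUW Y qv n)
                  (RthkdC Y.O (n + 1)) u ψ
                + diamU (N * rthkdM qv) (rthkfMUW Y qv) (rthkfHUW Y qv n)
                  (RthkdC Y.O (n + 1)) u⁻¹ ψ) ∧
          ψ1 (QuotientGroup.mk u) - ψ1 (QuotientGroup.mk u)⁻¹
            = Ideal.Quotient.mk _ (MvPowerSeries.X j) ∧
          ψχ (QuotientGroup.mk u) - ψχ (QuotientGroup.mk u)⁻¹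
            = Ideal.Quotient.mk _ (MvPowerSeries.X j))

end Fermat.Agent.S59.LowK

end
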