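/-
S59, walls M3 / R1, K-machine for a general semistable curve `W`: the `W`-twin of the `setup`
section of `RT/Hecke/Resid.lean` (HK-RES, helper97), over `Y : s59lk_KSetupW W p M`
(`S59/LowK/SetupW.lean`, helper22).  Port ledger: NOTES/S59-LowK.md.

For `Y : s59lk_KSetupW W p M`, `k = ResidueField Y.O`, `c = complexConjugation`:
* (R1) `rthk_r_baseW`     : a base point `σ₀, τ₀` with `ξ(σ₀, τ₀) ≠ 0`;
* (R2) `rthk_r_unipW`     : `ρbar` is unipotent on the inertia groups at EVERY prime `q ≠ p`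
       (field `hunip`; the Frey twin had only `q = 2`);
       `rthk_r_unipSminW` : the hypothesis on `Smin` of `StmtHkAbsL` / K7-U2.  The numerical part
       `¬ p ∣ r ^ 2 − 1` for the primes `r ≠ p` of `Smin` is NOT automatic for a general curve
       (it fails for `(p, r) = (3, 2)`): it is a HYPOTHESIS `hpr` of the twin;
* (R3) `rthk_r_detW`, `rthk_r_irrW` : determinant and irreducibility in the form of `StmtK7Main`;
* (R4) `rthk_r_nonEisW`   : for every finite `S` there is a prime `ℓ₀ ∉ S` with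
                            `tr ρbar(Frob) ≠ ℓ₀ + 1` for all Frobenius elements at `ℓ₀`
                            (needs `W.Δ ≠ 0`, which is not a field of the setup);
* `rthk_r_resW`           : the twin of `stmtHkRes` (contents of `StmtHkRes` for `Y`).
The general forms `rthkr_*` of `RT/Hecke/Resid.lean` are used as they are.
-/
import Fermat.Agent.S59.LowK.SetupW
import Fermat.Agent.RT.Hecke.Resid

set_option autoImplicit false
set_option linter.unusedSectionVars false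
set_option linter.unusedVariables false
set_option linter.style.haveILetI false

noncomputable section

namespace Fermat.Agent.S59.LowK

open IsLocalRing Polynomial Fermat.Agent.S36 Fermat.Agent.RT Fermat.Agent.RT.Prod Fermat.Agent.ES

section setup

variable {W : WeierstrassCurve ℤ} {p M : ℕ} [hp : Fact p.Prime] (Y : s59lk_KSetupW W p M)

/-- `2 · (1/2) = 1` in the residue field -/
theorem rthk_r_halfW : 2 * residue Y.O Y.half = 1 := by
  have h := Y.h2.unit.mul_inv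
  rw [IsUnit.unit_spec] at h
  have h' := congrArg (residue Y.O) h
  rw [map_mul, map_one] at h'
  have h2' : residue Y.O (2 : Y.O) = 2 := map_ofNat _ 2
  rw [h2'] at h'
  exact h'

/-- **(R1)** the base point of a setup -/
theorem rthk_r_baseW : ∃ σ₀ τ₀ : GQ,
    rtk7Xi (fun g => LinearMap.trace (ResidueField Y.O) Y.ρbar.V (Y.ρbar.ρ g))
      complexConjugation (residue Y.O Y.half) σ₀ τ₀ ≠ 0 :=
  rthkr_base Y.ρbar p Y.hyp.habs Y.hyp.hdet _ (rthk_r_halfW Y)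

/-- **(R2)** `ρbar` is unipotent on the inertia groups at every prime `q ≠ p` -/
theorem rthk_r_unipW {q : ℕ} (hq : q.Prime) (hqp : q ≠ p)
    (A : ValuationSubring (AlgebraicClosure ℚ)) (hA : A.LiesOverPrime q)
    (s : GQ) (hs : s ∈ A.inertiaSubgroupIn ℚ) :
    LinearMap.charpoly (Y.ρbar.ρ s) = (Polynomial.X - 1) ^ 2 :=
  Y.hunip q hq hqp A hA s hs

/-- **(R2)** in the form of `StmtHkAbsL` / K7-U2; the numerical part is a hypothesis. -/
theorem rthk_r_unipSminW (hpr : ∀ r ∈ Y.Smin, r.Prime → r ≠ p → ¬ p ∣ r ^ 2 - 1) :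
    ∀ r ∈ Y.Smin, r.Prime → r ≠ p → ¬ p ∣ r ^ 2 - 1 ∧
      ∀ A : ValuationSubring (AlgebraicClosure ℚ), A.LiesOverPrime r →
        ∀ s ∈ A.inertiaSubgroupIn ℚ,
          LinearMap.charpoly (Y.ρbar.ρ s) = (Polynomial.X - 1) ^ 2 :=
  fun r hr hrp hrne => ⟨hpr r hr hrp hrne, Y.hunip r hrp hrne⟩

/-- the numerical part of `rthk_r_unipSminW` is automatic for `p ≥ 5` when `Smin ⊆ {2, 3, p}`
(`p ∤ 3 = 2² − 1` and `p ∤ 8 = 3² − 1`). -/
theorem rthk_r_numW_of_subset (h5 : 5 ≤ p) (hS : Y.Smin ⊆ {2, 3, p}) :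
    ∀ r ∈ Y.Smin, r.Prime → r ≠ p → ¬ p ∣ r ^ 2 - 1 := by
  intro r hr _ hrne hdvd
  have := hS hr
  simp only [Finset.mem_insert, Finset.mem_singleton] at this
  rcases this with rfl | rfl | rfl
  · have := Nat.le_of_dvd (by norm_num) hdvd
    omega
  · have h8 : p ∣ 8 := by simpa using hdvd
    have hp2 : p ∣ 2 := hp.out.dvd_of_dvd_pow (n := 3) (by simpa using h8)
    have := Nat.le_of_dvd (by norm_num) hp2
    omega
  · exact hrne rfl

/-- **(R3)** the determinant of `ρbar` -/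
theorem rthk_r_detW (s : GQ) (a : ℕ)
    (h : ∀ μ : AlgebraicClosure ℚ, μ ^ p = 1 → s μ = μ ^ a) :
    LinearMap.det (Y.ρbar.ρ s) = (a : ResidueField Y.O) :=
  rthkr_det Y.ρbar p Y.hyp.hdet s a h

/-- **(R3)** `ρbar` is irreducible -/
theorem rthk_r_irrW : Y.ρbar.IsIrreducible := rthkr_irr Y.ρbar Y.hyp.habs

/-- **(R4)** a non-Eisenstein prime: for every finite `S` there is a prime `ℓ₀ ∉ S`, `ℓ₀ ≠ p`,
of good reduction, with `a_ℓ₀ ≢ ℓ₀ + 1`; the trace of every Frobenius element at `ℓ₀` is then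
different from `ℓ₀ + 1`. -/
theorem rthk_r_nonEisW (hΔ : W.Δ ≠ 0) (hcheb : Cheb.WeakChebotarev) (S : Finset ℕ) :
    ∃ ℓ₀ : ℕ, ℓ₀.Prime ∧ ℓ₀ ∉ S ∧ ℓ₀ ≠ p ∧ W.IsGoodPrimeFor ℓ₀ ∧
      ((W.apOfModel ℓ₀ : ℤ) : ResidueField Y.O) ≠ (ℓ₀ : ResidueField Y.O) + 1 ∧
      ∀ 𝔄 : ValuationSubring (AlgebraicClosure ℚ), 𝔄.LiesOverPrime ℓ₀ →
        ∀ τ : GQ, 𝔄.IsFrobeniusAt τ ℓ₀ →
          LinearMap.trace (ResidueField Y.O) Y.ρbar.V (Y.ρbar.ρ τ)
            ≠ (ℓ₀ : ResidueField Y.O) + 1 := by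
  have hgood : ∀ ℓ : ℕ, ℓ.Prime → ℓ ∉ insert p W.Δ.natAbs.primeFactors →
      ℓ ≠ p ∧ W.IsGoodPrimeFor ℓ := by
    intro ℓ hℓ hmem
    rw [Finset.mem_insert, not_or] at hmem
    refine ⟨hmem.1, fun hdvd => hmem.2 ?_⟩
    rw [Nat.mem_primeFactors]
    exact ⟨hℓ, Int.natCast_dvd.mp hdvd, fun h0 => hΔ (Int.natAbs_eq_zero.mp h0)⟩
  obtain ⟨ℓ₀, hℓ₀, hℓ₀S, hℓ₀S₀, hne⟩ := rthkr_nonEis Y.ρbar p hcheb Y.hyp.habs Y.hyp.hdet _
    (rthk_r_halfW Y) (insert p W.Δ.natAbs.primeFactors)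
    (fun ℓ => ((W.apOfModel ℓ : ℤ) : ResidueField Y.O))
    (fun ℓ hℓ hℓS 𝔄 h𝔄 τ hτ =>
      Y.hbar ℓ hℓ (hgood ℓ hℓ hℓS).1 (hgood ℓ hℓ hℓS).2 𝔄 h𝔄 τ hτ) S
  refine ⟨ℓ₀, hℓ₀, hℓ₀S, (hgood ℓ₀ hℓ₀ hℓ₀S₀).1, (hgood ℓ₀ hℓ₀ hℓ₀S₀).2, hne, ?_⟩
  intro 𝔄 h𝔄 τ hτ
  rw [Fermat.Agent.S31.trace_of_charpoly Y.ρbar.finrank_eq _ _ _
    (Y.hbar ℓ₀ hℓ₀ (hgood ℓ₀ hℓ₀ hℓ₀S₀).1 (hgood ℓ₀ hℓ₀ hℓ₀S₀).2 𝔄 h𝔄 τ hτ)]
  exact hne

/-- **HK-RES for `W`**: the contents of `StmtHkRes` for a setup of a general curve. -/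
theorem rthk_r_resW :
    (∃ σ₀ τ₀ : GQ,
      rtk7Xi (fun g => LinearMap.trace (ResidueField Y.O) Y.ρbar.V (Y.ρbar.ρ g))
        complexConjugation (residue Y.O Y.half) σ₀ τ₀ ≠ 0) ∧
    ∀ q : ℕ, q.Prime → q ≠ p →
      ∀ A : ValuationSubring (AlgebraicClosure ℚ), A.LiesOverPrime q →
        ∀ s ∈ A.inertiaSubgroupIn ℚ,
          LinearMap.charpoly (Y.ρbar.ρ s) = (Polynomial.X - 1) ^ 2 :=
  ⟨rthk_r_baseW Y, Y.hunip⟩

end setup

end Fermat.Agent.S59.LowK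

end
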