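/-
S59, walls M3 / R1 (K-machine for a general semistable `W`): the `W`-twin of
`RT/Hecke/PlanFinal.lean` (helper59; ledger NOTES/S59-LowK.md, depth 3).

* `StmtHkPackW p` : twin of `StmtHkPack` (HECKE-PACK): `HkOut` at level `n` gives `Prod.TWGal` at
  level `n` over a setup for `W`;
* `StmtHkResW p`  : twin of `StmtHkRes` (HK-RES): a base point `σ₀, τ₀` with `ξ(σ₀, τ₀) ≠ 0` and
  unipotency of `ρ̄` on the inertia groups at every prime `q ≠ p`;
  PROVED: `stmtHkResW` (from helper22's `rthk_r_resW`, `S59/LowK/ResidW.lean`).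
-/
import Fermat.Agent.S59.LowK.PlanW
import Fermat.Agent.S59.LowK.ResidW

set_option autoImplicit false
set_option linter.unusedSectionVars false
set_option linter.unusedVariables false
set_option linter.style.longLine false

namespace Fermat.Agent.S59.LowK

open IsLocalRing Fermat.Agent.ES Fermat.Agent.S30 Fermat.Agent.W1 Fermat.Agent.TW
open Fermat.Agent.RT Fermat.Agent.RT.Prod Fermat.Agent.S59.LowQ ExtCitation
open WeierstrassCurve WeierstrassCurve.Affine WeierstrassCurve.Affine.Point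

/-- **HECKE-PACK for `W`** (the twin of `StmtHkPack`). -/
def StmtHkPackW (p : ℕ) : Prop :=
  ∀ [Fact p.Prime] (W : WeierstrassCurve ℤ) (M : ℕ) [NeZero M] (Y : s59lk_KSetupW W p M)
    (h d n : ℕ) (Q : Finset ℕ)
    (T0 : Type) [CommRing T0] [Algebra Y.O T0]
    (j0 : T0 →ₐ[Y.O] Matrix (Fin d) (Fin d) Y.O)
    (Sig0 Phi0 : Y.ι → Matrix (Fin 2) (Fin 2) T0)
    (A₀ : Type) [CommRing A₀] [IsLocalRing A₀] [Algebra Y.O A₀]
    (ιA : ResidueField Y.O →+* ResidueField A₀)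
    (ρ : GaloisRepAdic A₀) (b : Module.Basis (Fin 2) A₀ ρ.V)
    (φ1 φχ : A₀ →ₐ[Y.O] Matrix (Fin d) (Fin d) (RthkSn Y.O (Y.m h) n)),
    HkOut p Y.lam Y.ρbar Y.Smin (Q ∪ Finset.univ.image Y.r) Y.σ Y.φ Y.tχ (Y.m h) h d n j0
      Sig0 Phi0 ιA ρ b φ1 φχ →
    ∃ (A : Type) (_ : CommRing A) (_ : IsLocalRing A) (_ : Algebra Y.O A)
      (ιA' : ResidueField Y.O →+* ResidueField A) (ρ' : GaloisRepAdic A)
      (b' : Module.Basis (Fin 2) A ρ'.V) (β βi : ℕ → Matrix (Fin 2) (Fin 2) A)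
      (π1 πχ : A →ₐ[Y.O] Matrix (Fin d) (Fin d)
        (RttwS Y.O (Y.m h) ⧸ maximalIdeal (RttwS Y.O (Y.m h)) ^ n)),
      TWGal p Y.ρbar Y.Smin Q Y.r Y.σ Y.φ Y.tχ Y.lam (Y.m h) d j0 Sig0 Phi0 n
        (rttwEvenQ Y.O (Y.m h) h n) ιA' ρ' b' β βi π1 πχ

/-- **HK-RES for `W`** (the twin of `StmtHkRes`). -/
def StmtHkResW (p : ℕ) : Prop :=
  ∀ [Fact p.Prime] (W : WeierstrassCurve ℤ) (M : ℕ) [NeZero M] (Y : s59lk_KSetupW W p M),
    (∃ σ₀ τ₀ : GQ,
      rtk7Xi (fun g => LinearMap.trace (ResidueField Y.O) Y.ρbar.V (Y.ρbar.ρ g))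
        complexConjugation (residue Y.O Y.half) σ₀ τ₀ ≠ 0) ∧
    ∀ q : ℕ, q.Prime → q ≠ p →
      ∀ A : ValuationSubring (AlgebraicClosure ℚ), A.LiesOverPrime q →
        ∀ s ∈ A.inertiaSubgroupIn ℚ,
          LinearMap.charpoly (Y.ρbar.ρ s) = (Polynomial.X - 1) ^ 2

/-- **HK-RES for `W`**, PROVED (helper22's `rthk_r_resW`). -/
theorem stmtHkResW (p : ℕ) : StmtHkResW p := by
  intro _ W M _ Y
  exact rthk_r_resW Y

end Fermat.Agent.S59.LowK
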