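/-
S59, walls M3 / R1 (K-machine for a general semistable `W`): the `W`-twin of
`RT/Hecke/Final.lean` (helper59; ledger NOTES/S59-LowK.md, depth 4): the final assembly

`rthk_finalW : WeakChebotarev → StmtHkAbsBW p → StmtHkAbsLW → StmtHkPackW p → StmtHkResW p →
  StmtHkModSideW p → StmtHeckeW p`.

Difference with the Frey twin: the unipotency at the NON-RIGID primes of `Smin`
(`p ∣ q ^ 2 - 1`) needed by HK-ABS-L comes from the module side (`HkUnipJ`, an output of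
`StmtHkModSideW`); at the rigid primes it comes from K7-U2 and `Y.hunip`, as before.
-/
import Fermat.Agent.S59.LowK.PlanFinalW
import Fermat.Agent.RT.Hecke.Down
import Fermat.Agent.S31.Lucas

set_option autoImplicit false
set_option linter.unusedSectionVars false
set_option linter.unusedVariables false
set_option linter.style.longLine false

namespace Fermat.Agent.S59.LowK

open IsLocalRing Fermat.Agent.ES Fermat.Agent.S30 Fermat.Agent.W1 Fermat.Agent.TW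
open Fermat.Agent.RT Fermat.Agent.RT.Prod Fermat.Agent.S59.LowQ ExtCitation
open WeierstrassCurve WeierstrassCurve.Affine WeierstrassCurve.Affine.Point

/-- `2 * (1/2) = 1` in a setup -/
theorem rthk_f_halfW {W : WeierstrassCurve ℤ} {p M : ℕ} (Y : s59lk_KSetupW W p M) :
    2 * Y.half = 1 := by
  have h := Y.h2.unit.mul_inv
  rw [IsUnit.unit_spec] at h
  exact h

/-- **HECKE-final for `W`.** -/
theorem rthk_finalW (p : ℕ) (hcheb : Cheb.WeakChebotarev) (hB : StmtHkAbsBW p)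
    (hL : StmtHkAbsLW) (hPack : StmtHkPackW p) (hRes : StmtHkResW p)
    (hMod : StmtHkModSideW p) : StmtHeckeW p := by
  intro _ W M q _ hΔ hss hirr hsq hpM hq hqp hqM hunr hmod htriv Y h
  obtain ⟨⟨σ₀, τ₀, hξ⟩, hunip⟩ := hRes W M Y
  obtain ⟨d, hd, S', hpS', hNS', 𝕋₀, i1, J₀, i2, i3, i4, Tr₀, Φ0, hbase, hlev⟩ :=
    hMod W M q hΔ hss hirr hsq hpM hq hqp hqM hunr hmod htriv Y h
  obtain ⟨B⟩ := hB hcheb W M Y d hd σ₀ τ₀ hξ S' hpS' hNS' 𝕋₀ J₀ Tr₀ Φ0 hbase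
  refine ⟨{ d := d, hd := hd, T0 := B.T0, j0 := B.j0, hj0 := B.hj0, ρ0 := B.ρ0, b0 := B.b0,
            hdet0 := B.hdet0, ι0 := B.ι0, hres0 := B.hres0, habs0 := B.habs0, S' := S',
            hpS' := B.hpS', hNS' := B.hNS', a := B.a, hocc := B.hocc, hcong := B.hcong,
            hfrob := B.hfrob, level := ?_ }⟩
  intro n qv hqv
  obtain ⟨L, 𝕋, j1, J, j2, j3, j4, Tr, Φ1, Φχ, hlevel, hUJ⟩ := hlev n qv hqv
  have htrace : ∀ ℓ : ℕ, ℓ.Prime → ℓ ∉ S' →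
      ∀ A : ValuationSubring (AlgebraicClosure ℚ), A.LiesOverPrime ℓ →
        ∀ τ : GQ, A.IsFrobeniusAt τ ℓ →
          B.j0 (LinearMap.trace B.T0 B.ρ0.V (B.ρ0.ρ τ)) = Φ0 (Tr₀ ℓ) := by
    intro ℓ hℓ hℓS A hA τ hτ
    have h1 := B.hfrob ⟨ℓ, hℓ⟩ hℓS A hA τ hτ
    rw [Fermat.Agent.S31.trace_of_charpoly B.ρ0.finrank_eq (B.ρ0.ρ τ) _ _ h1]
    exact B.ha0 ⟨ℓ, hℓ⟩ hℓS
  obtain ⟨A₀, k1, k2, k3, ιA, ρ, b, φ1, φχ, hout⟩ :=
    hL hcheb p Y.hyp.hp2 Y.O Y.lam Y.half Y.hlam Y.hyp.hp𝒪 (rthk_f_halfW Y) Y.ρbar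
      Y.hyp.habs Y.hyp.hdet Y.Smin (Finset.univ.image qv ∪ Finset.univ.image Y.r)
      (fun r _ hrp hrne => hunip r hrp hrne)
      Y.ι Y.σ Y.φ Y.tχ (Y.m h) h d (n + 1) hd (Nat.succ_pos n) σ₀ τ₀ hξ B.T0 B.j0 B.ρ0 B.b0
      B.u0 B.hdet0 B.hmat B.hu0 S' (fun ℓ => Φ0 (Tr₀ ℓ)) htrace L 𝕋 J Tr Φ1 Φχ hlevel hUJ
  have hdown := rthk_d_out (n := n) (Nat.le_succ n) hout
  exact hPack W M Y h d n (Finset.univ.image qv) B.T0 B.j0 _ _ A₀ ιA ρ b _ _ hdown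

end Fermat.Agent.S59.LowK
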