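/-
S59, walls M3 / R1 (K-machine for a general semistable `W`): the `W`-twin of
`RT/Hecke/ConcTop.lean` (helper59; ledger NOTES/S59-LowK.md, depth 5): the top of the module side.

* `StmtHkConcTopW p` : twin of `StmtHkConcTop` (the concrete contract: `HkBase` + for every
  Taylor–Wiles family a concrete level with `HkConcSide`), with ONE more output: `HkUnipJ`
  (the inertia groups at the primes `q ≠ p` of `Smin` act unipotently on `J[p^∞]`);
* `rthkct_modSideW : StmtHkConcTopW p → StmtHkModSideW p`;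
* **`rthkct_heckeW : StmtHkAbsBW p → StmtHkPackW p → StmtHkConcTopW p → StmtHeckeW p`**
  (`Cheb.weakChebotarev_holds`, `stmtHkAbsLW`, `stmtHkResW` filled in).
-/
import Fermat.Agent.RT.Hecke.ConcSide
import Fermat.Agent.Cheb.Final
import Fermat.Agent.S59.LowK.AbsLW
import Fermat.Agent.S59.LowK.FinalW

set_option autoImplicit false
set_option linter.unusedSectionVars false
set_option linter.unusedVariables false
set_option linter.style.haveILetI false
set_option linter.style.longLine false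

noncomputable section

namespace Fermat.Agent.S59.LowK

open IsLocalRing Fermat.Agent.ES Fermat.Agent.S30 Fermat.Agent.W1 Fermat.Agent.TW
open Fermat.Agent.ES1 Fermat.Agent.RT Fermat.Agent.RT.K5 Fermat.Agent.RT.Prod
open Fermat.Agent.S59.LowQ
open ExtCitation WeierstrassCurve WeierstrassCurve.Affine WeierstrassCurve.Affine.Point
open scoped MatrixGroups

/-- **HK-CONC for `W`, the concrete contract**: the module side in terms of the `Θ`-parts of
`Hom(Γ_{H'}(L), 𝒪 ⧸ 𝔪ⁿ⁺¹)`, with unipotent inertia at the primes of `Smin`. -/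
def StmtHkConcTopW (p : ℕ) : Prop :=
  ∀ [Fact p.Prime] (W : WeierstrassCurve ℤ) (M q : ℕ) [NeZero M], W.Δ ≠ 0 →
    W.IsSemistableModel → W.ModRepIsIrreducible p → Squarefree M → ¬ p ∣ M → q.Prime →
    q ≠ p → q ∣ M → s59lq_Unram W p q → W.IsResiduallyModularOfLevel p M →
    (∀ r : ℕ, r.Prime → r ≠ p → r ∣ M → s59lq_Unram W p r → s59lq_IsTrivialPrime W p r) →
    ∀ (Y : s59lk_KSetupW W p M) (h : ℕ),
      ∃ (d : ℕ) (_ : 0 < d) (S' : Finset ℕ) (_ : p ∈ S')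
        (_ : ∀ ℓ : ℕ, ℓ.Prime → ℓ ∣ M → ℓ ∈ S')
        (𝕋₀ : Type) (_ : CommRing 𝕋₀) (J₀ : Type) (_ : AddCommGroup J₀) (_ : Module 𝕋₀ J₀)
        (_ : DistribMulAction GQ J₀) (Tr₀ : ℕ → 𝕋₀)
        (Φ0 : 𝕋₀ →+* Matrix (Fin d) (Fin d) Y.O),
        HkBase p Y.ρbar M S' d J₀ Tr₀ Φ0 ∧
        ∀ (n : ℕ) (qv : Fin h → ℕ),
          IsTWFamily p Y.ρbar (Y.Smin ∪ Finset.univ.image Y.r) n h qv →
          ∃ (L M' : ℕ) (_ : NeZero L) (_ : NeZero M') (_ : Fact (M' ∣ L))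
            (𝔲 : NatFam Y.O L M') (ℓ₀ : ℕ) (_ : NeZero ℓ₀) (H' : Subgroup (ZMod M')ˣ)
            (J : Type) (_ : AddCommGroup J) (_ : Module (HDAlg M') J)
            (_ : DistribMulAction GQ J) (Tr : ℕ → HDAlg M')
            (b : Fin d → rthkdX 𝔲 ℓ₀ H' (n + 1))
            (ψ1 ψχ : RthkdDelta M' H' →* RthkSn Y.O (Y.m h) (n + 1)),
            HkConcSide p Y.lam Y.ρbar
              (Y.Smin ∪ (Finset.univ.image qv ∪ Finset.univ.image Y.r)) Y.σ Y.tχ (Y.m h) h d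
              (n + 1) (fun ℓ => Φ0 (Tr₀ ℓ)) L M' 𝔲 ℓ₀ H' J Tr b ψ1 ψχ ∧
            HkUnipJ p Y.Smin J

/-- **HK-CONC for `W`**: the concrete contract gives the module side. -/
theorem rthkct_modSideW (p : ℕ) (hTop : StmtHkConcTopW p) : StmtHkModSideW p := by
  intro _ W M q _ hΔ hss hirr hsq hpM hq hqp hqM hunr hmod htriv Y h
  obtain ⟨d, hd, S', hpS', hNS', 𝕋₀, i1, J₀, i2, i3, i4, Tr₀, Φ0, hbase, hlev⟩ :=
    hTop W M q hΔ hss hirr hsq hpM hq hqp hqM hunr hmod htriv Y h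
  refine ⟨d, hd, S', hpS', hNS', 𝕋₀, i1, J₀, i2, i3, i4, Tr₀, Φ0, hbase, ?_⟩
  intro n qv hqv
  obtain ⟨L, M', j1, j2, j3, 𝔲, ℓ₀, j4, H', J, j5, j6, j7, Tr, b, ψ1, ψχ, hside, hUJ⟩ :=
    hlev n qv hqv
  letI := rthkcaAlg Y.O (Y.m h) (n + 1)
  haveI := rthkca_tower Y.O (Y.m h) (n + 1)
  have hconc := rthk_conc_side hside
  have hW := rthk_conc hconc
  exact ⟨L, _, _, J, _, _, _, _, _, _, rthk_sub hW, hUJ⟩

/-- **HECKE-asm for `W` from the concrete contract** (`Cheb.weakChebotarev_holds`,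
`stmtHkAbsLW`, `stmtHkResW` filled in; HK-ABS-B and HECKE-PACK for `W` are inputs). -/
theorem rthkct_heckeW (p : ℕ) (hB : StmtHkAbsBW p) (hPack : StmtHkPackW p)
    (hTop : StmtHkConcTopW p) : StmtHeckeW p :=
  rthk_finalW p Fermat.Agent.Cheb.weakChebotarev_holds hB stmtHkAbsLW hPack (stmtHkResW p)
    (rthkct_modSideW p hTop)

end Fermat.Agent.S59.LowK

end
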