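import Fermat.Agent.S59.LowK.ConcFinalPlanUW
import Fermat.Agent.S59.LowK.ConcFinalBW
import Fermat.Agent.S59.LowK.ConcTopW

/-!
# S59 M3/R1, leaf HK-UNIP-W (helper9): the final glue at the BIG modulus

`rthkf_topUW : 5 ≤ p → K7F.StmtFlatH → StmtHkfK5'W p → StmtHkfTrUW p → StmtHkfUnipUW p →
  StmtHkConcTopW p`.

The glue of `ConcFinalW.lean` / `ConcFinalBW.lean` with the level `(L, M, H')` replaced by
`(L, M', H'')`, `M' = rthkfMUW Y qv`, `H'' = rthkfHUW Y qv n` (`ConcFinalPlanUW.lean`): the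
non-rigid primes of `Smin` divide the modulus `M'`, so that `StmtHkfUnipUW p` (= helper59's
`HkUnipJ` for the concrete `J = es1inftwJ L M' H'' p χ`) follows from K6 (`ConcUnipUW.lean`).

* the K5 side is the contract `StmtHkfK5'W p` UNCHANGED (it does not see the modulus);
* `resid` from the base by `rthkra_resid_field`; `pkg`, `model` from the generic `rthkp_pkg`,
  `rthkp_model` and `rthkgb_k7fLevel`; the index of `FreeHyp` from `rthkgb_freeHyp_index`.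
-/

set_option autoImplicit false
set_option linter.unusedSectionVars false
set_option linter.style.haveILetI false

noncomputable section

namespace Fermat.Agent.S59.LowK

open Fermat.Agent.RT Fermat.Agent.S59.LowQ
open IsLocalRing Fermat.Agent.ES Fermat.Agent.S30 Fermat.Agent.W1 Fermat.Agent.TW
open Fermat.Agent.ES1 Fermat.Agent.RT.K5 Fermat.Agent.RT.K7F Fermat.Agent.RT.Prod
open ExtCitation WeierstrassCurve WeierstrassCurve.Affine WeierstrassCurve.Affine.Point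
open scoped MatrixGroups

/-- **The unipotency side at the big modulus**: helper59's `HkUnipJ p Y.Smin J` for the concrete
`J = es1inftwJ L M' H'' p χ` of the glue `rthkf_topUW`. -/
def StmtHkfUnipUW (p : ℕ) : Prop :=
  ∀ [Fact p.Prime] (W : WeierstrassCurve ℤ) (N q : ℕ) [NeZero N], W.Δ ≠ 0 →
    W.IsSemistableModel → W.ModRepIsIrreducible p → Squarefree N → ¬ p ∣ N → q.Prime →
    q ≠ p → q ∣ N → s59lq_Unram W p q → W.IsResiduallyModularOfLevel p N →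
    (∀ r : ℕ, r.Prime → r ≠ p → r ∣ N → s59lq_Unram W p r → s59lq_IsTrivialPrime W p r) →
    ∀ (Y : s59lk_KSetupW W p N) (h n : ℕ) (qv : Fin h → ℕ),
      IsTWFamily p Y.ρbar (Y.Smin ∪ Finset.univ.image Y.r) n h qv →
      ∀ (_ : NeZero (N * rthkdM qv)) (_ : NeZero (rthkfMUW Y qv))
        (_ : Fact (rthkfMUW Y qv ∣ N * rthkdM qv)),
        HkUnipJ p Y.Smin
          (es1inftwJ (N * rthkdM qv) (rthkfMUW Y qv) (rthkfHUW Y qv n) p
            (k7ftwChar (rthkfMUW Y qv) (rthkdE p (n + 1))))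

section arith

variable {W : WeierstrassCurve ℤ} {p N : ℕ} [hp : Fact p.Prime] {Y : s59lk_KSetupW W p N}
  {h n : ℕ} {qv : Fin h → ℕ}

/-- a prime not dividing `L * p` is prime to `M'` -/
theorem rthkf_coprime_MUW {ℓ : ℕ} (hℓ : ℓ.Prime)
    (hℓL : ¬ ℓ ∣ (N * rthkdM qv) * p) : Nat.Coprime ℓ (rthkfMUW Y qv) := by
  rw [Nat.Prime.coprime_iff_not_dvd hℓ]
  intro hd
  apply hℓL
  exact Dvd.dvd.mul_right (hd.trans (rthkfMU_dvd_LW (Y := Y) (qv := qv))) _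

/-- **`K7FLevel`** at the big modulus -/
theorem rthkf_k7fLevelUW {q : ℕ} (hp5 : 5 ≤ p) (hcond : Squarefree N) (hN0 : N ≠ 0)
    (hpN : ¬ p ∣ N) (hq : q.Prime) (hqN : q ∣ N)
    (hqv : IsTWFamily p Y.ρbar (Y.Smin ∪ Finset.univ.image Y.r) n h qv) :
    K7FLevel (N * rthkdM qv) (rthkfMUW Y qv) (rthkfHUW Y qv n) p :=
  have H := rthkgi_hypW (Y := Y) (qv := qv) (n := n) hp5 hN0 hpN hq hqN hqv
  rthkgb_k7fLevel (rthkgs_two_le_L H) rthkfMU_dvd_LW hp.out (rthkgs_hp2 H)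
    (rthkgs_not_dvd_L H) (Or.inl hp5) (rthkfMU_squarefreeW hcond hqv) (rthkgs_hv H)
    (rthkgs_hvp H) (rthkgs_hk H) _

/-- the index of `FreeHyp` at the big modulus -/
theorem rthkf_freeHyp_indexUW {q : ℕ} (hp5 : 5 ≤ p) (hN0 : N ≠ 0)
    (hpN : ¬ p ∣ N) (hq : q.Prime) (hqN : q ∣ N)
    (hqv : IsTWFamily p Y.ρbar (Y.Smin ∪ Finset.univ.image Y.r) n h qv) :
    ((pmH (rthkfHUW Y qv n)).subgroupOf (pmH ⊤)).index
      = p ^ (h * (n + 1) + Fintype.card Y.ι) := by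
  have H := rthkgi_hypW (Y := Y) (qv := qv) (n := n) hp5 hN0 hpN hq hqN hqv
  rw [← rthkgs_sum_k h Y.ι n]
  exact rthkgb_freeHyp_index hp.out (rthkgs_hp2 H) (rthkgs_hv H) (rthkgs_hvp H) (rthkgs_hk H)
    (rthkfMU_ne_zeroW hN0 hqv) _

end arith

/-- **HK-CONC for `W`, the final glue at the big modulus.** -/
theorem rthkf_topUW {p : ℕ} (hp5 : 5 ≤ p) (hflat : StmtFlatH) (hK5 : StmtHkfK5'W p)
    (hTr : StmtHkfTrUW p) (hU : StmtHkfUnipUW p) : StmtHkConcTopW p := by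
  intro hp W N q _ hΔ hss hirr hcond hpN hq hqp hqN hun hmod htriv Y h
  obtain ⟨M₀, iM₀, iM₀N, r, hr, c, a, S', hpS', hNS', 𝕋₀, i1, J₀, i2, i3, i4, Tr₀, Φ0, hbase,
    hS', hmat, hlev⟩ := hK5 W N q hΔ hss hirr hcond hpN hq hqp hqN hun hmod htriv Y h
  refine ⟨2 ^ h * r, Nat.mul_pos (pow_pos two_pos h) hr, S', hpS', hNS', 𝕋₀, i1, J₀, i2, i3,
    i4, Tr₀, Φ0, hbase, fun n qv hqv => ?_⟩
  have hN0 : N ≠ 0 := NeZero.ne N
  haveI iL : NeZero (N * rthkdM qv) := ⟨rthkdYL_ne_zeroW hN0 hqv⟩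
  -- the K5 side (its binders are at the small modulus, which it does not use)
  obtain ⟨e, ℓ₀, iℓ₀, heP, hℓ₀, hℓ₀N, hℓ₀p, havoid, hTW, hbasis⟩ :=
    hlev n qv hqv iL ⟨rthkdYM_ne_zeroW hqv⟩ ⟨rthkdYM_dvd_LW (Y := Y) (qv := qv)⟩
  haveI iM : NeZero (rthkfMUW Y qv) := ⟨rthkfMU_ne_zeroW hN0 hqv⟩
  haveI iML : Fact (rthkfMUW Y qv ∣ N * rthkdM qv) := ⟨rthkfMU_dvd_LW (Y := Y) (qv := qv)⟩
  -- `ℓ₀ ∤ L`
  have hℓ₀L : ¬ ℓ₀ ∣ N * rthkdM qv := by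
    intro hd
    rcases (Nat.Prime.dvd_mul hℓ₀).mp hd with h1 | h1
    · exact hℓ₀N h1
    · obtain ⟨j, -, hj⟩ := Finset.mem_image.mp (rthkdY_dvd_prod_qvW hqv hℓ₀ h1)
      exact (havoid j).1 hj
  -- the twisted expression
  have hQ : ∀ q' ∈ List.ofFn qv, q'.Prime ∧ ¬ q' ∣ N ∧ q' ≠ ℓ₀ ∧ e.Avoids q' := by
    intro q' hq'
    rw [List.mem_ofFn] at hq'
    obtain ⟨j, rfl⟩ := hq'
    exact ⟨(hqv.2.1 j).1, rthkf_qv_not_dvdW hqv j, (havoid j).1, (havoid j).2⟩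
  have hnd : (List.ofFn qv).Nodup := List.nodup_ofFn.mpr hqv.1
  have hEP : (e.twist (List.ofFn qv)).IsPrimes :=
    HExpr.isPrimes_twist heP (fun q' hq' => (hQ q' hq').1)
  -- `FreeHyp`
  have hidx := rthkf_freeHyp_indexUW (Y := Y) (qv := qv) (n := n) hp5 hN0 hpN hq hqN hqv
  have hyp : FreeHyp p Y.O (N * rthkdM qv) (rthkfMUW Y qv) ℓ₀ (rthkfHUW Y qv n) ⊤
      (h * (n + 1) + Fintype.card Y.ι) :=
    k5nt_freeHyp hp.out hp5 Y.hyp.hp𝒪 _ _ ℓ₀ hℓ₀ hℓ₀L le_top _ hidx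
  -- `free` and `base`
  obtain ⟨b, free, hbmat⟩ := rthkcf_X p Y.O N M₀ ℓ₀ e hℓ₀ hℓ₀N (List.ofFn qv) h
    (List.length_ofFn) hnd hQ (N * rthkdM qv) (rthkfMUW Y qv) rthkf_prod_ofFnW
    (rthkfHUW Y qv n) _ hyp (n + 1) (Nat.succ_pos n) hTW c hbasis
  -- the characters
  obtain ⟨ψ1, ψχ, hcong, haug, htrT, htrQ⟩ := hTr W N q hΔ hss hirr hcond hpN hq hqp hqN hun
    hmod htriv Y h n qv hqv iL iM iML ((e.twist (List.ofFn qv)).eval (N * rthkdM qv)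
      (rthkfMUW Y qv)) ℓ₀ iℓ₀
  have hst := rthkd_hst (O := Y.O) (L := N * rthkdM qv) (M := rthkfMUW Y qv) p
    (e.twist (List.ofFn qv)) hEP ℓ₀ hℓ₀ hℓ₀L (rthkfHUW Y qv n) (n + 1)
  have hk : ∀ x : Fin h ⊕ Y.ι,
      (Sum.elim (fun _ => n + 1) (fun _ => 1) : Fin h ⊕ Y.ι → ℕ) x ≤ n + 1 := by
    rintro (j | i)
    · exact le_rfl
    · exact Nat.succ_le_succ (Nat.zero_le n)
  have hfaith := rthkd_faith (O := Y.O) (p := p) (L := N * rthkdM qv)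
    (M := rthkfMUW Y qv) (H' := rthkfHUW Y qv n)
    (rthksE p (es1inftwJ (N * rthkdM qv) (rthkfMUW Y qv) (rthkfHUW Y qv n) p
        (k7ftwChar (rthkfMUW Y qv) (rthkdE p (n + 1))))
      (𝕋 := HDAlg (rthkfMUW Y qv)) : Set (HDAlg (rthkfMUW Y qv)))
    (k7ftwChar (rthkfMUW Y qv) (rthkdE p (n + 1))) Y.hyp.hp𝒪
    (e.twist (List.ofFn qv)) hEP ℓ₀ hℓ₀ hℓ₀L (rthkf_sqfree_LW hcond hqv) Y.hyp.hp2 hℓ₀p (n + 1)
    (fun u => by
      rw [rthkd_pmH (hp.out.odd_of_ne_two Y.hyp.hp2)]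
      exact rthkd_pow_mem_H hk u)
    (n + 1) (k5nt_noTors_quot hp.out hp5 Y.hyp.hp𝒪 _ (n + 1)) hst
  have hℓN : ∀ ℓ : ℕ, ℓ.Prime → ¬ ℓ ∣ (N * rthkdM qv) * p → ¬ ℓ ∣ N * p :=
    fun ℓ hℓ hℓL hd => hℓL (by
      rcases (Nat.Prime.dvd_mul hℓ).mp hd with h1 | h1
      · exact Dvd.dvd.mul_right (Dvd.dvd.mul_right h1 _) _
      · exact Dvd.dvd.mul_left h1 _)
  have hΔ' : ∀ δ : RthkdDelta (rthkfMUW Y qv) (rthkfHUW Y qv n),
      δ ^ p ^ (n + 1) = 1 := by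
    intro δ
    obtain ⟨u, rfl⟩ := QuotientGroup.mk_surjective δ
    rw [← QuotientGroup.mk_pow, QuotientGroup.eq_one_iff,
      rthkd_pmH (hp.out.odd_of_ne_two Y.hyp.hp2)]
    exact rthkd_pow_mem_H hk u
  -- the field `base`
  have hbaseF : ∀ ℓ : ℕ, ℓ.Prime → ¬ ℓ ∣ (N * rthkdM qv) * p →
      rthkmMat free (1 : RthkdDelta (rthkfMUW Y qv) (rthkfHUW Y qv n) →* RthkdC Y.O (n + 1))
        (rthkdAct p ((e.twist (List.ofFn qv)).eval (N * rthkdM qv) (rthkfMUW Y qv)) ℓ₀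
          (rthkfHUW Y qv n) (n + 1) hst
          (es1inftwTr (rthkfMUW Y qv) (rthkdE p (n + 1)) ℓ))
        = (Φ0 (Tr₀ ℓ)).map (algebraMap Y.O (RthkdC Y.O (n + 1))) := by
    intro ℓ hℓ hℓL
    haveI : NeZero ℓ := ⟨hℓ.ne_zero⟩
    obtain ⟨ha, hΦ⟩ := hmat ℓ hℓ (hℓN ℓ hℓ hℓL)
    rw [hΦ]
    refine hbmat ℓ hℓ (rthkf_not_mem_QW hℓL) (a ℓ) ha _ (fun x => ?_)
    refine ⟨((ZMod.unitOfCoprime ℓ (rthkf_coprime_MUW (Y := Y) hℓ hℓL))⁻¹
      ^ rthkdE p (n + 1)), ?_⟩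
    rw [rthkdAct_coe]
    exact es1infev_twTr (rthkdE p (n + 1))
      (by
        have := rthkd_two_E (p := p) (hp.out.odd_of_ne_two Y.hyp.hp2) (n + 1)
        have hpos : 0 < p ^ (n + 1) := pow_pos hp.out.pos _
        omega)
      hℓ hℓL (rthkf_coprime_MUW (Y := Y) hℓ hℓL) _
  -- the field `resid`
  have hres := rthkra_resid_field (ρbar := Y.ρbar) (a0 := fun ℓ => Φ0 (Tr₀ ℓ))
    (Tr := es1inftwTr (rthkfMUW Y qv) (rthkdE p (n + 1))) hst free Y.hyp.hp𝒪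
    (n + 1) hΔ' hbaseF
    (fun ℓ hℓ hℓL A hA τ hτ => hbase.resid ℓ hℓ (hS' ℓ hℓ (hℓN ℓ hℓ hℓL)) A hA τ hτ)
  refine ⟨N * rthkdM qv, rthkfMUW Y qv, iL, iM, iML,
    (e.twist (List.ofFn qv)).eval (N * rthkdM qv) (rthkfMUW Y qv), ℓ₀, iℓ₀,
    rthkfHUW Y qv n,
    es1inftwJ (N * rthkdM qv) (rthkfMUW Y qv) (rthkfHUW Y qv n) p
      (k7ftwChar (rthkfMUW Y qv) (rthkdE p (n + 1))),
    inferInstance, inferInstance, inferInstance,
    es1inftwTr (rthkfMUW Y qv) (rthkdE p (n + 1)), b, ψ1, ψχ, ?_,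
    hU W N q hΔ hss hirr hcond hpN hq hqp hqN hun hmod htriv Y h n qv hqv iL iM iML⟩
  exact
    { pkg := rthkp_pkg (L := N * rthkdM qv) (M := rthkfMUW Y qv)
        (rthkfHUW Y qv n) p (rthkdE p (n + 1)) (rthkp_one_le_half p (n + 1) hp.out.pos)
        (rthkd_pow_E_mem (hp.out.odd_of_ne_two Y.hyp.hp2) hk)
      primes := rthkdY_primesW hqv
      model := rthkp_model (L := N * rthkdM qv) (M := rthkfMUW Y qv)
        (rthkfHUW Y qv n) p hflat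
        (rthkf_k7fLevelUW (Y := Y) (qv := qv) (n := n) hp5 hcond hN0 hpN hq hqN hqv)
        (rthkdE p (n + 1))
      stable := hst
      free := free
      faith := by
        obtain ⟨n₀, hn₀⟩ := hfaith
        refine ⟨n₀, fun t ht hkill ψ hψ => ?_⟩
        have h0 := hn₀ t ht hkill
        have h1 : rthkdAct p _ ℓ₀ (rthkfHUW Y qv n) (n + 1) hst t ⟨ψ, hψ⟩ = 0 := by
          rw [h0]
          rfl
        exact congrArg Subtype.val h1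
      resid := hres
      cong := hcong
      aug := haug
      trT := htrT
      trQ := htrQ
      base := hbaseF }

end Fermat.Agent.S59.LowK

end
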