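import Fermat.Agent.S59.LowK.ConcK5FamW
import Fermat.Agent.RT.Hecke.ConcK5ResB

/-!
# S59, walls M3 / R1, the K-machine for a general semistable `W`:
# the `W`-twin of `RT/Hecke/ConcK5ResB.lean` (helper7)

`rthkk5rb_residW` : the residual hypothesis `RthkcbResid p Y.ρbar M M₀ (e₀.eval M M₀) ℓ₀₀` of the
base over `Y : s59lk_KSetupW W p M`, for an admissible base pair `(e₀, ℓ₀₀)`.
The absence of torsion is the hypothesis `hNT` (see `ConcK5FamW.lean`).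
-/

set_option autoImplicit false
set_option linter.unusedSectionVars false
set_option linter.style.haveILetI false
set_option linter.unusedVariables false

noncomputable section

namespace Fermat.Agent.S59.LowK

open IsLocalRing Fermat.Agent.ES Fermat.Agent.ES1 Fermat.Agent.RT Fermat.Agent.RT.K5
open Fermat.Agent.S48
open Fermat.Agent.TW Fermat.Agent.RT.Prod Fermat.Agent.S31 Fermat.Agent.RT.K7F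
open CongruenceSubgroup Polynomial
open scoped MatrixGroups

variable {W : WeierstrassCurve ℤ} {p M : ℕ} [hp : Fact p.Prime] [NeZero M]

/-- **LEAF R**: the residual hypothesis `RthkcbResid` of the base. -/
theorem rthkk5rb_residW (hcheb : Cheb.WeakChebotarev) (hN : Squarefree M)
    (Y : s59lk_KSetupW W p M) (M₀ : ℕ) [NeZero M₀] [hM₀ : Fact (M₀ ∣ M)]
    (hNT : NoTors (gammaH M M₀ (⊤ : Subgroup (ZMod M₀)ˣ))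
      (Y.O ⧸ IsLocalRing.maximalIdeal Y.O ^ 1))
    (S₀ : Finset ℕ) (hpS : p ∈ S₀) (hNS : ∀ ℓ : ℕ, ℓ.Prime → ℓ ∣ M → ℓ ∈ S₀)
    (hgood : ∀ ℓ : ℕ, ℓ.Prime → ℓ ∉ S₀ → W.IsGoodPrimeFor ℓ)
    (e₀ : HExpr Y.O) (he₀ : e₀.IsPrimes) (ℓ₀₀ : ℕ) [NeZero ℓ₀₀] (hℓ₀₀ : ℓ₀₀.Prime)
    (hℓ₀₀S : ℓ₀₀ ∉ S₀) (S₁ : Finset ℕ)
    (hIntr₀ : K5inIntr M M₀ (Y.O ⧸ maximalIdeal Y.O ^ 1) (rthkinAW Y) S₀ S₁ ℓ₀₀
      (etaPart (thetaN (e₀.eval M M₀) ℓ₀₀ (Y.O ⧸ maximalIdeal Y.O ^ 1) ⊤))) :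
    RthkcbResid p Y.ρbar M M₀ (e₀.eval M M₀) ℓ₀₀ := by
  intro ℓ _ hℓ hℓNp 𝔄 h𝔄 τ hτ
  have hp𝔪 : (p : Y.O) ∈ maximalIdeal Y.O := Y.hyp.hp𝒪
  have hℓ₀₀N : ¬ ℓ₀₀ ∣ M := fun hd => hℓ₀₀S (hNS ℓ₀₀ hℓ₀₀ hd)
  have hℓ₀₀p : ℓ₀₀ ≠ p := fun h => hℓ₀₀S (h ▸ hpS)
  have R := rthkin_resW Y S₀ hpS hNS hgood
  have D := rthkin_data hp𝔪 e₀ he₀ ℓ₀₀ hℓ₀₀ hℓ₀₀N hN Y.hyp.hp2 hℓ₀₀p 1 hNT
  haveI : Finite (RthkdC Y.O 1) := rthkk5f_finiteW Y 1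
  have hnil : ∀ (ℓ' : ℕ) [NeZero ℓ'], ℓ'.Prime → ℓ' ∉ S₀ → ℓ' ∉ S₁ →
      ∀ v ∈ etaPart (thetaN (e₀.eval M M₀) ℓ₀₀ (RthkdC Y.O 1) ⊤),
        v ∈ k5lcKer (k5lcS M M₀ ℓ' (rthkinAW Y ℓ') (RthkdC Y.O 1) ⊤) :=
    fun ℓ' _ hℓ' h1 h2 v hv => ((hIntr₀ v).mp hv).2 ℓ' hℓ' h1 h2
  obtain ⟨c, m, hc, hm⟩ := k5in_nil_frob hcheb D R S₁ hnil ℓ hℓ hℓNp 𝔄 h𝔄 τ hτ
  exact ⟨c, m, hc, hm⟩

end Fermat.Agent.S59.LowK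

end
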