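/-
S59, walls M3 / R1 (K-machine for a general semistable `W`): the `W`-twin of the `setup`
sections of `RT/K5/NZSetup.lean`, `RT/K5/NZIntr.lean`, `RT/K5/NZIntr2.lean` (helper22; originals
by helper46): the base module of a setup for `W` is not zero.

For `Y : s59lk_KSetupW W p N` (level `N`), `W.Δ ≠ 0` and `W.IsResiduallyModularOfLevel p N`:
* `k5nzBadW W p N`       : the excluded primes (`p`, the primes of `N`, the bad primes of `W`);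
* `k5nz_setup_intrW`     : for every `ν ≥ 1` and every `M ∣ N` a nonzero parabolic eigenvector
                           `φ ∈ Hom(Γ_H(N, M), 𝒪 ⧸ 𝔪 ^ ν)` with eigenvalues `a_ℓ(W)`, lying in the
                           `η`- and `Θ`-parts;
* `k5nz_setup_intrMemW`  : ONE `φ` lying in every intrinsically described subgroup.
No comparison of models is needed (the congruence of `IsResiduallyModularOfLevel` is with `W`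
itself).
-/
import Fermat.Agent.S59.LowK.ResidW
import Fermat.Agent.RT.K5.NZIntr2

set_option autoImplicit false
set_option linter.style.haveILetI false
set_option linter.unusedSectionVars false
set_option linter.unusedVariables false
set_option linter.style.longLine false

noncomputable section

namespace Fermat.Agent.S59.LowK

open CongruenceSubgroup Matrix ModularCurve ModularCurve.Period ModularFormClass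
open scoped MatrixGroups
open Fermat.Agent.ES1 (gammaH diamHom pmH)
open Fermat.Agent.ES Fermat.Agent.RT.Base Fermat.Agent.RT Fermat.Agent.RT.Prod
  Fermat.Agent.RT.K5 IsLocalRing
open WeierstrassCurve WeierstrassCurve.Affine WeierstrassCurve.Affine.Point

section setup

variable {W : WeierstrassCurve ℤ} {p N : ℕ} [hp : Fact p.Prime] [NeZero N]

/-- the excluded primes: `p`, the primes of `N`, the bad primes of `W` -/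
def k5nzBadW (W : WeierstrassCurve ℤ) (p N : ℕ) : Finset ℕ :=
  insert p (N.primeFactors ∪ W.Δ.natAbs.primeFactors)

theorem k5nz_not_mem_badW (hΔ : W.Δ ≠ 0) {ℓ : ℕ} (hℓ : ℓ.Prime) (h : ℓ ∉ k5nzBadW W p N) :
    ℓ ≠ p ∧ ¬ ℓ ∣ N ∧ W.IsGoodPrimeFor ℓ := by
  simp only [k5nzBadW, Finset.mem_insert, Finset.mem_union, not_or] at h
  obtain ⟨h1, h2, h3⟩ := h
  refine ⟨h1, fun hdvd => h2 (Nat.mem_primeFactors.mpr ⟨hℓ, hdvd, NeZero.ne N⟩),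
    fun hdvd => h3 ?_⟩
  exact Nat.mem_primeFactors.mpr ⟨hℓ, Int.natCast_dvd.mp hdvd, Int.natAbs_ne_zero.mpr hΔ⟩

theorem k5nz_p_mem_badW : p ∈ k5nzBadW W p N := Finset.mem_insert_self _ _

theorem k5nz_mem_badW_of_dvd {ℓ : ℕ} (hℓ : ℓ.Prime) (hℓN : ℓ ∣ N) : ℓ ∈ k5nzBadW W p N :=
  Finset.mem_insert_of_mem (Finset.mem_union_left _
    (Nat.mem_primeFactors.mpr ⟨hℓ, hℓN, NeZero.ne N⟩))

/-- **K5-NZ over a setup for `W`, intrinsic form.** -/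
theorem k5nz_setup_intrW (Y : s59lk_KSetupW W p N) (hΔ : W.Δ ≠ 0)
    (hmod : W.IsResiduallyModularOfLevel p N) :
    ∃ Sbad : Finset ℕ, p ∈ Sbad ∧ (∀ ℓ : ℕ, ℓ.Prime → ℓ ∣ N → ℓ ∈ Sbad) ∧
      (∀ ℓ : ℕ, ℓ.Prime → ℓ ∉ Sbad → W.IsGoodPrimeFor ℓ) ∧
      ∀ (M : ℕ) [Fact (M ∣ N)] (ν : ℕ), 0 < ν →
        ∃ φ : HomS (gammaH N M (⊤ : Subgroup (ZMod M)ˣ)) (Y.O ⧸ maximalIdeal Y.O ^ ν),
          φ ≠ 0 ∧ IsParabolicHom (gammaH N M (⊤ : Subgroup (ZMod M)ˣ)) φ ∧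
          (∀ (ℓ : ℕ) [NeZero ℓ], ℓ.Prime → ℓ ∉ Sbad →
            tS N M ℓ ⊤ (Y.O ⧸ maximalIdeal Y.O ^ ν) φ = ((W.apOfModel ℓ : ℤ) : Y.O) • φ) ∧
          (∀ (ℓ : ℕ) [NeZero ℓ], ℓ.Prime → ℓ ∉ Sbad →
            φ ∈ k5lcKer (k5lcS N M ℓ ((W.apOfModel ℓ : ℤ) : Y.O)
              (Y.O ⧸ maximalIdeal Y.O ^ ν) ⊤)) ∧
          ∀ (ℓ₀ : ℕ) [NeZero ℓ₀], ℓ₀.Prime → ℓ₀ ∉ Sbad →
            ((W.apOfModel ℓ₀ : ℤ) : ResidueField Y.O) ≠ (ℓ₀ : ResidueField Y.O) + 1 →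
            φ ∈ etaPart (etaS N M ℓ₀ ⊤ (Y.O ⧸ maximalIdeal Y.O ^ ν)) ∧
            ∀ e : HExpr Y.O, k5nzIn {ℓ : ℕ | ℓ.Prime ∧ ℓ ∉ Sbad} e →
              IsUnit (k5nzVal (fun ℓ => ((W.apOfModel ℓ : ℤ) : Y.O)) e) →
              φ ∈ etaPart (thetaN (e.eval N M) ℓ₀ (Y.O ⧸ maximalIdeal Y.O ^ ν)
                (⊤ : Subgroup (ZMod M)ˣ)) := by
  obtain ⟨f, 𝔪, hf, h𝔪max, hp𝔪, hcong⟩ := hmod
  refine ⟨k5nzBadW W p N, k5nz_p_mem_badW, fun ℓ hℓ hℓN => k5nz_mem_badW_of_dvd hℓ hℓN,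
    fun ℓ hℓ hℓS => (k5nz_not_mem_badW hΔ hℓ hℓS).2.2, ?_⟩
  intro M _ ν hν
  have key : ∀ x : ℕ, x.Prime → x ∉ k5nzBadW W p N → x.Prime ∧ ¬ x ∣ N ∧ x ≠ p ∧
      ∃ z ∈ 𝔪, (z : ℂ) = qCoeff ⇑f x - ((W.apOfModel x : ℤ) : ℂ) := by
    intro x hx hxS
    obtain ⟨h1, h2, h3⟩ := k5nz_not_mem_badW hΔ hx hxS
    obtain ⟨a, ha, ha𝔪⟩ := hcong x hx h3 h2 h1
    refine ⟨hx, h2, h1, a - ((W.apOfModel x : ℤ) : Zbar), ha𝔪, ?_⟩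
    rw [← ha]
    push_cast
    rfl
  obtain ⟨y, hy, hpy⟩ := k5nz_exists_order (𝒪 := Y.O) p Y.hyp.hp𝒪 ν hν
  obtain ⟨φ, hφ0, hφP, hφ⟩ := k5nz_eigen (N := N) (M := M) (p := p) f hf 𝔪 h𝔪max.ne_top hp𝔪
    (Y.O ⧸ maximalIdeal Y.O ^ ν) y hy hpy
  have heig : ∀ (ℓ : ℕ) [NeZero ℓ], ℓ.Prime → ℓ ∉ k5nzBadW W p N →
      tS N M ℓ ⊤ (Y.O ⧸ maximalIdeal Y.O ^ ν) φ = ((W.apOfModel ℓ : ℤ) : Y.O) • φ := by
    intro ℓ _ hℓ hℓS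
    obtain ⟨h1, h2, h3, h4⟩ := key ℓ hℓ hℓS
    rw [hφ ℓ h1 h2 h3 (W.apOfModel ℓ) h4, Int.cast_smul_eq_zsmul]
  refine ⟨φ, hφ0, hφP, heig, fun ℓ _ hℓ hℓS => k5nz_mem_ker ⊤ φ ℓ _ (heig ℓ hℓ hℓS),
    fun ℓ₀ _ hℓ₀ hℓ₀S hne => ?_⟩
  have hne' : IsUnit (((W.apOfModel ℓ₀ : ℤ) : Y.O) - ((ℓ₀ : Y.O) + 1)) := by
    by_contra hnu
    apply hne
    have h0 := (residue_eq_zero_iff _).mpr ((mem_maximalIdeal _).mpr hnu)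
    rw [map_sub, map_add, map_one, map_intCast, map_natCast, sub_eq_zero] at h0
    exact h0
  refine ⟨k5nz_mem_etaS ⊤ φ ℓ₀ _ (heig ℓ₀ hℓ₀ hℓ₀S) hne', fun e he hu => ?_⟩
  exact k5nz_mem_etaPart ⊤ {ℓ : ℕ | ℓ.Prime ∧ ℓ ∉ k5nzBadW W p N}
    (fun ℓ => ((W.apOfModel ℓ : ℤ) : Y.O)) φ (fun ℓ hℓ _ => heig ℓ hℓ.1 hℓ.2) e he ℓ₀
    ⟨hℓ₀, hℓ₀S⟩ (hu.mul hne')

/-- **K5-NZ for `W`, intrinsic form**: ONE nonzero parabolic `φ` lying in every intrinsically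
described subgroup. -/
theorem k5nz_setup_intrMemW (Y : s59lk_KSetupW W p N) (hΔ : W.Δ ≠ 0)
    (hmod : W.IsResiduallyModularOfLevel p N) :
    ∃ Sbad : Finset ℕ, p ∈ Sbad ∧ (∀ ℓ : ℕ, ℓ.Prime → ℓ ∣ N → ℓ ∈ Sbad) ∧
      (∀ ℓ : ℕ, ℓ.Prime → ℓ ∉ Sbad → W.IsGoodPrimeFor ℓ) ∧
      ∀ (M : ℕ) [Fact (M ∣ N)] (ν : ℕ), 0 < ν →
        ∃ φ : HomS (gammaH N M (⊤ : Subgroup (ZMod M)ˣ)) (Y.O ⧸ maximalIdeal Y.O ^ ν),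
          φ ≠ 0 ∧ IsParabolicHom (gammaH N M (⊤ : Subgroup (ZMod M)ˣ)) φ ∧
          ∀ (a : ℕ → Y.O) (S₀ S : Finset ℕ) (ℓ₀ : ℕ) [NeZero ℓ₀]
            (X : AddSubgroup (HomS (gammaH N M (⊤ : Subgroup (ZMod M)ˣ))
              (Y.O ⧸ maximalIdeal Y.O ^ ν))),
            ℓ₀.Prime → ℓ₀ ∉ Sbad →
            ((W.apOfModel ℓ₀ : ℤ) : ResidueField Y.O) ≠ (ℓ₀ : ResidueField Y.O) + 1 →
            (∀ ℓ : ℕ, ℓ.Prime → ℓ ∉ S₀ → ℓ ∉ S →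
              ℓ ∉ Sbad ∧ a ℓ = ((W.apOfModel ℓ : ℤ) : Y.O)) →
            K5inIntr N M (Y.O ⧸ maximalIdeal Y.O ^ ν) a S₀ S ℓ₀ X → φ ∈ X := by
  obtain ⟨Sbad, h1, h2, h3, h4⟩ := k5nz_setup_intrW Y hΔ hmod
  refine ⟨Sbad, h1, h2, h3, fun M _ ν hν => ?_⟩
  obtain ⟨φ, hφ0, hφP, -, hker, heta⟩ := h4 M ν hν
  refine ⟨φ, hφ0, hφP, fun a S₀ S ℓ₀ _ X hℓ₀ hℓ₀S hne ha hX => ?_⟩
  refine (hX φ).mpr ⟨(heta ℓ₀ hℓ₀ hℓ₀S hne).1, fun ℓ _ hℓ hℓS₀ hℓS => ?_⟩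
  obtain ⟨hb, hab⟩ := ha ℓ hℓ hℓS₀ hℓS
  rw [hab]
  exact hker ℓ hℓ hb

end setup

end Fermat.Agent.S59.LowK

end
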