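import Fermat.Agent.RT.K5.NoTorsThree
import Fermat.Agent.RT.Hecke.ConcBase
import Fermat.Agent.S59.LowK.ConcFinalBW
import Fermat.Agent.S59.LowK.ConcK5ResBW
import Fermat.Agent.S59.LowK.NZIntrW

/-!
# S59, walls M3 / R1, the K-machine for a general semistable `W`:
# the `W`-twin of `RT/Hecke/ConcK5.lean` + `ConcK5Fin.lean` (helper22)

The K5 side `StmtHkfK5'W p` of the concrete module side (helper9's `ConcFinalBW.lean`).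

* `rthkk5_atW` : for every squarefree `M₀ ∣ N`, the body of `StmtHkfK5'W` at the base level
  `(N, M₀, ⊤)`, from K7-FLAT, the absence of torsion `hNT` and the level hypothesis
  `K7FLevel N M₀ ⊤ p`.  The base data are
  - `S₀ = k5nzBadW` (`k5nz_setup_intrW`), `ℓ₀₀` a non-Eisenstein prime (`rthkk5f_nonEisW`),
  - `e₀` the projector of K5-LOC (`k5in_exists_expr`), `(r, c)` the basis of K5-BASE,
  - `0 < r` (K5-NZ), the residual relations (`rthkk5rb_residW`), `HkBase` (`rthkcb_hkBase`),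
  - the FAMILY half is helper7's `rthkk5f_familyW`;
* `rthkk5_at5W` : the same for `5 ≤ p` (no hypothesis);
* `rthkk5_at3W` : the same for every odd `p` (so `p = 3`) when the level is EVEN
  (`2 ≡ 2 mod 3` kills the torsion of `Γ_H`; K7-FLAT at `p = 3` needs `2 ∣ N`);
* `rthkk5_mainW : StmtFlatH → 5 ≤ p → StmtHkfK5'W p`;
* `StmtHkfK5'EW p` : the variant of `StmtHkfK5'W p` for EVEN levels, and
  `rthkk5_mainEW : StmtFlatH → StmtHkfK5'EW p` for every odd prime `p`.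
-/

set_option autoImplicit false
set_option linter.unusedSectionVars false
set_option linter.style.haveILetI false
set_option linter.unusedVariables false
set_option linter.style.longLine false

noncomputable section

namespace Fermat.Agent.S59.LowK

open Fermat.Agent.RT Fermat.Agent.S59.LowQ

open IsLocalRing Fermat.Agent.ES Fermat.Agent.ES1 Fermat.Agent.RT.K5 Fermat.Agent.S48
open Fermat.Agent.S30 Fermat.Agent.W1 Fermat.Agent.TW Fermat.Agent.RT.Prod Fermat.Agent.RT.K7F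
open ExtCitation CongruenceSubgroup ModularCurve.Period
open scoped MatrixGroups

section base

variable {W : WeierstrassCurve ℤ} {p N : ℕ} [hp : Fact p.Prime] [NeZero N]

/-- the primes of `N p` -/
theorem rthkk5_p_memW : p ∈ (N * p).primeFactors :=
  Nat.mem_primeFactors.mpr ⟨hp.out, Dvd.intro_left N rfl,
    mul_ne_zero (NeZero.ne N) hp.out.ne_zero⟩

theorem rthkk5_N_memW (ℓ : ℕ) (hℓ : ℓ.Prime) (hℓN : ℓ ∣ N) : ℓ ∈ (N * p).primeFactors :=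
  Nat.mem_primeFactors.mpr ⟨hℓ, Dvd.dvd.mul_right hℓN _,
    mul_ne_zero (NeZero.ne N) hp.out.ne_zero⟩

theorem rthkk5_not_memW (ℓ : ℕ) (hℓN : ¬ ℓ ∣ N * p) : ℓ ∉ (N * p).primeFactors :=
  fun h => hℓN (Nat.mem_primeFactors.mp h).2.1

/-- **the K5 side at the base level `(N, M₀, ⊤)`**, `M₀ ∣ N` squarefree, from K7-FLAT, the
absence of torsion and the level hypothesis of K7-FLAT. -/
theorem rthkk5_atW (hcheb : Cheb.WeakChebotarev) (hflat : StmtFlatH) (hΔ : W.Δ ≠ 0)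
    (hN : Squarefree N) (hmod : W.IsResiduallyModularOfLevel p N)
    (Y : s59lk_KSetupW W p N) (h : ℕ)
    (M₀ : ℕ) [iM₀ : NeZero M₀] [iM₀N : Fact (M₀ ∣ N)]
    (hNT : ∀ n : ℕ, NoTors (gammaH N M₀ (⊤ : Subgroup (ZMod M₀)ˣ))
      (Y.O ⧸ maximalIdeal Y.O ^ n))
    (hlev : K7FLevel N M₀ (⊤ : Subgroup (ZMod M₀)ˣ) p) :
    ∃ (r : ℕ) (_ : 0 < r)
      (c : Fin r → HomS (gammaH N M₀ (⊤ : Subgroup (ZMod M₀)ˣ)) Y.O)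
      (a : ℕ → Matrix (Fin r) (Fin r) Y.O)
      (S' : Finset ℕ) (_ : p ∈ S') (_ : ∀ ℓ : ℕ, ℓ.Prime → ℓ ∣ N → ℓ ∈ S')
      (𝕋₀ : Type) (_ : CommRing 𝕋₀) (J₀ : Type) (_ : AddCommGroup J₀) (_ : Module 𝕋₀ J₀)
      (_ : DistribMulAction GQ J₀) (Tr₀ : ℕ → 𝕋₀)
      (Φ0 : 𝕋₀ →+* Matrix (Fin (2 ^ h * r)) (Fin (2 ^ h * r)) Y.O),
      HkBase p Y.ρbar N S' (2 ^ h * r) J₀ Tr₀ Φ0 ∧
      (∀ ℓ : ℕ, ℓ.Prime → ¬ ℓ ∣ N * p → ℓ ∉ S') ∧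
      (∀ (ℓ : ℕ) [NeZero ℓ], ℓ.Prime → ¬ ℓ ∣ N * p →
        (∀ i', tS N M₀ ℓ ⊤ Y.O (c i') = ∑ i, a ℓ i i' • c i) ∧
          Φ0 (Tr₀ ℓ) = rthkcbBlock Y.O h r (a ℓ)) ∧
      ∀ (n : ℕ) (qv : Fin h → ℕ),
        IsTWFamily p Y.ρbar (Y.Smin ∪ Finset.univ.image Y.r) n h qv →
        ∃ (e : HExpr Y.O) (ℓ₀ : ℕ) (_ : NeZero ℓ₀), e.IsPrimes ∧ ℓ₀.Prime ∧ ¬ ℓ₀ ∣ N ∧
          ℓ₀ ≠ p ∧ (∀ j, qv j ≠ ℓ₀ ∧ e.Avoids (qv j)) ∧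
          K5TWCond Y.O N M₀ ℓ₀ e (List.ofFn qv) (RthkdC Y.O (n + 1)) ∧
          K5IsBasis (RthkdC Y.O (n + 1))
            (etaPart (thetaN (e.eval N M₀) ℓ₀ (RthkdC Y.O (n + 1)) ⊤))
            (fun i => mapS (Submodule.mkQ (maximalIdeal Y.O ^ (n + 1))).toAddMonoidHom
              (c i)) := by
  -- the bad set and the nonzero eigenvector
  obtain ⟨S₀, hpS, hNS, hgood, hnz⟩ := k5nz_setup_intrW Y hΔ hmod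
  -- the auxiliary prime
  obtain ⟨ℓ₀₀, hℓ₀₀, -, hℓ₀₀S, hne⟩ := rthkk5f_nonEisW Y hcheb S₀ hpS hgood ∅
  haveI : NeZero ℓ₀₀ := ⟨hℓ₀₀.ne_zero⟩
  have hℓ₀₀N : ¬ ℓ₀₀ ∣ N := fun hd => hℓ₀₀S (hNS ℓ₀₀ hℓ₀₀ hd)
  have hne' : residue Y.O (rthkinAW Y ℓ₀₀) ≠ (ℓ₀₀ : ResidueField Y.O) + 1 :=
    rthkk5f_hneW Y hne
  -- the projector
  obtain ⟨e₀, he₀, -, hIntr₀⟩ := k5in_exists_expr N M₀ (rthkinAW Y) S₀ ∅ ℓ₀₀ hℓ₀₀ hℓ₀₀N hNT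
  -- the basis
  have hyp : FreeHyp p Y.O N M₀ ℓ₀₀ ⊤ ⊤ 0 :=
    k5bs_freeHyp_top p Y.O N M₀ ℓ₀₀ Y.hyp.hp2 Y.hyp.hp𝒪 hℓ₀₀ hℓ₀₀N hNT
  obtain ⟨r, c, hc, hcn⟩ := k5bs_base p Y.O N M₀ ℓ₀₀ hyp (e₀.eval N M₀)
  -- the rank is positive
  have hr : 0 < r := by
    obtain ⟨φ, hφ0, -, -, hker, heta⟩ := hnz M₀ 1 one_pos
    refine k5nz_rank_pos (hcn 1) ((hIntr₀ 1 φ).mpr
      ⟨(heta ℓ₀₀ hℓ₀₀ hℓ₀₀S hne).1, fun ℓ _ hℓ h1 _ => hker ℓ hℓ h1⟩) hφ0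
  -- the residual relations
  have hres : RthkcbResid p Y.ρbar N M₀ (e₀.eval N M₀) ℓ₀₀ :=
    rthkk5rb_residW hcheb hN Y M₀ (hNT 1) S₀ hpS hNS hgood e₀ he₀ ℓ₀₀ hℓ₀₀ hℓ₀₀S ∅ (hIntr₀ 1)
  -- the finite flat models
  have hmodel := rthkp_model (⊤ : Subgroup (ZMod M₀)ˣ) p hflat hlev 1
  -- the base
  have hbase := rthkcb_hkBase (p := p) Y.ρbar ((N * p).primeFactors)
    rthkk5_p_memW rthkk5_N_memW (k7ftwChar M₀ 1)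
    (es1inftw_char_k7f p 1 iM₀N.out) hmodel hN e₀ he₀ ℓ₀₀ hℓ₀₀ hℓ₀₀N hc
    (hcn 1) hres h
  refine ⟨r, hr, c,
    fun ℓ => LinearMap.toMatrix (rthkcbBasis hc) (rthkcbBasis hc)
      (rthkcbAct (rthkcb_stab (p := p) e₀ he₀ ℓ₀₀ hℓ₀₀ hℓ₀₀N Y.O) (es1inftwTr M₀ 1 ℓ)),
    (N * p).primeFactors, rthkk5_p_memW, rthkk5_N_memW, HDAlg M₀, inferInstance,
    es1inftwJ N M₀ ⊤ p (k7ftwChar M₀ 1), inferInstance, inferInstance, inferInstance,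
    es1inftwTr M₀ 1, _, hbase, fun ℓ _ hℓN => rthkk5_not_memW ℓ hℓN, ?_, ?_⟩
  · intro ℓ _ hℓ hℓN
    refine ⟨fun i' => ?_, rfl⟩
    rw [rthkcb_tS_eq (rthkcb_stab (p := p) e₀ he₀ ℓ₀₀ hℓ₀₀ hℓ₀₀N Y.O) hc h ℓ hℓ hℓN
      ⟨0, pow_pos two_pos h⟩ i']
    refine Finset.sum_congr rfl fun i _ => ?_
    rw [rthkcbPhi_apply, if_pos rfl]
    show _ = (LinearMap.toMatrix (rthkcbBasis hc) (rthkcbBasis hc)
      (rthkcbAct (rthkcb_stab (p := p) e₀ he₀ ℓ₀₀ hℓ₀₀ hℓ₀₀N Y.O) (es1inftwTr M₀ 1 ℓ))) i i'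
        • c i
    rw [LinearMap.toMatrix_apply]
  · exact rthkk5f_familyW Y hcheb hN h M₀ hNT S₀ hpS hNS hgood e₀ he₀ ℓ₀₀ hℓ₀₀ hℓ₀₀S hne' ∅
      hIntr₀ c hcn

/-- **the K5 side at the base level, `p ≥ 5`** -/
theorem rthkk5_at5W (hcheb : Cheb.WeakChebotarev) (hflat : StmtFlatH) (hp5 : 5 ≤ p)
    (hΔ : W.Δ ≠ 0) (hN : Squarefree N) (hpN : ¬ p ∣ N) (hN2 : 2 ≤ N)
    (hmod : W.IsResiduallyModularOfLevel p N)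
    (Y : s59lk_KSetupW W p N) (h : ℕ)
    (M₀ : ℕ) [iM₀ : NeZero M₀] [iM₀N : Fact (M₀ ∣ N)] (hsq : Squarefree M₀) :
    ∃ (r : ℕ) (_ : 0 < r)
      (c : Fin r → HomS (gammaH N M₀ (⊤ : Subgroup (ZMod M₀)ˣ)) Y.O)
      (a : ℕ → Matrix (Fin r) (Fin r) Y.O)
      (S' : Finset ℕ) (_ : p ∈ S') (_ : ∀ ℓ : ℕ, ℓ.Prime → ℓ ∣ N → ℓ ∈ S')
      (𝕋₀ : Type) (_ : CommRing 𝕋₀) (J₀ : Type) (_ : AddCommGroup J₀) (_ : Module 𝕋₀ J₀)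
      (_ : DistribMulAction GQ J₀) (Tr₀ : ℕ → 𝕋₀)
      (Φ0 : 𝕋₀ →+* Matrix (Fin (2 ^ h * r)) (Fin (2 ^ h * r)) Y.O),
      HkBase p Y.ρbar N S' (2 ^ h * r) J₀ Tr₀ Φ0 ∧
      (∀ ℓ : ℕ, ℓ.Prime → ¬ ℓ ∣ N * p → ℓ ∉ S') ∧
      (∀ (ℓ : ℕ) [NeZero ℓ], ℓ.Prime → ¬ ℓ ∣ N * p →
        (∀ i', tS N M₀ ℓ ⊤ Y.O (c i') = ∑ i, a ℓ i i' • c i) ∧
          Φ0 (Tr₀ ℓ) = rthkcbBlock Y.O h r (a ℓ)) ∧
      ∀ (n : ℕ) (qv : Fin h → ℕ),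
        IsTWFamily p Y.ρbar (Y.Smin ∪ Finset.univ.image Y.r) n h qv →
        ∃ (e : HExpr Y.O) (ℓ₀ : ℕ) (_ : NeZero ℓ₀), e.IsPrimes ∧ ℓ₀.Prime ∧ ¬ ℓ₀ ∣ N ∧
          ℓ₀ ≠ p ∧ (∀ j, qv j ≠ ℓ₀ ∧ e.Avoids (qv j)) ∧
          K5TWCond Y.O N M₀ ℓ₀ e (List.ofFn qv) (RthkdC Y.O (n + 1)) ∧
          K5IsBasis (RthkdC Y.O (n + 1))
            (etaPart (thetaN (e.eval N M₀) ℓ₀ (RthkdC Y.O (n + 1)) ⊤))
            (fun i => mapS (Submodule.mkQ (maximalIdeal Y.O ^ (n + 1))).toAddMonoidHom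
              (c i)) :=
  rthkk5_atW hcheb hflat hΔ hN hmod Y h M₀
    (fun n => k5nt_noTors_quot hp.out hp5 Y.hyp.hp𝒪 _ n)
    (rthkp_level ⊤ p 0 hN2 iM₀N.out Y.hyp.hp2 hpN (fun h3 => by omega) hsq
      (fun c => le_pmH ⊤ (Subgroup.mem_top _)))

/-- **the K5 side at the base level, every odd `p`, EVEN level** (so `p = 3` is allowed) -/
theorem rthkk5_at3W (hcheb : Cheb.WeakChebotarev) (hflat : StmtFlatH) (h2N : 2 ∣ N)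
    (hΔ : W.Δ ≠ 0) (hN : Squarefree N) (hpN : ¬ p ∣ N)
    (hmod : W.IsResiduallyModularOfLevel p N)
    (Y : s59lk_KSetupW W p N) (h : ℕ)
    (M₀ : ℕ) [iM₀ : NeZero M₀] [iM₀N : Fact (M₀ ∣ N)] (hsq : Squarefree M₀) :
    ∃ (r : ℕ) (_ : 0 < r)
      (c : Fin r → HomS (gammaH N M₀ (⊤ : Subgroup (ZMod M₀)ˣ)) Y.O)
      (a : ℕ → Matrix (Fin r) (Fin r) Y.O)
      (S' : Finset ℕ) (_ : p ∈ S') (_ : ∀ ℓ : ℕ, ℓ.Prime → ℓ ∣ N → ℓ ∈ S')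
      (𝕋₀ : Type) (_ : CommRing 𝕋₀) (J₀ : Type) (_ : AddCommGroup J₀) (_ : Module 𝕋₀ J₀)
      (_ : DistribMulAction GQ J₀) (Tr₀ : ℕ → 𝕋₀)
      (Φ0 : 𝕋₀ →+* Matrix (Fin (2 ^ h * r)) (Fin (2 ^ h * r)) Y.O),
      HkBase p Y.ρbar N S' (2 ^ h * r) J₀ Tr₀ Φ0 ∧
      (∀ ℓ : ℕ, ℓ.Prime → ¬ ℓ ∣ N * p → ℓ ∉ S') ∧
      (∀ (ℓ : ℕ) [NeZero ℓ], ℓ.Prime → ¬ ℓ ∣ N * p →
        (∀ i', tS N M₀ ℓ ⊤ Y.O (c i') = ∑ i, a ℓ i i' • c i) ∧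
          Φ0 (Tr₀ ℓ) = rthkcbBlock Y.O h r (a ℓ)) ∧
      ∀ (n : ℕ) (qv : Fin h → ℕ),
        IsTWFamily p Y.ρbar (Y.Smin ∪ Finset.univ.image Y.r) n h qv →
        ∃ (e : HExpr Y.O) (ℓ₀ : ℕ) (_ : NeZero ℓ₀), e.IsPrimes ∧ ℓ₀.Prime ∧ ¬ ℓ₀ ∣ N ∧
          ℓ₀ ≠ p ∧ (∀ j, qv j ≠ ℓ₀ ∧ e.Avoids (qv j)) ∧
          K5TWCond Y.O N M₀ ℓ₀ e (List.ofFn qv) (RthkdC Y.O (n + 1)) ∧
          K5IsBasis (RthkdC Y.O (n + 1))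
            (etaPart (thetaN (e.eval N M₀) ℓ₀ (RthkdC Y.O (n + 1)) ⊤))
            (fun i => mapS (Submodule.mkQ (maximalIdeal Y.O ^ (n + 1))).toAddMonoidHom
              (c i)) :=
  rthkk5_atW hcheb hflat hΔ hN hmod Y h M₀
    (fun n => k5nt3_noTors_quot hp.out Y.hyp.hp2 Y.hyp.hp𝒪 Nat.prime_two (by norm_num) h2N
      _ _ n)
    (rthkp_level ⊤ p 0
      (Nat.le_of_dvd (Nat.pos_of_ne_zero (NeZero.ne N)) h2N) iM₀N.out Y.hyp.hp2 hpN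
      (fun _ => h2N) hsq (fun c => le_pmH ⊤ (Subgroup.mem_top _)))

end base

/-- **The K5 side `StmtHkfK5'W p`, `p ≥ 5`**, from K7-FLAT (base level `(N, 1, ⊤)`). -/
theorem rthkk5_mainW {p : ℕ} (hflat : StmtFlatH) (hp5 : 5 ≤ p) : StmtHkfK5'W p := by
  intro hp W N q _ hΔ hss hirr hN hpN hq hqp hqN hunr hmod htriv Y h
  haveI iM₀ : NeZero (1 : ℕ) := ⟨one_ne_zero⟩
  haveI iM₀N : Fact ((1 : ℕ) ∣ N) := ⟨one_dvd N⟩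
  have hN2 : 2 ≤ N :=
    le_trans hq.two_le (Nat.le_of_dvd (Nat.pos_of_ne_zero (NeZero.ne N)) hqN)
  obtain ⟨r, hr, c, a, S', hpS', hNS', 𝕋₀, i1, J₀, i2, i3, i4, Tr₀, Φ0, hbase, hS', hmat,
    hfam⟩ := rthkk5_at5W Fermat.Agent.Cheb.weakChebotarev_holds hflat hp5 hΔ hN hpN hN2
      hmod Y h 1 squarefree_one
  exact ⟨1, iM₀, iM₀N, r, hr, c, a, S', hpS', hNS', 𝕋₀, i1, J₀, i2, i3, i4, Tr₀, Φ0, hbase,
    hS', hmat, fun n qv hqv _ _ _ => hfam n qv hqv⟩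

/-- **The K5 side, variant B, EVEN levels** (the statement `StmtHkfK5'W p` with the further
hypothesis `2 ∣ N`; it holds for every odd prime `p`, so for `p = 3`). -/
def StmtHkfK5'EW (p : ℕ) : Prop :=
  ∀ [Fact p.Prime] (W : WeierstrassCurve ℤ) (N q : ℕ) [NeZero N], W.Δ ≠ 0 →
    W.IsSemistableModel → W.ModRepIsIrreducible p → Squarefree N → ¬ p ∣ N → 2 ∣ N →
    q.Prime → q ≠ p → q ∣ N → s59lq_Unram W p q → W.IsResiduallyModularOfLevel p N →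
    (∀ r : ℕ, r.Prime → r ≠ p → r ∣ N → s59lq_Unram W p r → s59lq_IsTrivialPrime W p r) →
    ∀ (Y : s59lk_KSetupW W p N) (h : ℕ),
      ∃ (M₀ : ℕ) (_ : NeZero M₀) (_ : Fact (M₀ ∣ N)) (r : ℕ) (_ : 0 < r)
        (c : Fin r → HomS (gammaH N M₀ (⊤ : Subgroup (ZMod M₀)ˣ)) Y.O)
        (a : ℕ → Matrix (Fin r) (Fin r) Y.O)
        (S' : Finset ℕ) (_ : p ∈ S') (_ : ∀ ℓ : ℕ, ℓ.Prime → ℓ ∣ N → ℓ ∈ S')
        (𝕋₀ : Type) (_ : CommRing 𝕋₀) (J₀ : Type) (_ : AddCommGroup J₀) (_ : Module 𝕋₀ J₀)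
        (_ : DistribMulAction GQ J₀) (Tr₀ : ℕ → 𝕋₀)
        (Φ0 : 𝕋₀ →+* Matrix (Fin (2 ^ h * r)) (Fin (2 ^ h * r)) Y.O),
        HkBase p Y.ρbar N S' (2 ^ h * r) J₀ Tr₀ Φ0 ∧
        (∀ ℓ : ℕ, ℓ.Prime → ¬ ℓ ∣ N * p → ℓ ∉ S') ∧
        (∀ (ℓ : ℕ) [NeZero ℓ], ℓ.Prime → ¬ ℓ ∣ N * p →
          (∀ i', tS N M₀ ℓ ⊤ Y.O (c i') = ∑ i, a ℓ i i' • c i) ∧
            Φ0 (Tr₀ ℓ) = rthkcbBlock Y.O h r (a ℓ)) ∧
        ∀ (n : ℕ) (qv : Fin h → ℕ),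
          IsTWFamily p Y.ρbar (Y.Smin ∪ Finset.univ.image Y.r) n h qv →
          ∀ (_ : NeZero (N * rthkdM qv)) (_ : NeZero (rthkdM (Sum.elim qv Y.r)))
            (_ : Fact (rthkdM (Sum.elim qv Y.r) ∣ N * rthkdM qv)),
          ∃ (e : HExpr Y.O) (ℓ₀ : ℕ) (_ : NeZero ℓ₀), e.IsPrimes ∧ ℓ₀.Prime ∧ ¬ ℓ₀ ∣ N ∧
            ℓ₀ ≠ p ∧ (∀ j, qv j ≠ ℓ₀ ∧ e.Avoids (qv j)) ∧
            K5TWCond Y.O N M₀ ℓ₀ e (List.ofFn qv) (RthkdC Y.O (n + 1)) ∧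
            K5IsBasis (RthkdC Y.O (n + 1))
              (etaPart (thetaN (e.eval N M₀) ℓ₀ (RthkdC Y.O (n + 1)) ⊤))
              (fun i => mapS (Submodule.mkQ (maximalIdeal Y.O ^ (n + 1))).toAddMonoidHom
                (c i))

/-- **The K5 side for EVEN levels, every odd prime `p`** (in particular `p = 3`), from
K7-FLAT. -/
theorem rthkk5_mainEW {p : ℕ} (hflat : StmtFlatH) : StmtHkfK5'EW p := by
  intro hp W N q _ hΔ hss hirr hN hpN h2N hq hqp hqN hunr hmod htriv Y h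
  haveI iM₀ : NeZero (1 : ℕ) := ⟨one_ne_zero⟩
  haveI iM₀N : Fact ((1 : ℕ) ∣ N) := ⟨one_dvd N⟩
  obtain ⟨r, hr, c, a, S', hpS', hNS', 𝕋₀, i1, J₀, i2, i3, i4, Tr₀, Φ0, hbase, hS', hmat,
    hfam⟩ := rthkk5_at3W Fermat.Agent.Cheb.weakChebotarev_holds hflat h2N hΔ hN hpN
      hmod Y h 1 squarefree_one
  exact ⟨1, iM₀, iM₀N, r, hr, c, a, S', hpS', hNS', 𝕋₀, i1, J₀, i2, i3, i4, Tr₀, Φ0, hbase,
    hS', hmat, fun n qv hqv _ _ _ => hfam n qv hqv⟩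

/-- the statement for even levels follows from the general one -/
theorem rthkk5_even_of {p : ℕ} (h : StmtHkfK5'W p) : StmtHkfK5'EW p :=
  fun W N q _ hΔ hss hirr hN hpN _ hq hqp hqN hunr hmod htriv Y h' =>
    h W N q hΔ hss hirr hN hpN hq hqp hqN hunr hmod htriv Y h'

end Fermat.Agent.S59.LowK

end
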