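import Fermat.Agent.RT.K5.NoTorsThree
import Fermat.Agent.S59.LowK.ConcFinalUW
import Fermat.Agent.S59.LowK.ConcK5W

/-!
# S59 M3/R1: the final glue at the BIG modulus, EVEN level, every odd `p` (helper22)

The `p = 3` twin of helper9's `ConcFinalUW.lean` (`rthkf_topUW`, `5 ≤ p`): the level `N` is EVEN,
`p` is any odd prime.

    rthkf_topUEW : K7F.StmtFlatH → StmtHkfK5'EW p → StmtHkfTrUEW p → StmtHkfUnipUEW p →
      StmtHkConcTopEW p

* `5 ≤ p` is replaced by `2 ∣ N`: the absence of torsion is `k5nt3_noTors_quot` / `k5nt3_freeHyp`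
  (`2 ≡ 2 mod 3` divides the level), the level hypothesis of K7-FLAT is
  `5 ≤ p ∨ (5 - p) ∣ L` (`rthkf_h5EW`);
* `StmtHkfTrUEW p`, `StmtHkfUnipUEW p`, `StmtHkConcTopEW p` : the contracts `StmtHkfTrUW p`,
  `StmtHkfUnipUW p`, `StmtHkConcTopW p` with the further hypothesis `2 ∣ N` (after `¬ p ∣ N`, as
  in `StmtHkfK5'EW p` of `ConcK5W.lean`); `rthkf_trUE_of`, `rthkf_unipUE_of`,
  `rthkf_concTopE_of` : the general contracts give the even ones;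
* `StmtHkfUnipUEW p` stays a hypothesis (at `p = 3` the prime `q = 2 ∈ Smin` is non-rigid and K6
  has `r ≠ 2`).
-/

set_option autoImplicit false
set_option linter.unusedSectionVars false
set_option linter.unusedVariables false
set_option linter.style.haveILetI false

noncomputable section

namespace Fermat.Agent.S59.LowK

open Fermat.Agent.RT Fermat.Agent.S59.LowQ
open IsLocalRing Fermat.Agent.ES Fermat.Agent.S30 Fermat.Agent.W1 Fermat.Agent.TW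
open Fermat.Agent.ES1 Fermat.Agent.RT.K5 Fermat.Agent.RT.K7F Fermat.Agent.RT.Prod
open ExtCitation WeierstrassCurve WeierstrassCurve.Affine WeierstrassCurve.Affine.Point
open scoped MatrixGroups

/-- **The K6 side at the big modulus, EVEN levels** (`StmtHkfTrUW p` with the hypothesis
`2 ∣ N`). -/
def StmtHkfTrUEW (p : ℕ) : Prop :=
  ∀ [Fact p.Prime] (W : WeierstrassCurve ℤ) (N q : ℕ) [NeZero N], W.Δ ≠ 0 →
    W.IsSemistableModel → W.ModRepIsIrreducible p → Squarefree N → ¬ p ∣ N → 2 ∣ N → q.Prime →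
    q ≠ p → q ∣ N → s59lq_Unram W p q → W.IsResiduallyModularOfLevel p N →
    (∀ r : ℕ, r.Prime → r ≠ p → r ∣ N → s59lq_Unram W p r → s59lq_IsTrivialPrime W p r) →
    ∀ (Y : s59lk_KSetupW W p N) (h n : ℕ) (qv : Fin h → ℕ),
      IsTWFamily p Y.ρbar (Y.Smin ∪ Finset.univ.image Y.r) n h qv →
      ∀ (_ : NeZero (N * rthkdM qv))
        (_ : NeZero (rthkfMUW Y qv))
        (_ : Fact (rthkfMUW Y qv ∣ N * rthkdM qv))
        (𝔲 : NatFam Y.O (N * rthkdM qv) (rthkfMUW Y qv)) (ℓ₀ : ℕ) (_ : NeZero ℓ₀),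
      ∃ ψ1 ψχ : RthkdDelta (rthkfMUW Y qv) (rthkfHUW Y qv n) →*
          RthkSn Y.O (Y.m h) (n + 1),
        (∀ δ, Ideal.Quotient.factor
            (le_sup_right : maximalIdeal (RttwS Y.O (Y.m h)) ^ (n + 1) ≤
              rttwLam (Y.m h) Y.lam ⊔ maximalIdeal (RttwS Y.O (Y.m h)) ^ (n + 1)) (ψ1 δ) =
          Ideal.Quotient.factor
            (le_sup_right : maximalIdeal (RttwS Y.O (Y.m h)) ^ (n + 1) ≤
              rttwLam (Y.m h) Y.lam ⊔ maximalIdeal (RttwS Y.O (Y.m h)) ^ (n + 1)) (ψχ δ)) ∧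
        (∀ δ, Ideal.Quotient.factor
            (le_sup_right : maximalIdeal (RttwS Y.O (Y.m h)) ^ (n + 1) ≤
              rttwAug Y.O (Y.m h) ⊔ maximalIdeal (RttwS Y.O (Y.m h)) ^ (n + 1)) (ψ1 δ) = 1) ∧
        (∀ i, ∃ (x : HDAlg (rthkfMUW Y qv))
            (u : (ZMod (rthkfMUW Y qv))ˣ),
          (∀ k, Rtk7bApprox p
            (es1inftwJ (N * rthkdM qv) (rthkfMUW Y qv) (rthkfHUW Y qv n) p
              (k7ftwChar (rthkfMUW Y qv) (rthkdE p (n + 1))))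
            (fun n g => ((cycE p n g : ℕ) : HDAlg (rthkfMUW Y qv))) k
            (Y.σ i) x) ∧
          (∀ ψ ∈ etaPart (thetaN 𝔲 ℓ₀ (RthkdC Y.O (n + 1)) (rthkfHUW Y qv n)),
            es1infHomEval (N * rthkdM qv) (rthkfMUW Y qv) (rthkfHUW Y qv n)
                (Fact.out) p (RthkdC Y.O (n + 1)) x ψ
              = diamU (N * rthkdM qv) (rthkfMUW Y qv) (rthkfHUW Y qv n)
                  (RthkdC Y.O (n + 1)) u ψ
                + diamU (N * rthkdM qv) (rthkfMUW Y qv) (rthkfHUW Y qv n)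
                  (RthkdC Y.O (n + 1)) u⁻¹ ψ) ∧
          ψ1 (QuotientGroup.mk u) = 1 ∧
          ψχ (QuotientGroup.mk u) + ψχ (QuotientGroup.mk u)⁻¹
            = algebraMap Y.O (RthkSn Y.O (Y.m h) (n + 1)) (2 * Y.tχ i)) ∧
        (∀ j : Fin (Y.m h), (j : ℕ) < h → ∃ (g : GQ)
            (x : HDAlg (rthkfMUW Y qv))
            (u : (ZMod (rthkfMUW Y qv))ˣ),
          (∀ k, Rtk7bApprox p
            (es1inftwJ (N * rthkdM qv) (rthkfMUW Y qv) (rthkfHUW Y qv n) p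
              (k7ftwChar (rthkfMUW Y qv) (rthkdE p (n + 1))))
            (fun n g => ((cycE p n g : ℕ) : HDAlg (rthkfMUW Y qv))) k g x) ∧
          (∀ ψ ∈ etaPart (thetaN 𝔲 ℓ₀ (RthkdC Y.O (n + 1)) (rthkfHUW Y qv n)),
            es1infHomEval (N * rthkdM qv) (rthkfMUW Y qv) (rthkfHUW Y qv n)
                (Fact.out) p (RthkdC Y.O (n + 1)) x ψ
              = diamU (N * rthkdM qv) (rthkfMUW Y qv) (rthkfHUW Y qv n)
                  (RthkdC Y.O (n + 1)) u ψ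
                + diamU (N * rthkdM qv) (rthkfMUW Y qv) (rthkfHUW Y qv n)
                  (RthkdC Y.O (n + 1)) u⁻¹ ψ) ∧
          ψ1 (QuotientGroup.mk u) - ψ1 (QuotientGroup.mk u)⁻¹
            = Ideal.Quotient.mk _ (MvPowerSeries.X j) ∧
          ψχ (QuotientGroup.mk u) - ψχ (QuotientGroup.mk u)⁻¹
            = Ideal.Quotient.mk _ (MvPowerSeries.X j))


/-- **The unipotency side at the big modulus, EVEN levels** (`StmtHkfUnipUW p` with the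
hypothesis `2 ∣ N`). -/
def StmtHkfUnipUEW (p : ℕ) : Prop :=
  ∀ [Fact p.Prime] (W : WeierstrassCurve ℤ) (N q : ℕ) [NeZero N], W.Δ ≠ 0 →
    W.IsSemistableModel → W.ModRepIsIrreducible p → Squarefree N → ¬ p ∣ N → 2 ∣ N → q.Prime →
    q ≠ p → q ∣ N → s59lq_Unram W p q → W.IsResiduallyModularOfLevel p N →
    (∀ r : ℕ, r.Prime → r ≠ p → r ∣ N → s59lq_Unram W p r → s59lq_IsTrivialPrime W p r) →
    ∀ (Y : s59lk_KSetupW W p N) (h n : ℕ) (qv : Fin h → ℕ),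
      IsTWFamily p Y.ρbar (Y.Smin ∪ Finset.univ.image Y.r) n h qv →
      ∀ (_ : NeZero (N * rthkdM qv)) (_ : NeZero (rthkfMUW Y qv))
        (_ : Fact (rthkfMUW Y qv ∣ N * rthkdM qv)),
        HkUnipJ p Y.Smin
          (es1inftwJ (N * rthkdM qv) (rthkfMUW Y qv) (rthkfHUW Y qv n) p
            (k7ftwChar (rthkfMUW Y qv) (rthkdE p (n + 1))))

/-- **HK-CONC for `W`, the concrete contract, EVEN levels** (`StmtHkConcTopW p` with the
hypothesis `2 ∣ M`). -/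
def StmtHkConcTopEW (p : ℕ) : Prop :=
  ∀ [Fact p.Prime] (W : WeierstrassCurve ℤ) (M q : ℕ) [NeZero M], W.Δ ≠ 0 →
    W.IsSemistableModel → W.ModRepIsIrreducible p → Squarefree M → ¬ p ∣ M → 2 ∣ M → q.Prime →
    q ≠ p → q ∣ M → s59lq_Unram W p q → W.IsResiduallyModularOfLevel p M →
    (∀ r : ℕ, r.Prime → r ≠ p → r ∣ M → s59lq_Unram W p r → s59lq_IsTrivialPrime W p r) →
    ∀ (Y : s59lk_KSetupW W p M) (h : ℕ),
      ∃ (d : ℕ) (_ : 0 < d) (S' : Finset ℕ) (_ : p ∈ S')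
        (_ : ∀ ℓ : ℕ, ℓ.Prime → ℓ ∣ M → ℓ ∈ S')
        (𝕋₀ : Type) (_ : CommRing 𝕋₀) (J₀ : Type) (_ : AddCommGroup J₀) (_ : Module 𝕋₀ J₀)
        (_ : DistribMulAction GQ J₀) (Tr₀ : ℕ → 𝕋₀)
        (Φ0 : 𝕋₀ →+* Matrix (Fin d) (Fin d) Y.O),
        HkBase p Y.ρbar M S' d J₀ Tr₀ Φ0 ∧
        ∀ (n : ℕ) (qv : Fin h → ℕ),
          IsTWFamily p Y.ρbar (Y.Smin ∪ Finset.univ.image Y.r) n h qv →
          ∃ (L M' : ℕ) (_ : NeZero L) (_ : NeZero M') (_ : Fact (M' ∣ L))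
            (𝔲 : NatFam Y.O L M') (ℓ₀ : ℕ) (_ : NeZero ℓ₀) (H' : Subgroup (ZMod M')ˣ)
            (J : Type) (_ : AddCommGroup J) (_ : Module (HDAlg M') J)
            (_ : DistribMulAction GQ J) (Tr : ℕ → HDAlg M')
            (b : Fin d → rthkdX 𝔲 ℓ₀ H' (n + 1))
            (ψ1 ψχ : RthkdDelta M' H' →* RthkSn Y.O (Y.m h) (n + 1)),
            HkConcSide p Y.lam Y.ρbar
              (Y.Smin ∪ (Finset.univ.image qv ∪ Finset.univ.image Y.r)) Y.σ Y.tχ (Y.m h) h d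
              (n + 1) (fun ℓ => Φ0 (Tr₀ ℓ)) L M' 𝔲 ℓ₀ H' J Tr b ψ1 ψχ ∧
            HkUnipJ p Y.Smin J


/-- the general K6 contract gives the one for even levels -/
theorem rthkf_trUE_of {p : ℕ} (h : StmtHkfTrUW p) : StmtHkfTrUEW p :=
  fun W N q _ hΔ hss hirr hN hpN _ hq hqp hqN hunr hmod htriv =>
    h W N q hΔ hss hirr hN hpN hq hqp hqN hunr hmod htriv

/-- the general unipotency contract gives the one for even levels -/
theorem rthkf_unipUE_of {p : ℕ} (h : StmtHkfUnipUW p) : StmtHkfUnipUEW p :=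
  fun W N q _ hΔ hss hirr hN hpN _ hq hqp hqN hunr hmod htriv =>
    h W N q hΔ hss hirr hN hpN hq hqp hqN hunr hmod htriv

/-- the general concrete contract gives the one for even levels -/
theorem rthkf_concTopE_of {p : ℕ} (h : StmtHkConcTopW p) : StmtHkConcTopEW p :=
  fun W N q _ hΔ hss hirr hN hpN _ hq hqp hqN hunr hmod htriv =>
    h W N q hΔ hss hirr hN hpN hq hqp hqN hunr hmod htriv

section arithE

variable {W : WeierstrassCurve ℤ} {p N : ℕ} [hp : Fact p.Prime] {Y : s59lk_KSetupW W p N}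
  {h n : ℕ} {qv : Fin h → ℕ}

omit hp in
/-- the level hypothesis `5 ≤ p ∨ (5 - p) ∣ L` of K7-FLAT at an even level, `p` an odd prime -/
theorem rthkf_h5EW (hpp : p.Prime) (hp2 : p ≠ 2) {L : ℕ} (h2L : 2 ∣ L) :
    5 ≤ p ∨ (5 - p) ∣ L := by
  by_cases h5 : 5 ≤ p
  · exact Or.inl h5
  · right
    have h2 := hpp.two_le
    have h4 : p ≠ 4 := fun h4 => by rw [h4] at hpp; exact absurd hpp (by decide)
    have h3 : p = 3 := by omega
    rw [h3]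
    exact h2L

/-- `2 ≤ L` -/
theorem rthkf_two_le_LEW (hN0 : N ≠ 0) (h2N : 2 ∣ N)
    (hqv : IsTWFamily p Y.ρbar (Y.Smin ∪ Finset.univ.image Y.r) n h qv) :
    2 ≤ N * rthkdM qv :=
  Nat.le_of_dvd (Nat.pos_of_ne_zero (rthkdYL_ne_zeroW (Y := Y) hN0 hqv))
    (Dvd.dvd.mul_right h2N _)

/-- **`K7FLevel`** at the big modulus, even level -/
theorem rthkf_k7fLevelUEW (hcond : Squarefree N) (hN0 : N ≠ 0)
    (hpN : ¬ p ∣ N) (h2N : 2 ∣ N)
    (hqv : IsTWFamily p Y.ρbar (Y.Smin ∪ Finset.univ.image Y.r) n h qv) :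
    K7FLevel (N * rthkdM qv) (rthkfMUW Y qv) (rthkfHUW Y qv n) p :=
  rthkgb_k7fLevel (rthkf_two_le_LEW (Y := Y) hN0 h2N hqv) rthkfMU_dvd_LW hp.out Y.hyp.hp2
    (rthkdY_p_not_dvd_LW (Y := Y) hpN hqv)
    (rthkf_h5EW hp.out Y.hyp.hp2 (Dvd.dvd.mul_right h2N _))
    (rthkfMU_squarefreeW hcond hqv) (rthkdYv_injW hqv) (rthkdYv_primeW hqv)
    (rthkdY_pow_dvdW hqv) _

/-- the index of `FreeHyp` at the big modulus (no hypothesis on `p`) -/
theorem rthkf_freeHyp_indexUEW (hN0 : N ≠ 0)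
    (hqv : IsTWFamily p Y.ρbar (Y.Smin ∪ Finset.univ.image Y.r) n h qv) :
    ((pmH (rthkfHUW Y qv n)).subgroupOf (pmH ⊤)).index
      = p ^ (h * (n + 1) + Fintype.card Y.ι) := by
  rw [← rthkgs_sum_k h Y.ι n]
  exact rthkgb_freeHyp_index hp.out Y.hyp.hp2 (rthkdYv_injW hqv) (rthkdYv_primeW hqv)
    (rthkdY_pow_dvdW hqv) (rthkfMU_ne_zeroW hN0 hqv) _

end arithE

/-- **HK-CONC for `W`, the final glue at the big modulus, EVEN level, every odd `p`.** -/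
theorem rthkf_topUEW {p : ℕ} (hflat : StmtFlatH) (hK5 : StmtHkfK5'EW p)
    (hTr : StmtHkfTrUEW p) (hU : StmtHkfUnipUEW p) : StmtHkConcTopEW p := by
  intro hp W N q _ hΔ hss hirr hcond hpN h2N hq hqp hqN hun hmod htriv Y h
  obtain ⟨M₀, iM₀, iM₀N, r, hr, c, a, S', hpS', hNS', 𝕋₀, i1, J₀, i2, i3, i4, Tr₀, Φ0, hbase,
    hS', hmat, hlev⟩ := hK5 W N q hΔ hss hirr hcond hpN h2N hq hqp hqN hun hmod htriv Y h
  refine ⟨2 ^ h * r, Nat.mul_pos (pow_pos two_pos h) hr, S', hpS', hNS', 𝕋₀, i1, J₀, i2, i3,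
    i4, Tr₀, Φ0, hbase, fun n qv hqv => ?_⟩
  have hN0 : N ≠ 0 := NeZero.ne N
  have h2L : 2 ∣ N * rthkdM qv := Dvd.dvd.mul_right h2N _
  haveI iL : NeZero (N * rthkdM qv) := ⟨rthkdYL_ne_zeroW hN0 hqv⟩
  -- the K5 side (its binders are at the small modulus, which it does not use)
  obtain ⟨e, ℓ₀, iℓ₀, heP, hℓ₀, hℓ₀N, hℓ₀p, havoid, hTW, hbasis⟩ :=
    hlev n qv hqv iL ⟨rthkdYM_ne_zeroW hqv⟩ ⟨rthkdYM_dvd_LW (Y := Y) (qv := qv)⟩
  haveI iM : NeZero (rthkfMUW Y qv) := ⟨rthkfMU_ne_zeroW hN0 hqv⟩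
  haveI iML : Fact (rthkfMUW Y qv ∣ N * rthkdM qv) := ⟨rthkfMU_dvd_LW (Y := Y) (qv := qv)⟩
  -- `ℓ₀ ∤ L`
  have hℓ₀L : ¬ ℓ₀ ∣ N * rthkdM qv := by
    intro hd
    rcases (Nat.Prime.dvd_mul hℓ₀).mp hd with h1 | h1
    · exact hℓ₀N h1
    · obtain ⟨j, -, hj⟩ := Finset.mem_image.mp (rthkdY_dvd_prod_qvW hqv hℓ₀ h1)
      exact (havoid j).1 hj
  -- the twisted expression
  have hQ : ∀ q' ∈ List.ofFn qv, q'.Prime ∧ ¬ q' ∣ N ∧ q' ≠ ℓ₀ ∧ e.Avoids q' := by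
    intro q' hq'
    rw [List.mem_ofFn] at hq'
    obtain ⟨j, rfl⟩ := hq'
    exact ⟨(hqv.2.1 j).1, rthkf_qv_not_dvdW hqv j, (havoid j).1, (havoid j).2⟩
  have hnd : (List.ofFn qv).Nodup := List.nodup_ofFn.mpr hqv.1
  have hEP : (e.twist (List.ofFn qv)).IsPrimes :=
    HExpr.isPrimes_twist heP (fun q' hq' => (hQ q' hq').1)
  -- `FreeHyp`
  have hidx := rthkf_freeHyp_indexUEW (Y := Y) (qv := qv) (n := n) hN0 hqv
  have hyp : FreeHyp p Y.O (N * rthkdM qv) (rthkfMUW Y qv) ℓ₀ (rthkfHUW Y qv n) ⊤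
      (h * (n + 1) + Fintype.card Y.ι) :=
    k5nt3_freeHyp hp.out Y.hyp.hp2 Y.hyp.hp𝒪 Nat.prime_two (by norm_num) _ _ ℓ₀ h2L hℓ₀ hℓ₀L
      le_top _ hidx
  -- `free` and `base`
  obtain ⟨b, free, hbmat⟩ := rthkcf_X p Y.O N M₀ ℓ₀ e hℓ₀ hℓ₀N (List.ofFn qv) h
    (List.length_ofFn) hnd hQ (N * rthkdM qv) (rthkfMUW Y qv) rthkf_prod_ofFnW
    (rthkfHUW Y qv n) _ hyp (n + 1) (Nat.succ_pos n) hTW c hbasis
  -- the characters
  obtain ⟨ψ1, ψχ, hcong, haug, htrT, htrQ⟩ := hTr W N q hΔ hss hirr hcond hpN h2N hq hqp hqN hun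
    hmod htriv Y h n qv hqv iL iM iML ((e.twist (List.ofFn qv)).eval (N * rthkdM qv)
      (rthkfMUW Y qv)) ℓ₀ iℓ₀
  have hst := rthkd_hst (O := Y.O) (L := N * rthkdM qv) (M := rthkfMUW Y qv) p
    (e.twist (List.ofFn qv)) hEP ℓ₀ hℓ₀ hℓ₀L (rthkfHUW Y qv n) (n + 1)
  have hk : ∀ x : Fin h ⊕ Y.ι,
      (Sum.elim (fun _ => n + 1) (fun _ => 1) : Fin h ⊕ Y.ι → ℕ) x ≤ n + 1 := by
    rintro (j | i)
    · exact le_rfl
    · exact Nat.succ_le_succ (Nat.zero_le n)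
  have hfaith := rthkd_faith (O := Y.O) (p := p) (L := N * rthkdM qv)
    (M := rthkfMUW Y qv) (H' := rthkfHUW Y qv n)
    (rthksE p (es1inftwJ (N * rthkdM qv) (rthkfMUW Y qv) (rthkfHUW Y qv n) p
        (k7ftwChar (rthkfMUW Y qv) (rthkdE p (n + 1))))
      (𝕋 := HDAlg (rthkfMUW Y qv)) : Set (HDAlg (rthkfMUW Y qv)))
    (k7ftwChar (rthkfMUW Y qv) (rthkdE p (n + 1))) Y.hyp.hp𝒪
    (e.twist (List.ofFn qv)) hEP ℓ₀ hℓ₀ hℓ₀L (rthkf_sqfree_LW hcond hqv) Y.hyp.hp2 hℓ₀p (n + 1)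
    (fun u => by
      rw [rthkd_pmH (hp.out.odd_of_ne_two Y.hyp.hp2)]
      exact rthkd_pow_mem_H hk u)
    (n + 1) (k5nt3_noTors_quot hp.out Y.hyp.hp2 Y.hyp.hp𝒪 Nat.prime_two (by norm_num) h2L _ _
      (n + 1)) hst
  have hℓN : ∀ ℓ : ℕ, ℓ.Prime → ¬ ℓ ∣ (N * rthkdM qv) * p → ¬ ℓ ∣ N * p :=
    fun ℓ hℓ hℓL hd => hℓL (by
      rcases (Nat.Prime.dvd_mul hℓ).mp hd with h1 | h1
      · exact Dvd.dvd.mul_right (Dvd.dvd.mul_right h1 _) _
      · exact Dvd.dvd.mul_left h1 _)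
  have hΔ' : ∀ δ : RthkdDelta (rthkfMUW Y qv) (rthkfHUW Y qv n),
      δ ^ p ^ (n + 1) = 1 := by
    intro δ
    obtain ⟨u, rfl⟩ := QuotientGroup.mk_surjective δ
    rw [← QuotientGroup.mk_pow, QuotientGroup.eq_one_iff,
      rthkd_pmH (hp.out.odd_of_ne_two Y.hyp.hp2)]
    exact rthkd_pow_mem_H hk u
  -- the field `base`
  have hbaseF : ∀ ℓ : ℕ, ℓ.Prime → ¬ ℓ ∣ (N * rthkdM qv) * p →
      rthkmMat free (1 : RthkdDelta (rthkfMUW Y qv) (rthkfHUW Y qv n) →* RthkdC Y.O (n + 1))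
        (rthkdAct p ((e.twist (List.ofFn qv)).eval (N * rthkdM qv) (rthkfMUW Y qv)) ℓ₀
          (rthkfHUW Y qv n) (n + 1) hst
          (es1inftwTr (rthkfMUW Y qv) (rthkdE p (n + 1)) ℓ))
        = (Φ0 (Tr₀ ℓ)).map (algebraMap Y.O (RthkdC Y.O (n + 1))) := by
    intro ℓ hℓ hℓL
    haveI : NeZero ℓ := ⟨hℓ.ne_zero⟩
    obtain ⟨ha, hΦ⟩ := hmat ℓ hℓ (hℓN ℓ hℓ hℓL)
    rw [hΦ]
    refine hbmat ℓ hℓ (rthkf_not_mem_QW hℓL) (a ℓ) ha _ (fun x => ?_)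
    refine ⟨((ZMod.unitOfCoprime ℓ (rthkf_coprime_MUW (Y := Y) hℓ hℓL))⁻¹
      ^ rthkdE p (n + 1)), ?_⟩
    rw [rthkdAct_coe]
    exact es1infev_twTr (rthkdE p (n + 1))
      (by
        have := rthkd_two_E (p := p) (hp.out.odd_of_ne_two Y.hyp.hp2) (n + 1)
        have hpos : 0 < p ^ (n + 1) := pow_pos hp.out.pos _
        omega)
      hℓ hℓL (rthkf_coprime_MUW (Y := Y) hℓ hℓL) _
  -- the field `resid`
  have hres := rthkra_resid_field (ρbar := Y.ρbar) (a0 := fun ℓ => Φ0 (Tr₀ ℓ))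
    (Tr := es1inftwTr (rthkfMUW Y qv) (rthkdE p (n + 1))) hst free Y.hyp.hp𝒪
    (n + 1) hΔ' hbaseF
    (fun ℓ hℓ hℓL A hA τ hτ => hbase.resid ℓ hℓ (hS' ℓ hℓ (hℓN ℓ hℓ hℓL)) A hA τ hτ)
  refine ⟨N * rthkdM qv, rthkfMUW Y qv, iL, iM, iML,
    (e.twist (List.ofFn qv)).eval (N * rthkdM qv) (rthkfMUW Y qv), ℓ₀, iℓ₀,
    rthkfHUW Y qv n,
    es1inftwJ (N * rthkdM qv) (rthkfMUW Y qv) (rthkfHUW Y qv n) p
      (k7ftwChar (rthkfMUW Y qv) (rthkdE p (n + 1))),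
    inferInstance, inferInstance, inferInstance,
    es1inftwTr (rthkfMUW Y qv) (rthkdE p (n + 1)), b, ψ1, ψχ, ?_,
    hU W N q hΔ hss hirr hcond hpN h2N hq hqp hqN hun hmod htriv Y h n qv hqv iL iM iML⟩
  exact
    { pkg := rthkp_pkg (L := N * rthkdM qv) (M := rthkfMUW Y qv)
        (rthkfHUW Y qv n) p (rthkdE p (n + 1)) (rthkp_one_le_half p (n + 1) hp.out.pos)
        (rthkd_pow_E_mem (hp.out.odd_of_ne_two Y.hyp.hp2) hk)
      primes := rthkdY_primesW hqv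
      model := rthkp_model (L := N * rthkdM qv) (M := rthkfMUW Y qv)
        (rthkfHUW Y qv n) p hflat
        (rthkf_k7fLevelUEW (Y := Y) (qv := qv) (n := n) hcond hN0 hpN h2N hqv)
        (rthkdE p (n + 1))
      stable := hst
      free := free
      faith := by
        obtain ⟨n₀, hn₀⟩ := hfaith
        refine ⟨n₀, fun t ht hkill ψ hψ => ?_⟩
        have h0 := hn₀ t ht hkill
        have h1 : rthkdAct p _ ℓ₀ (rthkfHUW Y qv n) (n + 1) hst t ⟨ψ, hψ⟩ = 0 := by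
          rw [h0]
          rfl
        exact congrArg Subtype.val h1
      resid := hres
      cong := hcong
      aug := haug
      trT := htrT
      trQ := htrQ
      base := hbaseF }

end Fermat.Agent.S59.LowK

end
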