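/-
S59, walls M3 / R1, K-machine for a general semistable curve `W`: the `W`-twin of
`RT/Hecke/ConcTr.lean` + `ConcTr5.lean` + `ConcTrFinal.lean` (originals by helper69; port by
helper97, ledger NOTES/S59-LowK.md), UNIFORM in the odd prime `p`: the K6 input is helper34's
`ES1.es1inftw_chi_approx_odd` (`RT/K6T/ChiOdd.lean`; `p ≥ 5`: `rtk6c4at_stmtChiJDiv5`, `p = 3`:
helper4's fork `rtk6t_stmtChiJDiv3` at EVEN levels), under the standing level hypothesis of K7-FLAT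
`h5 : 5 ≤ p ∨ (5 - p) ∣ L`.

`Y : s59lk_KSetupW W p N`, `qv : Fin h → ℕ` a Taylor–Wiles family of level `n`,
`v = Sum.elim qv Y.r`, `k = rthkciExp h Y.ι (n + 1)`, a level `(L, M)` with `M ∣ L`, `v x ∣ M`,
`(v x)² ∤ L`, `p ∤ L`; `H' = rthkdH p v k M hM`, `e = rthkdE p (n + 1)`.

* `rthkt_op_oddW`        : the operator part of `trT` / `trQ` at one inertia element;
* `rthkt_chars_existsW`  : the characters `ψ1, ψχ` on the concrete diamond group (twin of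
                           `rthkcg_exists`, from the abstract forms of `RT/Hecke/CharsInst.lean`);
* `rthkt_chars_tr_oddW`  : **the package** `∃ ψ1 ψχ, cong ∧ aug ∧ trT ∧ trQ`, every level `(L, M)`;
* `rthkt_not_sq_dvd_LW`, `rthkt_p_not_dvd_LW` : `hL2`, `hpL` at the concrete level
                           `L = N * rthkdM qv` (`N` squarefree, `p ∤ N`);
* `rthkt_final_oddW`     : the statement of `StmtHkfTrW p` with the extra hypothesis
                           `5 ≤ p ∨ (5 - p) ∣ N`;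
* `rthkt_finalW`         : `5 ≤ p → StmtHkfTrW p` (contract 2 of `S59/LowK/ConcFinalPlanW.lean`).
-/
import Fermat.Agent.RT.Hecke.ConcTr5
import Fermat.Agent.RT.K6T.ChiOdd
import Fermat.Agent.S59.LowK.ConcFinalPlanW
import Fermat.Agent.S59.LowK.FinalNumW

set_option autoImplicit false
set_option linter.unusedSectionVars false
set_option linter.unusedVariables false
set_option linter.style.haveILetI false
set_option linter.style.longLine false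

noncomputable section

namespace Fermat.Agent.S59.LowK

open Fermat.Agent.RT Fermat.Agent.S59.LowQ
open IsLocalRing Fermat.Agent.RT.K5 Fermat.Agent.RT.K6 Fermat.Agent.RT.K7F Fermat.Agent.ES
  Fermat.Agent.ES1 Fermat.Agent.S30 Fermat.Agent.TW Fermat.Agent.RT.Prod

section Arith

variable {p : ℕ}

/-- `e = (p ^ ν + 1) / 2` is prime to `p` (`1 ≤ ν`) -/
theorem rthkt_coprime_EW (hp : p.Prime) (hp2 : p ≠ 2) {ν : ℕ} (hν : 1 ≤ ν) :
    Nat.Coprime (rthkdE p ν) p := by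
  have h2 := rthkd_two_E (hp.odd_of_ne_two hp2) ν
  rw [Nat.coprime_comm, Nat.Prime.coprime_iff_not_dvd hp]
  intro hd
  have h3 : p ∣ p ^ ν + 1 := by
    rw [← h2]
    exact Dvd.dvd.mul_left hd 2
  have h4 : p ∣ p ^ ν := dvd_pow_self _ (by omega)
  have h5 : p ∣ 1 := (Nat.dvd_add_right h4).mp h3
  exact hp.one_lt.ne' (Nat.dvd_one.mp h5)

theorem rthkt_one_le_EW (hp : p.Prime) (ν : ℕ) : 1 ≤ rthkdE p ν := by
  have h1 : 1 ≤ p ^ ν := Nat.one_le_pow _ _ hp.pos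
  rw [rthkdE]
  omega

/-- a prime `r` with `p ∣ r − 1` is not `p` -/
theorem rthkt_ne_pW (hp : p.Prime) {r : ℕ} (hr : r.Prime) (h : p ∣ r - 1) : r ≠ p := by
  intro e
  rw [e] at h
  have h1 : p - 1 < p := Nat.sub_lt hp.pos one_pos
  have h2 : 0 < p - 1 := by have := hp.two_le; omega
  exact absurd (Nat.le_of_dvd h2 h) (not_le.mpr h1)

/-- a prime `r` with `p ∣ r − 1` (`p` an odd prime) is at least `5` -/
theorem rthkt_five_leW (hp : p.Prime) (hp2 : p ≠ 2) {r : ℕ} (hr : r.Prime) (h : p ∣ r - 1) :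
    5 ≤ r := by
  have h1 : 0 < r - 1 := by have := hr.two_le; omega
  have h2 := Nat.le_of_dvd h1 h
  have h3 : 3 ≤ p := by
    have := hp.two_le
    omega
  by_contra hlt
  have hr4 : r = 4 := by omega
  rw [hr4] at hr
  exact absurd hr (by norm_num)

end Arith

section Setup

variable {W : WeierstrassCurve ℤ} {p N : ℕ} [hp : Fact p.Prime] (Y : s59lk_KSetupW W p N)
  {n h : ℕ} {qv : Fin h → ℕ}

theorem rthkt_v_primeW
    (hTW : IsTWFamily p Y.ρbar (Y.Smin ∪ Finset.univ.image Y.r) n h qv)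
    (x : Fin h ⊕ Y.ι) : (Sum.elim qv Y.r x).Prime := by
  rcases x with j | i
  · exact (hTW.2.1 j).1
  · exact Y.r_prime i

theorem rthkt_v_injW
    (hTW : IsTWFamily p Y.ρbar (Y.Smin ∪ Finset.univ.image Y.r) n h qv) :
    Function.Injective (Sum.elim qv Y.r) := by
  have hne : ∀ (j : Fin h) (i : Y.ι), qv j ≠ Y.r i := by
    intro j i e
    refine (hTW.2.1 j).2.1 (Finset.mem_union_right _ ?_)
    rw [e]
    exact Finset.mem_image_of_mem _ (Finset.mem_univ i)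
  rintro (j | i) (j' | i') e
  · exact congrArg Sum.inl (hTW.1 e)
  · exact absurd e (hne j i')
  · exact absurd e.symm (hne j' i)
  · exact congrArg Sum.inr (Y.r_inj e)

theorem rthkt_pow_dvdW
    (hTW : IsTWFamily p Y.ρbar (Y.Smin ∪ Finset.univ.image Y.r) n h qv)
    (x : Fin h ⊕ Y.ι) : p ^ rthkciExp h Y.ι (n + 1) x ∣ Sum.elim qv Y.r x - 1 := by
  rcases x with j | i
  · exact (hTW.2.1 j).2.2
  · show p ^ 1 ∣ Y.r i - 1
    rw [pow_one]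
    exact Y.r_dvd_sub_one i

theorem rthkt_exp_leW (ν : ℕ) (hν : 1 ≤ ν) (x : Fin h ⊕ Y.ι) : rthkciExp h Y.ι ν x ≤ ν := by
  rcases x with j | i
  · exact le_rfl
  · exact hν

theorem rthkt_p_dvdW
    (hTW : IsTWFamily p Y.ρbar (Y.Smin ∪ Finset.univ.image Y.r) n h qv)
    (x : Fin h ⊕ Y.ι) : p ∣ Sum.elim qv Y.r x - 1 := by
  refine dvd_trans (dvd_pow_self p ?_) (rthkt_pow_dvdW Y hTW x)
  rcases x with j | i
  · exact Nat.succ_ne_zero n
  · exact one_ne_zero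

end Setup

section Op

variable {W : WeierstrassCurve ℤ} {p N : ℕ} [hp : Fact p.Prime] (Y : s59lk_KSetupW W p N)
  {n h : ℕ} {qv : Fin h → ℕ}
  {L M : ℕ} [NeZero L] [NeZero M] [hML : Fact (M ∣ L)]

/-- **the operator part** of `trT` / `trQ` at one inertia element, every odd prime `p`. -/
theorem rthkt_op_oddW (h5 : 5 ≤ p ∨ (5 - p) ∣ L)
    (hTW : IsTWFamily p Y.ρbar (Y.Smin ∪ Finset.univ.image Y.r) n h qv)
    (hM : ∀ x, Sum.elim qv Y.r x ∣ M) (hL2 : ∀ x, ¬ Sum.elim qv Y.r x ^ 2 ∣ L) (hpL : ¬ p ∣ L)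
    (x : Fin h ⊕ Y.ι) (A : ValuationSubring (AlgebraicClosure ℚ))
    (hA : A.LiesOverPrime (Sum.elim qv Y.r x)) (g : GQ) (hg : g ∈ A.inertiaSubgroupIn ℚ) :
    (∀ k : ℕ, Rtk7bApprox p
        (es1inftwJ L M (rthkdH p (Sum.elim qv Y.r) (rthkciExp h Y.ι (n + 1)) M hM) p
          (k7ftwChar M (rthkdE p (n + 1))))
        (fun n g => ((cycE p n g : ℕ) : HDAlg M)) k g
        (es1inftwChiPoly M (rthkdE p (n + 1)) (Fermat.Agent.S42.cycloChar M g))) ∧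
      ∀ (B : Type) [AddCommGroup B]
        (ψ : HomS (gammaH L M (rthkdH p (Sum.elim qv Y.r) (rthkciExp h Y.ι (n + 1)) M hM)) B),
        es1infHomEval L M (rthkdH p (Sum.elim qv Y.r) (rthkciExp h Y.ι (n + 1)) M hM)
            hML.out p B
            (es1inftwChiPoly M (rthkdE p (n + 1)) (Fermat.Agent.S42.cycloChar M g)) ψ
          = diamU L M (rthkdH p (Sum.elim qv Y.r) (rthkciExp h Y.ι (n + 1)) M hM) B
              (Fermat.Agent.S42.cycloChar M g ^ rthkdE p (n + 1)) ψ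
            + diamU L M (rthkdH p (Sum.elim qv Y.r) (rthkciExp h Y.ι (n + 1)) M hM) B
              (Fermat.Agent.S42.cycloChar M g ^ rthkdE p (n + 1))⁻¹ ψ := by
  have hM0 : M ≠ 0 := NeZero.ne M
  have hp2 : p ≠ 2 := Y.hyp.hp2
  have hvp := rthkt_v_primeW Y hTW
  have hv := rthkt_v_injW Y hTW
  have hk := rthkt_pow_dvdW Y hTW
  have hp1 := rthkt_p_dvdW Y hTW x
  refine ⟨fun k' => ?_, fun B _ ψ => es1infev_chiPoly _ _ ψ⟩
  exact es1inftw_chi_approx_odd hp2 hpL h5 (rthkdE p (n + 1)) (rthkt_one_le_EW hp.out (n + 1))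
    (rthkd_pow_E_mem (hp.out.odd_of_ne_two hp2)
      (rthkt_exp_leW Y (n + 1) (Nat.succ_le_succ (Nat.zero_le n))))
    (k7ftwChar M (rthkdE p (n + 1))) (hvp x) (rthkt_five_leW hp.out hp2 (hvp x) hp1) (hM x)
    (hL2 x) (rthkt_ne_pW hp.out (hvp x) hp1)
    (rthkh_isStarStable hp.out hp2 hv hvp hk hM0 hM (hvp x) (hM x))
    (∑ y, rthkciExp h Y.ι (n + 1) y)
    (fun c => le_pmH _ (rthkgH_pow_mem hM (rthkg_le_sum _) c dvd_rfl))
    A hA g hg rfl k'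

end Op

section Chars

variable {W : WeierstrassCurve ℤ} {p N : ℕ} [hp : Fact p.Prime] (Y : s59lk_KSetupW W p N)
  {n h : ℕ} {qv : Fin h → ℕ}

theorem rthkt_two_tχW (i : Y.ι) : 2 * Y.tχ i = Y.ζ + Y.ζ ^ (p - 1) := by
  show 2 * (Y.half * (Y.ζ + Y.ζ ^ (p - 1))) = _
  rw [← mul_assoc, Y.two_mul_half, one_mul]

/-- the characters on the concrete diamond group, with `cong`, `aug` and the values at the
classes of the generators `γ x` (twin of `rthkcg_exists`). -/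
theorem rthkt_chars_existsW
    (hTW : IsTWFamily p Y.ρbar (Y.Smin ∪ Finset.univ.image Y.r) n h qv)
    {M : ℕ} (hM0 : M ≠ 0) (hM : ∀ x, Sum.elim qv Y.r x ∣ M) (γ : Fin h ⊕ Y.ι → (ZMod M)ˣ)
    (hγ1 : ∀ x y, y ≠ x → ZMod.unitsMap (hM y) (γ x) = 1)
    (hγ2 : ∀ x, ¬ ∃ y : (ZMod (Sum.elim qv Y.r x))ˣ, y ^ p = ZMod.unitsMap (hM x) (γ x)) :
    ∃ ψ1 ψχ : RthkdDelta M (rthkdH p (Sum.elim qv Y.r) (rthkciExp h Y.ι (n + 1)) M hM) →*
        RthkSn Y.O (Y.m h) (n + 1),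
      (∀ δ, Ideal.Quotient.factor
          (le_sup_right : maximalIdeal (RttwS Y.O (Y.m h)) ^ (n + 1) ≤
            rttwLam (Y.m h) Y.lam ⊔ maximalIdeal (RttwS Y.O (Y.m h)) ^ (n + 1)) (ψ1 δ) =
        Ideal.Quotient.factor
          (le_sup_right : maximalIdeal (RttwS Y.O (Y.m h)) ^ (n + 1) ≤
            rttwLam (Y.m h) Y.lam ⊔ maximalIdeal (RttwS Y.O (Y.m h)) ^ (n + 1)) (ψχ δ)) ∧
      (∀ δ, Ideal.Quotient.factor
          (le_sup_right : maximalIdeal (RttwS Y.O (Y.m h)) ^ (n + 1) ≤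
            rttwAug Y.O (Y.m h) ⊔ maximalIdeal (RttwS Y.O (Y.m h)) ^ (n + 1)) (ψ1 δ) = 1) ∧
      (∀ i : Y.ι,
        ψ1 (QuotientGroup.mk (γ (Sum.inr i))) = 1 ∧
        ψχ (QuotientGroup.mk (γ (Sum.inr i))) + ψχ (QuotientGroup.mk (γ (Sum.inr i)))⁻¹
          = algebraMap Y.O (RthkSn Y.O (Y.m h) (n + 1)) (2 * Y.tχ i)) ∧
      (∀ (j : Fin (Y.m h)) (hj : (j : ℕ) < h),
        ψ1 (QuotientGroup.mk (γ (Sum.inl ⟨j, hj⟩)))
            - ψ1 (QuotientGroup.mk (γ (Sum.inl ⟨j, hj⟩)))⁻¹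
          = Ideal.Quotient.mk (maximalIdeal (RttwS Y.O (Y.m h)) ^ (n + 1))
              (MvPowerSeries.X j) ∧
        ψχ (QuotientGroup.mk (γ (Sum.inl ⟨j, hj⟩)))
            - ψχ (QuotientGroup.mk (γ (Sum.inl ⟨j, hj⟩)))⁻¹
          = Ideal.Quotient.mk (maximalIdeal (RttwS Y.O (Y.m h)) ^ (n + 1))
              (MvPowerSeries.X j)) := by
  classical
  have hm : h ≤ Y.m h := Nat.le_add_right _ _
  obtain ⟨κγ, hgen, -⟩ := rthkgb_equiv (p := p) (k := rthkciExp h Y.ι (n + 1)) hp.out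
    Y.hyp.hp2 (rthkt_v_injW Y hTW) (rthkt_v_primeW Y hTW) (rthkt_pow_dvdW Y hTW) hM0 hM γ hγ1
    (fun x _ => hγ2 x)
  refine ⟨(rthkciPsi1 Y.h2 p Y.hyp.hp𝒪 hm Y.ι (n + 1)).comp κγ.toMonoidHom,
    (rthkciPsiχ Y.h2 p Y.hyp.hp𝒪 hm Y.ι (n + 1) Y.ζ Y.hζ.pow_eq_one).comp κγ.toMonoidHom,
    fun δ => ?_, fun δ => ?_, fun i => ?_, fun j hj => ?_⟩
  · exact rthkci_cong_comp Y.h2 p Y.hyp.hp𝒪 hm Y.ι (n + 1) Y.ζ κγ.toMonoidHom
      Y.hζ.pow_eq_one Y.hlam Y.zeta_sub_one_mem δ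
  · exact rthkci_aug_comp Y.h2 p Y.hyp.hp𝒪 hm Y.ι (n + 1) κγ.toMonoidHom δ
  · exact rthkci_valT_comp Y.h2 p Y.hyp.hp𝒪 hm Y.ι (n + 1) Y.ζ κγ.toMonoidHom
      Y.hζ.pow_eq_one (Y.tχ i) (rthkt_two_tχW Y i) i _ (hgen (Sum.inr i))
  · exact rthkci_valQ_comp Y.h2 p Y.hyp.hp𝒪 hm Y.ι (n + 1) Y.ζ κγ.toMonoidHom
      Y.hζ.pow_eq_one j hj _ (hgen (Sum.inl ⟨j, hj⟩))

end Chars

section Package

variable {W : WeierstrassCurve ℤ} {p N : ℕ} [hp : Fact p.Prime] (Y : s59lk_KSetupW W p N)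
  {n h : ℕ} {qv : Fin h → ℕ}
  {L M : ℕ} [NeZero L] [NeZero M] [hML : Fact (M ∣ L)]

/-- **the fields `cong`, `aug`, `trT`, `trQ` of `HkConcSide`**, for every level `(L, M)`, every
odd prime `p` (`5 ≤ p`, or `p = 3` and `L` even). -/
theorem rthkt_chars_tr_oddW (h5 : 5 ≤ p ∨ (5 - p) ∣ L)
    (hTW : IsTWFamily p Y.ρbar (Y.Smin ∪ Finset.univ.image Y.r) n h qv)
    (hM : ∀ x, Sum.elim qv Y.r x ∣ M) (hL2 : ∀ x, ¬ Sum.elim qv Y.r x ^ 2 ∣ L) (hpL : ¬ p ∣ L)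
    (𝔲 : NatFam Y.O L M) (ℓ₀ : ℕ) [NeZero ℓ₀] :
    ∃ ψ1 ψχ : RthkdDelta M (rthkdH p (Sum.elim qv Y.r) (rthkciExp h Y.ι (n + 1)) M hM) →*
        RthkSn Y.O (Y.m h) (n + 1),
      (∀ δ, Ideal.Quotient.factor
          (le_sup_right : maximalIdeal (RttwS Y.O (Y.m h)) ^ (n + 1) ≤
            rttwLam (Y.m h) Y.lam ⊔ maximalIdeal (RttwS Y.O (Y.m h)) ^ (n + 1)) (ψ1 δ) =
        Ideal.Quotient.factor
          (le_sup_right : maximalIdeal (RttwS Y.O (Y.m h)) ^ (n + 1) ≤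
            rttwLam (Y.m h) Y.lam ⊔ maximalIdeal (RttwS Y.O (Y.m h)) ^ (n + 1)) (ψχ δ)) ∧
      (∀ δ, Ideal.Quotient.factor
          (le_sup_right : maximalIdeal (RttwS Y.O (Y.m h)) ^ (n + 1) ≤
            rttwAug Y.O (Y.m h) ⊔ maximalIdeal (RttwS Y.O (Y.m h)) ^ (n + 1)) (ψ1 δ) = 1) ∧
      (∀ i, ∃ (x : HDAlg M) (u : (ZMod M)ˣ),
        (∀ k, Rtk7bApprox p
          (es1inftwJ L M (rthkdH p (Sum.elim qv Y.r) (rthkciExp h Y.ι (n + 1)) M hM) p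
            (k7ftwChar M (rthkdE p (n + 1))))
          (fun n g => ((cycE p n g : ℕ) : HDAlg M)) k (Y.σ i) x) ∧
        (∀ ψ ∈ etaPart (thetaN 𝔲 ℓ₀ (RthkdC Y.O (n + 1))
            (rthkdH p (Sum.elim qv Y.r) (rthkciExp h Y.ι (n + 1)) M hM)),
          es1infHomEval L M (rthkdH p (Sum.elim qv Y.r) (rthkciExp h Y.ι (n + 1)) M hM)
              hML.out p (RthkdC Y.O (n + 1)) x ψ
            = diamU L M (rthkdH p (Sum.elim qv Y.r) (rthkciExp h Y.ι (n + 1)) M hM)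
                (RthkdC Y.O (n + 1)) u ψ
              + diamU L M (rthkdH p (Sum.elim qv Y.r) (rthkciExp h Y.ι (n + 1)) M hM)
                (RthkdC Y.O (n + 1)) u⁻¹ ψ) ∧
        ψ1 (QuotientGroup.mk u) = 1 ∧
        ψχ (QuotientGroup.mk u) + ψχ (QuotientGroup.mk u)⁻¹
          = algebraMap Y.O (RthkSn Y.O (Y.m h) (n + 1)) (2 * Y.tχ i)) ∧
      (∀ j : Fin (Y.m h), (j : ℕ) < h → ∃ (g : GQ) (x : HDAlg M) (u : (ZMod M)ˣ),
        (∀ k, Rtk7bApprox p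
          (es1inftwJ L M (rthkdH p (Sum.elim qv Y.r) (rthkciExp h Y.ι (n + 1)) M hM) p
            (k7ftwChar M (rthkdE p (n + 1))))
          (fun n g => ((cycE p n g : ℕ) : HDAlg M)) k g x) ∧
        (∀ ψ ∈ etaPart (thetaN 𝔲 ℓ₀ (RthkdC Y.O (n + 1))
            (rthkdH p (Sum.elim qv Y.r) (rthkciExp h Y.ι (n + 1)) M hM)),
          es1infHomEval L M (rthkdH p (Sum.elim qv Y.r) (rthkciExp h Y.ι (n + 1)) M hM)
              hML.out p (RthkdC Y.O (n + 1)) x ψ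
            = diamU L M (rthkdH p (Sum.elim qv Y.r) (rthkciExp h Y.ι (n + 1)) M hM)
                (RthkdC Y.O (n + 1)) u ψ
              + diamU L M (rthkdH p (Sum.elim qv Y.r) (rthkciExp h Y.ι (n + 1)) M hM)
                (RthkdC Y.O (n + 1)) u⁻¹ ψ) ∧
        ψ1 (QuotientGroup.mk u) - ψ1 (QuotientGroup.mk u)⁻¹
          = Ideal.Quotient.mk (maximalIdeal (RttwS Y.O (Y.m h)) ^ (n + 1))
              (MvPowerSeries.X j) ∧
        ψχ (QuotientGroup.mk u) - ψχ (QuotientGroup.mk u)⁻¹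
          = Ideal.Quotient.mk (maximalIdeal (RttwS Y.O (Y.m h)) ^ (n + 1))
              (MvPowerSeries.X j)) := by
  have hM0 : M ≠ 0 := NeZero.ne M
  have hp2 : p ≠ 2 := Y.hyp.hp2
  have hvp := rthkt_v_primeW Y hTW
  have hv := rthkt_v_injW Y hTW
  have hp1 := rthkt_p_dvdW Y hTW
  have hM2 : ∀ x, ¬ Sum.elim qv Y.r x ^ 2 ∣ M := fun x hd => hL2 x (hd.trans hML.out)
  -- the generators
  obtain ⟨g, hgσ, hgin, hγ1, hγ2⟩ := rthkt_exists_gens M (p := p) Y.r Y.σ Y.φ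
    (fun i => Y.r_prime i) Y.hloc qv (fun j => (hTW.2.1 j).1) hv hM hM2 hp1
    (rthkdE p (n + 1)) (rthkt_coprime_EW hp.out hp2 (Nat.succ_le_succ (Nat.zero_le n)))
  -- the characters
  obtain ⟨ψ1, ψχ, hcong, haug, hT, hQ⟩ := rthkt_chars_existsW Y hTW hM0 hM
    (fun x => Fermat.Agent.S42.cycloChar M (g x) ^ rthkdE p (n + 1)) hγ1 hγ2
  refine ⟨ψ1, ψχ, hcong, haug, fun i => ?_, fun j hj => ?_⟩
  · obtain ⟨A, hA, hg⟩ := hgin (Sum.inr i)
    obtain ⟨h1, h2⟩ := rthkt_op_oddW Y h5 hTW hM hL2 hpL (Sum.inr i) A hA _ hg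
    rw [hgσ i] at h1 h2
    have h3 := hT i
    simp only [hgσ i] at h3
    exact ⟨_, _, h1, fun ψ _ => h2 _ ψ, h3.1, h3.2⟩
  · obtain ⟨A, hA, hg⟩ := hgin (Sum.inl ⟨j, hj⟩)
    obtain ⟨h1, h2⟩ := rthkt_op_oddW Y h5 hTW hM hL2 hpL (Sum.inl ⟨j, hj⟩) A hA _ hg
    have h3 := hQ j hj
    exact ⟨_, _, _, h1, fun ψ _ => h2 _ ψ, h3.1, h3.2⟩

end Package

/-! ## the concrete level `L = N * ∏ qv j`, `M = ∏ v x` -/

section Inst

variable {W : WeierstrassCurve ℤ} {p N : ℕ} [hp : Fact p.Prime] (Y : s59lk_KSetupW W p N)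
  {n h : ℕ} {qv : Fin h → ℕ}

/-- a Taylor–Wiles prime does not divide `N` -/
theorem rthkt_qv_not_dvdW
    (hTW : IsTWFamily p Y.ρbar (Y.Smin ∪ Finset.univ.image Y.r) n h qv) (j : Fin h) :
    ¬ qv j ∣ N := fun hd => (hTW.2.1 j).2.1 (Y.mem_of_dvd (hTW.2.1 j).1 hd)

/-- `L = N * ∏ qv j` is squarefree -/
theorem rthkt_L_sqfreeW (hN : Squarefree N)
    (hTW : IsTWFamily p Y.ρbar (Y.Smin ∪ Finset.univ.image Y.r) n h qv) :
    Squarefree (N * rthkdM qv) := by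
  have hcop : Nat.Coprime N (rthkdM qv) := by
    rw [rthkdM]
    refine Nat.Coprime.prod_right fun j _ => ?_
    rw [Nat.coprime_comm, Nat.Prime.coprime_iff_not_dvd (hTW.2.1 j).1]
    exact rthkt_qv_not_dvdW Y hTW j
  rw [Nat.squarefree_mul hcop]
  refine ⟨hN, ?_⟩
  rw [rthkdM]
  apply Finset.squarefree_prod_of_pairwise_isCoprime
  · intro x _ y _ hxy
    show IsRelPrime (qv x) (qv y)
    rw [← Nat.coprime_iff_isRelPrime]
    exact (Nat.coprime_primes (hTW.2.1 x).1 (hTW.2.1 y).1).2 (fun e => hxy (hTW.1 e))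
  · intro x _
    exact (hTW.2.1 x).1.squarefree

/-- no square of a prime divides `L` -/
theorem rthkt_not_sq_dvd_LW (hN : Squarefree N)
    (hTW : IsTWFamily p Y.ρbar (Y.Smin ∪ Finset.univ.image Y.r) n h qv) {r : ℕ}
    (hr : r.Prime) : ¬ r ^ 2 ∣ N * rthkdM qv := by
  intro hd
  have h1 : r * r ∣ N * rthkdM qv := by rwa [← sq]
  have h2 := rthkt_L_sqfreeW Y hN hTW r h1
  exact hr.one_lt.ne' (Nat.isUnit_iff.mp h2)

/-- `p ∤ L` -/
theorem rthkt_p_not_dvd_LW (hpN : ¬ p ∣ N)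
    (hTW : IsTWFamily p Y.ρbar (Y.Smin ∪ Finset.univ.image Y.r) n h qv) :
    ¬ p ∣ N * rthkdM qv := by
  intro hd
  rcases (Nat.Prime.dvd_mul hp.out).mp hd with h1 | h1
  · exact hpN h1
  · rw [rthkdM] at h1
    obtain ⟨j, -, hj⟩ := (Prime.dvd_finsetProd_iff hp.out.prime qv).mp h1
    have e : p = qv j := (Nat.prime_dvd_prime_iff_eq hp.out (hTW.2.1 j).1).mp hj
    apply (hTW.2.1 j).2.1
    refine Finset.mem_union_left _ ?_
    rw [← e]
    exact Y.p_mem_Smin hp.out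

/-- the level hypothesis of K7-FLAT passes from `N` to `L = N * ∏ qv j` -/
theorem rthkt_h5_LW {p N : ℕ} (h5 : 5 ≤ p ∨ (5 - p) ∣ N) (m : ℕ) :
    5 ≤ p ∨ (5 - p) ∣ N * m :=
  h5.imp id fun hd => Dvd.dvd.mul_right hd m

end Inst

/-! ## the K6 side of the final glue -/

/-- **The K6 side of the final glue for `W`**, every odd prime `p` with `5 ≤ p ∨ (5 - p) ∣ N`
(so: `p ≥ 5`, or `p = 3` and `N` even): the statement of `StmtHkfTrW p` with this extra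
hypothesis on the level. -/
theorem rthkt_final_oddW (p : ℕ) [Fact p.Prime] (W : WeierstrassCurve ℤ) (N : ℕ) [NeZero N]
    (hN : Squarefree N) (hpN : ¬ p ∣ N) (h5 : 5 ≤ p ∨ (5 - p) ∣ N)
    (Y : s59lk_KSetupW W p N) (h n : ℕ) (qv : Fin h → ℕ)
    (hqv : IsTWFamily p Y.ρbar (Y.Smin ∪ Finset.univ.image Y.r) n h qv)
    (i1 : NeZero (N * rthkdM qv)) (i2 : NeZero (rthkdM (Sum.elim qv Y.r)))
    (i3 : Fact (rthkdM (Sum.elim qv Y.r) ∣ N * rthkdM qv))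
    (𝔲 : NatFam Y.O (N * rthkdM qv) (rthkdM (Sum.elim qv Y.r))) (ℓ₀ : ℕ) (i5 : NeZero ℓ₀) :
    ∃ ψ1 ψχ : RthkdDelta (rthkdM (Sum.elim qv Y.r)) (rthkfHW Y qv n) →*
        RthkSn Y.O (Y.m h) (n + 1),
      (∀ δ, Ideal.Quotient.factor
          (le_sup_right : maximalIdeal (RttwS Y.O (Y.m h)) ^ (n + 1) ≤
            rttwLam (Y.m h) Y.lam ⊔ maximalIdeal (RttwS Y.O (Y.m h)) ^ (n + 1)) (ψ1 δ) =
        Ideal.Quotient.factor
          (le_sup_right : maximalIdeal (RttwS Y.O (Y.m h)) ^ (n + 1) ≤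
            rttwLam (Y.m h) Y.lam ⊔ maximalIdeal (RttwS Y.O (Y.m h)) ^ (n + 1)) (ψχ δ)) ∧
      (∀ δ, Ideal.Quotient.factor
          (le_sup_right : maximalIdeal (RttwS Y.O (Y.m h)) ^ (n + 1) ≤
            rttwAug Y.O (Y.m h) ⊔ maximalIdeal (RttwS Y.O (Y.m h)) ^ (n + 1)) (ψ1 δ) = 1) ∧
      (∀ i, ∃ (x : HDAlg (rthkdM (Sum.elim qv Y.r)))
          (u : (ZMod (rthkdM (Sum.elim qv Y.r)))ˣ),
        (∀ k, Rtk7bApprox p
          (es1inftwJ (N * rthkdM qv) (rthkdM (Sum.elim qv Y.r)) (rthkfHW Y qv n) p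
            (k7ftwChar (rthkdM (Sum.elim qv Y.r)) (rthkdE p (n + 1))))
          (fun n g => ((cycE p n g : ℕ) : HDAlg (rthkdM (Sum.elim qv Y.r)))) k
          (Y.σ i) x) ∧
        (∀ ψ ∈ etaPart (thetaN 𝔲 ℓ₀ (RthkdC Y.O (n + 1)) (rthkfHW Y qv n)),
          es1infHomEval (N * rthkdM qv) (rthkdM (Sum.elim qv Y.r)) (rthkfHW Y qv n)
              (Fact.out) p (RthkdC Y.O (n + 1)) x ψ
            = diamU (N * rthkdM qv) (rthkdM (Sum.elim qv Y.r)) (rthkfHW Y qv n)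
                (RthkdC Y.O (n + 1)) u ψ
              + diamU (N * rthkdM qv) (rthkdM (Sum.elim qv Y.r)) (rthkfHW Y qv n)
                (RthkdC Y.O (n + 1)) u⁻¹ ψ) ∧
        ψ1 (QuotientGroup.mk u) = 1 ∧
        ψχ (QuotientGroup.mk u) + ψχ (QuotientGroup.mk u)⁻¹
          = algebraMap Y.O (RthkSn Y.O (Y.m h) (n + 1)) (2 * Y.tχ i)) ∧
      (∀ j : Fin (Y.m h), (j : ℕ) < h → ∃ (g : GQ)
          (x : HDAlg (rthkdM (Sum.elim qv Y.r)))
          (u : (ZMod (rthkdM (Sum.elim qv Y.r)))ˣ),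
        (∀ k, Rtk7bApprox p
          (es1inftwJ (N * rthkdM qv) (rthkdM (Sum.elim qv Y.r)) (rthkfHW Y qv n) p
            (k7ftwChar (rthkdM (Sum.elim qv Y.r)) (rthkdE p (n + 1))))
          (fun n g => ((cycE p n g : ℕ) : HDAlg (rthkdM (Sum.elim qv Y.r)))) k g x) ∧
        (∀ ψ ∈ etaPart (thetaN 𝔲 ℓ₀ (RthkdC Y.O (n + 1)) (rthkfHW Y qv n)),
          es1infHomEval (N * rthkdM qv) (rthkdM (Sum.elim qv Y.r)) (rthkfHW Y qv n)
              (Fact.out) p (RthkdC Y.O (n + 1)) x ψ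
            = diamU (N * rthkdM qv) (rthkdM (Sum.elim qv Y.r)) (rthkfHW Y qv n)
                (RthkdC Y.O (n + 1)) u ψ
              + diamU (N * rthkdM qv) (rthkdM (Sum.elim qv Y.r)) (rthkfHW Y qv n)
                (RthkdC Y.O (n + 1)) u⁻¹ ψ) ∧
        ψ1 (QuotientGroup.mk u) - ψ1 (QuotientGroup.mk u)⁻¹
          = Ideal.Quotient.mk _ (MvPowerSeries.X j) ∧
        ψχ (QuotientGroup.mk u) - ψχ (QuotientGroup.mk u)⁻¹
          = Ideal.Quotient.mk _ (MvPowerSeries.X j)) :=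
  rthkt_chars_tr_oddW (L := N * rthkdM qv) (M := rthkdM (Sum.elim qv Y.r)) Y
    (rthkt_h5_LW h5 _) hqv (rthkd_dvd_M _)
    (fun x => rthkt_not_sq_dvd_LW Y hN hqv (rthkt_v_primeW Y hqv x))
    (rthkt_p_not_dvd_LW Y hpN hqv) 𝔲 ℓ₀

/-- **Contract 2 of `S59/LowK/ConcFinalPlanW.lean`** for `p ≥ 5`. -/
theorem rthkt_finalW (p : ℕ) (hp5 : 5 ≤ p) : StmtHkfTrW p := by
  intro _ W N q _ hΔ hss hirr hN hpN hq hqp hqN hunr hmod htriv Y h n qv hqv i1 i2 i3 𝔲 ℓ₀ i5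
  exact rthkt_final_oddW p W N hN hpN (Or.inl hp5) Y h n qv hqv i1 i2 i3 𝔲 ℓ₀ i5

end Fermat.Agent.S59.LowK

end
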