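/-
S59, walls M3 / R1, K-machine for a general semistable curve `W`: the K6 side at the BIG modulus
(helper9's contract `StmtHkfTrUW p`, `S59/LowK/ConcFinalPlanUW.lean`), from the general package
`rthkt_chars_tr_oddW` of `S59/LowK/ConcTrW.lean` (helper97).

* `rthkt_final_oddUW` : the statement of `StmtHkfTrUW p` with the extra level hypothesis
                        `5 ≤ p ∨ (5 - p) ∣ N` (so `p = 3` at even levels is included);
* `rthkt_finalUW`     : `5 ≤ p → StmtHkfTrUW p`.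
-/
import Fermat.Agent.S59.LowK.ConcTrW
import Fermat.Agent.S59.LowK.ConcFinalPlanUW

set_option autoImplicit false
set_option linter.unusedSectionVars false
set_option linter.unusedVariables false
set_option linter.style.haveILetI false
set_option linter.style.longLine false

noncomputable section

namespace Fermat.Agent.S59.LowK

open Fermat.Agent.RT Fermat.Agent.S59.LowQ
open IsLocalRing Fermat.Agent.RT.K5 Fermat.Agent.RT.K6 Fermat.Agent.RT.K7F Fermat.Agent.ES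
  Fermat.Agent.ES1 Fermat.Agent.S30 Fermat.Agent.TW Fermat.Agent.RT.Prod

/-- **The K6 side at the big modulus**, every odd prime `p` with `5 ≤ p ∨ (5 - p) ∣ N`. -/
theorem rthkt_final_oddUW (p : ℕ) [Fact p.Prime] (W : WeierstrassCurve ℤ) (N : ℕ) [NeZero N]
    (hN : Squarefree N) (hpN : ¬ p ∣ N) (h5 : 5 ≤ p ∨ (5 - p) ∣ N)
    (Y : s59lk_KSetupW W p N) (h n : ℕ) (qv : Fin h → ℕ)
    (hqv : IsTWFamily p Y.ρbar (Y.Smin ∪ Finset.univ.image Y.r) n h qv)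
    (i1 : NeZero (N * rthkdM qv)) (i2 : NeZero (rthkfMUW Y qv))
    (i3 : Fact (rthkfMUW Y qv ∣ N * rthkdM qv))
    (𝔲 : NatFam Y.O (N * rthkdM qv) (rthkfMUW Y qv)) (ℓ₀ : ℕ) (i5 : NeZero ℓ₀) :
    ∃ ψ1 ψχ : RthkdDelta (rthkfMUW Y qv) (rthkfHUW Y qv n) →*
        RthkSn Y.O (Y.m h) (n + 1),
      (∀ δ, Ideal.Quotient.factor
          (le_sup_right : maximalIdeal (RttwS Y.O (Y.m h)) ^ (n + 1) ≤
            rttwLam (Y.m h) Y.lam ⊔ maximalIdeal (RttwS Y.O (Y.m h)) ^ (n + 1)) (ψ1 δ) =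
        Ideal.Quotient.factor
          (le_sup_right : maximalIdeal (RttwS Y.O (Y.m h)) ^ (n + 1) ≤
            rttwLam (Y.m h) Y.lam ⊔ maximalIdeal (RttwS Y.O (Y.m h)) ^ (n + 1)) (ψχ δ)) ∧
      (∀ δ, Ideal.Quotient.factor
          (le_sup_right : maximalIdeal (RttwS Y.O (Y.m h)) ^ (n + 1) ≤
            rttwAug Y.O (Y.m h) ⊔ maximalIdeal (RttwS Y.O (Y.m h)) ^ (n + 1)) (ψ1 δ) = 1) ∧
      (∀ i, ∃ (x : HDAlg (rthkfMUW Y qv))
          (u : (ZMod (rthkfMUW Y qv))ˣ),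
        (∀ k, Rtk7bApprox p
          (es1inftwJ (N * rthkdM qv) (rthkfMUW Y qv) (rthkfHUW Y qv n) p
            (k7ftwChar (rthkfMUW Y qv) (rthkdE p (n + 1))))
          (fun n g => ((cycE p n g : ℕ) : HDAlg (rthkfMUW Y qv))) k
          (Y.σ i) x) ∧
        (∀ ψ ∈ etaPart (thetaN 𝔲 ℓ₀ (RthkdC Y.O (n + 1)) (rthkfHUW Y qv n)),
          es1infHomEval (N * rthkdM qv) (rthkfMUW Y qv) (rthkfHUW Y qv n)
              (Fact.out) p (RthkdC Y.O (n + 1)) x ψ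
            = diamU (N * rthkdM qv) (rthkfMUW Y qv) (rthkfHUW Y qv n)
                (RthkdC Y.O (n + 1)) u ψ
              + diamU (N * rthkdM qv) (rthkfMUW Y qv) (rthkfHUW Y qv n)
                (RthkdC Y.O (n + 1)) u⁻¹ ψ) ∧
        ψ1 (QuotientGroup.mk u) = 1 ∧
        ψχ (QuotientGroup.mk u) + ψχ (QuotientGroup.mk u)⁻¹
          = algebraMap Y.O (RthkSn Y.O (Y.m h) (n + 1)) (2 * Y.tχ i)) ∧
      (∀ j : Fin (Y.m h), (j : ℕ) < h → ∃ (g : GQ)
          (x : HDAlg (rthkfMUW Y qv))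
          (u : (ZMod (rthkfMUW Y qv))ˣ),
        (∀ k, Rtk7bApprox p
          (es1inftwJ (N * rthkdM qv) (rthkfMUW Y qv) (rthkfHUW Y qv n) p
            (k7ftwChar (rthkfMUW Y qv) (rthkdE p (n + 1))))
          (fun n g => ((cycE p n g : ℕ) : HDAlg (rthkfMUW Y qv))) k g x) ∧
        (∀ ψ ∈ etaPart (thetaN 𝔲 ℓ₀ (RthkdC Y.O (n + 1)) (rthkfHUW Y qv n)),
          es1infHomEval (N * rthkdM qv) (rthkfMUW Y qv) (rthkfHUW Y qv n)
              (Fact.out) p (RthkdC Y.O (n + 1)) x ψ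
            = diamU (N * rthkdM qv) (rthkfMUW Y qv) (rthkfHUW Y qv n)
                (RthkdC Y.O (n + 1)) u ψ
              + diamU (N * rthkdM qv) (rthkfMUW Y qv) (rthkfHUW Y qv n)
                (RthkdC Y.O (n + 1)) u⁻¹ ψ) ∧
        ψ1 (QuotientGroup.mk u) - ψ1 (QuotientGroup.mk u)⁻¹
          = Ideal.Quotient.mk _ (MvPowerSeries.X j) ∧
        ψχ (QuotientGroup.mk u) - ψχ (QuotientGroup.mk u)⁻¹
          = Ideal.Quotient.mk _ (MvPowerSeries.X j)) :=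
  rthkt_chars_tr_oddW (L := N * rthkdM qv) (M := rthkfMUW Y qv) Y
    (rthkt_h5_LW h5 _) hqv (rthkfMU_dvdW Y qv)
    (fun x => rthkt_not_sq_dvd_LW Y hN hqv (rthkt_v_primeW Y hqv x))
    (rthkt_p_not_dvd_LW Y hpN hqv) 𝔲 ℓ₀

/-- **helper9's contract `StmtHkfTrUW p`** for `p ≥ 5`. -/
theorem rthkt_finalUW (p : ℕ) (hp5 : 5 ≤ p) : StmtHkfTrUW p := by
  intro _ W N q _ hΔ hss hirr hN hpN hq hqp hqN hunr hmod htriv Y h n qv hqv i1 i2 i3 𝔲 ℓ₀ i5
  exact rthkt_final_oddUW p W N hN hpN (Or.inl hp5) Y h n qv hqv i1 i2 i3 𝔲 ℓ₀ i5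

end Fermat.Agent.S59.LowK

end
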