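import Fermat.Agent.ES1.Inf.TwChi5
import Fermat.Agent.RT.K7F.TwChar

/-!
# S59, walls M3 / R1: HK-UNIP from K6, the generic core (helper22; recipe of helper4)

K6 (χ-J): for a prime `r ∣ M`, `r² ∤ L`, `σ` in an inertia group at `r` with cyclotomic image
`c`, and `δ_c` the diamond of `c`: `(σ − 1)(δ_c σ − 1) = 0` on the divisible `p`-power torsion
of `J_H(L; M)` (`Es1inftwChiAt L M H r p`, from `StmtChiJDiv5` / `StmtChiJDiv3`).

If the diamonds at `r` are trivial on `J_H` (`∀ c, IsAtR M r c → c ∈ pmH H`), then `δ_c = 1`, and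
the twist by a power of the cyclotomic character is trivial on the inertia groups at `r`:
**the inertia groups at `r` act unipotently, `(σ − 1)² = 0`, on `es1inftwJ L M H p χ`**.

* `s59lkuk_unip_aux` : on `es1infJ`, for the twisted action `es1inftwSmul`;
* `s59lkuk_unip`     : on `es1inftwJ L M H p χ`, `s • s • x + x = s • x + s • x`;
* `s59lkuk_unip_char`: the same for `χ = k7ftwChar M e`;
* `s59lkuk_unip5`    : the same from `StmtChiJDiv5` (`5 ≤ p`, `5 ≤ r`);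
* `s59lkuk_five_le`  : `5 ≤ p`, `p ∣ q² − 1`, `q` prime `⇒ 5 ≤ q` (so `5 ≤ r` is automatic at the
  non-rigid primes).
-/

set_option autoImplicit false
set_option linter.unusedSectionVars false
set_option linter.unusedVariables false
set_option linter.style.haveILetI false

noncomputable section

namespace Fermat.Agent.S59.LowK

open ModularCurve AlgebraicCurve
open Fermat.Agent.ES Fermat.Agent.S48 Fermat.Agent.RT.K6 Fermat.Agent.ES1 Fermat.Agent.ES1.G2
open Fermat.Agent.RT.K7F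

variable {L M : ℕ} [NeZero L] [NeZero M] {H : Subgroup (ZMod M)ˣ} {p : ℕ}

/-- **HK-UNIP, the core, on `es1infJ`**: if the diamonds at `r` are trivial, the twisted action
of the inertia groups at `r` is unipotent. -/
theorem s59lkuk_unip_aux {r : ℕ} (hAt : Es1inftwChiAt L M H r p) (hML : M ∣ L) (hp : p.Prime)
    (χ : GalQ →* (ZMod M)ˣ) (hr : r.Prime) (hrM : r ∣ M) (hr2 : ¬ r ^ 2 ∣ L)
    (hHr : ∀ c : (ZMod M)ˣ, IsAtR M r c → c ∈ pmH H)
    (A : ValuationSubring (AlgebraicClosure ℚ)) (hA : A.LiesOverPrime r) (σ : GalQ)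
    (hσ : σ ∈ A.inertiaSubgroupIn ℚ) (e : ℕ)
    (hχσ : χ σ = Fermat.Agent.S42.cycloChar M σ ^ e) (x : es1infJ L M H p) :
    es1inftwSmul hML hp.pos χ σ (es1inftwSmul hML hp.pos χ σ x) + x
      = es1inftwSmul hML hp.pos χ σ x + es1inftwSmul hML hp.pos χ σ x := by
  letI := es1infModule L M H p hML hp.pos
  letI := es1infGalois L M H p
  have hr2M : ¬ r ^ 2 ∣ M := fun h => hr2 (h.trans hML)
  have hcyc : IsCycAt M r σ (Fermat.Agent.S42.cycloChar M σ) :=
    es1inftw_isCycAt M hr hrM hr2M A hA σ hσ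
  have hc : Fermat.Agent.S42.cycloChar M σ ∈ pmH H := hHr _ hcyc.2
  have hχ : χ σ ∈ pmH H := by
    rw [hχσ]
    exact Subgroup.pow_mem _ hc e
  have hsm : ∀ y : es1infJ L M H p, es1inftwSmul hML hp.pos χ σ y = σ • y := fun y => by
    rw [es1inftwSmul_def, es1inf_dGen_smul_of_mem hML hp.pos hχ]
  have hrel := es1inftw_chiJ_at hAt hML hp hr hrM hr2 A hA σ hσ x
  rw [es1inf_dGen_smul_of_mem hML hp.pos hc, es1inf_dGen_smul_of_mem hML hp.pos hc] at hrel
  rw [hsm, hsm]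
  calc σ • σ • x + x = (σ • σ • x - σ • x - σ • x + x) + (σ • x + σ • x) := by abel
    _ = σ • x + σ • x := by rw [hrel, zero_add]

variable [hML : Fact (M ∣ L)] [hp : Fact p.Prime]

/-- **HK-UNIP, the core**: on `es1inftwJ L M H p χ` the inertia groups at a prime `r ∣ M` whose
diamonds are trivial act unipotently (`χ` a power of the cyclotomic character on them). -/
theorem s59lkuk_unip {r : ℕ} (hAt : Es1inftwChiAt L M H r p) (χ : GalQ →* (ZMod M)ˣ)
    (hr : r.Prime) (hrM : r ∣ M) (hr2 : ¬ r ^ 2 ∣ L)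
    (hHr : ∀ c : (ZMod M)ˣ, IsAtR M r c → c ∈ pmH H)
    (A : ValuationSubring (AlgebraicClosure ℚ)) (hA : A.LiesOverPrime r) (σ : GalQ)
    (hσ : σ ∈ A.inertiaSubgroupIn ℚ) (e : ℕ)
    (hχσ : χ σ = Fermat.Agent.S42.cycloChar M σ ^ e) (x : es1inftwJ L M H p χ) :
    σ • σ • x + x = σ • x + σ • x :=
  s59lkuk_unip_aux hAt hML.out hp.out χ hr hrM hr2 hHr A hA σ hσ e hχσ
    (es1inftwOf L M H p χ x)

/-- **HK-UNIP, the core, for the character of the twist** `χ = c_M ^ e`. -/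
theorem s59lkuk_unip_char {r : ℕ} (hAt : Es1inftwChiAt L M H r p) (e : ℕ)
    (hr : r.Prime) (hrM : r ∣ M) (hr2 : ¬ r ^ 2 ∣ L)
    (hHr : ∀ c : (ZMod M)ˣ, IsAtR M r c → c ∈ pmH H)
    (A : ValuationSubring (AlgebraicClosure ℚ)) (hA : A.LiesOverPrime r) (σ : GalQ)
    (hσ : σ ∈ A.inertiaSubgroupIn ℚ) (x : es1inftwJ L M H p (k7ftwChar M e)) :
    σ • σ • x + x = σ • x + σ • x :=
  s59lkuk_unip hAt (k7ftwChar M e) hr hrM hr2 hHr A hA σ hσ e (k7ftwChar_apply M e σ) x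

/-- **HK-UNIP from `StmtChiJDiv5`** (`5 ≤ p`, `5 ≤ r`, tame star-stable level). -/
theorem s59lkuk_unip5 (hChi : StmtChiJDiv5) (hp5 : 5 ≤ p) (e : ℕ) {r : ℕ} (hr : r.Prime)
    (hr5 : 5 ≤ r) (hrM : r ∣ M) (hr2 : ¬ r ^ 2 ∣ L) (hrp : r ≠ p)
    (hstar : IsStarStable M r H) (htame : IsTameAt L M r H)
    (hHr : ∀ c : (ZMod M)ˣ, IsAtR M r c → c ∈ pmH H)
    (A : ValuationSubring (AlgebraicClosure ℚ)) (hA : A.LiesOverPrime r) (σ : GalQ)
    (hσ : σ ∈ A.inertiaSubgroupIn ℚ) (x : es1inftwJ L M H p (k7ftwChar M e)) :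
    σ • σ • x + x = σ • x + σ • x :=
  s59lkuk_unip_char
    (es1inftw_chiAt_of5 hChi (NeZero.ne L) hML.out hp.out hp5 hr hr5 hrM hr2 hrp hstar htame)
    e hr hrM hr2 hHr A hA σ hσ x

omit [NeZero L] [NeZero M] hML in
/-- at a non-rigid prime `q` (`p ∣ q² − 1`) with `5 ≤ p` one has `5 ≤ q` -/
theorem s59lkuk_five_le {q : ℕ} (hp5 : 5 ≤ p) (hq : q.Prime) (hpq : p ∣ q ^ 2 - 1) : 5 ≤ q := by
  by_contra h
  have hq2 := hq.two_le
  have hq4 : q ≠ 4 := fun h4 => by rw [h4] at hq; exact absurd hq (by decide)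
  have h23 : q = 2 ∨ q = 3 := by omega
  rcases h23 with rfl | rfl
  · have h3 : p ≤ 3 := Nat.le_of_dvd (by norm_num) hpq
    omega
  · have h8 : p ∣ 2 ^ 3 := hpq
    have h2 : p ∣ 2 := hp.out.dvd_of_dvd_pow h8
    have hp2 : p ≤ 2 := Nat.le_of_dvd (by norm_num) h2
    omega

end Fermat.Agent.S59.LowK

end
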