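import Fermat.Agent.S59.LowK.ConcFinalUW
import Fermat.Agent.S59.LowK.UnipK6

/-!
# S59 M3/R1, leaf HK-UNIP-W CLOSED for `5 ≤ p` (helper9; recipe helper4, K6 core helper22)

`rthkf_unipUW : 5 ≤ p → K6.StmtChiJDiv5 → StmtHkfUnipUW p` : at the big modulus
`M' = rthkfMUW Y qv` the inertia groups at the non-rigid primes `q ≠ p` of `Y.Smin`
(`p ∣ q ^ 2 - 1`) act unipotently on `J = es1inftwJ L M' H'' p χ`:

* `q ∣ N` : then `q ∈ T`, `q ∣ M'`, the classes at `q` are in `H''` (`rthkf_atR_memUW`: `H''` has no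
  condition at `q`) and K6 with `δ = 1` applies (`s59lkuk_unip5`, helper22);
* `q ∤ N` : then `q ∤ L p` and the inertia at `q` acts trivially (`Rtk7bPkg.unram`).

`rthkf_topU5W : 5 ≤ p → StmtFlatH → StmtChiJDiv5 → StmtHkfK5'W p → StmtHkfTrUW p →
  StmtHkConcTopW p` : the glue with NO unipotency hypothesis.
-/

set_option autoImplicit false
set_option linter.unusedSectionVars false
set_option linter.style.haveILetI false

noncomputable section

namespace Fermat.Agent.S59.LowK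

open Fermat.Agent.RT Fermat.Agent.S59.LowQ
open IsLocalRing Fermat.Agent.ES Fermat.Agent.S30 Fermat.Agent.W1 Fermat.Agent.TW
open Fermat.Agent.ES1 Fermat.Agent.RT.K5 Fermat.Agent.RT.K6 Fermat.Agent.RT.K7F
open Fermat.Agent.RT.Prod
open ExtCitation WeierstrassCurve WeierstrassCurve.Affine WeierstrassCurve.Affine.Point
open scoped MatrixGroups

section atR

variable {W : WeierstrassCurve ℤ} {p N : ℕ} [hp : Fact p.Prime] {Y : s59lk_KSetupW W p N}
  {h n : ℕ} {qv : Fin h → ℕ}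

/-- the classes at a prime `q ∈ T` are in `H''` -/
theorem rthkf_atR_memUW (hN0 : N ≠ 0)
    (hqv : IsTWFamily p Y.ρbar (Y.Smin ∪ Finset.univ.image Y.r) n h qv)
    {q : ℕ} (hq : q ∈ rthkfTUW Y) (c : (ZMod (rthkfMUW Y qv))ˣ)
    (hc : IsAtR (rthkfMUW Y qv) q c) : c ∈ pmH (rthkfHUW Y qv n) := by
  haveI : NeZero (rthkfMUW Y qv) := ⟨rthkfMU_ne_zeroW hN0 hqv⟩
  apply le_pmH
  rw [rthkd_mem_H]
  intro x
  refine ⟨1, ?_⟩
  rw [one_pow]
  have hqp := ((rthkf_mem_TUW Y).mp hq).2.1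
  have hd : Sum.elim qv Y.r x ∣ rthkfMUW Y qv / q :=
    rthkg_dvd_div hqp (rthkfT_dvd_MUW Y qv hq) (rthkdYv_primeW hqv x) (rthkfMU_dvdW Y qv x)
      (rthkfT_ne_vW hqv hq x)
  have h1 : (((c : ZMod (rthkfMUW Y qv)).val : ℕ) : ZMod (Sum.elim qv Y.r x))
      = ((1 : ℕ) : ZMod (Sum.elim qv Y.r x)) := by
    apply rthkg_cast_of_dvd hd
    rw [Nat.cast_one]
    exact hc
  symm
  ext
  rw [ZMod.unitsMap_val, ← ZMod.natCast_val, h1, Nat.cast_one, Units.val_one]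

end atR

/-- **HK-UNIP-W for `5 ≤ p`**, from K6. -/
theorem rthkf_unipUW {p : ℕ} (hp5 : 5 ≤ p) (hChi : StmtChiJDiv5) : StmtHkfUnipUW p := by
  intro hp W N q _ hΔ hss hirr hcond hpN hq hqp hqN hun hmod htriv Y h n qv hqv iL iM iML
    q' hq'S hq' hq'p hpq' P hP s hs k x hx
  have hN0 : N ≠ 0 := NeZero.ne N
  have H := rthkgi_hypW (Y := Y) (qv := qv) (n := n) hp5 hN0 hpN hq hqN hqv
  have hk : ∀ x : Fin h ⊕ Y.ι,
      (Sum.elim (fun _ => n + 1) (fun _ => 1) : Fin h ⊕ Y.ι → ℕ) x ≤ n + 1 := by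
    rintro (j | i)
    · exact le_rfl
    · exact Nat.succ_le_succ (Nat.zero_le n)
  by_cases hq'N : q' ∣ N
  · have hT : q' ∈ rthkfTUW Y := (rthkf_mem_TUW Y).mpr ⟨hq'S, hq', hq'p, hq'N, hpq'⟩
    have hr2 : ¬ q' ^ 2 ∣ N * rthkdM qv := fun hd =>
      hq'.not_isUnit (rthkf_sqfree_LW hcond hqv q' (by rwa [sq] at hd))
    exact s59lkuk_unip5 hChi hp5 (rthkdE p (n + 1)) hq' (s59lkuk_five_le hp5 hq' hpq')
      (rthkfT_dvd_MUW Y qv hT) hr2 hq'p
      (rthkgb_isStarStable hp.out (rthkgs_hp2 H) (rthkgs_hv H) (rthkgs_hvp H) (rthkgs_hk H)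
        (rthkfMU_ne_zeroW hN0 hqv) _ hq' (rthkfT_dvd_MUW Y qv hT))
      (rthkgb_isTameAt hp.out hp5 (rthkgs_not_dvd_L H) _ q')
      (fun c hc => rthkf_atR_memUW hN0 hqv hT c hc) P hP s hs x
  · have hq'L : ¬ q' ∣ (N * rthkdM qv) * p := by
      intro hd
      rcases (Nat.Prime.dvd_mul hq').mp hd with h1 | h1
      · rcases (Nat.Prime.dvd_mul hq').mp h1 with h2 | h2
        · exact hq'N h2
        · obtain ⟨j, -, hj⟩ := Finset.mem_image.mp (rthkdY_dvd_prod_qvW hqv hq' h2)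
          apply (hqv.2.1 j).2.1
          rw [hj]
          exact Finset.mem_union_left _ hq'S
      · exact hq'p ((Nat.prime_dvd_prime_iff_eq hq' hp.out).mp h1)
    have hpkg := rthkp_pkg (L := N * rthkdM qv) (M := rthkfMUW Y qv)
      (rthkfHUW Y qv n) p (rthkdE p (n + 1)) (rthkp_one_le_half p (n + 1) hp.out.pos)
      (rthkd_pow_E_mem (hp.out.odd_of_ne_two Y.hyp.hp2) hk)
    have h1 := hpkg.unram q' hq' hq'L P hP s hs k x hx
    rw [h1, h1]

/-- **HK-CONC for `W`, the final glue at the big modulus, `5 ≤ p`**: no unipotency hypothesis. -/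
theorem rthkf_topU5W {p : ℕ} (hp5 : 5 ≤ p) (hflat : StmtFlatH) (hChi : StmtChiJDiv5)
    (hK5 : StmtHkfK5'W p) (hTr : StmtHkfTrUW p) : StmtHkConcTopW p :=
  rthkf_topUW hp5 hflat hK5 hTr (rthkf_unipUW hp5 hChi)

end Fermat.Agent.S59.LowK

end
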