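import Fermat.Agent.S59.LowK.HeckeNW
import Fermat.Agent.S59.LowK.ConcUnipUW
import Fermat.Agent.S59.LowK.ConcTrUW
import Fermat.Agent.S59.LowK.ConcK5W
import Fermat.Agent.RT.K7F.Final
import Fermat.Agent.RT.K6.ChiJDiv5

/-!
# S59 wall R1, the feed at the MINIMAL level (helper9): HECKE for `W`, `p ≥ 5`, WITHOUT `q`

The final glue at the big modulus (`ConcFinalUW.lean`, `ConcUnipUW.lean`) at ONE setup `Y`, with
`2 ≤ N` instead of the level-lowering prime `q` (which the proofs use for `2 ≤ N` only), fed by the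
`q`-free forms of the K5 side (`rthkk5_at5W`, helper22) and of the K6 side (`rthkt_final_oddUW`,
helper97):

* `rthkf_unip_atUW` : `HkUnipJ p Y.Smin J` for the concrete `J` (from K6, `5 ≤ p`);
* `rthkf_top_atUW`  : `HkConcTopAtW Y h` (from K7-FLAT and K6);
* **`stmtHeckeNW_of_five_le : 5 ≤ p → StmtHeckeNW p`** — UNCONDITIONAL: over every setup
  `Y : s59lk_KSetupW W p M` (`M ≥ 2` squarefree, `p ∤ M`, `W` residually modular of level `M`)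
  and every `h`, `Nonempty (HeckeDataW Y h)`.  In particular at the minimal level (`Y.ι` empty).
* `stmtHeckeW_of_five_le'` : `StmtHeckeW p` again, through `stmtHeckeW_of_NW`.
-/

set_option autoImplicit false
set_option linter.unusedSectionVars false
set_option linter.unusedVariables false
set_option linter.style.haveILetI false

noncomputable section

namespace Fermat.Agent.S59.LowK

open Fermat.Agent.RT Fermat.Agent.S59.LowQ
open IsLocalRing Fermat.Agent.ES Fermat.Agent.S30 Fermat.Agent.W1 Fermat.Agent.TW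
open Fermat.Agent.ES1 Fermat.Agent.RT.K5 Fermat.Agent.RT.K6 Fermat.Agent.RT.K7F
open Fermat.Agent.RT.Prod
open ExtCitation WeierstrassCurve WeierstrassCurve.Affine WeierstrassCurve.Affine.Point
open scoped MatrixGroups

/-- **HK-UNIP-W at one setup, `5 ≤ p`**, from K6 (no prime `q`). -/
theorem rthkf_unip_atUW {W : WeierstrassCurve ℤ} {p N : ℕ} [hp : Fact p.Prime] [NeZero N]
    (hp5 : 5 ≤ p) (hChi : StmtChiJDiv5) (hcond : Squarefree N) (hpN : ¬ p ∣ N) (hN2 : 2 ≤ N)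
    (Y : s59lk_KSetupW W p N) {h n : ℕ} {qv : Fin h → ℕ}
    (hqv : IsTWFamily p Y.ρbar (Y.Smin ∪ Finset.univ.image Y.r) n h qv)
    [iL : NeZero (N * rthkdM qv)] [iM : NeZero (rthkfMUW Y qv)]
    [iML : Fact (rthkfMUW Y qv ∣ N * rthkdM qv)] :
    HkUnipJ p Y.Smin
      (es1inftwJ (N * rthkdM qv) (rthkfMUW Y qv) (rthkfHUW Y qv n) p
        (k7ftwChar (rthkfMUW Y qv) (rthkdE p (n + 1)))) := by
  intro q' hq'S hq' hq'p hpq' P hP s hs k x hx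
  obtain ⟨q, hq, hqN⟩ := Nat.exists_prime_and_dvd (show N ≠ 1 by omega)
  have hN0 : N ≠ 0 := NeZero.ne N
  have H := rthkgi_hypW (Y := Y) (qv := qv) (n := n) hp5 hN0 hpN hq hqN hqv
  have hk : ∀ x : Fin h ⊕ Y.ι,
      (Sum.elim (fun _ => n + 1) (fun _ => 1) : Fin h ⊕ Y.ι → ℕ) x ≤ n + 1 := by
    rintro (j | i)
    · exact le_rfl
    · exact Nat.succ_le_succ (Nat.zero_le n)
  by_cases hq'N : q' ∣ N
  · have hT : q' ∈ rthkfTUW Y := (rthkf_mem_TUW Y).mpr ⟨hq'S, hq', hq'p, hq'N, hpq'⟩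
    have hr2 : ¬ q' ^ 2 ∣ N * rthkdM qv := fun hd =>
      hq'.not_isUnit (rthkf_sqfree_LW hcond hqv q' (by rwa [sq] at hd))
    exact s59lkuk_unip5 hChi hp5 (rthkdE p (n + 1)) hq' (s59lkuk_five_le hp5 hq' hpq')
      (rthkfT_dvd_MUW Y qv hT) hr2 hq'p
      (rthkgb_isStarStable hp.out (rthkgs_hp2 H) (rthkgs_hv H) (rthkgs_hvp H) (rthkgs_hk H)
        (rthkfMU_ne_zeroW hN0 hqv) _ hq' (rthkfT_dvd_MUW Y qv hT))
      (rthkgb_isTameAt hp.out hp5 (rthkgs_not_dvd_L H) _ q')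
      (fun c hc => rthkf_atR_memUW hN0 hqv hT c hc) P hP s hs x
  · have hq'L : ¬ q' ∣ (N * rthkdM qv) * p := by
      intro hd
      rcases (Nat.Prime.dvd_mul hq').mp hd with h1 | h1
      · rcases (Nat.Prime.dvd_mul hq').mp h1 with h2 | h2
        · exact hq'N h2
        · obtain ⟨j, -, hj⟩ := Finset.mem_image.mp (rthkdY_dvd_prod_qvW hqv hq' h2)
          apply (hqv.2.1 j).2.1
          rw [hj]
          exact Finset.mem_union_left _ hq'S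
      · exact hq'p ((Nat.prime_dvd_prime_iff_eq hq' hp.out).mp h1)
    have hpkg := rthkp_pkg (L := N * rthkdM qv) (M := rthkfMUW Y qv)
      (rthkfHUW Y qv n) p (rthkdE p (n + 1)) (rthkp_one_le_half p (n + 1) hp.out.pos)
      (rthkd_pow_E_mem (hp.out.odd_of_ne_two Y.hyp.hp2) hk)
    have h1 := hpkg.unram q' hq' hq'L P hP s hs k x hx
    rw [h1, h1]

/-- **HK-CONC at one setup, the final glue at the big modulus, `5 ≤ p`** (no prime `q`). -/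
theorem rthkf_top_atUW {W : WeierstrassCurve ℤ} {p N : ℕ} [hp : Fact p.Prime] [NeZero N]
    (hp5 : 5 ≤ p) (hflat : StmtFlatH) (hChi : StmtChiJDiv5) (hΔ : W.Δ ≠ 0)
    (hcond : Squarefree N) (hpN : ¬ p ∣ N) (hN2 : 2 ≤ N)
    (hmod : W.IsResiduallyModularOfLevel p N) (Y : s59lk_KSetupW W p N) (h : ℕ) :
    HkConcTopAtW Y h := by
  obtain ⟨q, hq, hqN⟩ := Nat.exists_prime_and_dvd (show N ≠ 1 by omega)
  haveI iM₀ : NeZero (1 : ℕ) := ⟨one_ne_zero⟩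
  haveI iM₀N : Fact ((1 : ℕ) ∣ N) := ⟨one_dvd N⟩
  obtain ⟨r, hr, c, a, S', hpS', hNS', 𝕋₀, i1, J₀, i2, i3, i4, Tr₀, Φ0, hbase, hS', hmat,
    hlev⟩ := rthkk5_at5W Fermat.Agent.Cheb.weakChebotarev_holds hflat hp5 hΔ hcond hpN hN2
      hmod Y h 1 squarefree_one
  refine ⟨2 ^ h * r, Nat.mul_pos (pow_pos two_pos h) hr, S', hpS', hNS', 𝕋₀, i1, J₀, i2, i3,
    i4, Tr₀, Φ0, hbase, fun n qv hqv => ?_⟩
  have hN0 : N ≠ 0 := NeZero.ne N
  haveI iL : NeZero (N * rthkdM qv) := ⟨rthkdYL_ne_zeroW hN0 hqv⟩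
  -- the K5 side (its binders are at the small modulus, which it does not use)
  obtain ⟨e, ℓ₀, iℓ₀, heP, hℓ₀, hℓ₀N, hℓ₀p, havoid, hTW, hbasis⟩ := hlev n qv hqv
  haveI iM : NeZero (rthkfMUW Y qv) := ⟨rthkfMU_ne_zeroW hN0 hqv⟩
  haveI iML : Fact (rthkfMUW Y qv ∣ N * rthkdM qv) := ⟨rthkfMU_dvd_LW (Y := Y) (qv := qv)⟩
  -- `ℓ₀ ∤ L`
  have hℓ₀L : ¬ ℓ₀ ∣ N * rthkdM qv := by
    intro hd
    rcases (Nat.Prime.dvd_mul hℓ₀).mp hd with h1 | h1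
    · exact hℓ₀N h1
    · obtain ⟨j, -, hj⟩ := Finset.mem_image.mp (rthkdY_dvd_prod_qvW hqv hℓ₀ h1)
      exact (havoid j).1 hj
  -- the twisted expression
  have hQ : ∀ q' ∈ List.ofFn qv, q'.Prime ∧ ¬ q' ∣ N ∧ q' ≠ ℓ₀ ∧ e.Avoids q' := by
    intro q' hq'
    rw [List.mem_ofFn] at hq'
    obtain ⟨j, rfl⟩ := hq'
    exact ⟨(hqv.2.1 j).1, rthkf_qv_not_dvdW hqv j, (havoid j).1, (havoid j).2⟩
  have hnd : (List.ofFn qv).Nodup := List.nodup_ofFn.mpr hqv.1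
  have hEP : (e.twist (List.ofFn qv)).IsPrimes :=
    HExpr.isPrimes_twist heP (fun q' hq' => (hQ q' hq').1)
  -- `FreeHyp`
  have hidx := rthkf_freeHyp_indexUW (Y := Y) (qv := qv) (n := n) hp5 hN0 hpN hq hqN hqv
  have hyp : FreeHyp p Y.O (N * rthkdM qv) (rthkfMUW Y qv) ℓ₀ (rthkfHUW Y qv n) ⊤
      (h * (n + 1) + Fintype.card Y.ι) :=
    k5nt_freeHyp hp.out hp5 Y.hyp.hp𝒪 _ _ ℓ₀ hℓ₀ hℓ₀L le_top _ hidx
  -- `free` and `base`
  obtain ⟨b, free, hbmat⟩ := rthkcf_X p Y.O N 1 ℓ₀ e hℓ₀ hℓ₀N (List.ofFn qv) h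
    (List.length_ofFn) hnd hQ (N * rthkdM qv) (rthkfMUW Y qv) rthkf_prod_ofFnW
    (rthkfHUW Y qv n) _ hyp (n + 1) (Nat.succ_pos n) hTW c hbasis
  -- the characters
  obtain ⟨ψ1, ψχ, hcong, haug, htrT, htrQ⟩ := rthkt_final_oddUW p W N hcond hpN (Or.inl hp5)
    Y h n qv hqv iL iM iML ((e.twist (List.ofFn qv)).eval (N * rthkdM qv)
      (rthkfMUW Y qv)) ℓ₀ iℓ₀
  have hst := rthkd_hst (O := Y.O) (L := N * rthkdM qv) (M := rthkfMUW Y qv) p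
    (e.twist (List.ofFn qv)) hEP ℓ₀ hℓ₀ hℓ₀L (rthkfHUW Y qv n) (n + 1)
  have hk : ∀ x : Fin h ⊕ Y.ι,
      (Sum.elim (fun _ => n + 1) (fun _ => 1) : Fin h ⊕ Y.ι → ℕ) x ≤ n + 1 := by
    rintro (j | i)
    · exact le_rfl
    · exact Nat.succ_le_succ (Nat.zero_le n)
  have hfaith := rthkd_faith (O := Y.O) (p := p) (L := N * rthkdM qv)
    (M := rthkfMUW Y qv) (H' := rthkfHUW Y qv n)
    (rthksE p (es1inftwJ (N * rthkdM qv) (rthkfMUW Y qv) (rthkfHUW Y qv n) p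
        (k7ftwChar (rthkfMUW Y qv) (rthkdE p (n + 1))))
      (𝕋 := HDAlg (rthkfMUW Y qv)) : Set (HDAlg (rthkfMUW Y qv)))
    (k7ftwChar (rthkfMUW Y qv) (rthkdE p (n + 1))) Y.hyp.hp𝒪
    (e.twist (List.ofFn qv)) hEP ℓ₀ hℓ₀ hℓ₀L (rthkf_sqfree_LW hcond hqv) Y.hyp.hp2 hℓ₀p (n + 1)
    (fun u => by
      rw [rthkd_pmH (hp.out.odd_of_ne_two Y.hyp.hp2)]
      exact rthkd_pow_mem_H hk u)
    (n + 1) (k5nt_noTors_quot hp.out hp5 Y.hyp.hp𝒪 _ (n + 1)) hst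
  have hℓN : ∀ ℓ : ℕ, ℓ.Prime → ¬ ℓ ∣ (N * rthkdM qv) * p → ¬ ℓ ∣ N * p :=
    fun ℓ hℓ hℓL hd => hℓL (by
      rcases (Nat.Prime.dvd_mul hℓ).mp hd with h1 | h1
      · exact Dvd.dvd.mul_right (Dvd.dvd.mul_right h1 _) _
      · exact Dvd.dvd.mul_left h1 _)
  have hΔ' : ∀ δ : RthkdDelta (rthkfMUW Y qv) (rthkfHUW Y qv n),
      δ ^ p ^ (n + 1) = 1 := by
    intro δ
    obtain ⟨u, rfl⟩ := QuotientGroup.mk_surjective δ
    rw [← QuotientGroup.mk_pow, QuotientGroup.eq_one_iff,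
      rthkd_pmH (hp.out.odd_of_ne_two Y.hyp.hp2)]
    exact rthkd_pow_mem_H hk u
  -- the field `base`
  have hbaseF : ∀ ℓ : ℕ, ℓ.Prime → ¬ ℓ ∣ (N * rthkdM qv) * p →
      rthkmMat free (1 : RthkdDelta (rthkfMUW Y qv) (rthkfHUW Y qv n) →* RthkdC Y.O (n + 1))
        (rthkdAct p ((e.twist (List.ofFn qv)).eval (N * rthkdM qv) (rthkfMUW Y qv)) ℓ₀
          (rthkfHUW Y qv n) (n + 1) hst
          (es1inftwTr (rthkfMUW Y qv) (rthkdE p (n + 1)) ℓ))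
        = (Φ0 (Tr₀ ℓ)).map (algebraMap Y.O (RthkdC Y.O (n + 1))) := by
    intro ℓ hℓ hℓL
    haveI : NeZero ℓ := ⟨hℓ.ne_zero⟩
    obtain ⟨ha, hΦ⟩ := hmat ℓ hℓ (hℓN ℓ hℓ hℓL)
    rw [hΦ]
    refine hbmat ℓ hℓ (rthkf_not_mem_QW hℓL) (a ℓ) ha _ (fun x => ?_)
    refine ⟨((ZMod.unitOfCoprime ℓ (rthkf_coprime_MUW (Y := Y) hℓ hℓL))⁻¹
      ^ rthkdE p (n + 1)), ?_⟩
    rw [rthkdAct_coe]
    exact es1infev_twTr (rthkdE p (n + 1))
      (by
        have := rthkd_two_E (p := p) (hp.out.odd_of_ne_two Y.hyp.hp2) (n + 1)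
        have hpos : 0 < p ^ (n + 1) := pow_pos hp.out.pos _
        omega)
      hℓ hℓL (rthkf_coprime_MUW (Y := Y) hℓ hℓL) _
  -- the field `resid`
  have hres := rthkra_resid_field (ρbar := Y.ρbar) (a0 := fun ℓ => Φ0 (Tr₀ ℓ))
    (Tr := es1inftwTr (rthkfMUW Y qv) (rthkdE p (n + 1))) hst free Y.hyp.hp𝒪
    (n + 1) hΔ' hbaseF
    (fun ℓ hℓ hℓL A hA τ hτ => hbase.resid ℓ hℓ (hS' ℓ hℓ (hℓN ℓ hℓ hℓL)) A hA τ hτ)
  refine ⟨N * rthkdM qv, rthkfMUW Y qv, iL, iM, iML,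
    (e.twist (List.ofFn qv)).eval (N * rthkdM qv) (rthkfMUW Y qv), ℓ₀, iℓ₀,
    rthkfHUW Y qv n,
    es1inftwJ (N * rthkdM qv) (rthkfMUW Y qv) (rthkfHUW Y qv n) p
      (k7ftwChar (rthkfMUW Y qv) (rthkdE p (n + 1))),
    inferInstance, inferInstance, inferInstance,
    es1inftwTr (rthkfMUW Y qv) (rthkdE p (n + 1)), b, ψ1, ψχ, ?_,
    rthkf_unip_atUW hp5 hChi hcond hpN hN2 Y hqv⟩
  exact
    { pkg := rthkp_pkg (L := N * rthkdM qv) (M := rthkfMUW Y qv)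
        (rthkfHUW Y qv n) p (rthkdE p (n + 1)) (rthkp_one_le_half p (n + 1) hp.out.pos)
        (rthkd_pow_E_mem (hp.out.odd_of_ne_two Y.hyp.hp2) hk)
      primes := rthkdY_primesW hqv
      model := rthkp_model (L := N * rthkdM qv) (M := rthkfMUW Y qv)
        (rthkfHUW Y qv n) p hflat
        (rthkf_k7fLevelUW (Y := Y) (qv := qv) (n := n) hp5 hcond hN0 hpN hq hqN hqv)
        (rthkdE p (n + 1))
      stable := hst
      free := free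
      faith := by
        obtain ⟨n₀, hn₀⟩ := hfaith
        refine ⟨n₀, fun t ht hkill ψ hψ => ?_⟩
        have h0 := hn₀ t ht hkill
        have h1 : rthkdAct p _ ℓ₀ (rthkfHUW Y qv n) (n + 1) hst t ⟨ψ, hψ⟩ = 0 := by
          rw [h0]
          rfl
        exact congrArg Subtype.val h1
      resid := hres
      cong := hcong
      aug := haug
      trT := htrT
      trQ := htrQ
      base := hbaseF }

/-- **HECKE for `W` without the prime `q`, `p ≥ 5`, UNCONDITIONAL.** -/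
theorem stmtHeckeNW_of_five_le (p : ℕ) (hp5 : 5 ≤ p) : StmtHeckeNW p := by
  intro _ W M _ hΔ hss hirr hsq hpM hM2 hmod Y h
  exact rthkct_hecke_atW Y h
    (rthkf_top_atUW hp5 K7F.stmtFlatH K6.rtk6c4at_stmtChiJDiv5 hΔ hsq hpM hM2 hmod Y h)

/-- **HECKE for `W`, `p ≥ 5`, UNCONDITIONAL** (the form with the prime `q`). -/
theorem stmtHeckeW_of_five_le' (p : ℕ) (hp5 : 5 ≤ p) : StmtHeckeW p :=
  stmtHeckeW_of_NW (stmtHeckeNW_of_five_le p hp5)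

end Fermat.Agent.S59.LowK

end
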