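import Fermat.Agent.RT.Hecke.ConcFinal
import Fermat.Agent.S59.LowK.ConcFinalBW
import Fermat.Agent.S59.LowK.ConcTopW

/-!
# S59 M3/R1, W-twin of `RT/Hecke/ConcFinal.lean` (helper9; rules of NOTES/S59-LowK.md)

`rthkf_topW : 5 ≤ p → K7F.StmtFlatH → StmtHkfK5W p → StmtHkfTrW p → StmtHkfUnipW p →
  StmtHkConcTopW p`  and  `rthkf_top'W` (variant B, with `StmtHkfK5'W p`).

* The arithmetic lemmas of the original are in `ConcFinalAW.lean`.
* `StmtHkfUnipW p` is NEW: helper59's output `HkUnipJ p Y.Smin J` of `StmtHkConcTopW`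
  (`S59/LowK/ConcTopW.lean`) for the concrete `J = es1inftwJ L M H' p χ` of the glue
  (leaf HK-UNIP-W).
* The fields `pkg`, `primes`, `model` come from the generic `rthkp_pkg`, `rthkp_model`
  (`RT/Hecke/ConcPkg.lean`), `rthkgi_k7fLevelW` (`GrpInstW.lean`) and `rthkdY_primesW`
  (`ConcInstW.lean`).
-/

set_option autoImplicit false
set_option linter.unusedSectionVars false
set_option linter.style.haveILetI false

noncomputable section

namespace Fermat.Agent.S59.LowK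

open Fermat.Agent.RT Fermat.Agent.S59.LowQ
open IsLocalRing Fermat.Agent.ES Fermat.Agent.S30 Fermat.Agent.W1 Fermat.Agent.TW
open Fermat.Agent.ES1 Fermat.Agent.RT.K5 Fermat.Agent.RT.K7F Fermat.Agent.RT.Prod
open ExtCitation WeierstrassCurve WeierstrassCurve.Affine WeierstrassCurve.Affine.Point
open scoped MatrixGroups

/-- **The unipotency side** (NEW for a general `W`, helper59's `HkUnipJ`): at every
Taylor–Wiles level the inertia groups at the primes `q ≠ p` of `Y.Smin` act unipotently on the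
`p`-power torsion of the twisted package `J = es1inftwJ L M H' p χ`. -/
def StmtHkfUnipW (p : ℕ) : Prop :=
  ∀ [Fact p.Prime] (W : WeierstrassCurve ℤ) (N q : ℕ) [NeZero N], W.Δ ≠ 0 →
    W.IsSemistableModel → W.ModRepIsIrreducible p → Squarefree N → ¬ p ∣ N → q.Prime →
    q ≠ p → q ∣ N → s59lq_Unram W p q → W.IsResiduallyModularOfLevel p N →
    (∀ r : ℕ, r.Prime → r ≠ p → r ∣ N → s59lq_Unram W p r → s59lq_IsTrivialPrime W p r) →
    ∀ (Y : s59lk_KSetupW W p N) (h n : ℕ) (qv : Fin h → ℕ),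
      IsTWFamily p Y.ρbar (Y.Smin ∪ Finset.univ.image Y.r) n h qv →
      ∀ (_ : NeZero (N * rthkdM qv)) (_ : NeZero (rthkdM (Sum.elim qv Y.r)))
        (_ : Fact (rthkdM (Sum.elim qv Y.r) ∣ N * rthkdM qv)),
        HkUnipJ p Y.Smin
          (es1inftwJ (N * rthkdM qv) (rthkdM (Sum.elim qv Y.r)) (rthkfHW Y qv n) p
            (k7ftwChar (rthkdM (Sum.elim qv Y.r)) (rthkdE p (n + 1))))

/-- **HK-CONC, the final glue.** -/
theorem rthkf_topW {p : ℕ} (hp5 : 5 ≤ p) (hflat : StmtFlatH) (hK5 : StmtHkfK5W p)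
    (hTr : StmtHkfTrW p) (hU : StmtHkfUnipW p) : StmtHkConcTopW p := by
  intro hp W N q _ hΔ hss hirr hcond hpN hq hqp hqN hun hmod htriv Y h
  obtain ⟨M₀, iM₀, iM₀N, r, hr, c, a, S', hpS', hNS', 𝕋₀, i1, J₀, i2, i3, i4, Tr₀, Φ0, hbase,
    hmat, hlev⟩ := hK5 W N q hΔ hss hirr hcond hpN hq hqp hqN hun hmod htriv Y h
  refine ⟨2 ^ h * r, Nat.mul_pos (pow_pos two_pos h) hr, S', hpS', hNS', 𝕋₀, i1, J₀, i2, i3,
    i4, Tr₀, Φ0, hbase, fun n qv hqv => ?_⟩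
  have hN0 : N ≠ 0 := NeZero.ne N
  haveI iL : NeZero (N * rthkdM qv) := ⟨rthkdYL_ne_zeroW hN0 hqv⟩
  haveI iM : NeZero (rthkdM (Sum.elim qv Y.r)) := ⟨rthkdYM_ne_zeroW hqv⟩
  haveI iML : Fact (rthkdM (Sum.elim qv Y.r) ∣ N * rthkdM qv) :=
    ⟨rthkdYM_dvd_LW (Y := Y) (qv := qv)⟩
  obtain ⟨e, ℓ₀, iℓ₀, heP, hℓ₀, hℓ₀N, hℓ₀p, havoid, hTW, hbasis, hres⟩ :=
    hlev n qv hqv iL iM iML
  -- `ℓ₀ ∤ L`
  have hℓ₀L : ¬ ℓ₀ ∣ N * rthkdM qv := by
    intro hd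
    rcases (Nat.Prime.dvd_mul hℓ₀).mp hd with h1 | h1
    · exact hℓ₀N h1
    · obtain ⟨j, -, hj⟩ := Finset.mem_image.mp (rthkdY_dvd_prod_qvW hqv hℓ₀ h1)
      exact (havoid j).1 hj
  -- the twisted expression
  have hQ : ∀ q' ∈ List.ofFn qv, q'.Prime ∧ ¬ q' ∣ N ∧ q' ≠ ℓ₀ ∧ e.Avoids q' := by
    intro q' hq'
    rw [List.mem_ofFn] at hq'
    obtain ⟨j, rfl⟩ := hq'
    exact ⟨(hqv.2.1 j).1, rthkf_qv_not_dvdW hqv j, (havoid j).1, (havoid j).2⟩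
  have hnd : (List.ofFn qv).Nodup := List.nodup_ofFn.mpr hqv.1
  have hEP : (e.twist (List.ofFn qv)).IsPrimes :=
    HExpr.isPrimes_twist heP (fun q' hq' => (hQ q' hq').1)
  -- `FreeHyp`
  have hidx := rthkgi_freeHyp_indexW (Y := Y) (qv := qv) (n := n) hp5 hN0 hpN hq hqN hqv
  have hyp : FreeHyp p Y.O (N * rthkdM qv) (rthkdM (Sum.elim qv Y.r)) ℓ₀ (rthkfHW Y qv n) ⊤
      (h * (n + 1) + Fintype.card Y.ι) :=
    k5nt_freeHyp hp.out hp5 Y.hyp.hp𝒪 _ _ ℓ₀ hℓ₀ hℓ₀L le_top _ hidx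
  -- `free` and `base`
  obtain ⟨b, free, hbmat⟩ := rthkcf_X p Y.O N M₀ ℓ₀ e hℓ₀ hℓ₀N (List.ofFn qv) h
    (List.length_ofFn) hnd hQ (N * rthkdM qv) (rthkdM (Sum.elim qv Y.r)) rthkf_prod_ofFnW
    (rthkfHW Y qv n) _ hyp (n + 1) (Nat.succ_pos n) hTW c hbasis
  -- the characters
  obtain ⟨ψ1, ψχ, hcong, haug, htrT, htrQ⟩ := hTr W N q hΔ hss hirr hcond hpN hq hqp hqN hun hmod htriv Y h n qv hqv
    iL iM iML ((e.twist (List.ofFn qv)).eval (N * rthkdM qv)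
      (rthkdM (Sum.elim qv Y.r))) ℓ₀ iℓ₀
  have hst := rthkd_hst (O := Y.O) (L := N * rthkdM qv) (M := rthkdM (Sum.elim qv Y.r)) p
    (e.twist (List.ofFn qv)) hEP ℓ₀ hℓ₀ hℓ₀L (rthkfHW Y qv n) (n + 1)
  have hk : ∀ x : Fin h ⊕ Y.ι,
      (Sum.elim (fun _ => n + 1) (fun _ => 1) : Fin h ⊕ Y.ι → ℕ) x ≤ n + 1 := by
    rintro (j | i)
    · exact le_rfl
    · exact Nat.succ_le_succ (Nat.zero_le n)
  have hfaith := rthkd_faith (O := Y.O) (p := p) (L := N * rthkdM qv)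
    (M := rthkdM (Sum.elim qv Y.r)) (H' := rthkfHW Y qv n)
    (rthksE p (es1inftwJ (N * rthkdM qv) (rthkdM (Sum.elim qv Y.r)) (rthkfHW Y qv n) p
        (k7ftwChar (rthkdM (Sum.elim qv Y.r)) (rthkdE p (n + 1))))
      (𝕋 := HDAlg (rthkdM (Sum.elim qv Y.r))) : Set (HDAlg (rthkdM (Sum.elim qv Y.r))))
    (k7ftwChar (rthkdM (Sum.elim qv Y.r)) (rthkdE p (n + 1))) Y.hyp.hp𝒪
    (e.twist (List.ofFn qv)) hEP ℓ₀ hℓ₀ hℓ₀L (rthkf_sqfree_LW hcond hqv) Y.hyp.hp2 hℓ₀p (n + 1)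
    (fun u => by
      rw [rthkd_pmH (hp.out.odd_of_ne_two Y.hyp.hp2)]
      exact rthkd_pow_mem_H hk u)
    (n + 1) (k5nt_noTors_quot hp.out hp5 Y.hyp.hp𝒪 _ (n + 1)) hst
  refine ⟨N * rthkdM qv, rthkdM (Sum.elim qv Y.r), iL, iM, iML,
    (e.twist (List.ofFn qv)).eval (N * rthkdM qv) (rthkdM (Sum.elim qv Y.r)), ℓ₀, iℓ₀,
    rthkfHW Y qv n,
    es1inftwJ (N * rthkdM qv) (rthkdM (Sum.elim qv Y.r)) (rthkfHW Y qv n) p
      (k7ftwChar (rthkdM (Sum.elim qv Y.r)) (rthkdE p (n + 1))),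
    inferInstance, inferInstance, inferInstance,
    es1inftwTr (rthkdM (Sum.elim qv Y.r)) (rthkdE p (n + 1)), b, ψ1, ψχ, ?_,
    hU W N q hΔ hss hirr hcond hpN hq hqp hqN hun hmod htriv Y h n qv hqv iL iM iML⟩
  exact
    { pkg := rthkp_pkg (L := N * rthkdM qv) (M := rthkdM (Sum.elim qv Y.r))
        (rthkfHW Y qv n) p (rthkdE p (n + 1)) (rthkp_one_le_half p (n + 1) hp.out.pos)
        (rthkd_pow_E_mem (hp.out.odd_of_ne_two Y.hyp.hp2) hk)
      primes := rthkdY_primesW hqv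
      model := rthkp_model (L := N * rthkdM qv) (M := rthkdM (Sum.elim qv Y.r))
        (rthkfHW Y qv n) p hflat
        (rthkgi_k7fLevelW (Y := Y) (qv := qv) (n := n) hp5 hN0 hpN hq hqN hqv)
        (rthkdE p (n + 1))
      stable := hst
      free := free
      faith := by
        obtain ⟨n₀, hn₀⟩ := hfaith
        refine ⟨n₀, fun t ht hkill ψ hψ => ?_⟩
        have h0 := hn₀ t ht hkill
        have h1 : rthkdAct p _ ℓ₀ (rthkfHW Y qv n) (n + 1) hst t ⟨ψ, hψ⟩ = 0 := by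
          rw [h0]
          rfl
        exact congrArg Subtype.val h1
      resid := hres
      cong := hcong
      aug := haug
      trT := htrT
      trQ := htrQ
      base := by
        intro ℓ hℓ hℓL
        haveI : NeZero ℓ := ⟨hℓ.ne_zero⟩
        have hℓN : ¬ ℓ ∣ N * p := fun hd => hℓL (by
          rcases (Nat.Prime.dvd_mul hℓ).mp hd with h1 | h1
          · exact Dvd.dvd.mul_right (Dvd.dvd.mul_right h1 _) _
          · exact Dvd.dvd.mul_left h1 _)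
        obtain ⟨ha, hΦ⟩ := hmat ℓ hℓ hℓN
        rw [hΦ]
        refine hbmat ℓ hℓ (rthkf_not_mem_QW hℓL) (a ℓ) ha _ (fun x => ?_)
        refine ⟨((ZMod.unitOfCoprime ℓ (rthkf_coprime_MW (Y := Y) hℓ hℓL))⁻¹
          ^ rthkdE p (n + 1)), ?_⟩
        rw [rthkdAct_coe]
        exact es1infev_twTr (rthkdE p (n + 1))
          (by
            have := rthkd_two_E (p := p) (hp.out.odd_of_ne_two Y.hyp.hp2) (n + 1)
            have hpos : 0 < p ^ (n + 1) := pow_pos hp.out.pos _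
            omega)
          hℓ hℓL (rthkf_coprime_MW (Y := Y) hℓ hℓL) _ }

/-- **HK-CONC for `W`, the final glue, variant B.** -/
theorem rthkf_top'W {p : ℕ} (hp5 : 5 ≤ p) (hflat : StmtFlatH) (hK5 : StmtHkfK5'W p)
    (hTr : StmtHkfTrW p) (hU : StmtHkfUnipW p) : StmtHkConcTopW p :=
  rthkf_topW hp5 hflat (rthkf_k5_ofW hp5 hK5) hTr hU

end Fermat.Agent.S59.LowK

end
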