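import Fermat.Agent.RT.Hecke.ConcPkg
import Fermat.Agent.S59.LowK.SetupW

/-!
# S59, K-machine for a general semistable `W`: the `W`-twin of `RT/Hecke/ConcPkg.lean` (helper65)

PORT LEDGER `NOTES/S59-LowK.md`, depth 2.  Only the two sections of `RT/Hecke/ConcPkg.lean` that
mention `KSetup` (`Arith`, `Inst`) are twinned; the generic part of that file
(`rthkp_index_pow`, `rthkp_level`, `rthkp_twistChar`, `rthkp_pkg`, `rthkp_model`, the products
of distinct primes, …) does not mention `KSetup` and is IMPORTED unchanged.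

Dictionary (the level of the curve is `M`, the two levels of K7-FLAT are
`L = M · ∏ qv j` and `M' = (∏ qv j) · (∏ Y.r i)`):

* `Y : KSetup P N q` ↦ `Y : s59lk_KSetupW W p M`, `P.p ↦ p` with `[Fact p.Prime]`;
* `rthkp_r_spec` (`r i ≠ 2`) ↦ `rthkp_r_specW` (`r i ∉ Y.Smin`);
* `rthkp_two_mem_Smin` has NO twin (`2 ∈ Smin` only if `ρbar` is ramified at `2`);
* `hcond : P.IsConductorLevel N` ↦ `hM : 0 < M` (only positivity was used);
* `P.hp5` ↦ `hp2 : p ≠ 2` and `h3 : p = 3 → 2 ∣ M` (the field `h5` of `K7FLevel`);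
* `hq : q.Prime`, `hqN : q ∣ N` ↦ `hq : q.Prime`, `hqM : q ∣ M` (`q` is any prime of the level,
  only used for `2 ≤ L`).

All names = old name + `W`, in `namespace Fermat.Agent.S59.LowK`.
-/

set_option autoImplicit false
set_option linter.unusedSectionVars false
set_option linter.unusedVariables false
set_option linter.style.haveILetI false

noncomputable section

namespace Fermat.Agent.S59.LowK

open Fermat.Agent.ES Fermat.Agent.ES1 Fermat.Agent.RT Fermat.Agent.RT.K7F Fermat.Agent.RT.K6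
  Fermat.Agent.W1 ExtCitation Fermat.Agent.TW Fermat.Agent.RT.Prod

/-! ## The arithmetic of the concrete level -/

section Arith

variable {W : WeierstrassCurve ℤ} {p M q : ℕ} (Y : s59lk_KSetupW W p M) {n h : ℕ}
  (qv : Fin h → ℕ)

/-- the trivial primes are primes dividing `M` outside `Smin` -/
theorem rthkp_r_specW (i : Y.ι) : (Y.r i).Prime ∧ Y.r i ∉ Y.Smin ∧ Y.r i ∣ M :=
  ⟨Y.r_prime i, Y.r_not_mem_Smin i, Y.r_dvd i⟩

theorem rthkp_p_mem_SminW [hp : Fact p.Prime] : p ∈ Y.Smin := Y.p_mem_Smin hp.out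

variable {Y qv}

/-- a Taylor–Wiles prime is not a trivial prime -/
theorem rthkp_qv_ne_rW (hqv : IsTWFamily p Y.ρbar (Y.Smin ∪ Finset.univ.image Y.r) n h qv)
    (j : Fin h) (i : Y.ι) : qv j ≠ Y.r i := by
  intro hji
  apply (hqv.2.1 j).2.1
  rw [hji]
  exact Finset.mem_union_right _ (Finset.mem_image_of_mem _ (Finset.mem_univ i))

/-- a Taylor–Wiles prime is not `p` -/
theorem rthkp_qv_ne_pW [hp : Fact p.Prime]
    (hqv : IsTWFamily p Y.ρbar (Y.Smin ∪ Finset.univ.image Y.r) n h qv)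
    (j : Fin h) : qv j ≠ p := by
  intro hj
  apply (hqv.2.1 j).2.1
  rw [hj]
  exact Finset.mem_union_left _ (rthkp_p_mem_SminW Y)

variable (Y qv)

/-- **`M' ∣ L`** -/
theorem rthkp_arith_dvdW : (∏ j, qv j) * ∏ i, Y.r i ∣ M * ∏ j, qv j := by
  rw [mul_comm M]
  exact mul_dvd_mul_left _ (rthkp_prod_dvd Y.r Y.r_inj (fun i => Y.r_prime i) M
    (fun i => Y.r_dvd i))

variable {qv}

/-- **`M'` is squarefree** -/
theorem rthkp_arith_sqfreeW
    (hqv : IsTWFamily p Y.ρbar (Y.Smin ∪ Finset.univ.image Y.r) n h qv) :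
    Squarefree ((∏ j, qv j) * ∏ i, Y.r i) := by
  have h1 : (∏ j, qv j) * ∏ i, Y.r i = ∏ x : Fin h ⊕ Y.ι, Sum.elim qv Y.r x := by
    rw [Fintype.prod_sum_type]
    rfl
  rw [h1]
  apply rthkp_sqfree_prod
  · exact Function.Injective.sumElim hqv.1 Y.r_inj (fun j i => rthkp_qv_ne_rW hqv j i)
  · rintro (j | i)
    · exact (hqv.2.1 j).1
    · exact Y.r_prime i

/-- **`p ∤ L`** -/
theorem rthkp_arith_not_dvdW [hp : Fact p.Prime] (hpM : ¬ p ∣ M)
    (hqv : IsTWFamily p Y.ρbar (Y.Smin ∪ Finset.univ.image Y.r) n h qv) :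
    ¬ p ∣ M * ∏ j, qv j := by
  intro hdvd
  rcases (Nat.Prime.dvd_mul hp.out).1 hdvd with h1 | h1
  · exact hpM h1
  · obtain ⟨j, hj⟩ := rthkp_prime_dvd_prod qv (fun j => (hqv.2.1 j).1) hp.out h1
    exact rthkp_qv_ne_pW hqv j hj.symm

/-- `0 < L` -/
theorem rthkp_arith_posW (hM : 0 < M)
    (hqv : IsTWFamily p Y.ρbar (Y.Smin ∪ Finset.univ.image Y.r) n h qv) :
    0 < M * ∏ j, qv j :=
  Nat.mul_pos hM (Finset.prod_pos fun j _ => (hqv.2.1 j).1.pos)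

/-- **`2 ≤ L`** -/
theorem rthkp_arith_two_leW (hM : 0 < M) (hq : q.Prime) (hqM : q ∣ M)
    (hqv : IsTWFamily p Y.ρbar (Y.Smin ∪ Finset.univ.image Y.r) n h qv) :
    2 ≤ M * ∏ j, qv j := by
  have h1 : 2 ≤ M := le_trans hq.two_le (Nat.le_of_dvd hM hqM)
  have h2 : 0 < ∏ j, qv j := Finset.prod_pos fun j _ => (hqv.2.1 j).1.pos
  calc 2 ≤ M := h1
    _ = M * 1 := (mul_one M).symm
    _ ≤ M * ∏ j, qv j := Nat.mul_le_mul_left M h2

/-- `0 < M'` -/
theorem rthkp_arith_M_posW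
    (hqv : IsTWFamily p Y.ρbar (Y.Smin ∪ Finset.univ.image Y.r) n h qv) :
    0 < (∏ j, qv j) * ∏ i, Y.r i :=
  Nat.mul_pos (Finset.prod_pos fun j _ => (hqv.2.1 j).1.pos)
    (Finset.prod_pos fun i _ => (Y.r_prime i).pos)

/-- **the field `primes`** of `HkConc` / `HkLevel` for the concrete level
`L = M · ∏ qv j` and `Sbad = Y.Smin ∪ (image qv ∪ image Y.r)`. -/
theorem rthkp_primesW [hp : Fact p.Prime]
    (hqv : IsTWFamily p Y.ρbar (Y.Smin ∪ Finset.univ.image Y.r) n h qv) :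
    ∀ r : ℕ, r.Prime → r ∉ Y.Smin ∪ (Finset.univ.image qv ∪ Finset.univ.image Y.r) →
      ¬ r ∣ (M * ∏ j, qv j) * p := by
  intro r hr hrS hdvd
  rcases (Nat.Prime.dvd_mul hr).1 hdvd with h1 | h1
  · rcases (Nat.Prime.dvd_mul hr).1 h1 with h2 | h2
    · by_cases hrSmin : r ∈ Y.Smin
      · exact hrS (Finset.mem_union_left _ hrSmin)
      · exact hrS (Finset.mem_union_right _ (Finset.mem_union_right _
          ((Y.hr r).2 ⟨hr, h2, hrSmin⟩)))
    · obtain ⟨j, hj⟩ := rthkp_prime_dvd_prod qv (fun j => (hqv.2.1 j).1) hr h2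
      exact hrS (Finset.mem_union_right _ (Finset.mem_union_left _
        (by rw [hj]; exact Finset.mem_image_of_mem _ (Finset.mem_univ j))))
  · have h3 : r = p := (Nat.prime_dvd_prime_iff_eq hr hp.out).1 h1
    exact hrS (Finset.mem_union_left _ (by rw [h3]; exact rthkp_p_mem_SminW Y))

/-- `p = 3 → 2 ∣ L` from `p = 3 → 2 ∣ M` -/
theorem rthkp_arith_h3W (h3 : p = 3 → 2 ∣ M) : p = 3 → 2 ∣ M * ∏ j, qv j :=
  fun hp3 => Dvd.dvd.mul_right (h3 hp3) _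

/-- **the standing hypotheses of K7-FLAT for the concrete level**, for every `H'` with
`Δ = (ℤ/M')ˣ / ±H'` of exponent dividing `p ^ ν`. -/
theorem rthkp_level_concW [hp : Fact p.Prime] (hM : 0 < M) (hp2 : p ≠ 2) (h3 : p = 3 → 2 ∣ M)
    (hpM : ¬ p ∣ M) (hq : q.Prime) (hqM : q ∣ M)
    (hqv : IsTWFamily p Y.ρbar (Y.Smin ∪ Finset.univ.image Y.r) n h qv)
    (H' : Subgroup (ZMod ((∏ j, qv j) * ∏ i, Y.r i))ˣ) (ν : ℕ)
    (hexp : ∀ c : (ZMod ((∏ j, qv j) * ∏ i, Y.r i))ˣ, c ^ (p ^ ν) ∈ pmH H') :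
    K7FLevel (M * ∏ j, qv j) ((∏ j, qv j) * ∏ i, Y.r i) H' p :=
  rthkp_level H' p ν (rthkp_arith_two_leW Y hM hq hqM hqv)
    (rthkp_arith_dvdW Y qv) hp2 (rthkp_arith_not_dvdW Y hpM hqv) (rthkp_arith_h3W h3)
    (rthkp_arith_sqfreeW Y hqv) hexp

end Arith

/-! ## The instance for the concrete objects of `ConcArith` -/

section Inst

variable {W : WeierstrassCurve ℤ} {p M q : ℕ} (Y : s59lk_KSetupW W p M) {n h : ℕ}
  (qv : Fin h → ℕ)

/-- **`M' ∣ L`** for `M' = rthkdM (Sum.elim qv Y.r)`, `L = M * rthkdM qv` -/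
theorem rthkp_inst_dvdW : rthkdM (Sum.elim qv Y.r) ∣ M * rthkdM qv := by
  rw [rthkdM_sum]
  exact rthkp_arith_dvdW Y qv

variable {qv}

theorem rthkp_inst_L_ne_zeroW (hM : 0 < M)
    (hqv : IsTWFamily p Y.ρbar (Y.Smin ∪ Finset.univ.image Y.r) n h qv) :
    M * rthkdM qv ≠ 0 :=
  (rthkp_arith_posW Y hM hqv).ne'

theorem rthkp_inst_M_ne_zeroW
    (hqv : IsTWFamily p Y.ρbar (Y.Smin ∪ Finset.univ.image Y.r) n h qv) :
    rthkdM (Sum.elim qv Y.r) ≠ 0 := by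
  rw [rthkdM_sum]
  exact (rthkp_arith_M_posW Y hqv).ne'

/-- **the field `primes`** of `HkConc` for the concrete objects. -/
theorem rthkp_primes_instW [hp : Fact p.Prime]
    (hqv : IsTWFamily p Y.ρbar (Y.Smin ∪ Finset.univ.image Y.r) n h qv) :
    ∀ r : ℕ, r.Prime → r ∉ Y.Smin ∪ (Finset.univ.image qv ∪ Finset.univ.image Y.r) →
      ¬ r ∣ (M * rthkdM qv) * p :=
  rthkp_primesW Y hqv

/-- **the standing hypotheses of K7-FLAT** for the concrete objects. -/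
theorem rthkp_level_instW [hp : Fact p.Prime] (hM : 0 < M) (hp2 : p ≠ 2)
    (h3 : p = 3 → 2 ∣ M) (hpM : ¬ p ∣ M) (hq : q.Prime) (hqM : q ∣ M)
    (hqv : IsTWFamily p Y.ρbar (Y.Smin ∪ Finset.univ.image Y.r) n h qv)
    (k : Fin h ⊕ Y.ι → ℕ) (ν : ℕ) (hk : ∀ x, k x ≤ ν) :
    K7FLevel (M * rthkdM qv) (rthkdM (Sum.elim qv Y.r))
      (rthkdH p (Sum.elim qv Y.r) k (rthkdM (Sum.elim qv Y.r)) (rthkd_dvd_M _)) p := by
  refine rthkp_level _ p ν (rthkp_arith_two_leW Y hM hq hqM hqv)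
    (rthkp_inst_dvdW Y qv) hp2 (rthkp_arith_not_dvdW Y hpM hqv) (rthkp_arith_h3W h3)
    ?_ ?_
  · rw [rthkdM_sum]
    exact rthkp_arith_sqfreeW Y hqv
  · intro c
    rw [rthkd_pmH (hp.out.odd_of_ne_two hp2)]
    exact rthkd_pow_mem_H hk c

/-- **the field `pkg`** of `HkConc` for the concrete objects. -/
theorem rthkp_pkg_instW [NeZero (M * rthkdM qv)] [NeZero (rthkdM (Sum.elim qv Y.r))]
    [Fact (rthkdM (Sum.elim qv Y.r) ∣ M * rthkdM qv)] [hp : Fact p.Prime] (hp2 : p ≠ 2)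
    (k : Fin h ⊕ Y.ι → ℕ) (ν : ℕ) (hk : ∀ x, k x ≤ ν) :
    Rtk7bPkg p (M * rthkdM qv)
      (es1inftwJ (M * rthkdM qv) (rthkdM (Sum.elim qv Y.r))
        (rthkdH p (Sum.elim qv Y.r) k (rthkdM (Sum.elim qv Y.r)) (rthkd_dvd_M _)) p
        (k7ftwChar (rthkdM (Sum.elim qv Y.r)) (rthkdE p ν)))
      (es1inftwTr (rthkdM (Sum.elim qv Y.r)) (rthkdE p ν)) :=
  rthkp_pkg _ p (rthkdE p ν) (rthkp_one_le_half p ν hp.out.pos)
    (rthkd_pow_E_mem (hp.out.odd_of_ne_two hp2) hk)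

/-- **the field `model`** of `HkConc` for the concrete objects, from K7-FLAT. -/
theorem rthkp_model_instW [NeZero (M * rthkdM qv)] [NeZero (rthkdM (Sum.elim qv Y.r))]
    [Fact (rthkdM (Sum.elim qv Y.r) ∣ M * rthkdM qv)] [hp : Fact p.Prime]
    (hflat : StmtFlatH) (hM : 0 < M) (hp2 : p ≠ 2) (h3 : p = 3 → 2 ∣ M) (hpM : ¬ p ∣ M)
    (hq : q.Prime) (hqM : q ∣ M)
    (hqv : IsTWFamily p Y.ρbar (Y.Smin ∪ Finset.univ.image Y.r) n h qv)
    (k : Fin h ⊕ Y.ι → ℕ) (ν : ℕ) (hk : ∀ x, k x ≤ ν) :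
    ∀ k' : ℕ, ∃ (X : Type) (_ : AddCommGroup X) (_ : Finite X) (act : GQ → X → X),
      (∀ s x x', act s (x + x') = act s x + act s x') ∧
      (∀ s s' x, act (s * s') x = act s (act s' x)) ∧
      HasFiniteFlatModel (GaloisRep.ratLocalizedAt p) X act ∧
      ∀ e' : GQ →₀ ℤ, (∀ x : X, (e'.sum fun g z => z • act g x) = 0) →
        ∀ x : es1inftwJ (M * rthkdM qv) (rthkdM (Sum.elim qv Y.r))
            (rthkdH p (Sum.elim qv Y.r) k (rthkdM (Sum.elim qv Y.r)) (rthkd_dvd_M _)) p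
            (k7ftwChar (rthkdM (Sum.elim qv Y.r)) (rthkdE p ν)),
          p ^ k' • x = 0 → (e'.sum fun g z => z • g • x) = 0 :=
  rthkp_model _ p hflat (rthkp_level_instW Y hM hp2 h3 hpM hq hqM hqv k ν hk) (rthkdE p ν)

end Inst

end Fermat.Agent.S59.LowK
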