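import Fermat.Agent.S59.LowK.GrpInstW
import Fermat.Agent.S59.LowK.ConcPkgW
import Fermat.Agent.RT.Hecke.ConcHyp

/-!
# S59, K-machine for a general semistable `W`: the `W`-twin of `RT/Hecke/ConcHyp.lean` (helper65)

PORT LEDGER `NOTES/S59-LowK.md`, depth 4.  `Y : s59lk_KSetupW W p N`, `qv` a Taylor–Wiles family
of level `n`, and helper9's concrete objects (`S59/LowK/ConcInstW.lean`, `GrpInstW.lean`):
`v = rthkdYvW Y qv`, `k = rthkdYkW Y (n + 1)`, `M = rthkdYMW Y qv`, `L = rthkdYLW N qv`,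
`H' = rthkgiHW Y qv n`, `e = rthkdE p (n + 1)`.

The generic part of `RT/Hecke/ConcHyp.lean` (`rthkfh_isUnit_natCast`, `rthkfh_nsmul_inj`,
`rthkfh_noTors`) is IMPORTED unchanged.  For `p = 3` the torsion hypothesis is NOT automatic, so
every statement comes in two forms:

* `…_ntW` : ANY odd `p`, with the hypothesis `hNT : ∀ n', NoTors (gammaH L M ⊤) (𝒪 ⧸ 𝔪 ^ n')`
  (for `p = 3`: `k5nt3_noTors_quot` / `s59min_noTors3`), and `h3 : p = 3 → 2 ∣ N` for `K7FLevel`;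
* `…W` : the verbatim twin, `hp5 : 5 ≤ p`.

* `rthkfh_sum_kW` : `∑ x, rthkdYkW Y ν x = h * ν + #ι`;
* `rthkfh_freeHyp_gen_ntW`, `rthkfh_freeHyp_genW` : `FreeHyp p Y.O L M ℓ₀ (rthkdH …) ⊤ (∑ x, k x)`;
* **`rthkfh_freeHyp_ntW`**, **`rthkfh_freeHypW`** : `FreeHyp` for the concrete objects;
* `rthkfh_level_ntW` : `K7FLevel L M H' p` for any odd `p` (`p = 3 → 2 ∣ N`);
* `rthkfh_primesW`, **`rthkfh_pkgW`** (any odd `p`), **`rthkfh_model_ntW`**, **`rthkfh_modelW`**.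
-/

set_option autoImplicit false
set_option linter.unusedSectionVars false
set_option linter.unusedVariables false
set_option linter.style.haveILetI false

noncomputable section

namespace Fermat.Agent.S59.LowK

open IsLocalRing Fermat.Agent.RT Fermat.Agent.RT.Prod Fermat.Agent.TW Fermat.Agent.RT.K5
open Fermat.Agent.ES Fermat.Agent.ES1 Fermat.Agent.RT.K7F Fermat.Agent.W1 ExtCitation
open scoped MatrixGroups

section Hyp

variable {W : WeierstrassCurve ℤ} {p N q : ℕ} [hp : Fact p.Prime] (Y : s59lk_KSetupW W p N)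
  {n h : ℕ} {qv : Fin h → ℕ}

/-- the sum of the exponents -/
theorem rthkfh_sum_kW (ν : ℕ) :
    ∑ x, rthkdYkW Y (h := h) ν x = h * ν + Fintype.card Y.ι := by
  simp [rthkdYkW, Fintype.sum_sum_type]

/-! ## `FreeHyp` for the concrete data -/

/-- **`K5.FreeHyp` for the concrete diamond group**, any odd `p`, the torsion hypothesis being
an input. -/
theorem rthkfh_freeHyp_gen_ntW (hp2 : p ≠ 2)
    (hTW : IsTWFamily p Y.ρbar (Y.Smin ∪ Finset.univ.image Y.r) n h qv)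
    {L M : ℕ} (hM0 : M ≠ 0) (hM : ∀ x, rthkdYvW Y qv x ∣ M) {ℓ₀ : ℕ} (hℓ₀ : ℓ₀.Prime)
    (hℓ₀L : ¬ ℓ₀ ∣ L)
    (hNT : ∀ n' : ℕ, NoTors (gammaH L M ⊤) (Y.O ⧸ maximalIdeal Y.O ^ n')) :
    FreeHyp p Y.O L M ℓ₀
      (rthkdH p (rthkdYvW Y qv) (rthkdYkW Y (n + 1)) M hM) ⊤
      (∑ x, rthkdYkW Y (h := h) (n + 1) x) where
  p_ne_two := hp2
  p_mem := Y.hyp.hp𝒪
  prime := hℓ₀
  not_dvd := hℓ₀L
  le := le_top
  index := rthkgb_freeHyp_index hp.out hp2 (rthkdYv_injW hTW)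
    (rthkdYv_primeW hTW) (rthkdY_pow_dvdW hTW) hM0 hM
  noTors := hNT

/-- **`K5.FreeHyp` for the concrete diamond group**, `p ≥ 5` (the verbatim twin). -/
theorem rthkfh_freeHyp_genW (hp5 : 5 ≤ p)
    (hTW : IsTWFamily p Y.ρbar (Y.Smin ∪ Finset.univ.image Y.r) n h qv)
    {L M : ℕ} (hM0 : M ≠ 0) (hM : ∀ x, rthkdYvW Y qv x ∣ M) {ℓ₀ : ℕ} (hℓ₀ : ℓ₀.Prime)
    (hℓ₀L : ¬ ℓ₀ ∣ L) :
    FreeHyp p Y.O L M ℓ₀
      (rthkdH p (rthkdYvW Y qv) (rthkdYkW Y (n + 1)) M hM) ⊤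
      (∑ x, rthkdYkW Y (h := h) (n + 1) x) :=
  rthkfh_freeHyp_gen_ntW Y (by omega) hTW hM0 hM hℓ₀ hℓ₀L
    (fun n' => rthkfh_noTors Y.O hp.out hp5 Y.hyp.hp𝒪 _ n')

/-- **`K5.FreeHyp` for the concrete objects**, any odd `p`, the torsion hypothesis being an
input. -/
theorem rthkfh_freeHyp_ntW (hp2 : p ≠ 2)
    (hTW : IsTWFamily p Y.ρbar (Y.Smin ∪ Finset.univ.image Y.r) n h qv)
    {ℓ₀ : ℕ} (hℓ₀ : ℓ₀.Prime) (hℓ₀L : ¬ ℓ₀ ∣ rthkdYLW N qv)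
    (hNT : ∀ n' : ℕ, NoTors (gammaH (rthkdYLW N qv) (rthkdYMW Y qv) ⊤)
      (Y.O ⧸ maximalIdeal Y.O ^ n')) :
    FreeHyp p Y.O (rthkdYLW N qv) (rthkdYMW Y qv) ℓ₀ (rthkgiHW Y qv n) ⊤
      (h * (n + 1) + Fintype.card Y.ι) := by
  have h1 := rthkfh_freeHyp_gen_ntW Y hp2 hTW (rthkdYM_ne_zeroW hTW)
    (fun x => rthkdYv_dvd_MW (Y := Y) (qv := qv) x) hℓ₀ hℓ₀L hNT
  rw [rthkfh_sum_kW] at h1
  exact h1

/-- **`K5.FreeHyp` for the concrete objects**, `p ≥ 5` (the verbatim twin): the input of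
`rthkcf_X`. -/
theorem rthkfh_freeHypW (hp5 : 5 ≤ p) (hN0 : N ≠ 0) (hpN : ¬ p ∣ N) (hq : q.Prime)
    (hqN : q ∣ N)
    (hTW : IsTWFamily p Y.ρbar (Y.Smin ∪ Finset.univ.image Y.r) n h qv)
    {ℓ₀ : ℕ} (hℓ₀ : ℓ₀.Prime) (hℓ₀L : ¬ ℓ₀ ∣ rthkdYLW N qv) :
    FreeHyp p Y.O (rthkdYLW N qv) (rthkdYMW Y qv) ℓ₀ (rthkgiHW Y qv n) ⊤
      (h * (n + 1) + Fintype.card Y.ι) :=
  rthkfh_freeHyp_ntW Y (by omega) hTW hℓ₀ hℓ₀L
    (fun n' => rthkfh_noTors Y.O hp.out hp5 Y.hyp.hp𝒪 _ n')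

/-! ## The fields `primes`, `pkg`, `model` on the concrete objects -/

/-- **the field `primes`** (= `rthkdY_primesW`) -/
theorem rthkfh_primesW
    (hTW : IsTWFamily p Y.ρbar (Y.Smin ∪ Finset.univ.image Y.r) n h qv) :
    ∀ r : ℕ, r.Prime → r ∉ Y.Smin ∪ (Finset.univ.image qv ∪ Finset.univ.image Y.r) →
      ¬ r ∣ rthkdYLW N qv * p :=
  fun r hr hS => rthkdY_primesW hTW r hr hS

/-- **`K7FLevel`** at the Taylor–Wiles level, any odd `p` (`p = 3 → 2 ∣ N`). -/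
theorem rthkfh_level_ntW (hN0 : N ≠ 0) (hp2 : p ≠ 2) (h3 : p = 3 → 2 ∣ N) (hpN : ¬ p ∣ N)
    (hq : q.Prime) (hqN : q ∣ N)
    (hTW : IsTWFamily p Y.ρbar (Y.Smin ∪ Finset.univ.image Y.r) n h qv) :
    K7FLevel (rthkdYLW N qv) (rthkdYMW Y qv) (rthkgiHW Y qv n) p :=
  rthkp_level_instW Y (Nat.pos_of_ne_zero hN0) hp2 h3 hpN hq hqN hTW (rthkdYkW Y (n + 1))
    (n + 1) (rthkdYk_leW Y (n + 1) (Nat.succ_le_succ (Nat.zero_le n)))

/-- **the field `pkg`** of `HkConc` on the concrete objects (any odd `p`). -/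
theorem rthkfh_pkgW [NeZero (rthkdYLW N qv)] [NeZero (rthkdYMW Y qv)]
    [Fact (rthkdYMW Y qv ∣ rthkdYLW N qv)] (hp2 : p ≠ 2) (n : ℕ) :
    Rtk7bPkg p (rthkdYLW N qv)
      (es1inftwJ (rthkdYLW N qv) (rthkdYMW Y qv) (rthkgiHW Y qv n) p
        (k7ftwChar (rthkdYMW Y qv) (rthkdE p (n + 1))))
      (es1inftwTr (rthkdYMW Y qv) (rthkdE p (n + 1))) :=
  rthkp_pkg _ p (rthkdE p (n + 1)) (rthkp_one_le_half p (n + 1) hp.out.pos)
    (rthkd_pow_E_mem (hp.out.odd_of_ne_two hp2)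
      (rthkdYk_leW Y (n + 1) (Nat.succ_le_succ (Nat.zero_le n))))

/-- **the field `model`** of `HkConc` on the concrete objects, from K7-FLAT, any odd `p`
(`p = 3 → 2 ∣ N`). -/
theorem rthkfh_model_ntW [NeZero (rthkdYLW N qv)] [NeZero (rthkdYMW Y qv)]
    [Fact (rthkdYMW Y qv ∣ rthkdYLW N qv)]
    (hflat : StmtFlatH) (hN0 : N ≠ 0) (hp2 : p ≠ 2) (h3 : p = 3 → 2 ∣ N) (hpN : ¬ p ∣ N)
    (hq : q.Prime) (hqN : q ∣ N)
    (hTW : IsTWFamily p Y.ρbar (Y.Smin ∪ Finset.univ.image Y.r) n h qv) :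
    ∀ k : ℕ, ∃ (X : Type) (_ : AddCommGroup X) (_ : Finite X) (act : GQ → X → X),
      (∀ s x x', act s (x + x') = act s x + act s x') ∧
      (∀ s s' x, act (s * s') x = act s (act s' x)) ∧
      HasFiniteFlatModel (GaloisRep.ratLocalizedAt p) X act ∧
      ∀ e : GQ →₀ ℤ, (∀ x : X, (e.sum fun g z => z • act g x) = 0) →
        ∀ x : es1inftwJ (rthkdYLW N qv) (rthkdYMW Y qv) (rthkgiHW Y qv n) p
            (k7ftwChar (rthkdYMW Y qv) (rthkdE p (n + 1))),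
          p ^ k • x = 0 → (e.sum fun g z => z • g • x) = 0 :=
  rthkp_model _ p hflat (rthkfh_level_ntW Y hN0 hp2 h3 hpN hq hqN hTW) (rthkdE p (n + 1))

/-- **the field `model`** of `HkConc` on the concrete objects, from K7-FLAT, `p ≥ 5` (the
verbatim twin). -/
theorem rthkfh_modelW [NeZero (rthkdYLW N qv)] [NeZero (rthkdYMW Y qv)]
    [Fact (rthkdYMW Y qv ∣ rthkdYLW N qv)]
    (hflat : StmtFlatH) (hp5 : 5 ≤ p) (hN0 : N ≠ 0) (hpN : ¬ p ∣ N) (hq : q.Prime)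
    (hqN : q ∣ N)
    (hTW : IsTWFamily p Y.ρbar (Y.Smin ∪ Finset.univ.image Y.r) n h qv) :
    ∀ k : ℕ, ∃ (X : Type) (_ : AddCommGroup X) (_ : Finite X) (act : GQ → X → X),
      (∀ s x x', act s (x + x') = act s x + act s x') ∧
      (∀ s s' x, act (s * s') x = act s (act s' x)) ∧
      HasFiniteFlatModel (GaloisRep.ratLocalizedAt p) X act ∧
      ∀ e : GQ →₀ ℤ, (∀ x : X, (e.sum fun g z => z • act g x) = 0) →
        ∀ x : es1inftwJ (rthkdYLW N qv) (rthkdYMW Y qv) (rthkgiHW Y qv n) p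
            (k7ftwChar (rthkdYMW Y qv) (rthkdE p (n + 1))),
          p ^ k • x = 0 → (e.sum fun g z => z • g • x) = 0 :=
  rthkfh_model_ntW Y hflat hN0 (by omega) (fun h3 => by omega) hpN hq hqN hTW

end Hyp

end Fermat.Agent.S59.LowK
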