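import Fermat.Agent.RT.Hecke.ConcIndep
import Fermat.Agent.S59.LowK.SetupW

/-!
# S59, walls M3 / R1, the K-machine for a general semistable `W`:
# the `W`-twin of `RT/Hecke/ConcIndep.lean` (helper7)

The generic part of the original (`rthkin_data`: the data `K5inData` of K5-INDEP at the base
level, no setup) is imported unchanged.  Twinned here, over `Y : s59lk_KSetupW W p M`:

* `rthkinAW`        : the lifts `a_ℓ(W)` of the residual traces;
* `rthkin_resW`     : the residual data `K5inRes p M Y.ρbar (rthkinAW Y) S₀`;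
* `rthkin_det_frobW`: `det ρ̄(Frob_r) = r`, `r ≠ p` any prime;
* `rthkin_qv_ne_pW`, `rthkin_qv_not_dvdW`, `rthkin_qv_oneW`;
* `rthkin_tw_hQW`, `rthkin_tw_hQsW` : the hypotheses of `k5in_twcond2` for a Taylor–Wiles family.
-/

set_option autoImplicit false
set_option linter.unusedSectionVars false
set_option linter.style.haveILetI false
set_option linter.unusedVariables false

noncomputable section

namespace Fermat.Agent.S59.LowK

open IsLocalRing Fermat.Agent.ES Fermat.Agent.ES1 Fermat.Agent.RT Fermat.Agent.RT.K5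
open Fermat.Agent.S48
open Fermat.Agent.TW Fermat.Agent.RT.Prod Fermat.Agent.S31 Fermat.Agent.RT.K7F
open CongruenceSubgroup Polynomial
open scoped MatrixGroups

section setup

variable {W : WeierstrassCurve ℤ} {p M : ℕ} [hp : Fact p.Prime] (Y : s59lk_KSetupW W p M)

/-- the lifts `a_ℓ(W)` of the residual traces -/
def rthkinAW : ℕ → Y.O := fun ℓ => ((W.apOfModel ℓ : ℤ) : Y.O)

/-- **the residual data of K5-INDEP over a setup** -/
theorem rthkin_resW (S₀ : Finset ℕ) (hpS : p ∈ S₀)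
    (hNS : ∀ ℓ : ℕ, ℓ.Prime → ℓ ∣ M → ℓ ∈ S₀)
    (hgood : ∀ ℓ : ℕ, ℓ.Prime → ℓ ∉ S₀ → W.IsGoodPrimeFor ℓ) :
    K5inRes p M Y.ρbar (rthkinAW Y) S₀ where
  good := fun r hr hrS hdvd => by
    rcases (Nat.Prime.dvd_mul hr).mp hdvd with h | h
    · exact hrS (hNS r hr h)
    · have e : r = p := (Nat.prime_dvd_prime_iff_eq hr hp.out).mp h
      exact hrS (e ▸ hpS)
  frob := fun ℓ hℓ hℓS 𝔄 h𝔄 τ hτ => by
    have e : residue Y.O (rthkinAW Y ℓ) = ((W.apOfModel ℓ : ℤ) : ResidueField Y.O) :=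
      map_intCast (residue Y.O) _
    rw [e]
    exact Y.hbar ℓ hℓ (fun h => hℓS (h ▸ hpS)) (hgood ℓ hℓ hℓS) 𝔄 h𝔄 τ hτ
  ex := fun ℓ hℓ => Fermat.Agent.Common.exists_isFrobeniusAt ℓ hℓ

/-- `det ρ̄(Frob_r) = r` for every prime `r ≠ p` -/
theorem rthkin_det_frobW {r : ℕ} (hr : r.Prime) (hrp : r ≠ p)
    {𝔄 : ValuationSubring (AlgebraicClosure ℚ)} (h𝔄 : 𝔄.LiesOverPrime r) {τ : GQ}
    (hτ : 𝔄.IsFrobeniusAt τ r) :
    LinearMap.det (Y.ρbar.ρ τ) = (r : ResidueField Y.O) := by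
  refine rthkr_det Y.ρbar p Y.hyp.hdet τ r (fun μ hμ => ?_)
  have hM := natCast_pow_not_mem_nonunits 𝔄 hp.out hr hrp h𝔄 1
  rw [pow_one] at hM
  exact frob_rootOfUnity 𝔄 hM hp.out.ne_zero hτ hμ

/-- `p = 0` in the residue field -/
theorem rthkin_p_zeroW : ((p : ℕ) : ResidueField Y.O) = 0 := by
  have h := (residue_eq_zero_iff (p : Y.O)).mpr Y.hyp.hp𝒪
  rwa [map_natCast] at h

variable {Y} {n h : ℕ} {qv : Fin h → ℕ}

/-- a Taylor–Wiles prime is not `p` -/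
theorem rthkin_qv_ne_pW
    (hqv : IsTWFamily p Y.ρbar (Y.Smin ∪ Finset.univ.image Y.r) n h qv) (j : Fin h) :
    qv j ≠ p := by
  intro hj
  apply (hqv.2.1 j).2.1
  rw [hj]
  exact Finset.mem_union_left _ (Y.p_mem_Smin hp.out)

/-- a Taylor–Wiles prime does not divide `M p` -/
theorem rthkin_qv_not_dvdW
    (hqv : IsTWFamily p Y.ρbar (Y.Smin ∪ Finset.univ.image Y.r) n h qv) (j : Fin h) :
    ¬ qv j ∣ M * p := by
  intro hdvd
  have hq := (hqv.2.1 j).1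
  rcases (Nat.Prime.dvd_mul hq).mp hdvd with h1 | h1
  · exact (hqv.2.1 j).2.1 (Y.mem_of_dvd hq h1)
  · exact rthkin_qv_ne_pW hqv j ((Nat.prime_dvd_prime_iff_eq hq hp.out).mp h1)

/-- a Taylor–Wiles prime is `1` in the residue field -/
theorem rthkin_qv_oneW
    (hqv : IsTWFamily p Y.ρbar (Y.Smin ∪ Finset.univ.image Y.r) n h qv) (j : Fin h) :
    ((qv j : ℕ) : ResidueField Y.O) = 1 := by
  have hq := (hqv.2.1 j).1
  obtain ⟨c, hc⟩ := (hqv.2.1 j).2.2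
  have e : qv j = p ^ (n + 1) * c + 1 := by
    have := hq.one_le
    omega
  rw [e]
  push_cast
  rw [rthkin_p_zeroW Y, zero_pow (Nat.succ_ne_zero n), zero_mul, zero_add]

/-- **the hypothesis `hQ` of `k5in_twcond2`** for a Taylor–Wiles family -/
theorem rthkin_tw_hQW
    (hqv : IsTWFamily p Y.ρbar (Y.Smin ∪ Finset.univ.image Y.r) n h qv) :
    ∀ r ∈ List.ofFn qv, r.Prime ∧ ¬ r ∣ M * p ∧ (r : ResidueField Y.O) = 1 := by
  intro r hr
  obtain ⟨j, rfl⟩ := (List.mem_ofFn' qv r).mp hr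
  exact ⟨(hqv.2.1 j).1, rthkin_qv_not_dvdW hqv j, rthkin_qv_oneW hqv j⟩

/-- **the hypothesis `hQs` of `k5in_twcond2`** for a Taylor–Wiles family -/
theorem rthkin_tw_hQsW
    (hqv : IsTWFamily p Y.ρbar (Y.Smin ∪ Finset.univ.image Y.r) n h qv) :
    ∀ r ∈ List.ofFn qv, ∀ 𝔄 : ValuationSubring (AlgebraicClosure ℚ), 𝔄.LiesOverPrime r →
      ∀ τ : GQ, 𝔄.IsFrobeniusAt τ r → ∃ α β : ResidueField Y.O, α ≠ β ∧ α * β = 1 ∧
        LinearMap.charpoly (Y.ρbar.ρ τ) = (Polynomial.X - C α) * (Polynomial.X - C β) := by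
  intro r hr 𝔄 h𝔄 τ hτ
  obtain ⟨j, rfl⟩ := (List.mem_ofFn' qv r).mp hr
  obtain ⟨α, β, hαβ, hch⟩ := hqv.2.2 j 𝔄 h𝔄 τ hτ
  refine ⟨α, β, hαβ, ?_, hch⟩
  have hch' : LinearMap.charpoly (Y.ρbar.ρ τ)
      = Polynomial.X ^ 2 - C (α + β) * Polynomial.X + C (α * β) := by
    rw [hch, map_add, map_mul]; ring
  have hdet := rthkr_det_of_charpoly Y.ρbar (Y.ρbar.ρ τ) (α + β) (α * β) hch'
  rw [← hdet, rthkin_det_frobW Y (hqv.2.1 j).1 (rthkin_qv_ne_pW hqv j) h𝔄 hτ]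
  exact rthkin_qv_oneW hqv j

end setup

end Fermat.Agent.S59.LowK

end
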