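/-
S59, walls M3 / R1 (K-machine for a general semistable `W`): the `W`-twin of
`RT/Hecke/Pack.lean` (helper59): `StmtHkPackW p` from helper70's generic `rtha_pack_std`, and the
Hecke side for `W` with every proved input filled in.

* `stmtHkPackW p : StmtHkPackW p`  (UNCONDITIONAL);
* `rthk_final_instW p : StmtHkAbsBW p → StmtHkModSideW p → StmtHeckeW p`;
* `rthkct_hecke_instW p : StmtHkAbsBW p → StmtHkConcTopW p → StmtHeckeW p`.
-/
import Fermat.Agent.S59.LowK.ConcTopW
import Fermat.Agent.RT.Prod.HaPack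

set_option autoImplicit false
set_option linter.unusedSectionVars false
set_option linter.unusedVariables false
set_option linter.style.longLine false

namespace Fermat.Agent.S59.LowK

open IsLocalRing Fermat.Agent.RT Fermat.Agent.RT.Prod

/-- **HECKE-PACK for `W`** (helper70's `Prod.rtha_pack_std` in the shape of the final
assembly). -/
theorem stmtHkPackW (p : ℕ) : StmtHkPackW p := by
  intro _ W M _ Y h d n Q T0 _ _ j0 Sig0 Phi0 A₀ _ _ _ ιA ρ b φ1 φχ H
  exact rtha_pack_std p Y.lam Y.ρbar Y.hyp.habs Y.Smin Q Y.r Y.r_inj Y.σ Y.φ Y.tχ h d n j0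
    Sig0 Phi0 ιA ρ b φ1 φχ H

/-- **HECKE-asm for `W`**: `StmtHeckeW` from HK-ABS-B and the module side. -/
theorem rthk_final_instW (p : ℕ) (hB : StmtHkAbsBW p) (hMod : StmtHkModSideW p) :
    StmtHeckeW p :=
  rthk_finalW p Fermat.Agent.Cheb.weakChebotarev_holds hB stmtHkAbsLW (stmtHkPackW p)
    (stmtHkResW p) hMod

/-- **HECKE-asm for `W` from the concrete contract.** -/
theorem rthkct_hecke_instW (p : ℕ) (hB : StmtHkAbsBW p) (hTop : StmtHkConcTopW p) :
    StmtHeckeW p :=
  rthk_final_instW p hB (rthkct_modSideW p hTop)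

end Fermat.Agent.S59.LowK
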