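/-
S59, walls M3 / R1 (K-machine for a general semistable `W`): the `W`-twin of
`RT/Hecke/ConcK5Done.lean` (helper59): the Hecke side for `W` from its OPEN inputs, `p ≥ 5`.

Proved inputs filled in: K7-FLAT (`K7F.stmtFlatH`), the K5 side (helper22's `rthkk5_mainW`), the
final glue (helper9's `rthkf_top'W`), HK-ABS-L for a general `Smin` (`stmtHkAbsLW`), HECKE-PACK
(`stmtHkPackW`), HK-RES (`stmtHkResW`), weak Chebotarev.

OPEN inputs: `StmtHkfTrW p` (the K6 side), `StmtHkfUnipW p` (leaf HK-UNIP-W: unipotent inertia at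
the non-rigid primes of `Smin` on the concrete `J`), `StmtHkAbsBW p` (HK-ABS-B for `W`).

* `rthkk5d_k5W       : 5 ≤ p → StmtHkfK5'W p`;
* `rthkk5d_concTopW  : 5 ≤ p → StmtHkfTrW p → StmtHkfUnipW p → StmtHkConcTopW p`;
* `rthkk5d_modSideW  : 5 ≤ p → StmtHkfTrW p → StmtHkfUnipW p → StmtHkModSideW p`;
* `rthkk5d_heckeW    : 5 ≤ p → StmtHkAbsBW p → StmtHkfTrW p → StmtHkfUnipW p → StmtHeckeW p`.
-/
import Fermat.Agent.S59.LowK.ConcFinalW
import Fermat.Agent.S59.LowK.ConcK5W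
import Fermat.Agent.S59.LowK.PackW
import Fermat.Agent.RT.K7F.Final

set_option autoImplicit false

namespace Fermat.Agent.S59.LowK

open Fermat.Agent.RT

/-- **the K5 side of HK-CONC for `W`**, `p ≥ 5`, unconditional -/
theorem rthkk5d_k5W {p : ℕ} (hp5 : 5 ≤ p) : StmtHkfK5'W p :=
  rthkk5_mainW K7F.stmtFlatH hp5

/-- the concrete contract for `W` from the K6 side and HK-UNIP-W -/
theorem rthkk5d_concTopW {p : ℕ} (hp5 : 5 ≤ p) (hTr : StmtHkfTrW p) (hU : StmtHkfUnipW p) :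
    StmtHkConcTopW p :=
  rthkf_top'W hp5 K7F.stmtFlatH (rthkk5d_k5W hp5) hTr hU

/-- **the module side of HECKE for `W`** from the K6 side and HK-UNIP-W -/
theorem rthkk5d_modSideW {p : ℕ} (hp5 : 5 ≤ p) (hTr : StmtHkfTrW p) (hU : StmtHkfUnipW p) :
    StmtHkModSideW p :=
  rthkct_modSideW p (rthkk5d_concTopW hp5 hTr hU)

/-- **HECKE-asm for `W`**, `p ≥ 5`, from HK-ABS-B, the K6 side and HK-UNIP-W -/
theorem rthkk5d_heckeW {p : ℕ} (hp5 : 5 ≤ p) (hB : StmtHkAbsBW p) (hTr : StmtHkfTrW p)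
    (hU : StmtHkfUnipW p) : StmtHeckeW p :=
  rthkct_hecke_instW p hB (rthkk5d_concTopW hp5 hTr hU)

end Fermat.Agent.S59.LowK
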