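import Fermat.Agent.S59.LowK.ConcIndepW
import Fermat.Agent.RT.Hecke.ConcK5Fam

/-!
# S59, walls M3 / R1, the K-machine for a general semistable `W`:
# the `W`-twin of `RT/Hecke/ConcK5Fam.lean` (helper7)

`rthkk5f_familyW` : over `Y : s59lk_KSetupW W p M`, for every Taylor–Wiles family `qv` of level `n`
there are a Hecke expression `e` and a non-Eisenstein prime `ℓ₀`, both avoiding `qv`, such that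
`K5TWCond` holds on the `Θ_{e, ℓ₀}`-part with coefficients `𝒪 ⧸ 𝔪 ^ (n + 1)` and the
`Θ_{e, ℓ₀}`-part is `X₀(n + 1)`.

DIFFERENCES with the original (port rules of NOTES/S59-LowK.md):
* `P.IsConductorLevel N` ↦ `Squarefree M`; the unused hypotheses `q`, `hmod`, `hpN` are dropped;
* the absence of torsion is a HYPOTHESIS `hNT` (the original used `p ≥ 5`); it is discharged by
  `rthkk5f_noTorsW` for `p ≥ 5` and by `k5nt3_noTors_quot` / `s59min_noTors3` for `p = 3` (a prime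
  `≡ 2 mod 3` or `9` in the level);
* the non-Eisenstein prime comes from the generic `rthkr_nonEis` with `S₀` (no `Δ ≠ 0` needed).
-/

set_option autoImplicit false
set_option linter.unusedSectionVars false
set_option linter.style.haveILetI false
set_option linter.unusedVariables false

noncomputable section

namespace Fermat.Agent.S59.LowK

open IsLocalRing Fermat.Agent.ES Fermat.Agent.ES1 Fermat.Agent.RT Fermat.Agent.RT.K5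
open Fermat.Agent.S48
open Fermat.Agent.TW Fermat.Agent.RT.Prod Fermat.Agent.S31 Fermat.Agent.RT.K7F
open CongruenceSubgroup Polynomial
open scoped MatrixGroups

section family

variable {W : WeierstrassCurve ℤ} {p M : ℕ} [hp : Fact p.Prime] [NeZero M]
  (Y : s59lk_KSetupW W p M)

/-- the coefficient rings `𝒪 ⧸ 𝔪 ^ n` are finite -/
theorem rthkk5f_finiteW (n : ℕ) : Finite (RthkdC Y.O n) := by
  haveI : Finite (Y.O ⧸ IsLocalRing.maximalIdeal Y.O) :=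
    (inferInstance : Finite (IsLocalRing.ResidueField Y.O))
  exact Ideal.finite_quotient_pow (IsNoetherian.noetherian _) n

/-- `2 · (1/2) = 1` in the residue field -/
theorem rthkk5f_halfW : 2 * residue Y.O Y.half = 1 := by
  have h := Y.h2.unit.mul_inv
  rw [IsUnit.unit_spec] at h
  have h' := congrArg (residue Y.O) h
  rw [map_mul, map_one] at h'
  have h2' : residue Y.O (2 : Y.O) = 2 := map_ofNat _ 2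
  rw [h2'] at h'
  exact h'

/-- the non-Eisenstein condition in the form of K5-INDEP -/
theorem rthkk5f_hneW {ℓ : ℕ}
    (h : ((W.apOfModel ℓ : ℤ) : ResidueField Y.O) ≠ (ℓ : ResidueField Y.O) + 1) :
    residue Y.O (rthkinAW Y ℓ) ≠ (ℓ : ResidueField Y.O) + 1 := by
  have e : residue Y.O (rthkinAW Y ℓ) = ((W.apOfModel ℓ : ℤ) : ResidueField Y.O) :=
    map_intCast (residue Y.O) _
  rw [e]
  exact h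

/-- a non-Eisenstein prime outside `S ∪ S₀`, when the primes outside `S₀ ∋ p` are good -/
theorem rthkk5f_nonEisW (hcheb : Cheb.WeakChebotarev) (S₀ : Finset ℕ) (hpS : p ∈ S₀)
    (hgood : ∀ ℓ : ℕ, ℓ.Prime → ℓ ∉ S₀ → W.IsGoodPrimeFor ℓ) (S : Finset ℕ) :
    ∃ ℓ₀ : ℕ, ℓ₀.Prime ∧ ℓ₀ ∉ S ∧ ℓ₀ ∉ S₀ ∧
      ((W.apOfModel ℓ₀ : ℤ) : ResidueField Y.O) ≠ (ℓ₀ : ResidueField Y.O) + 1 :=
  rthkr_nonEis Y.ρbar p hcheb Y.hyp.habs Y.hyp.hdet _ (rthkk5f_halfW Y) S₀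
    (fun ℓ => ((W.apOfModel ℓ : ℤ) : ResidueField Y.O))
    (fun ℓ hℓ hℓS 𝔄 h𝔄 τ hτ =>
      Y.hbar ℓ hℓ (fun h => hℓS (h ▸ hpS)) (hgood ℓ hℓ hℓS) 𝔄 h𝔄 τ hτ) S

/-- the absence of torsion for `p ≥ 5` -/
theorem rthkk5f_noTorsW (hp5 : 5 ≤ p) (M₀ : ℕ) [NeZero M₀] [hM₀ : Fact (M₀ ∣ M)] (m : ℕ) :
    NoTors (gammaH M M₀ (⊤ : Subgroup (ZMod M₀)ˣ)) (Y.O ⧸ IsLocalRing.maximalIdeal Y.O ^ m) :=
  k5nt_noTors_quot hp.out hp5 Y.hyp.hp𝒪 _ m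

/-- **StmtHkfK5', the family half**, core form (one family, the base data at the level
`n + 1` only). -/
theorem rthkk5f_coreW (hcheb : Cheb.WeakChebotarev) (hN : Squarefree M) (M₀ : ℕ) [NeZero M₀]
    [hM₀ : Fact (M₀ ∣ M)]
    (hNT : ∀ m : ℕ, NoTors (gammaH M M₀ (⊤ : Subgroup (ZMod M₀)ˣ))
      (Y.O ⧸ IsLocalRing.maximalIdeal Y.O ^ m))
    (S₀ : Finset ℕ) (hpS : p ∈ S₀) (hNS : ∀ ℓ : ℕ, ℓ.Prime → ℓ ∣ M → ℓ ∈ S₀)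
    (hgood : ∀ ℓ : ℕ, ℓ.Prime → ℓ ∉ S₀ → W.IsGoodPrimeFor ℓ)
    (e₀ : HExpr Y.O) (he₀ : e₀.IsPrimes) (ℓ₁ : ℕ) [NeZero ℓ₁] (hℓ₁ : ℓ₁.Prime)
    (hℓ₁S : ℓ₁ ∉ S₀)
    (hne₁ : ((W.apOfModel ℓ₁ : ℤ) : ResidueField Y.O) ≠ (ℓ₁ : ResidueField Y.O) + 1)
    (S₁ : Finset ℕ) {r : ℕ}
    (c : Fin r → HomS (gammaH M M₀ (⊤ : Subgroup (ZMod M₀)ˣ)) Y.O)
    {h : ℕ} (n : ℕ) (qv : Fin h → ℕ)
    (hqv : IsTWFamily p Y.ρbar (Y.Smin ∪ Finset.univ.image Y.r) n h qv)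
    (hIntr₁ : K5inIntr M M₀ (RthkdC Y.O (n + 1)) (rthkinAW Y) S₀ S₁ ℓ₁
      (etaPart (thetaN (e₀.eval M M₀) ℓ₁ (RthkdC Y.O (n + 1)) ⊤)))
    (hc : K5IsBasis (RthkdC Y.O (n + 1))
      (etaPart (thetaN (e₀.eval M M₀) ℓ₁ (RthkdC Y.O (n + 1)) ⊤))
      (fun i => mapS (Submodule.mkQ (maximalIdeal Y.O ^ (n + 1))).toAddMonoidHom (c i))) :
    ∃ (e : HExpr Y.O) (ℓ₀ : ℕ) (_ : NeZero ℓ₀), e.IsPrimes ∧ ℓ₀.Prime ∧ ¬ ℓ₀ ∣ M ∧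
      ℓ₀ ≠ p ∧ (∀ j, qv j ≠ ℓ₀ ∧ e.Avoids (qv j)) ∧
      K5TWCond Y.O M M₀ ℓ₀ e (List.ofFn qv) (RthkdC Y.O (n + 1)) ∧
      K5IsBasis (RthkdC Y.O (n + 1))
        (etaPart (thetaN (e.eval M M₀) ℓ₀ (RthkdC Y.O (n + 1)) ⊤))
        (fun i => mapS (Submodule.mkQ (maximalIdeal Y.O ^ (n + 1))).toAddMonoidHom (c i)) := by
  classical
  have hp𝔪 : (p : Y.O) ∈ maximalIdeal Y.O := Y.hyp.hp𝒪
  obtain ⟨ℓ₀, hℓ₀, hℓ₀q, hℓ₀S, hne⟩ :=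
    rthkk5f_nonEisW Y hcheb S₀ hpS hgood (Finset.univ.image qv)
  have hℓ₀p : ℓ₀ ≠ p := fun h => hℓ₀S (h ▸ hpS)
  haveI : NeZero ℓ₀ := ⟨hℓ₀.ne_zero⟩
  have hℓ₀N : ¬ ℓ₀ ∣ M := fun hd => hℓ₀S (hNS ℓ₀ hℓ₀ hd)
  have hℓ₁N : ¬ ℓ₁ ∣ M := fun hd => hℓ₁S (hNS ℓ₁ hℓ₁ hd)
  have hℓ₁p : ℓ₁ ≠ p := fun h => hℓ₁S (h ▸ hpS)
  obtain ⟨e, he, hav, hIntr⟩ := k5in_exists_expr M M₀ (rthkinAW Y) S₀ (Finset.univ.image qv)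
    ℓ₀ hℓ₀ hℓ₀N hNT
  have R := rthkin_resW Y S₀ hpS hNS hgood
  have D := rthkin_data hp𝔪 e he ℓ₀ hℓ₀ hℓ₀N hN Y.hyp.hp2 hℓ₀p (n + 1) (hNT (n + 1))
  have D₁ := rthkin_data hp𝔪 e₀ he₀ ℓ₁ hℓ₁ hℓ₁N hN Y.hyp.hp2 hℓ₁p (n + 1) (hNT (n + 1))
  haveI : Finite (RthkdC Y.O (n + 1)) := rthkk5f_finiteW Y (n + 1)
  have hnil : ∀ (ℓ : ℕ) [NeZero ℓ], ℓ.Prime → ℓ ∉ S₀ → ℓ ∉ Finset.univ.image qv →
      ∀ v ∈ etaPart (thetaN (e.eval M M₀) ℓ₀ (RthkdC Y.O (n + 1)) ⊤),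
        v ∈ k5lcKer (k5lcS M M₀ ℓ (rthkinAW Y ℓ) (RthkdC Y.O (n + 1)) ⊤) :=
    fun ℓ _ hℓ h1 h2 v hv => ((hIntr (n + 1) v).mp hv).2 ℓ hℓ h1 h2
  have hTW := k5in_twcond2 hcheb e ℓ₀ D R (Finset.univ.image qv) hnil (List.ofFn qv)
    (rthkin_tw_hQW hqv) (rthkin_tw_hQsW hqv)
  have hX := k5in_indep hcheb D D₁ R (k5in_hA_quot (n + 1)) (Finset.univ.image qv) S₁
    hℓ₀ hℓ₁ hℓ₀S hℓ₁S (rthkk5f_hneW Y hne) (rthkk5f_hneW Y hne₁) (hIntr (n + 1)) hIntr₁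
  refine ⟨e, ℓ₀, inferInstance, he, hℓ₀, hℓ₀N, hℓ₀p, fun j => ⟨fun hj => ?_, ?_⟩, hTW, ?_⟩
  · exact hℓ₀q (hj ▸ Finset.mem_image_of_mem qv (Finset.mem_univ j))
  · exact hav (qv j) (Or.inr (Finset.mem_image_of_mem qv (Finset.mem_univ j)))
  · rw [hX]
    exact hc

/-- **StmtHkfK5', the family half** (the `W`-twin of `rthkk5f_family`). -/
theorem rthkk5f_familyW (hcheb : Cheb.WeakChebotarev) (hN : Squarefree M) (h : ℕ)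
    (M₀ : ℕ) [NeZero M₀] [hM₀ : Fact (M₀ ∣ M)]
    (hNT : ∀ m : ℕ, NoTors (gammaH M M₀ (⊤ : Subgroup (ZMod M₀)ˣ))
      (Y.O ⧸ IsLocalRing.maximalIdeal Y.O ^ m))
    (S₀ : Finset ℕ) (hpS : p ∈ S₀) (hNS : ∀ ℓ : ℕ, ℓ.Prime → ℓ ∣ M → ℓ ∈ S₀)
    (hgood : ∀ ℓ : ℕ, ℓ.Prime → ℓ ∉ S₀ → W.IsGoodPrimeFor ℓ)
    (e₀ : HExpr Y.O) (he₀ : e₀.IsPrimes) (ℓ₀₀ : ℕ) [NeZero ℓ₀₀] (hℓ₀₀ : ℓ₀₀.Prime)
    (hℓ₀₀S : ℓ₀₀ ∉ S₀)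
    (hne₀ : residue Y.O (rthkinAW Y ℓ₀₀) ≠ (ℓ₀₀ : ResidueField Y.O) + 1) (S₁ : Finset ℕ)
    (hIntr₀ : ∀ n : ℕ, K5inIntr M M₀ (Y.O ⧸ maximalIdeal Y.O ^ n) (rthkinAW Y) S₀ S₁ ℓ₀₀
      (etaPart (thetaN (e₀.eval M M₀) ℓ₀₀ (Y.O ⧸ maximalIdeal Y.O ^ n) ⊤)))
    {r : ℕ} (c : Fin r → HomS (gammaH M M₀ (⊤ : Subgroup (ZMod M₀)ˣ)) Y.O)
    (hcn : ∀ n : ℕ, K5IsBasis (Y.O ⧸ maximalIdeal Y.O ^ n)
      (etaPart (thetaN (e₀.eval M M₀) ℓ₀₀ (Y.O ⧸ maximalIdeal Y.O ^ n) ⊤))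
      (fun i => mapS (Submodule.mkQ (maximalIdeal Y.O ^ n)).toAddMonoidHom (c i))) :
    ∀ (n : ℕ) (qv : Fin h → ℕ),
      IsTWFamily p Y.ρbar (Y.Smin ∪ Finset.univ.image Y.r) n h qv →
      ∃ (e : HExpr Y.O) (ℓ₀ : ℕ) (_ : NeZero ℓ₀), e.IsPrimes ∧ ℓ₀.Prime ∧ ¬ ℓ₀ ∣ M ∧
        ℓ₀ ≠ p ∧ (∀ j, qv j ≠ ℓ₀ ∧ e.Avoids (qv j)) ∧
        K5TWCond Y.O M M₀ ℓ₀ e (List.ofFn qv) (RthkdC Y.O (n + 1)) ∧
        K5IsBasis (RthkdC Y.O (n + 1))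
          (etaPart (thetaN (e.eval M M₀) ℓ₀ (RthkdC Y.O (n + 1)) ⊤))
          (fun i => mapS (Submodule.mkQ (maximalIdeal Y.O ^ (n + 1))).toAddMonoidHom
            (c i)) := by
  intro n qv hqv
  have hne₁ : ((W.apOfModel ℓ₀₀ : ℤ) : ResidueField Y.O) ≠ (ℓ₀₀ : ResidueField Y.O) + 1 := by
    have e : residue Y.O (rthkinAW Y ℓ₀₀) = ((W.apOfModel ℓ₀₀ : ℤ) : ResidueField Y.O) :=
      map_intCast (residue Y.O) _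
    rw [← e]
    exact hne₀
  exact rthkk5f_coreW Y hcheb hN M₀ hNT S₀ hpS hNS hgood e₀ he₀ ℓ₀₀ hℓ₀₀ hℓ₀₀S hne₁ S₁ c n qv
    hqv (hIntr₀ (n + 1)) (hcn (n + 1))

end family

end Fermat.Agent.S59.LowK

end
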