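import Fermat.Agent.S59.LowK.NZIntrW

/-!
# S59, walls M3 / R1, K-machine for a general curve: the `W`-twin of `RT/Hecke/ConcK5NZ.lean`
(helper46): LEAF Z — the rank of the base module is positive

`rthkk5n_memW`, `rthkk5n_setupW` : twins of `rthkk5n_mem`, `rthkk5n_setup`.

The eigensystem `rthkinA Y` of the original is written out here as
`fun ℓ => ((W.apOfModel ℓ : ℤ) : Y.O)` (the twin of `rthkinA` unfolds to this function, so the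
statements apply to it by `exact`); in this way the file only needs `NZIntrW` and does not wait
for the twin of `RT/Hecke/ConcIndep.lean`.
-/

set_option autoImplicit false
set_option linter.style.haveILetI false
set_option linter.unusedSectionVars false
set_option linter.unusedVariables false

noncomputable section

namespace Fermat.Agent.S59.LowK

open CongruenceSubgroup Matrix ModularCurve ModularCurve.Period ModularFormClass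
open scoped MatrixGroups
open Fermat.Agent.ES1 (gammaH diamHom pmH)
open Fermat.Agent.ES Fermat.Agent.RT.K5 Fermat.Agent.RT Fermat.Agent.RT.Prod IsLocalRing

variable {W : WeierstrassCurve ℤ} {p N : ℕ} [hp : Fact p.Prime] [NeZero N]

/-- **LEAF Z, with the vector** (twin of `rthkk5n_mem`): ONE nonzero parabolic `φ` in every
intrinsically described subgroup. -/
theorem rthkk5n_memW (Y : s59lk_KSetupW W p N) (hΔ : W.Δ ≠ 0)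
    (hmod : W.IsResiduallyModularOfLevel p N) :
    ∃ Sbad : Finset ℕ, p ∈ Sbad ∧ (∀ ℓ : ℕ, ℓ.Prime → ℓ ∣ N → ℓ ∈ Sbad) ∧
      (∀ ℓ : ℕ, ℓ.Prime → ℓ ∉ Sbad → W.IsGoodPrimeFor ℓ) ∧
      ∀ (M₀ : ℕ) [Fact (M₀ ∣ N)] (ν : ℕ), 0 < ν →
        ∃ φ : HomS (gammaH N M₀ (⊤ : Subgroup (ZMod M₀)ˣ)) (Y.O ⧸ maximalIdeal Y.O ^ ν),
          φ ≠ 0 ∧ IsParabolicHom (gammaH N M₀ (⊤ : Subgroup (ZMod M₀)ˣ)) φ ∧
          ∀ (ℓ₀ : ℕ) [NeZero ℓ₀], ℓ₀.Prime → ℓ₀ ∉ Sbad →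
            residue Y.O ((W.apOfModel ℓ₀ : ℤ) : Y.O) ≠ (ℓ₀ : ResidueField Y.O) + 1 →
            ∀ (S₀ S : Finset ℕ), Sbad ⊆ S₀ ∪ S →
            ∀ X : AddSubgroup (HomS (gammaH N M₀ (⊤ : Subgroup (ZMod M₀)ˣ))
                (Y.O ⧸ maximalIdeal Y.O ^ ν)),
              K5inIntr N M₀ (Y.O ⧸ maximalIdeal Y.O ^ ν)
                (fun ℓ => ((W.apOfModel ℓ : ℤ) : Y.O)) S₀ S ℓ₀ X → φ ∈ X := by
  obtain ⟨Sbad, h1, h2, h3, h4⟩ := k5nz_setup_intrMemW Y hΔ hmod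
  refine ⟨Sbad, h1, h2, h3, fun M₀ _ ν hν => ?_⟩
  obtain ⟨φ, hφ0, hφP, hφ⟩ := h4 M₀ ν hν
  refine ⟨φ, hφ0, hφP, fun ℓ₀ _ hℓ₀ hℓ₀S hne S₀ S hS X hX => ?_⟩
  refine hφ (fun ℓ => ((W.apOfModel ℓ : ℤ) : Y.O)) S₀ S ℓ₀ X hℓ₀ hℓ₀S ?_
    (fun ℓ hℓ hℓS₀ hℓS => ⟨fun hb => ?_, rfl⟩) hX
  · intro h
    apply hne
    have e : residue Y.O ((W.apOfModel ℓ₀ : ℤ) : Y.O)
        = ((W.apOfModel ℓ₀ : ℤ) : ResidueField Y.O) :=
      map_intCast (residue Y.O) _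
    rw [e]
    exact h
  · rcases Finset.mem_union.mp (hS hb) with h | h
    · exact hℓS₀ h
    · exact hℓS h

/-- **LEAF Z** (twin of `rthkk5n_setup`): the rank of the base module is positive. -/
theorem rthkk5n_setupW (Y : s59lk_KSetupW W p N) (hΔ : W.Δ ≠ 0)
    (hmod : W.IsResiduallyModularOfLevel p N) :
    ∃ Sbad : Finset ℕ, p ∈ Sbad ∧ (∀ ℓ : ℕ, ℓ.Prime → ℓ ∣ N → ℓ ∈ Sbad) ∧
      (∀ ℓ : ℕ, ℓ.Prime → ℓ ∉ Sbad → W.IsGoodPrimeFor ℓ) ∧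
      ∀ (M₀ : ℕ) [Fact (M₀ ∣ N)] (ℓ₀ : ℕ) [NeZero ℓ₀], ℓ₀.Prime → ℓ₀ ∉ Sbad →
        residue Y.O ((W.apOfModel ℓ₀ : ℤ) : Y.O) ≠ (ℓ₀ : ResidueField Y.O) + 1 →
        ∀ (S : Finset ℕ) (ν : ℕ), 0 < ν →
        ∀ X : AddSubgroup (HomS (gammaH N M₀ (⊤ : Subgroup (ZMod M₀)ˣ))
            (Y.O ⧸ maximalIdeal Y.O ^ ν)),
          K5inIntr N M₀ (Y.O ⧸ maximalIdeal Y.O ^ ν)
            (fun ℓ => ((W.apOfModel ℓ : ℤ) : Y.O)) Sbad S ℓ₀ X →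
          ∀ {r : ℕ} (y : Fin r → HomS (gammaH N M₀ (⊤ : Subgroup (ZMod M₀)ˣ))
            (Y.O ⧸ maximalIdeal Y.O ^ ν)),
            K5IsBasis (Y.O ⧸ maximalIdeal Y.O ^ ν) X y → 0 < r := by
  obtain ⟨Sbad, h1, h2, h3, h4⟩ := rthkk5n_memW Y hΔ hmod
  refine ⟨Sbad, h1, h2, h3, fun M₀ _ ℓ₀ _ hℓ₀ hℓ₀S hne S ν hν X hX r y hy => ?_⟩
  obtain ⟨φ, hφ0, -, hφ⟩ := h4 M₀ ν hν
  exact k5nz_rank_pos hy
    (hφ ℓ₀ hℓ₀ hℓ₀S hne Sbad S Finset.subset_union_left X hX) hφ0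

end Fermat.Agent.S59.LowK

end
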