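import Fermat.Agent.S59.LowK.ConcPkgW
import Fermat.Agent.RT.Hecke.GrpGen

/-!
# S59, K-machine for a general semistable `W`: the `W`-twin of `RT/Hecke/ConcPkgG.lean` (helper65)

PORT LEDGER `NOTES/S59-LowK.md`, depth 3.  The fields `pkg`, `model` of `HkConc` for
`H' = rthkgH p k hM` (`RT/Hecke/GrpGen.lean`, generic, imported unchanged), which is
`rthkdH p v k M hM` by `rfl`.  Twins of `rthkp_level_g`, `rthkp_pkg_g`, `rthkp_model_g`:

* `rthkp_level_gW`, **`rthkp_pkg_gW`**, **`rthkp_model_gW`**.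

Dictionary: see `S59/LowK/ConcPkgW.lean` (`hcond ↦ hM : 0 < M`, `P.hp5 ↦ hp2, h3`).
-/

set_option autoImplicit false
set_option linter.unusedSectionVars false
set_option linter.unusedVariables false
set_option linter.style.haveILetI false

noncomputable section

namespace Fermat.Agent.S59.LowK

open Fermat.Agent.ES Fermat.Agent.ES1 Fermat.Agent.RT Fermat.Agent.RT.K7F Fermat.Agent.RT.K6
  Fermat.Agent.W1 ExtCitation Fermat.Agent.TW Fermat.Agent.RT.Prod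

variable {W : WeierstrassCurve ℤ} {p M q : ℕ} (Y : s59lk_KSetupW W p M) {n h : ℕ}
  {qv : Fin h → ℕ}

/-- **the standing hypotheses of K7-FLAT** for `H' = rthkgH`. -/
theorem rthkp_level_gW [hp : Fact p.Prime] (hM : 0 < M) (hp2 : p ≠ 2) (h3 : p = 3 → 2 ∣ M)
    (hpM : ¬ p ∣ M) (hq : q.Prime) (hqM : q ∣ M)
    (hqv : IsTWFamily p Y.ρbar (Y.Smin ∪ Finset.univ.image Y.r) n h qv)
    (k : Fin h ⊕ Y.ι → ℕ) (ν : ℕ) (hk : ∀ x, k x ≤ ν)
    (hM' : ∀ x, Sum.elim qv Y.r x ∣ rthkdM (Sum.elim qv Y.r)) :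
    K7FLevel (M * rthkdM qv) (rthkdM (Sum.elim qv Y.r)) (rthkgH p k hM') p :=
  rthkp_level_instW Y hM hp2 h3 hpM hq hqM hqv k ν hk

/-- **the field `pkg`** of `HkConc` for `H' = rthkgH`. -/
theorem rthkp_pkg_gW [NeZero (M * rthkdM qv)] [NeZero (rthkdM (Sum.elim qv Y.r))]
    [Fact (rthkdM (Sum.elim qv Y.r) ∣ M * rthkdM qv)] [hp : Fact p.Prime] (hp2 : p ≠ 2)
    (k : Fin h ⊕ Y.ι → ℕ) (ν : ℕ) (hk : ∀ x, k x ≤ ν)
    (hM' : ∀ x, Sum.elim qv Y.r x ∣ rthkdM (Sum.elim qv Y.r)) :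
    Rtk7bPkg p (M * rthkdM qv)
      (es1inftwJ (M * rthkdM qv) (rthkdM (Sum.elim qv Y.r)) (rthkgH p k hM') p
        (k7ftwChar (rthkdM (Sum.elim qv Y.r)) (rthkdE p ν)))
      (es1inftwTr (rthkdM (Sum.elim qv Y.r)) (rthkdE p ν)) :=
  rthkp_pkg_instW Y hp2 k ν hk

/-- **the field `model`** of `HkConc` for `H' = rthkgH`, from K7-FLAT. -/
theorem rthkp_model_gW [NeZero (M * rthkdM qv)] [NeZero (rthkdM (Sum.elim qv Y.r))]
    [Fact (rthkdM (Sum.elim qv Y.r) ∣ M * rthkdM qv)] [hp : Fact p.Prime]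
    (hflat : StmtFlatH) (hM : 0 < M) (hp2 : p ≠ 2) (h3 : p = 3 → 2 ∣ M) (hpM : ¬ p ∣ M)
    (hq : q.Prime) (hqM : q ∣ M)
    (hqv : IsTWFamily p Y.ρbar (Y.Smin ∪ Finset.univ.image Y.r) n h qv)
    (k : Fin h ⊕ Y.ι → ℕ) (ν : ℕ) (hk : ∀ x, k x ≤ ν)
    (hM' : ∀ x, Sum.elim qv Y.r x ∣ rthkdM (Sum.elim qv Y.r)) :
    ∀ k' : ℕ, ∃ (X : Type) (_ : AddCommGroup X) (_ : Finite X) (act : GQ → X → X),
      (∀ s x x', act s (x + x') = act s x + act s x') ∧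
      (∀ s s' x, act (s * s') x = act s (act s' x)) ∧
      HasFiniteFlatModel (GaloisRep.ratLocalizedAt p) X act ∧
      ∀ e' : GQ →₀ ℤ, (∀ x : X, (e'.sum fun g z => z • act g x) = 0) →
        ∀ x : es1inftwJ (M * rthkdM qv) (rthkdM (Sum.elim qv Y.r)) (rthkgH p k hM') p
            (k7ftwChar (rthkdM (Sum.elim qv Y.r)) (rthkdE p ν)),
          p ^ k' • x = 0 → (e'.sum fun g z => z • g • x) = 0 :=
  rthkp_model_instW Y hflat hM hp2 h3 hpM hq hqM hqv k ν hk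

end Fermat.Agent.S59.LowK
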