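/-
S59 walls M3 / R1, the K-machine for a general `W`: **INTERP-W** (helper21) = the `W`-twins of
helper46's `RT/Interp/Plan.lean` + `RT/Interp/Quot.lean`.

* `RtintPointW W p N q`     : a characteristic-zero point of level `N` for `W` at `p` whose
                              representation is unramified at `q` (twin of `RtintPoint P N q`);
* `rtint_point_of_quotW`    : the adapter `T ⧸ 𝔓` (twin of `rtint_point_of_quot`);
* `UpgAtW W p`              : the UPG step as a `Prop` = the statement of helper3's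
                              `S59.LowQ.s59lq_upg_resid W hΔ p hirr` (kept as a hypothesis here, so
                              that this file does not import the closure of S29);
* `rtint_lowered_atW`       : K8 for `q`-new eigenforms at level `N` + a point ⇒
                              `s59lq_Lowered W p N q` with `M' = N / q`, SAME `W` (no rescaled
                              model: the congruence outside `S` is upgraded by UPG).
  NEW compared with the Frey twin: no newform is needed.  The eigenform `f` of the point is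
  either OLD at `q` (`GoodEigensystemOccursAt f (N / q)`: lowered for free) or NEW at `q`, and
  then K8 at level `N` ITSELF contradicts `pt.unram`.  So only `N / q` has to be even at `p = 3`;
* `rtint_lowered_evenW`     : the case `p` odd (`p = 3` included), `q ≠ 2`, `2 ∣ N / q`, K8
                              discharged (`RT.K8.rtk8p3n_k8NewAt_even`);
* `rtint_lowered_oldW`      : the case `5 ≤ p`, `q ≠ 2`, `5 ≤ q ∨ (5 - q) ∣ N / q`.
-/
import Fermat.Agent.RT.K8.GeoP3New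
import Fermat.Agent.RT.Interp.Quot
import Fermat.Agent.S59.LowQ.Plan

set_option autoImplicit false
set_option linter.style.haveILetI false
set_option linter.unusedSectionVars false
set_option linter.unusedVariables false

noncomputable section

namespace Fermat.Agent.S59.LowK

open ModularCurve Fermat.Agent.S31 Fermat.Agent.ES ModularFormClass CongruenceSubgroup Polynomial
  WeierstrassCurve WeierstrassCurve.Affine WeierstrassCurve.Affine.Point
  Fermat.Agent.RT.Interp Fermat.Agent.RT.K8 Fermat.Agent.S59.LowQ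

/-- **A characteristic-zero point of level `N` for `W` at `p` whose representation is unramified
at `q`** (twin of `RT.Interp.RtintPoint`). -/
structure RtintPointW (W : WeierstrassCurve ℤ) (p N : ℕ) [NeZero N] (q : ℕ) : Type 1 where
  /-- the finite set of excluded primes -/
  S : Finset ℕ
  p_mem : p ∈ S
  level_mem : ∀ r : ℕ, r.Prime → r ∣ N → r ∈ S
  /-- the coefficient ring (`T₀ ⧸ 𝔓`) -/
  A : Type
  [instCommRing : CommRing A]
  [instIsLocalRing : IsLocalRing A]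
  [instIsDomain : IsDomain A]
  [instCharZero : CharZero A]
  [instIsNoetherianRing : IsNoetherianRing A]
  p_mem_max : (p : A) ∈ IsLocalRing.maximalIdeal A
  /-- the Hecke eigenvalues -/
  a : Nat.Primes → A
  occurs : ∀ t ∈ MvPolynomial.supported ℤ (outsideVars (↑S : Set ℕ)),
    CuspForm.heckeEvalForms N 2 t = 0 → MvPolynomial.aeval a t = 0
  cong : ∀ ℓ : Nat.Primes, (ℓ : ℕ) ∉ S → W.IsGoodPrimeFor ℓ →
    a ℓ - ((W.apOfModel ℓ : ℤ) : A) ∈ IsLocalRing.maximalIdeal A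
  /-- the Galois representation -/
  ρ : GaloisRepAdic A
  charpoly_frob : ∀ ℓ : Nat.Primes, (ℓ : ℕ) ∉ S →
    ∀ 𝔄 : ValuationSubring (AlgebraicClosure ℚ), 𝔄.LiesOverPrime ℓ →
      ∀ σ : AlgebraicClosure ℚ ≃ₐ[ℚ] AlgebraicClosure ℚ, 𝔄.IsFrobeniusAt σ ℓ →
        LinearMap.charpoly (ρ.ρ σ) = X ^ 2 - C (a ℓ) * X + C (((ℓ : ℕ) : A))
  absIrr : ρ.residual.IsAbsolutelyIrreducible
  unram : ρ.IsUnramifiedAt q

attribute [instance] RtintPointW.instCommRing RtintPointW.instIsLocalRing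
  RtintPointW.instIsDomain RtintPointW.instCharZero RtintPointW.instIsNoetherianRing

section adapter

variable {T : Type} [CommRing T] [IsLocalRing T] [IsNoetherianRing T]

/-- **ADAPTER: the characteristic-zero point `T ⧸ 𝔓`** (twin of `rtint_point_of_quot`). -/
theorem rtint_point_of_quotW (W : WeierstrassCurve ℤ) (p N : ℕ) [NeZero N] (q : ℕ)
    (S : Finset ℕ) (hpS : p ∈ S) (hNS : ∀ r : ℕ, r.Prime → r ∣ N → r ∈ S)
    (𝔓 : Ideal T) (h𝔓 : 𝔓.IsPrime) (hchar : ∀ n : ℕ, n ≠ 0 → (n : T) ∉ 𝔓)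
    (hpT : (p : T) ∈ IsLocalRing.maximalIdeal T)
    (a : Nat.Primes → T)
    (hocc : ∀ t ∈ MvPolynomial.supported ℤ (outsideVars (↑S : Set ℕ)),
      CuspForm.heckeEvalForms N 2 t = 0 → MvPolynomial.aeval a t ∈ 𝔓)
    (hcong : ∀ ℓ : Nat.Primes, (ℓ : ℕ) ∉ S → W.IsGoodPrimeFor ℓ →
      a ℓ - ((W.apOfModel ℓ : ℤ) : T) ∈ IsLocalRing.maximalIdeal T)
    (ρ : GaloisRepAdic T)
    (hfrob : ∀ ℓ : Nat.Primes, (ℓ : ℕ) ∉ S →
      ∀ 𝔄 : ValuationSubring (AlgebraicClosure ℚ), 𝔄.LiesOverPrime ℓ →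
        ∀ σ : AlgebraicClosure ℚ ≃ₐ[ℚ] AlgebraicClosure ℚ, 𝔄.IsFrobeniusAt σ ℓ →
          LinearMap.charpoly (ρ.ρ σ) = X ^ 2 - C (a ℓ) * X + C (((ℓ : ℕ) : T)))
    (habs : ρ.residual.IsAbsolutelyIrreducible)
    (hunr : ∀ n : ℕ, ∀ 𝔄 : ValuationSubring (AlgebraicClosure ℚ), 𝔄.LiesOverPrime q →
      ∀ σ ∈ 𝔄.inertiaSubgroupIn ℚ, ∀ v : ρ.V,
        ρ.ρ σ v - v ∈ (𝔓 ⊔ IsLocalRing.maximalIdeal T ^ n) • (⊤ : Submodule T ρ.V)) :
    Nonempty (RtintPointW W p N q) := by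
  classical
  have hne : 𝔓 ≠ ⊤ := h𝔓.ne_top
  letI hlocal : IsLocalRing (T ⧸ 𝔓) := rtint_quot_isLocalRing 𝔓 hne
  have hloc : IsLocalHom (Ideal.Quotient.mk 𝔓) := rtint_quot_isLocalHom 𝔓 hne
  have hmax : ∀ t ∈ IsLocalRing.maximalIdeal T,
      Ideal.Quotient.mk 𝔓 t ∈ IsLocalRing.maximalIdeal (T ⧸ 𝔓) :=
    fun t ht => map_nonunit (Ideal.Quotient.mk 𝔓) t ht
  have haeval : ∀ t : HeckeAlg, MvPolynomial.aeval (fun ℓ => Ideal.Quotient.mk 𝔓 (a ℓ)) t =
      Ideal.Quotient.mk 𝔓 (MvPolynomial.aeval a t) := by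
    intro t
    have := MvPolynomial.comp_aeval (R := ℤ) a ((Ideal.Quotient.mk 𝔓).toIntAlgHom)
    have h2 := congrArg (fun F : HeckeAlg →ₐ[ℤ] (T ⧸ 𝔓) => F t) this
    exact h2.symm
  exact ⟨{
    S := S
    p_mem := hpS
    level_mem := hNS
    A := T ⧸ 𝔓
    instCommRing := inferInstance
    instIsLocalRing := hlocal
    instIsDomain := Ideal.Quotient.isDomain 𝔓
    instCharZero := rtint_quot_charZero 𝔓 hchar
    instIsNoetherianRing := inferInstance
    p_mem_max := by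
      have := hmax _ hpT
      rwa [map_natCast] at this
    a := fun ℓ => Ideal.Quotient.mk 𝔓 (a ℓ)
    occurs := fun t ht h0 =>
      (haeval t).trans (Ideal.Quotient.eq_zero_iff_mem.mpr (hocc t ht h0))
    cong := fun ℓ hℓ hgood => by
      have := hmax _ (hcong ℓ hℓ hgood)
      rwa [map_sub, map_intCast] at this
    ρ := ρ.baseChangeAlong (Ideal.Quotient.mk 𝔓) hloc
    charpoly_frob := fun ℓ hℓ 𝔄 h𝔄 σ hσ => by
      have := @rtint_aux_charpoly T (T ⧸ 𝔓) _ _ (Ideal.Quotient.mk 𝔓).toAlgebra ρ.V _ _ _ _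
        (ρ.ρ σ) (a ℓ) (ℓ : ℕ) (hfrob ℓ hℓ 𝔄 h𝔄 σ hσ)
      exact this
    absIrr := rtint_absIrr_baseChangeAlong (Ideal.Quotient.mk 𝔓) hloc ρ habs
    unram := rtint_unram_of_forall_pow 𝔓 hne ρ q hunr }⟩

end adapter

/-- **The UPG step for `W` at `p`**, as a `Prop`: a congruence outside a finite set `S` gives
`W.IsResiduallyModularOfLevel p M`.  PROVED by helper3:
`fun hM g hg 𝔪 hm hpm S hcong => S59.LowQ.s59lq_upg_resid W hΔ p hirr hM g hg 𝔪 hm hpm S hcong`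
(`hΔ : W.Δ ≠ 0`, `hirr : W.ModRepIsIrreducible p`). -/
def UpgAtW (W : WeierstrassCurve ℤ) (p : ℕ) : Prop :=
  ∀ {M : ℕ}, 0 < M → ∀ (g : CuspForm (CongruenceSubgroup.Gamma0 M) 2),
    g.IsNormalizedEigenform → ∀ 𝔪 : Ideal (integralClosure ℤ ℂ), 𝔪.IsMaximal →
    (p : integralClosure ℤ ℂ) ∈ 𝔪 → ∀ S : Finset ℕ,
    (∀ ℓ : ℕ, ℓ.Prime → ℓ ∉ S → W.IsGoodPrimeFor ℓ → ¬ ℓ ∣ M → ℓ ≠ p →
      ∃ a : integralClosure ℤ ℂ, (a : ℂ) = ModularFormClass.qCoeff g ℓ ∧
        a - ((W.apOfModel ℓ : ℤ) : integralClosure ℤ ℂ) ∈ 𝔪) →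
    W.IsResiduallyModularOfLevel p M

/-- **INTERP-W**: K8 for `q`-new eigenforms of level `N` + a characteristic-zero point of level
`N` whose representation is unramified at `q` ⇒ `W` is residually modular of level `N / q`. -/
theorem rtint_lowered_atW (W : WeierstrassCurve ℤ) (p : ℕ) [hpF : Fact p.Prime]
    (hupg : UpgAtW W p) {N q : ℕ} [NeZero N]
    (hK8 : rtk8p3n_K8NewAt p q N) (hsq : Squarefree N) (hq : q.Prime) (hqN : q ∣ N)
    (pt : RtintPointW W p N q) :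
    s59lq_Lowered W p N q := by
  classical
  obtain ⟨f, 𝔪', hf, hmax, hp𝔪', hconj, hcong⟩ :=
    rtint_point (N := N) (↑pt.S : Set ℕ) (fun ℓ hℓ hℓN => pt.level_mem ℓ hℓ hℓN) hpF.out
      pt.p_mem_max pt.a pt.occurs
  -- `f` is old at `q`: otherwise K8 contradicts `pt.unram`
  have hold : CuspForm.GoodEigensystemOccursAt f (N / q) := by
    by_contra hnew
    exact hK8 f hf hnew pt.S pt.p_mem pt.level_mem pt.A pt.p_mem_max pt.a hconj pt.ρ
      pt.charpoly_frob pt.absIrr pt.unram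
  obtain ⟨f₁, hf₁, hf₁q⟩ := hold
  have hN0 : 0 < N := Nat.pos_of_ne_zero (NeZero.ne N)
  have hNq0 : 0 < N / q := Nat.div_pos (Nat.le_of_dvd hN0 hqN) hq.pos
  have hqNq : ¬ q ∣ N / q := by
    rintro ⟨c, hc⟩
    have h1 : N = N / q * q := (Nat.div_mul_cancel hqN).symm
    have h2 : q * q ∣ N := ⟨c, by rw [h1, hc]; ring⟩
    exact hq.not_isUnit (hsq q h2)
  refine ⟨N / q, Nat.div_dvd_of_dvd hqN, hqNq, ?_⟩
  refine hupg hNq0 f₁ hf₁ 𝔪' hmax hp𝔪' pt.S ?_
  intro ℓ hℓ hℓS hℓW _ _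
  have hℓN : ¬ ℓ ∣ N := fun h => hℓS (pt.level_mem ℓ hℓ h)
  have hint : IsIntegral ℤ (qCoeff ⇑f ℓ) :=
    Fermat.Agent.S42.isIntegral_qCoeff_prime f hf hℓ hℓN
  obtain ⟨ℓ', rfl⟩ : ∃ ℓ' : Nat.Primes, (ℓ' : ℕ) = ℓ := ⟨⟨ℓ, hℓ⟩, rfl⟩
  refine ⟨⟨qCoeff ⇑f (ℓ' : ℕ), hint⟩, ?_, ?_⟩
  · exact (hf₁q ℓ' hℓ hℓN).symm
  · have hX : (MvPolynomial.X ℓ' - MvPolynomial.C (W.apOfModel ℓ') : HeckeAlg) ∈
        MvPolynomial.supported ℤ (outsideVars (↑pt.S : Set ℕ)) := by
      refine Subalgebra.sub_mem _ ?_ ?_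
      · exact (MvPolynomial.X_mem_supported (R := ℤ)).mpr (by exact_mod_cast hℓS)
      · exact Subalgebra.algebraMap_mem _ _
    refine hcong _ hX ?_ _ ?_
    · rw [map_sub, MvPolynomial.aeval_X, MvPolynomial.aeval_C, eq_intCast]
      exact pt.cong ℓ' (by exact_mod_cast hℓS) hℓW
    · rw [Fermat.Agent.STB.stb_p1_heckeValue_sub, Fermat.Agent.STB.stb_p1_heckeValue_X]
      have : heckeValue f (MvPolynomial.C (W.apOfModel ℓ') : HeckeAlg) =
          ((W.apOfModel ℓ' : ℤ) : ℂ) :=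
        Fermat.Agent.STB.stb_p1_heckeValue_algebraMap f _
      rw [this]
      push_cast
      rfl

/-- **INTERP-W, `p` odd (`p = 3` included), `q ≠ 2`, `N / q` even**: K8 is discharged. -/
theorem rtint_lowered_evenW (W : WeierstrassCurve ℤ) (p : ℕ) [hpF : Fact p.Prime]
    (hupg : UpgAtW W p) (hp2 : p ≠ 2) {N q : ℕ} [NeZero N] (hsq : Squarefree N)
    (hq : q.Prime) (hq2 : q ≠ 2) (hqp : q ≠ p) (hqN : q ∣ N) (h2 : 2 ∣ N / q)
    (pt : RtintPointW W p N q) :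
    s59lq_Lowered W p N q := by
  have hq2N : ¬ q ^ 2 ∣ N := by
    intro h
    rw [pow_two] at h
    exact hq.not_isUnit (hsq q h)
  exact rtint_lowered_atW W p hupg
    (rtk8p3n_k8NewAt_even hpF.out hp2 hq hq2 hqp hqN hq2N h2) hsq hq hqN pt

/-- **INTERP-W, the landed range**: `5 ≤ p`, `q ≠ 2`, `5 ≤ q ∨ (5 - q) ∣ N / q`. -/
theorem rtint_lowered_oldW (W : WeierstrassCurve ℤ) (p : ℕ) [hpF : Fact p.Prime]
    (hupg : UpgAtW W p) (hp5 : 5 ≤ p) {N q : ℕ} [NeZero N] (hsq : Squarefree N)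
    (hq : q.Prime) (hq2 : q ≠ 2) (hqp : q ≠ p) (hqN : q ∣ N)
    (hE : 5 ≤ q ∨ (5 - q) ∣ N / q) (pt : RtintPointW W p N q) :
    s59lq_Lowered W p N q := by
  have hq2N : ¬ q ^ 2 ∣ N := by
    intro h
    rw [pow_two] at h
    exact hq.not_isUnit (hsq q h)
  exact rtint_lowered_atW W p hupg
    (rtk8p3n_k8NewAt_old hpF.out hp5 hq hq2 hqp hqN hq2N hE) hsq hq hqN pt

end Fermat.Agent.S59.LowK

end
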