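/-
S59, walls M3 / R1 (K-machine for a general semistable `W`), PROD (helper70): the `W`-twin of
`RT/Prod/Final.lean` and of `RIB/TRE.lean` — THE FINAL ASSEMBLY of the arithmetic side for `W`.

    stmtProdEW_of      : InterpW p → StmtKSetupW p → StmtHeckeW p → (∀ O, StmtK3Sel O)
                            → StmtProdEW p
    stmtTRFlatW_of_prodEW    : StmtProdEW p → StmtTRFlatW p
    stmtTRFlatW_of_contracts : InterpW p → StmtKSetupW p → StmtHeckeW p → (∀ O, StmtK3Sel O)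
                            → StmtTRFlatW p

* `ProdDataEW W p M q` : the twin of `RIB.ProdDataE P N q` (the same fields; the conclusion of
  `interp` is `s59lq_Lowered W p M q`);
* `StmtProdEW p`       : the arithmetic side delivers `ProdDataEW` (levels prime to `p`);
* `StmtTRFlatW p`      : `s59lq_StmtTR p` at the levels `M` prime to `p` (the FLAT machine);
* `InterpAtW W p M q`  : INTERP for `W`, consumer shape (the composite of the twins of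
  `rtint_point_of_quot` and `rtint_lowered_at`): a prime `𝔓` of characteristic zero of a
  Noetherian local ring `T` with eigenvalues occurring in level `M`, congruent to `a_ℓ(W)`, and
  a representation over `T`, residually absolutely irreducible, unramified at `q` modulo
  `𝔓 + 𝔪ⁿ` for all `n`  ⇒  `s59lq_Lowered W p M q`;   `InterpW p` : the same in the situation of
  `StmtTRFlatW p`;
* `HeckeDataW.level_datum`, `HeckeDataW.interp`, `HeckeDataW.isUnit_cayley` : the twins of the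
  lemmas on `HeckeData`;
* `rtpf_prodDataEW` : the `ProdDataEW`.

The generic lemmas of `RT/Prod/Final.lean` (`rtpf_det_inertia`, `rtpf_exists_cayley`) and the
algebraic side (`RT.G2.stmtG2E`, `RT.Even.stmtOutTWE`, `stmtK2Dom`, `stmtK2Qur`) are CITED.
-/
import Fermat.Agent.S59.LowK.FinalNumW
import Fermat.Agent.RT.Prod.Final

set_option autoImplicit false
set_option linter.style.haveILetI false
set_option linter.unusedSectionVars false
set_option linter.unusedVariables false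
set_option linter.style.longLine false

namespace Fermat.Agent.S59.LowK

open IsLocalRing Fermat.Agent.TW Fermat.Agent.RT Fermat.Agent.RT.K1 Fermat.Agent.RT.K2
  Fermat.Agent.RT.Prod Fermat.Agent.S59.LowQ Fermat.Agent.S31 ExtCitation Polynomial
open WeierstrassCurve WeierstrassCurve.Affine WeierstrassCurve.Affine.Point

/-! ### The contracts -/

/-- **The product of the arithmetic side** for `(W, p, M, q)`, even form (the twin of
`RIB.ProdDataE`). -/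
structure ProdDataEW (W : WeierstrassCurve ℤ) (p M q : ℕ) : Type 1 where
  /-- the coefficient ring (`ℤ_p[ζ_p]`) -/
  O : Type
  [instCommRing : CommRing O]
  [instIsDomain : IsDomain O]
  [instDVR : IsDiscreteValuationRing O]
  [instComplete : IsAdicComplete (maximalIdeal O) O]
  [instFinite : Finite (ResidueField O)]
  lam : O
  hlam : maximalIdeal O = Ideal.span {lam}
  h2 : IsUnit (2 : O)
  /-- the trivial primes -/
  ι : Type
  /-- the free variables -/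
  τ : Type
  [instFintypeι : Fintype ι]
  [instFintypeτ : Fintype τ]
  /-- `qq i` = the `i`-th trivial prime in `O`, `s i ^ 2 = qq i`, `tχ i = (ζ + ζ⁻¹)/2`,
  `δ i = (ζ − ζ⁻¹)/2` -/
  qq : ι → O
  s : ι → O
  tχ : ι → O
  δ : ι → O
  hs : ∀ i, s i ^ 2 = qq i
  hs1 : ∀ i, ∃ r, s i = 1 + lam * r ∨ s i = -1 + lam * r
  hqq : ∀ i, ∃ r, qq i = 1 + lam * r
  hqq1 : ∀ i, qq i ≠ 1
  htδ : ∀ i, tχ i ^ 2 - δ i ^ 2 = 1
  htχ : ∀ i, ∃ r, tχ i = 1 + lam * r
  hδ : ∀ i, ∃ r, δ i = lam * r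
  hδ0 : ∀ i, δ i ≠ 0
  m : ℕ
  /-- the number of Taylor–Wiles variables (the first `h` variables of `S`) -/
  h : ℕ
  d : ℕ
  hm : 3 * Fintype.card ι + Fintype.card τ ≤ m
  hd : 0 < d
  /-- the base Hecke ring -/
  T0 : Type
  [instCommRingT0 : CommRing T0]
  [instAlgebraT0 : Algebra O T0]
  [instFiniteT0 : Module.Finite O T0]
  j0 : T0 →ₐ[O] Matrix (Fin d) (Fin d) O
  hj0 : Function.Injective j0
  Sig0 : ι → Matrix (Fin 2) (Fin 2) T0
  Phi0 : ι → Matrix (Fin 2) (Fin 2) T0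
  Psi0 : ι → Matrix (Fin 2) (Fin 2) T0
  hPsi0 : ∀ i, IsCayleyParam (algebraMap O T0 (s i)) (Phi0 i) (Psi0 i)
  level : ∀ n : ℕ, ∃ (T1 : Type) (_ : CommRing T1) (_ : Algebra O T1)
      (j1 : T1 →ₐ[O] Matrix (Fin d) (Fin d) (RttwS O m ⧸ maximalIdeal (RttwS O m) ^ n))
      (Sig1 Phi1 : ι → Matrix (Fin 2) (Fin 2) T1) (x1 : τ → T1)
      (Tχ : Type) (_ : CommRing Tχ) (_ : Algebra O Tχ)
      (jχ : Tχ →ₐ[O] Matrix (Fin d) (Fin d) (RttwS O m ⧸ maximalIdeal (RttwS O m) ^ n))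
      (Sigχ Phiχ : ι → Matrix (Fin 2) (Fin 2) Tχ) (xχ : τ → Tχ),
      TWDatumE qq s tχ lam m h d j0 Sig0 Phi0 n j1 Sig1 Phi1 x1 jχ Sigχ Phiχ xχ
  interp : ∀ 𝔓 : Ideal T0, 𝔓.IsPrime → algebraMap O T0 lam ∉ 𝔓 →
    (∀ i, (Sig0 i - 1) 0 0 ∈ 𝔓 ∧ (Sig0 i - 1) 0 1 ∈ 𝔓 ∧ (Sig0 i - 1) 1 0 ∈ 𝔓) →
    s59lq_Lowered W p M q

attribute [instance] ProdDataEW.instCommRing ProdDataEW.instIsDomain ProdDataEW.instDVR
  ProdDataEW.instComplete ProdDataEW.instFinite ProdDataEW.instFintypeι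
  ProdDataEW.instFintypeτ ProdDataEW.instCommRingT0 ProdDataEW.instAlgebraT0
  ProdDataEW.instFiniteT0

/-- **The algebraic side of the K-machine** (G2E, OUT-TWE, K2-Dom, K2-Qur, all proved and
independent of the curve): a product of the arithmetic side gives the lowering. -/
theorem ProdDataEW.lowered {W : WeierstrassCurve ℤ} {p M q : ℕ} (D : ProdDataEW W p M q) :
    s59lq_Lowered W p M q := by
  have hχ : (rtk2Ichi D.τ D.δ).IsPrime :=
    Fermat.Agent.RIB.stmtK2Dom D.O D.lam D.hlam D.h2 D.ι D.τ D.δ D.hδ D.hδ0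
  obtain ⟨hQ, hCr⟩ := Fermat.Agent.RIB.stmtK2Qur D.O D.lam D.hlam D.h2 D.ι D.τ D.qq D.hqq
  have hlev : ∀ n : ℕ, ∃ ρ1 ρχ, TWLevelE (τ := D.τ) D.qq D.δ D.lam D.m D.h D.d
      (fun x => D.j0 (rttwBaseVal D.Sig0 D.Psi0 x)) (Set.range D.j0) n ρ1 ρχ := by
    intro n
    obtain ⟨T1, i1, i2, j1, Sig1, Phi1, x1, Tχ, i3, i4, jχ, Sigχ, Phiχ, xχ, hdat⟩ := D.level n
    exact Fermat.Agent.RT.G2.stmtG2E D.O D.lam D.hlam D.h2 D.ι D.τ D.qq D.s D.tχ D.δ D.hs D.hs1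
      D.htδ D.htχ D.hδ D.m D.h D.d D.T0 D.j0 D.Sig0 D.Phi0 D.Psi0 D.hPsi0 n T1 j1 Sig1 Phi1 x1
      Tχ jχ Sigχ Phiχ xχ hdat
  obtain ⟨𝔓, h𝔓, hlam𝔓, hB⟩ := Fermat.Agent.RT.Even.stmtOutTWE D.O D.lam D.hlam D.h2 D.ι D.τ
    D.qq D.δ D.hqq D.hqq1 D.hδ D.m D.h D.d D.hm D.hd hχ hQ hCr D.T0 D.j0 D.hj0
    (rttwBaseVal D.Sig0 D.Psi0) hlev
  refine D.interp 𝔓 h𝔓 hlam𝔓 fun i => ?_
  obtain ⟨h0, h1, h2⟩ := hB i
  exact ⟨h0, h1, h2⟩

/-- **PROD for `W`, even form**: the arithmetic side delivers `ProdDataEW` in the situation of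
`s59lq_StmtTR p`, at the levels prime to `p`. -/
def StmtProdEW (p : ℕ) : Prop :=
  ∀ [Fact p.Prime] (W : WeierstrassCurve ℤ), W.Δ ≠ 0 → W.IsSemistableModel →
    W.ModRepIsIrreducible p → ∀ M q : ℕ, Squarefree M → ¬ p ∣ M → q.Prime → q ≠ p → q ∣ M →
    s59lq_Unram W p q → W.IsResiduallyModularOfLevel p M →
    (∀ r : ℕ, r.Prime → r ≠ p → r ∣ M → s59lq_Unram W p r → s59lq_IsTrivialPrime W p r) →
    Nonempty (ProdDataEW W p M q)

/-- **LEAF TR for `W`, FLAT form**: `s59lq_StmtTR p` at the levels prime to `p`. -/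
def StmtTRFlatW (p : ℕ) : Prop :=
  ∀ [Fact p.Prime] (W : WeierstrassCurve ℤ), W.Δ ≠ 0 → W.IsSemistableModel →
    W.ModRepIsIrreducible p → ∀ M q : ℕ, Squarefree M → ¬ p ∣ M → q.Prime → q ≠ p → q ∣ M →
    s59lq_Unram W p q → W.IsResiduallyModularOfLevel p M →
    (∀ r : ℕ, r.Prime → r ≠ p → r ∣ M → s59lq_Unram W p r → s59lq_IsTrivialPrime W p r) →
    s59lq_Lowered W p M q

/-- **The algebraic side of the K-machine is closed**: `StmtTRFlatW` follows from the even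
product `StmtProdEW` of the arithmetic side alone. -/
theorem stmtTRFlatW_of_prodEW {p : ℕ} (hprod : StmtProdEW p) : StmtTRFlatW p := by
  intro _ W hΔ hss hirr M q hsq hpM hq hqp hqM hunr hmod hall
  obtain ⟨D⟩ := hprod W hΔ hss hirr M q hsq hpM hq hqp hqM hunr hmod hall
  exact D.lowered

/-- `s59lq_StmtTR p` gives its flat form. -/
theorem stmtTRFlatW_of_stmtTR {p : ℕ} (h : s59lq_StmtTR p) : StmtTRFlatW p :=
  fun W hΔ hss hirr M q hsq _ hq hqp hqM hunr hmod hall =>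
    h W hΔ hss hirr M q hsq hq hqp hqM hunr hmod hall

/-- **INTERP for `W`, consumer shape** at `(W, p, M, q)`. -/
def InterpAtW (W : WeierstrassCurve ℤ) (p M q : ℕ) [NeZero M] : Prop :=
  ∀ (T : Type) [CommRing T] [IsLocalRing T] [IsNoetherianRing T]
    (S : Finset ℕ), p ∈ S → (∀ r : ℕ, r.Prime → r ∣ M → r ∈ S) →
  ∀ (𝔓 : Ideal T), 𝔓.IsPrime → (∀ n : ℕ, n ≠ 0 → (n : T) ∉ 𝔓) →
    (p : T) ∈ maximalIdeal T →
  ∀ (a : Nat.Primes → T),
    (∀ t ∈ MvPolynomial.supported ℤ (outsideVars (↑S : Set ℕ)),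
      CuspForm.heckeEvalForms M 2 t = 0 → MvPolynomial.aeval a t ∈ 𝔓) →
    (∀ ℓ : Nat.Primes, (ℓ : ℕ) ∉ S → W.IsGoodPrimeFor ℓ →
      a ℓ - ((W.apOfModel ℓ : ℤ) : T) ∈ maximalIdeal T) →
  ∀ (ρ : GaloisRepAdic T),
    (∀ ℓ : Nat.Primes, (ℓ : ℕ) ∉ S →
      ∀ 𝔄 : ValuationSubring (AlgebraicClosure ℚ), 𝔄.LiesOverPrime ℓ →
        ∀ σ : AlgebraicClosure ℚ ≃ₐ[ℚ] AlgebraicClosure ℚ, 𝔄.IsFrobeniusAt σ ℓ →
          LinearMap.charpoly (ρ.ρ σ) = X ^ 2 - C (a ℓ) * X + C (((ℓ : ℕ) : T))) →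
    ρ.residual.IsAbsolutelyIrreducible →
    (∀ n : ℕ, ∀ 𝔄 : ValuationSubring (AlgebraicClosure ℚ), 𝔄.LiesOverPrime q →
      ∀ σ ∈ 𝔄.inertiaSubgroupIn ℚ, ∀ v : ρ.V,
        ρ.ρ σ v - v ∈ (𝔓 ⊔ maximalIdeal T ^ n) • (⊤ : Submodule T ρ.V)) →
    s59lq_Lowered W p M q

/-- **INTERP for `W`** in the situation of `StmtTRFlatW p`. -/
def InterpW (p : ℕ) : Prop :=
  ∀ [Fact p.Prime] (W : WeierstrassCurve ℤ) (M q : ℕ) [NeZero M], W.Δ ≠ 0 →
    W.IsSemistableModel → W.ModRepIsIrreducible p → Squarefree M → ¬ p ∣ M → q.Prime →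
    q ≠ p → q ∣ M → s59lq_Unram W p q → W.IsResiduallyModularOfLevel p M →
    (∀ r : ℕ, r.Prime → r ≠ p → r ∣ M → s59lq_Unram W p r → s59lq_IsTrivialPrime W p r) →
    InterpAtW W p M q

/-! ### The base -/

section Base

variable {W : WeierstrassCurve ℤ} {p M : ℕ}

instance s59lk_KSetupW.instFactR (Y : s59lk_KSetupW W p M) (i : Y.ι) : Fact (Y.r i).Prime :=
  ⟨Y.r_prime i⟩

theorem s59lk_KSetupW.resφ (Y : s59lk_KSetupW W p M) (i : Y.ι) : ∃ z : ℤ, (z = 1 ∨ z = -1) ∧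
    Y.ρbar.ρ (Y.φ i) = (z : Module.End (ResidueField Y.O) Y.ρbar.V) ∧
    Y.s i - (z : Y.O) ∈ maximalIdeal Y.O := by
  rcases Y.hs i with ⟨h1, h2⟩ | ⟨h1, h2⟩
  · exact ⟨1, Or.inl rfl, by rw [h1, Int.cast_one], by rwa [Int.cast_one]⟩
  · exact ⟨-1, Or.inr rfl, by rw [h1, Int.cast_neg, Int.cast_one],
      by rwa [Int.cast_neg, Int.cast_one, sub_neg_eq_add]⟩

variable [hp : Fact p.Prime] [NeZero M] {Y : s59lk_KSetupW W p M} {h : ℕ} (D : HeckeDataW Y h)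

namespace HeckeDataW

instance instNoethT0 : IsNoetherianRing D.T0 := IsNoetherianRing.of_finite Y.O D.T0

theorem algebraMap_injective : Function.Injective (algebraMap Y.O D.T0) := by
  intro x y hxy
  have h1 := congrArg D.j0 hxy
  rw [AlgHom.commutes, AlgHom.commutes] at h1
  have h2 := congrFun (congrFun h1 ⟨0, D.hd⟩) ⟨0, D.hd⟩
  rw [Matrix.algebraMap_matrix_apply, Matrix.algebraMap_matrix_apply, if_pos rfl, if_pos rfl]
    at h2
  exact h2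

theorem map_mem {x : Y.O} (hx : x ∈ maximalIdeal Y.O) :
    algebraMap Y.O D.T0 x ∈ maximalIdeal D.T0 := by
  haveI : FaithfulSMul Y.O D.T0 :=
    (faithfulSMul_iff_algebraMap_injective Y.O D.T0).mpr D.algebraMap_injective
  haveI : Algebra.IsIntegral Y.O D.T0 := inferInstance
  exact map_nonunit (algebraMap Y.O D.T0) x hx

theorem resI (i : Y.ι) : ∀ τ ∈ (padicPlace (Y.r i)).inertiaSubgroupIn ℚ,
    D.ρ0.residual.ρ τ = 1 := by
  intro τ hτ
  have h1 : Y.ρbar.ρ τ = ((1 : ℤ) : Module.End (ResidueField Y.O) Y.ρbar.V) := by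
    rw [Int.cast_one]
    exact Y.r_unram i (padicPlace (Y.r i)) (Fermat.Agent.TW.L.lfrobex_liesOverPrime (Y.r i))
      τ hτ
  have h2 := rtk3a_residual_intCast D.ι0 Y.ρbar D.ρ0.residual D.hres0 τ 1 h1
  rw [h2, Int.cast_one]

/-- `Σ⁰_i` -/
noncomputable def Sig0 (i : Y.ι) : Matrix (Fin 2) (Fin 2) D.T0 :=
  LinearMap.toMatrix D.b0 D.b0 (D.ρ0.ρ (Y.σ i))

/-- `Φ⁰_i` -/
noncomputable def Phi0 (i : Y.ι) : Matrix (Fin 2) (Fin 2) D.T0 :=
  LinearMap.toMatrix D.b0 D.b0 (D.ρ0.ρ (Y.φ i))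

theorem det_Sig0 (i : Y.ι) : (D.Sig0 i).det = 1 := by
  unfold Sig0
  rw [LinearMap.det_toMatrix]
  exact rtpf_det_inertia p (Y.r i) (Y.r_ne_p hp.out i) D.ρ0 D.hdet0 (Y.σ i) (Y.hloc i).inertia

theorem isUnit_two : IsUnit (2 : D.T0) := by
  have := Y.h2.map (algebraMap Y.O D.T0)
  rwa [map_ofNat] at this

theorem isUnit_cayley (i : Y.ι) :
    IsUnit (2 * algebraMap Y.O D.T0 (Y.s i) + (D.Phi0 i).trace) := by
  obtain ⟨z, hz, hz1, hz2⟩ := Y.resφ i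
  have h1 := rtk3a_residual_intCast D.ι0 Y.ρbar D.ρ0.residual D.hres0 (Y.φ i) z hz1
  have h00 := rtpa_entries_mem D.ρ0 D.b0 (Y.φ i) z h1 0 0
  have h11 := rtpa_entries_mem D.ρ0 D.b0 (Y.φ i) z h1 1 1
  have hzd : ∀ a : Fin 2, (z : Matrix (Fin 2) (Fin 2) D.T0) a a = (z : D.T0) := fun a =>
    Matrix.diagonal_apply_eq _ _
  rw [Matrix.sub_apply, hzd] at h00 h11
  have hs := D.map_mem hz2
  rw [map_sub, map_intCast] at hs
  have hmem : 2 * algebraMap Y.O D.T0 (Y.s i) + (D.Phi0 i).trace - 4 * (z : D.T0) ∈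
      maximalIdeal D.T0 := by
    have e : 2 * algebraMap Y.O D.T0 (Y.s i) + (D.Phi0 i).trace - 4 * (z : D.T0) =
        2 * (algebraMap Y.O D.T0 (Y.s i) - (z : D.T0)) +
          ((LinearMap.toMatrix D.b0 D.b0 (D.ρ0.ρ (Y.φ i)) 0 0 - (z : D.T0)) +
           (LinearMap.toMatrix D.b0 D.b0 (D.ρ0.ρ (Y.φ i)) 1 1 - (z : D.T0))) := by
      rw [Matrix.trace_fin_two]
      unfold Phi0
      ring
    rw [e]
    exact Ideal.add_mem _ (Ideal.mul_mem_left _ _ hs) (Ideal.add_mem _ h00 h11)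
  have h4 : IsUnit (4 * (z : D.T0)) := by
    have h2 := D.isUnit_two
    have e4 : (4 : D.T0) = 2 * 2 := by norm_num
    rcases hz with rfl | rfl
    · rw [Int.cast_one, mul_one, e4]
      exact h2.mul h2
    · rw [Int.cast_neg, Int.cast_one, mul_neg, mul_one, e4]
      exact (h2.mul h2).neg
  by_contra hnu
  have hm : 2 * algebraMap Y.O D.T0 (Y.s i) + (D.Phi0 i).trace ∈ maximalIdeal D.T0 :=
    (mem_maximalIdeal _).mpr hnu
  have : 4 * (z : D.T0) ∈ maximalIdeal D.T0 := by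
    have := Ideal.sub_mem _ hm hmem
    rwa [sub_sub_cancel] at this
  exact (mem_maximalIdeal _).mp this h4

/-- **INTERP for the base**: a prime `𝔓` of `T0` with `λ ∉ 𝔓` and `Σ⁰_i ≡ 1 mod 𝔓` gives
`s59lq_Lowered W p M q`. -/
theorem interp {q : ℕ} (hint : InterpAtW W p M q) (hq : q.Prime) (hqp : q ≠ p) (hqM : q ∣ M)
    (hunr₀ : s59lq_Unram W p q)
    (𝔓 : Ideal D.T0) (h𝔓 : 𝔓.IsPrime) (hl : algebraMap Y.O D.T0 Y.lam ∉ 𝔓)
    (hS : ∀ i, (D.Sig0 i - 1) 0 0 ∈ 𝔓 ∧ (D.Sig0 i - 1) 0 1 ∈ 𝔓 ∧ (D.Sig0 i - 1) 1 0 ∈ 𝔓) :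
    s59lq_Lowered W p M q := by
  obtain ⟨i0, hi0⟩ := Y.exists_index hq hqp hqM hunr₀
  have hchar : ∀ n : ℕ, n ≠ 0 → (n : D.T0) ∉ 𝔓 := fun n hn =>
    Fermat.Agent.RT.Interp.rtint_natCast_not_mem Y.lam Y.hlam 𝔓 hl n hn
  have hall := rtpu_all_entries 𝔓 (D.Sig0 i0) (D.det_Sig0 i0) (hS i0).1 (hS i0).2.1 (hS i0).2.2
  have hunr := rtpu_hunr p (Y.r i0) D.hdet0.1 (Y.σ i0) (Y.φ i0) (Y.hloc i0) D.ρ0 D.b0
    (D.resI i0) 𝔓 hall
  rw [hi0] at hunr
  exact hint D.T0 D.S' D.hpS' D.hNS' 𝔓 h𝔓 hchar D.hdet0.1 D.a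
    (fun t ht h0 => by rw [D.hocc t ht h0]; exact zero_mem _) D.hcong D.ρ0 D.hfrob D.habs0 hunr

/-- **The level data**: a Taylor–Wiles family with the tangent bound of K3-Sel gives a
`TWDatumE`. -/
theorem level_datum (n : ℕ) (qv : Fin h → ℕ)
    (hfam : IsTWFamily p Y.ρbar (Y.Smin ∪ Finset.univ.image Y.r) n h qv) (g : ℕ)
    (hcard : TwTanCard Y.O Y.ρbar
      (rtk3Flat Y.O p Y.Smin (Finset.univ.image qv) (Finset.univ.image Y.r))
      (Nat.card (ResidueField Y.O) ^ g)) :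
    ∃ (T1 : Type) (_ : CommRing T1) (_ : Algebra Y.O T1)
      (j1 : T1 →ₐ[Y.O] Matrix (Fin D.d) (Fin D.d)
        (RttwS Y.O (Y.m h) ⧸ maximalIdeal (RttwS Y.O (Y.m h)) ^ n))
      (Sig1 Phi1 : Y.ι → Matrix (Fin 2) (Fin 2) T1)
      (x1 : Fin (g + 4 * (Finset.univ.image Y.r).card) → T1)
      (Tχ : Type) (_ : CommRing Tχ) (_ : Algebra Y.O Tχ)
      (jχ : Tχ →ₐ[Y.O] Matrix (Fin D.d) (Fin D.d)
        (RttwS Y.O (Y.m h) ⧸ maximalIdeal (RttwS Y.O (Y.m h)) ^ n))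
      (Sigχ Phiχ : Y.ι → Matrix (Fin 2) (Fin 2) Tχ)
      (xχ : Fin (g + 4 * (Finset.univ.image Y.r).card) → Tχ),
      TWDatumE (fun i => (Y.r i : Y.O)) Y.s Y.tχ Y.lam (Y.m h) h D.d D.j0 D.Sig0 D.Phi0 n
        j1 Sig1 Phi1 x1 jχ Sigχ Phiχ xχ := by
  obtain ⟨A, iA1, iA2, iA3, ιA, ρ, b, β, βi, π1, πχ, H⟩ := D.level n qv hfam
  obtain ⟨x, hx⟩ := rtpa_pre p Y.ρbar (Y.Smin ∪ Finset.univ.image Y.r) Y.Smin
    (Finset.univ.image qv) Y.r Y.σ Y.φ Y.s Y.tχ Y.lam (Y.m h) D.d D.j0 _ _ n _ ιA ρ b β βi π1 πχ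
    Y.hyp Y.hT g hcard (fun i => Y.hloc i) Y.hs2 Y.hs H
  have hlam : Y.lam ∈ maximalIdeal Y.O := by
    rw [Y.hlam]
    exact Ideal.mem_span_singleton_self _
  have key := rtprod_datumE p Y.r (fun i => (Y.r i : Y.O)) Y.s Y.tχ Y.δ Y.lam hlam
    (fun _ => rfl) Y.p_dvd (fun i => (Y.r_prime i).one_le) Y.htδ
    (fun i => by rw [Y.tχ_add_δ i, Y.hζ.pow_eq_one]) Y.two_mul_δ_ne
    (fun i => rtpf_exists_of_mem Y.hlam (Y.tχ_sub_one_mem i)) (Y.m h) h D.d D.j0 _ _ n π1 πχ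
    _ _ x hx
  exact ⟨RtprodQ π1, inferInstance, inferInstance, rtprodJ π1, _, _, _,
    RtprodQ πχ, inferInstance, inferInstance, rtprodJ πχ, _, _, _, key⟩

end HeckeDataW

end Base

/-! ### The final assembly -/

section Final

/-- **PROD for `W`**: the product of the arithmetic side from a setup, the Hecke data, K3-Sel
and INTERP. -/
theorem rtpf_prodDataEW {W : WeierstrassCurve ℤ} {p M q : ℕ} [hp : Fact p.Prime] [NeZero M]
    (hint : InterpAtW W p M q) (hq : q.Prime) (hqp : q ≠ p) (hqM : q ∣ M)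
    (hunr : s59lq_Unram W p q) (Y : s59lk_KSetupW W p M) (h : ℕ)
    (hh : 3 * (Finset.univ.image Y.r).card ≤ h)
    (hsel : ∀ n : ℕ, ∃ qv : Fin h → ℕ,
      IsTWFamily p Y.ρbar (Y.Smin ∪ Finset.univ.image Y.r) n h qv ∧
      TwTanCard Y.O Y.ρbar
        (rtk3Flat Y.O p Y.Smin (Finset.univ.image qv) (Finset.univ.image Y.r))
        (Nat.card (ResidueField Y.O) ^ (h - 3 * (Finset.univ.image Y.r).card)))
    (D : HeckeDataW Y h) : Nonempty (ProdDataEW W p M q) := by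
  classical
  have hPsi : ∀ i, ∃ Psi, IsCayleyParam (algebraMap Y.O D.T0 (Y.s i)) (D.Phi0 i) Psi :=
    fun i => rtpf_exists_cayley _ _ (D.isUnit_cayley i)
  choose Psi0 hPsi0 using hPsi
  exact ⟨
    { O := Y.O
      lam := Y.lam
      hlam := Y.hlam
      h2 := Y.h2
      ι := Y.ι
      τ := Fin (h - 3 * (Finset.univ.image Y.r).card + 4 * (Finset.univ.image Y.r).card)
      qq := fun i => (Y.r i : Y.O)
      s := Y.s
      tχ := Y.tχ
      δ := Y.δ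
      hs := Y.hs2
      hs1 := Y.hs1
      hqq := Y.hqq
      hqq1 := Y.hqq1
      htδ := Y.htδ
      htχ := fun i => rtpf_exists_of_mem Y.hlam (Y.tχ_sub_one_mem i)
      hδ := fun i => by
        have := rtpf_exists_of_mem Y.hlam (x := Y.δ i) (y := 0) (by rw [sub_zero]; exact Y.δ_mem i)
        simpa using this
      hδ0 := Y.δ_ne
      m := Y.m h
      h := h
      d := D.d
      hm := by
        rw [Fintype.card_fin, Y.card_T] at *
        show _ ≤ h + 4 * Fintype.card Y.ι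
        omega
      hd := D.hd
      T0 := D.T0
      j0 := D.j0
      hj0 := D.hj0
      Sig0 := D.Sig0
      Phi0 := D.Phi0
      Psi0 := Psi0
      hPsi0 := hPsi0
      level := fun n => by
        obtain ⟨qv, hfam, hcard⟩ := hsel n
        exact D.level_datum n qv hfam _ hcard
      interp := fun 𝔓 h𝔓 hl hS => D.interp hint hq hqp hqM hunr 𝔓 h𝔓 hl hS }⟩

/-- **`StmtProdEW` from the two contracts** (`StmtKSetupW`, `StmtHeckeW`), K3-Sel and
INTERP. -/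
theorem stmtProdEW_of {p : ℕ} (hint : InterpW p) (hsetup : StmtKSetupW p)
    (hhecke : StmtHeckeW p)
    (hsel : ∀ (O : Type) [CommRing O] [IsDomain O] [IsDiscreteValuationRing O]
      [IsAdicComplete (maximalIdeal O) O] [Finite (ResidueField O)], StmtK3Sel O) :
    StmtProdEW p := by
  intro hp W hΔ hss hirr M q hsq hpM hq hqp hqM hunr hmod hall
  haveI : NeZero M := ⟨fun h0 => by
    subst h0
    exact not_squarefree_zero hsq⟩
  obtain ⟨Y⟩ := hsetup W hΔ hss hirr M hsq hmod hall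
  obtain ⟨h, hh, hQ⟩ := hsel Y.O p Y.ρbar (Y.Smin ∪ Finset.univ.image Y.r) Y.Smin
    (Finset.univ.image Y.r) Y.hyp Y.hT Finset.subset_union_right
  obtain ⟨D⟩ := hhecke W M q hΔ hss hirr hsq hpM hq hqp hqM hunr hmod hall Y h
  exact rtpf_prodDataEW (hint W M q hΔ hss hirr hsq hpM hq hqp hqM hunr hmod hall) hq hqp hqM
    hunr Y h hh hQ D

/-- **`StmtTRFlatW` from the two contracts**, K3-Sel and INTERP. -/
theorem stmtTRFlatW_of_contracts {p : ℕ} (hint : InterpW p) (hsetup : StmtKSetupW p)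
    (hhecke : StmtHeckeW p)
    (hsel : ∀ (O : Type) [CommRing O] [IsDomain O] [IsDiscreteValuationRing O]
      [IsAdicComplete (maximalIdeal O) O] [Finite (ResidueField O)], StmtK3Sel O) :
    StmtTRFlatW p :=
  stmtTRFlatW_of_prodEW (stmtProdEW_of hint hsetup hhecke hsel)

end Final

end Fermat.Agent.S59.LowK
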