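/-
S59, walls M3 / R1 (K-machine for a general semistable `W`), PROD (helper70): INTERP is
DISCHARGED in the final assembly `S59/LowK/ProdFinalW.lean`.

* `upgAtW`               : `UpgAtW W p` (helper21's hypothesis) = helper3's `s59lq_upg_resid`;
* `interpAtW_of_point`   : `(RtintPointW W p M q → s59lq_Lowered W p M q) → InterpAtW W p M q`
                           (helper21's adapter `rtint_point_of_quotW`);
* `interpAtW_even`       : `p ≠ 2`, `q ≠ 2`, `q ≠ p`, `q ∣ M`, `2 ∣ M / q` (`p = 3` included);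
* `interpAtW_old`        : `5 ≤ p`, `q ≠ 2`, `q ≠ p`, `q ∣ M`, `5 ≤ q ∨ (5 - q) ∣ M / q`;
* `s59lk_trivial_gt`     : a trivial prime `q` of `W` at `p` is `> p` (so `q ≠ 2`, `5 ≤ q` …);
* `interpW_of_five_le`   : `InterpW p` for `5 ≤ p`;
* `lowered_of_heckeW_at` : THE K-MACHINE FOR `W` AT ONE `(W, M, q)`, `p = 3, 5`: from `StmtHeckeW p`
                           and INTERP at `(W, p, M, q)`  (SETUP `stmtKSetupW` and K3-Sel `stmtK3Sel`
                           discharged);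
* `stmtTRFlatW_five`     : `StmtHeckeW 5 → StmtTRFlatW 5`;
* `lowered_three_even`   : `StmtHeckeW 3` ⇒ the lowering at `p = 3` at the levels `M` prime to `3`
                           with `2 ∣ M / q`.
So the ONLY open contract of the K-machine for `W` at the levels prime to `p` is `StmtHeckeW p`
(and, at `p = 3`, K8 at the odd levels `M / q`).
-/
import Fermat.Agent.S59.LowK.ProdFinalW
import Fermat.Agent.S59.LowK.InterpW
import Fermat.Agent.S59.LowQ.Upg
import Fermat.Agent.RT.K3.Done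

set_option autoImplicit false
set_option linter.style.haveILetI false
set_option linter.unusedSectionVars false
set_option linter.unusedVariables false
set_option linter.style.longLine false

namespace Fermat.Agent.S59.LowK

open IsLocalRing Fermat.Agent.TW Fermat.Agent.RT Fermat.Agent.RT.K1 Fermat.Agent.RT.Prod
  Fermat.Agent.S59.LowQ Fermat.Agent.S31 ExtCitation Polynomial
open WeierstrassCurve WeierstrassCurve.Affine WeierstrassCurve.Affine.Point

/-- **UPG** (helper3's `s59lq_upg_resid`) in the shape consumed by `InterpW.lean`. -/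
theorem upgAtW (W : WeierstrassCurve ℤ) (hΔ : W.Δ ≠ 0) (p : ℕ) [Fact p.Prime]
    (hirr : W.ModRepIsIrreducible p) : UpgAtW W p :=
  fun hM g hg 𝔪 hm hpm S hcong => s59lq_upg_resid W hΔ p hirr hM g hg 𝔪 hm hpm S hcong

/-- INTERP in the consumer shape, from INTERP on the characteristic-zero points. -/
theorem interpAtW_of_point {W : WeierstrassCurve ℤ} {p M q : ℕ} [NeZero M]
    (h : RtintPointW W p M q → s59lq_Lowered W p M q) : InterpAtW W p M q := by
  intro T _ _ _ S hpS hNS 𝔓 h𝔓 hchar hpT a hocc hcong ρ hfrob habs hunr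
  obtain ⟨pt⟩ := rtint_point_of_quotW W p M q S hpS hNS 𝔓 h𝔓 hchar hpT a hocc hcong ρ hfrob
    habs hunr
  exact h pt

/-- **INTERP for `W`**, `p` odd (`p = 3` included), `q ≠ 2`, `M / q` even. -/
theorem interpAtW_even (W : WeierstrassCurve ℤ) (hΔ : W.Δ ≠ 0) (p : ℕ) [Fact p.Prime]
    (hirr : W.ModRepIsIrreducible p) (hp2 : p ≠ 2) {M q : ℕ} [NeZero M] (hsq : Squarefree M)
    (hq : q.Prime) (hq2 : q ≠ 2) (hqp : q ≠ p) (hqM : q ∣ M) (h2 : 2 ∣ M / q) :
    InterpAtW W p M q :=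
  interpAtW_of_point fun pt =>
    rtint_lowered_evenW W p (upgAtW W hΔ p hirr) hp2 hsq hq hq2 hqp hqM h2 pt

/-- **INTERP for `W`**, `5 ≤ p`, `q ≠ 2`, `5 ≤ q ∨ (5 - q) ∣ M / q`. -/
theorem interpAtW_old (W : WeierstrassCurve ℤ) (hΔ : W.Δ ≠ 0) (p : ℕ) [Fact p.Prime]
    (hirr : W.ModRepIsIrreducible p) (hp5 : 5 ≤ p) {M q : ℕ} [NeZero M] (hsq : Squarefree M)
    (hq : q.Prime) (hq2 : q ≠ 2) (hqp : q ≠ p) (hqM : q ∣ M)
    (hE : 5 ≤ q ∨ (5 - q) ∣ M / q) : InterpAtW W p M q :=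
  interpAtW_of_point fun pt =>
    rtint_lowered_oldW W p (upgAtW W hΔ p hirr) hp5 hsq hq hq2 hqp hqM hE pt

/-- a trivial prime `q` of `W` at `p` is `> p` -/
theorem s59lk_trivial_gt {W : WeierstrassCurve ℤ} {p q : ℕ}
    (h : s59lq_IsTrivialPrime W p q) : p < q := by
  obtain ⟨hq, -, hdvd, -⟩ := h
  have h1 : 0 < q - 1 := Nat.sub_pos_of_lt hq.one_lt
  have h2 : p ≤ q - 1 := Nat.le_of_dvd h1 hdvd
  omega

/-- **INTERP for `W`** in the situation of `StmtTRFlatW p`, `5 ≤ p`. -/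
theorem interpW_of_five_le (p : ℕ) (hp5 : 5 ≤ p) : InterpW p := by
  intro _ W M q _ hΔ hss hirr hsq hpM hq hqp hqM hunr hmod hall
  have hgt := s59lk_trivial_gt (hall q hq hqp hqM hunr)
  exact interpAtW_old W hΔ p hirr hp5 hsq hq (by omega) hqp hqM (Or.inl (by omega))

/-- **THE K-MACHINE FOR `W` AT ONE `(W, M, q)`**, `p = 3, 5`, levels prime to `p`: from the
Hecke contract `StmtHeckeW p` and INTERP at `(W, p, M, q)`. -/
theorem lowered_of_heckeW_at {p : ℕ} [hp : Fact p.Prime] (hp35 : p = 3 ∨ p = 5)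
    (hhecke : StmtHeckeW p) (W : WeierstrassCurve ℤ) (hΔ : W.Δ ≠ 0)
    (hss : W.IsSemistableModel) (hirr : W.ModRepIsIrreducible p) (M q : ℕ) [NeZero M]
    (hsq : Squarefree M) (hpM : ¬ p ∣ M) (hq : q.Prime) (hqp : q ≠ p) (hqM : q ∣ M)
    (hunr : s59lq_Unram W p q) (hmod : W.IsResiduallyModularOfLevel p M)
    (hall : ∀ r : ℕ, r.Prime → r ≠ p → r ∣ M → s59lq_Unram W p r → s59lq_IsTrivialPrime W p r)
    (hint : InterpAtW W p M q) : s59lq_Lowered W p M q := by
  obtain ⟨Y⟩ := stmtKSetupW p hp35 W hΔ hss hirr M hsq hmod hall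
  obtain ⟨h, hh, hQ⟩ := stmtK3Sel Y.O p Y.ρbar (Y.Smin ∪ Finset.univ.image Y.r) Y.Smin
    (Finset.univ.image Y.r) Y.hyp Y.hT Finset.subset_union_right
  obtain ⟨D⟩ := hhecke W M q hΔ hss hirr hsq hpM hq hqp hqM hunr hmod hall Y h
  obtain ⟨E⟩ := rtpf_prodDataEW hint hq hqp hqM hunr Y h hh hQ D
  exact E.lowered

/-- **The K-machine for `W` at `p = 5`**, levels prime to `5`: `StmtHeckeW 5 → StmtTRFlatW 5`. -/
theorem stmtTRFlatW_five (hhecke : StmtHeckeW 5) : StmtTRFlatW 5 := by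
  intro hp W hΔ hss hirr M q hsq hpM hq hqp hqM hunr hmod hall
  haveI : NeZero M := ⟨fun h0 => by
    subst h0
    exact not_squarefree_zero hsq⟩
  exact lowered_of_heckeW_at (Or.inr rfl) hhecke W hΔ hss hirr M q hsq hpM hq hqp hqM hunr hmod
    hall (interpW_of_five_le 5 le_rfl W M q hΔ hss hirr hsq hpM hq hqp hqM hunr hmod hall)

/-- **The K-machine for `W` at `p = 3`**, levels `M` prime to `3` with `M / q` even. -/
theorem lowered_three_even (hhecke : StmtHeckeW 3) [hp : Fact (Nat.Prime 3)]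
    (W : WeierstrassCurve ℤ) (hΔ : W.Δ ≠ 0)
    (hss : W.IsSemistableModel) (hirr : W.ModRepIsIrreducible 3) (M q : ℕ)
    (hsq : Squarefree M) (hpM : ¬ 3 ∣ M) (hq : q.Prime) (hqp : q ≠ 3) (hqM : q ∣ M)
    (h2 : 2 ∣ M / q)
    (hunr : s59lq_Unram W 3 q) (hmod : W.IsResiduallyModularOfLevel 3 M)
    (hall : ∀ r : ℕ, r.Prime → r ≠ 3 → r ∣ M → s59lq_Unram W 3 r → s59lq_IsTrivialPrime W 3 r) :
    s59lq_Lowered W 3 M q := by
  haveI : NeZero M := ⟨fun h0 => by
    subst h0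
    exact not_squarefree_zero hsq⟩
  have hgt := s59lk_trivial_gt (hall q hq hqp hqM hunr)
  exact lowered_of_heckeW_at (Or.inl rfl) hhecke W hΔ hss hirr M q hsq hpM hq hqp hqM hunr hmod
    hall (interpAtW_even W hΔ 3 hirr (by decide) hsq hq (by omega) hqp hqM h2)

end Fermat.Agent.S59.LowK
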