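import Fermat.Agent.S59.LowK.UnipK6T
import Fermat.Agent.S59.LowK.ConcTrUW
import Fermat.Agent.S59.LowK.PackW
import Fermat.Agent.S59.LowK.AbsBW
import Fermat.Agent.S59.LowK.ProdInterpW
import Fermat.Agent.RT.K7F.Final

/-!
# S59 M3/R1 (helper22): THE HECKE SIDE FOR `W` AT THE EVEN LEVELS, every odd `p` (`p = 3`)

The K-machine for a general semistable `W` at the levels `M` prime to `p` with `2 ∣ M`, for every
odd prime `p` — the case `p = 3` is the one that the `p ≥ 5` files (`HeckeDoneUW.lean`, helper9)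
do not reach.  Everything is filled in except ONE leaf, the unipotency of the inertia groups at
the prime `2` on the concrete `J` (`StmtHkfUnipTwoEW p`, `UnipK6T.lean`):

* K7-FLAT `K7F.stmtFlatH`; the K5 side `rthkk5_mainEW` (`ConcK5W.lean`, NoTors at `p = 3` from
  `2 ∣ N`); the K6 side `rthkt_final_oddUW` (helper97, K6T of helper4 at the even levels); the
  unipotency at the odd primes `rthkf_unipUEW_done` (K6T); the glue `rthkf_topUEW`;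
* HK-ABS-B `stmtHkAbsBW` (helper27), HK-ABS-L / HECKE-PACK / HK-RES (helper59);
* SETUP `stmtKSetupW`, K3-Sel `stmtK3Sel`, PROD `rtpf_prodDataEW`, INTERP `interpAtW_even`
  (helper70, helper21, helper3).

Results (`E` = even level):

* `StmtHkModSideEW p`, `StmtHeckeEW p` : the contracts of `PlanW.lean` / `FinalPlanW.lean` with
  the extra hypothesis `2 ∣ M`;
* `rthkt_finalUEW p : StmtHkfTrUEW p` (UNCONDITIONAL);
* `rthkct_modSideEW`, `rthk_finalEW`, `rthkct_hecke_instEW` : the twins of helper59's top;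
* `stmtHkConcTopEW_of : StmtHkfUnipTwoEW p → StmtHkConcTopEW p`;
* **`stmtHeckeEW_of : StmtHkfUnipTwoEW p → StmtHeckeEW p`**;
* `stmtHeckeEW_of_five_le : 5 ≤ p → StmtHeckeEW p` (UNCONDITIONAL);
* `lowered_of_heckeEW_at` : the K-machine at one `(W, M, q)`, `2 ∣ M`, from `StmtHeckeEW p`;
* **`lowered_three_evenE : StmtHkfUnipTwoEW 3 → …, 2 ∣ M / q → s59lq_Lowered W 3 M q`** : level
  lowering for `W` at `p = 3` at the levels `M` prime to `3` with `M / q` even.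
-/

set_option autoImplicit false
set_option linter.unusedSectionVars false
set_option linter.unusedVariables false
set_option linter.style.haveILetI false
set_option linter.style.longLine false

noncomputable section

namespace Fermat.Agent.S59.LowK

open IsLocalRing Fermat.Agent.ES Fermat.Agent.S30 Fermat.Agent.W1 Fermat.Agent.TW
open Fermat.Agent.ES1 Fermat.Agent.RT Fermat.Agent.RT.K1 Fermat.Agent.RT.K5 Fermat.Agent.RT.K6
open Fermat.Agent.RT.K7F Fermat.Agent.RT.Prod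
open Fermat.Agent.S59.LowQ Fermat.Agent.S31
open ExtCitation WeierstrassCurve WeierstrassCurve.Affine WeierstrassCurve.Affine.Point
open scoped MatrixGroups

/-- **The module side for `W`, EVEN levels** (`StmtHkModSideW p` with the hypothesis `2 ∣ M`). -/
def StmtHkModSideEW (p : ℕ) : Prop :=
  ∀ [Fact p.Prime] (W : WeierstrassCurve ℤ) (M q : ℕ) [NeZero M], W.Δ ≠ 0 →
    W.IsSemistableModel → W.ModRepIsIrreducible p → Squarefree M → ¬ p ∣ M → 2 ∣ M → q.Prime →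
    q ≠ p → q ∣ M → s59lq_Unram W p q → W.IsResiduallyModularOfLevel p M →
    (∀ r : ℕ, r.Prime → r ≠ p → r ∣ M → s59lq_Unram W p r → s59lq_IsTrivialPrime W p r) →
    ∀ (Y : s59lk_KSetupW W p M) (h : ℕ),
      ∃ (d : ℕ) (_ : 0 < d) (S' : Finset ℕ) (_ : p ∈ S')
        (_ : ∀ ℓ : ℕ, ℓ.Prime → ℓ ∣ M → ℓ ∈ S')
        (𝕋₀ : Type) (_ : CommRing 𝕋₀) (J₀ : Type) (_ : AddCommGroup J₀) (_ : Module 𝕋₀ J₀)
        (_ : DistribMulAction GQ J₀) (Tr₀ : ℕ → 𝕋₀)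
        (Φ0 : 𝕋₀ →+* Matrix (Fin d) (Fin d) Y.O),
        HkBase p Y.ρbar M S' d J₀ Tr₀ Φ0 ∧
        ∀ (n : ℕ) (qv : Fin h → ℕ),
          IsTWFamily p Y.ρbar (Y.Smin ∪ Finset.univ.image Y.r) n h qv →
          ∃ (L : ℕ) (𝕋 : Type) (_ : CommRing 𝕋) (J : Type) (_ : AddCommGroup J)
            (_ : Module 𝕋 J) (_ : DistribMulAction GQ J) (Tr : ℕ → 𝕋)
            (Φ1 Φχ : 𝕋 →+* Matrix (Fin d) (Fin d) (RthkSn Y.O (Y.m h) (n + 1))),
            HkLevel p Y.lam Y.ρbar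
              (Y.Smin ∪ (Finset.univ.image qv ∪ Finset.univ.image Y.r)) Y.σ Y.tχ (Y.m h) h d
              (n + 1) (fun ℓ => Φ0 (Tr₀ ℓ)) L J Tr Φ1 Φχ ∧
            HkUnipJ p Y.Smin J

/-- **HECKE for `W`, EVEN levels** (`StmtHeckeW p` with the hypothesis `2 ∣ M`). -/
def StmtHeckeEW (p : ℕ) : Prop :=
  ∀ [Fact p.Prime] (W : WeierstrassCurve ℤ) (M q : ℕ) [NeZero M], W.Δ ≠ 0 →
    W.IsSemistableModel → W.ModRepIsIrreducible p → Squarefree M → ¬ p ∣ M → 2 ∣ M → q.Prime →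
    q ≠ p → q ∣ M → s59lq_Unram W p q → W.IsResiduallyModularOfLevel p M →
    (∀ r : ℕ, r.Prime → r ≠ p → r ∣ M → s59lq_Unram W p r → s59lq_IsTrivialPrime W p r) →
    ∀ (Y : s59lk_KSetupW W p M) (h : ℕ), Nonempty (HeckeDataW Y h)

/-- the contracts without the hypothesis `2 ∣ M` give the ones with it -/
theorem rthk_heckeE_of {p : ℕ} (h : StmtHeckeW p) : StmtHeckeEW p :=
  fun W M q _ hΔ hss hirr hsq hpM _ hq hqp hqM hunr hmod htriv Y h' =>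
    h W M q hΔ hss hirr hsq hpM hq hqp hqM hunr hmod htriv Y h'

/-- **The K6 side at the big modulus, EVEN levels**, every odd `p` (UNCONDITIONAL): helper97's
`rthkt_final_oddUW` with `5 ≤ p ∨ (5 - p) ∣ N` from `2 ∣ N`. -/
theorem rthkt_finalUEW (p : ℕ) : StmtHkfTrUEW p := by
  intro hp W N q _ hΔ hss hirr hN hpN h2N hq hqp hqN hunr hmod htriv Y h n qv hqv i1 i2 i3 𝔲
    ℓ₀ i5
  exact rthkt_final_oddUW p W N hN hpN (rthkf_h5EW hp.out Y.hyp.hp2 h2N) Y h n qv hqv i1 i2 i3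
    𝔲 ℓ₀ i5

/-- **HK-CONC for `W`, EVEN levels**: the concrete contract gives the module side. -/
theorem rthkct_modSideEW (p : ℕ) (hTop : StmtHkConcTopEW p) : StmtHkModSideEW p := by
  intro _ W M q _ hΔ hss hirr hsq hpM h2M hq hqp hqM hunr hmod htriv Y h
  obtain ⟨d, hd, S', hpS', hNS', 𝕋₀, i1, J₀, i2, i3, i4, Tr₀, Φ0, hbase, hlev⟩ :=
    hTop W M q hΔ hss hirr hsq hpM h2M hq hqp hqM hunr hmod htriv Y h
  refine ⟨d, hd, S', hpS', hNS', 𝕋₀, i1, J₀, i2, i3, i4, Tr₀, Φ0, hbase, ?_⟩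
  intro n qv hqv
  obtain ⟨L, M', j1, j2, j3, 𝔲, ℓ₀, j4, H', J, j5, j6, j7, Tr, b, ψ1, ψχ, hside, hUJ⟩ :=
    hlev n qv hqv
  letI := rthkcaAlg Y.O (Y.m h) (n + 1)
  haveI := rthkca_tower Y.O (Y.m h) (n + 1)
  have hconc := rthk_conc_side hside
  have hW := rthk_conc hconc
  exact ⟨L, _, _, J, _, _, _, _, _, _, rthk_sub hW, hUJ⟩

/-- **HECKE-final for `W`, EVEN levels.** -/
theorem rthk_finalEW (p : ℕ) (hcheb : Cheb.WeakChebotarev) (hB : StmtHkAbsBW p)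
    (hL : StmtHkAbsLW) (hPack : StmtHkPackW p) (hRes : StmtHkResW p)
    (hMod : StmtHkModSideEW p) : StmtHeckeEW p := by
  intro _ W M q _ hΔ hss hirr hsq hpM h2M hq hqp hqM hunr hmod htriv Y h
  obtain ⟨⟨σ₀, τ₀, hξ⟩, hunip⟩ := hRes W M Y
  obtain ⟨d, hd, S', hpS', hNS', 𝕋₀, i1, J₀, i2, i3, i4, Tr₀, Φ0, hbase, hlev⟩ :=
    hMod W M q hΔ hss hirr hsq hpM h2M hq hqp hqM hunr hmod htriv Y h
  obtain ⟨B⟩ := hB hcheb W M Y d hd σ₀ τ₀ hξ S' hpS' hNS' 𝕋₀ J₀ Tr₀ Φ0 hbase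
  refine ⟨{ d := d, hd := hd, T0 := B.T0, j0 := B.j0, hj0 := B.hj0, ρ0 := B.ρ0, b0 := B.b0,
            hdet0 := B.hdet0, ι0 := B.ι0, hres0 := B.hres0, habs0 := B.habs0, S' := S',
            hpS' := B.hpS', hNS' := B.hNS', a := B.a, hocc := B.hocc, hcong := B.hcong,
            hfrob := B.hfrob, level := ?_ }⟩
  intro n qv hqv
  obtain ⟨L, 𝕋, j1, J, j2, j3, j4, Tr, Φ1, Φχ, hlevel, hUJ⟩ := hlev n qv hqv
  have htrace : ∀ ℓ : ℕ, ℓ.Prime → ℓ ∉ S' →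
      ∀ A : ValuationSubring (AlgebraicClosure ℚ), A.LiesOverPrime ℓ →
        ∀ τ : GQ, A.IsFrobeniusAt τ ℓ →
          B.j0 (LinearMap.trace B.T0 B.ρ0.V (B.ρ0.ρ τ)) = Φ0 (Tr₀ ℓ) := by
    intro ℓ hℓ hℓS A hA τ hτ
    have h1 := B.hfrob ⟨ℓ, hℓ⟩ hℓS A hA τ hτ
    rw [Fermat.Agent.S31.trace_of_charpoly B.ρ0.finrank_eq (B.ρ0.ρ τ) _ _ h1]
    exact B.ha0 ⟨ℓ, hℓ⟩ hℓS
  obtain ⟨A₀, k1, k2, k3, ιA, ρ, b, φ1, φχ, hout⟩ :=
    hL hcheb p Y.hyp.hp2 Y.O Y.lam Y.half Y.hlam Y.hyp.hp𝒪 (rthk_f_halfW Y) Y.ρbar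
      Y.hyp.habs Y.hyp.hdet Y.Smin (Finset.univ.image qv ∪ Finset.univ.image Y.r)
      (fun r _ hrp hrne => hunip r hrp hrne)
      Y.ι Y.σ Y.φ Y.tχ (Y.m h) h d (n + 1) hd (Nat.succ_pos n) σ₀ τ₀ hξ B.T0 B.j0 B.ρ0 B.b0
      B.u0 B.hdet0 B.hmat B.hu0 S' (fun ℓ => Φ0 (Tr₀ ℓ)) htrace L 𝕋 J Tr Φ1 Φχ hlevel hUJ
  have hdown := rthk_d_out (n := n) (Nat.le_succ n) hout
  exact hPack W M Y h d n (Finset.univ.image qv) B.T0 B.j0 _ _ A₀ ιA ρ b _ _ hdown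

/-- **HECKE-asm for `W` from the concrete contract, EVEN levels**, every proved input filled
in. -/
theorem rthkct_hecke_instEW (p : ℕ) (hTop : StmtHkConcTopEW p) : StmtHeckeEW p :=
  rthk_finalEW p Fermat.Agent.Cheb.weakChebotarev_holds (stmtHkAbsBW p) stmtHkAbsLW
    (stmtHkPackW p) (stmtHkResW p) (rthkct_modSideEW p hTop)

/-- **the concrete contract of the module side for `W`, EVEN levels**, every odd `p`, from the
leaf at `2`. -/
theorem stmtHkConcTopEW_of (p : ℕ) (hTwo : StmtHkfUnipTwoEW p) : StmtHkConcTopEW p :=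
  rthkf_topUEW K7F.stmtFlatH (rthkk5_mainEW K7F.stmtFlatH) (rthkt_finalUEW p)
    (rthkf_unipUEW_done hTwo)

/-- **HECKE for `W`, EVEN levels**, every odd `p`, from the leaf at `2`. -/
theorem stmtHeckeEW_of (p : ℕ) (hTwo : StmtHkfUnipTwoEW p) : StmtHeckeEW p :=
  rthkct_hecke_instEW p (stmtHkConcTopEW_of p hTwo)

/-- **HECKE for `W`, EVEN levels**, `5 ≤ p`: UNCONDITIONAL (the leaf at `2` is empty). -/
theorem stmtHeckeEW_of_five_le (p : ℕ) (hp5 : 5 ≤ p) : StmtHeckeEW p :=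
  stmtHeckeEW_of p (rthkf_unipTwoEW_of_five_le hp5)

/-- **THE K-MACHINE FOR `W` AT ONE `(W, M, q)`, EVEN level `M`**, `p = 3, 5`: from the Hecke
contract `StmtHeckeEW p` and INTERP at `(W, p, M, q)`. -/
theorem lowered_of_heckeEW_at {p : ℕ} [hp : Fact p.Prime] (hp35 : p = 3 ∨ p = 5)
    (hhecke : StmtHeckeEW p) (W : WeierstrassCurve ℤ) (hΔ : W.Δ ≠ 0)
    (hss : W.IsSemistableModel) (hirr : W.ModRepIsIrreducible p) (M q : ℕ) [NeZero M]
    (hsq : Squarefree M) (hpM : ¬ p ∣ M) (h2M : 2 ∣ M) (hq : q.Prime) (hqp : q ≠ p)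
    (hqM : q ∣ M)
    (hunr : s59lq_Unram W p q) (hmod : W.IsResiduallyModularOfLevel p M)
    (hall : ∀ r : ℕ, r.Prime → r ≠ p → r ∣ M → s59lq_Unram W p r → s59lq_IsTrivialPrime W p r)
    (hint : InterpAtW W p M q) : s59lq_Lowered W p M q := by
  obtain ⟨Y⟩ := stmtKSetupW p hp35 W hΔ hss hirr M hsq hmod hall
  obtain ⟨h, hh, hQ⟩ := stmtK3Sel Y.O p Y.ρbar (Y.Smin ∪ Finset.univ.image Y.r) Y.Smin
    (Finset.univ.image Y.r) Y.hyp Y.hT Finset.subset_union_right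
  obtain ⟨D⟩ := hhecke W M q hΔ hss hirr hsq hpM h2M hq hqp hqM hunr hmod hall Y h
  obtain ⟨E⟩ := rtpf_prodDataEW hint hq hqp hqM hunr Y h hh hQ D
  exact E.lowered

/-- **The K-machine for `W` at `p = 3`**, levels `M` prime to `3` with `M / q` even, from the
leaf at `2`. -/
theorem lowered_three_evenE (hTwo : StmtHkfUnipTwoEW 3) [hp : Fact (Nat.Prime 3)]
    (W : WeierstrassCurve ℤ) (hΔ : W.Δ ≠ 0)
    (hss : W.IsSemistableModel) (hirr : W.ModRepIsIrreducible 3) (M q : ℕ)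
    (hsq : Squarefree M) (hpM : ¬ 3 ∣ M) (hq : q.Prime) (hqp : q ≠ 3) (hqM : q ∣ M)
    (h2 : 2 ∣ M / q)
    (hunr : s59lq_Unram W 3 q) (hmod : W.IsResiduallyModularOfLevel 3 M)
    (hall : ∀ r : ℕ, r.Prime → r ≠ 3 → r ∣ M → s59lq_Unram W 3 r → s59lq_IsTrivialPrime W 3 r) :
    s59lq_Lowered W 3 M q := by
  haveI : NeZero M := ⟨fun h0 => by
    subst h0
    exact not_squarefree_zero hsq⟩
  have hgt := s59lk_trivial_gt (hall q hq hqp hqM hunr)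
  have h2M : 2 ∣ M := Dvd.dvd.trans h2 (Nat.div_dvd_of_dvd hqM)
  exact lowered_of_heckeEW_at (Or.inl rfl) (stmtHeckeEW_of 3 hTwo) W hΔ hss hirr M q hsq hpM h2M
    hq hqp hqM hunr hmod hall (interpAtW_even W hΔ 3 hirr (by decide) hsq hq (by omega) hqp hqM h2)

end Fermat.Agent.S59.LowK

end
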