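import Fermat.Agent.S59.LowK.ConcUnipUW
import Fermat.Agent.S59.LowK.ConcTrUW
import Fermat.Agent.S59.LowK.ConcK5W
import Fermat.Agent.S59.LowK.PackW
import Fermat.Agent.S59.LowK.AbsBW
import Fermat.Agent.S59.LowK.ProdInterpW
import Fermat.Agent.RT.K7F.Final
import Fermat.Agent.RT.K6.ChiJDiv5

/-!
# S59 M3/R1 (helper9): THE HECKE SIDE FOR `W`, `p ≥ 5`, UNCONDITIONAL

The K-machine for a general semistable `W` at the levels prime to `p`, `p ≥ 5`, with all its
inputs filled in — at the BIG modulus `M' = rthkfMUW Y qv` (`ConcFinalPlanUW.lean`), where the leaf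
HK-UNIP-W follows from K6:

* K7-FLAT `K7F.stmtFlatH`, K6 `K6.rtk6c4at_stmtChiJDiv5`;
* the K5 side `rthkk5_mainW` (helper22), the K6 side `rthkt_finalUW` (helper97), the unipotency
  `rthkf_unipUW` and the glue `rthkf_topUW` (helper9; K6 core `UnipK6.lean` helper22, recipe
  helper4);
* HK-ABS-B `stmtHkAbsBW` (helper27), HK-ABS-L / HECKE-PACK / HK-RES / the top (helper59).

Results:

* `stmtHkConcTopW_of_five_le : 5 ≤ p → StmtHkConcTopW p`;
* **`stmtHeckeW_of_five_le : 5 ≤ p → StmtHeckeW p`**;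
* **`stmtTRFlatW_five_done : StmtTRFlatW 5`** : level lowering for `W` at `p = 5` at the levels
  prime to `5` (`s59lq_StmtTR 5` at the flat levels).
-/

set_option autoImplicit false

namespace Fermat.Agent.S59.LowK

open Fermat.Agent.RT

/-- **the concrete contract of the module side for `W`**, `p ≥ 5`, unconditional -/
theorem stmtHkConcTopW_of_five_le (p : ℕ) (hp5 : 5 ≤ p) : StmtHkConcTopW p :=
  rthkf_topU5W hp5 K7F.stmtFlatH K6.rtk6c4at_stmtChiJDiv5 (rthkk5_mainW K7F.stmtFlatH hp5)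
    (rthkt_finalUW p hp5)

/-- **HECKE for `W`**, `p ≥ 5`, unconditional -/
theorem stmtHeckeW_of_five_le (p : ℕ) (hp5 : 5 ≤ p) : StmtHeckeW p :=
  rthkct_hecke_instW p (stmtHkAbsBW p) (stmtHkConcTopW_of_five_le p hp5)

/-- **The K-machine for `W` at `p = 5`**, levels prime to `5`, unconditional. -/
theorem stmtTRFlatW_five_done : StmtTRFlatW 5 :=
  stmtTRFlatW_five (stmtHeckeW_of_five_le 5 (by norm_num))

end Fermat.Agent.S59.LowK
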