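/-
S59, walls M3 / R1 (K-machine for a general semistable `W`), helper59: **the Hecke side for `W`,
`p ≥ 5`, from its TWO open inputs.**

`StmtHeckeW p` (`S59/LowK/FinalPlanW.lean`, helper22) is the contract HECKE of the K-machine for
`W` at the levels prime to `p` (consumer: helper70's `stmtTRFlatW_of_contracts`).

Proved and filled in: weak Chebotarev, HK-ABS-B (helper27's `stmtHkAbsBW`), HK-ABS-L for a general
`Smin` (`stmtHkAbsLW`), HECKE-PACK (`stmtHkPackW`), HK-RES (`stmtHkResW`), K7-FLAT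
(`K7F.stmtFlatH`), the K5 side (helper22's `rthkk5_mainW`), the final glue (helper9's
`rthkf_top'W`).

OPEN: `StmtHkfTrW p` (the K6 side: the characters `ψ1, ψχ`) and `StmtHkfUnipW p` (leaf
HK-UNIP-W: unipotent inertia at the non-rigid primes of `Smin` on the concrete `J`).

* `rthkhd_heckeW : 5 ≤ p → StmtHkfTrW p → StmtHkfUnipW p → StmtHeckeW p`.
-/
import Fermat.Agent.S59.LowK.ConcK5DoneW
import Fermat.Agent.S59.LowK.AbsBW

set_option autoImplicit false

namespace Fermat.Agent.S59.LowK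

/-- **HECKE for `W`**, `p ≥ 5`, from the K6 side and HK-UNIP-W. -/
theorem rthkhd_heckeW {p : ℕ} (hp5 : 5 ≤ p) (hTr : StmtHkfTrW p) (hU : StmtHkfUnipW p) :
    StmtHeckeW p :=
  rthkk5d_heckeW hp5 (stmtHkAbsBW p) hTr hU

end Fermat.Agent.S59.LowK
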