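import Fermat.Agent.S59.LowK.ConcTopW
import Fermat.Agent.S59.LowK.PackW
import Fermat.Agent.S59.LowK.AbsBW

/-!
# S59 wall R1, the feed at the MINIMAL level (helper9): the Hecke side for `W` WITHOUT a prime `q`

The contracts of the cone (`StmtHeckeW p`, `StmtHkModSideW p`, `StmtHkConcTopW p`, helper22 /
helper59) carry the hypotheses of LEVEL LOWERING: a prime `q ∣ M`, `q ≠ p`, at which `ρ̄` is
unramified, and "the unramified primes of `M` are trivial".  At the minimal level of R1 there is no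
such prime.  The proofs use `q` only for `2 ≤ M`.  This file restates the top of the cone at ONE
setup `Y`, with no hypothesis prefix:

* `HkConcTopAtW Y h` : the body of `StmtHkConcTopW p` at `Y`, `h`;
* `HkModSideAtW Y h` : the body of `StmtHkModSideW p` at `Y`, `h`;
* `rthkct_modSide_atW : HkConcTopAtW Y h → HkModSideAtW Y h` (the proof of `rthkct_modSideW`);
* `rthk_final_atW : … → HkModSideAtW Y h → Nonempty (HeckeDataW Y h)` (the proof of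
  `rthk_finalW`, helper59); `rthkct_hecke_atW : HkConcTopAtW Y h → Nonempty (HeckeDataW Y h)`
  with HK-ABS-B, HK-ABS-L, HECKE-PACK, HK-RES and weak Chebotarev filled in;
* `StmtHeckeNW p` : HECKE for `W` with `2 ≤ M` instead of the prime `q`;
  `stmtHeckeW_of_NW : StmtHeckeNW p → StmtHeckeW p`.
-/

set_option autoImplicit false
set_option linter.unusedSectionVars false
set_option linter.unusedVariables false
set_option linter.style.haveILetI false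
set_option linter.style.longLine false

noncomputable section

namespace Fermat.Agent.S59.LowK

open IsLocalRing Fermat.Agent.ES Fermat.Agent.S30 Fermat.Agent.W1 Fermat.Agent.TW
open Fermat.Agent.ES1 Fermat.Agent.RT Fermat.Agent.RT.K5 Fermat.Agent.RT.Prod
open Fermat.Agent.S59.LowQ
open ExtCitation WeierstrassCurve WeierstrassCurve.Affine WeierstrassCurve.Affine.Point
open scoped MatrixGroups

/-- the body of `StmtHkConcTopW p` at one setup `Y` and `h` -/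
def HkConcTopAtW {W : WeierstrassCurve ℤ} {p M : ℕ} [Fact p.Prime] [NeZero M]
    (Y : s59lk_KSetupW W p M) (h : ℕ) : Prop :=
    ∃ (d : ℕ) (_ : 0 < d) (S' : Finset ℕ) (_ : p ∈ S')
      (_ : ∀ ℓ : ℕ, ℓ.Prime → ℓ ∣ M → ℓ ∈ S')
      (𝕋₀ : Type) (_ : CommRing 𝕋₀) (J₀ : Type) (_ : AddCommGroup J₀) (_ : Module 𝕋₀ J₀)
      (_ : DistribMulAction GQ J₀) (Tr₀ : ℕ → 𝕋₀)
      (Φ0 : 𝕋₀ →+* Matrix (Fin d) (Fin d) Y.O),
      HkBase p Y.ρbar M S' d J₀ Tr₀ Φ0 ∧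
      ∀ (n : ℕ) (qv : Fin h → ℕ),
        IsTWFamily p Y.ρbar (Y.Smin ∪ Finset.univ.image Y.r) n h qv →
        ∃ (L M' : ℕ) (_ : NeZero L) (_ : NeZero M') (_ : Fact (M' ∣ L))
          (𝔲 : NatFam Y.O L M') (ℓ₀ : ℕ) (_ : NeZero ℓ₀) (H' : Subgroup (ZMod M')ˣ)
          (J : Type) (_ : AddCommGroup J) (_ : Module (HDAlg M') J)
          (_ : DistribMulAction GQ J) (Tr : ℕ → HDAlg M')
          (b : Fin d → rthkdX 𝔲 ℓ₀ H' (n + 1))
          (ψ1 ψχ : RthkdDelta M' H' →* RthkSn Y.O (Y.m h) (n + 1)),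
          HkConcSide p Y.lam Y.ρbar
            (Y.Smin ∪ (Finset.univ.image qv ∪ Finset.univ.image Y.r)) Y.σ Y.tχ (Y.m h) h d
            (n + 1) (fun ℓ => Φ0 (Tr₀ ℓ)) L M' 𝔲 ℓ₀ H' J Tr b ψ1 ψχ ∧
          HkUnipJ p Y.Smin J

/-- the body of `StmtHkModSideW p` at one setup `Y` and `h` -/
def HkModSideAtW {W : WeierstrassCurve ℤ} {p M : ℕ} [Fact p.Prime] [NeZero M]
    (Y : s59lk_KSetupW W p M) (h : ℕ) : Prop :=
    ∃ (d : ℕ) (_ : 0 < d) (S' : Finset ℕ) (_ : p ∈ S')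
      (_ : ∀ ℓ : ℕ, ℓ.Prime → ℓ ∣ M → ℓ ∈ S')
      (𝕋₀ : Type) (_ : CommRing 𝕋₀) (J₀ : Type) (_ : AddCommGroup J₀) (_ : Module 𝕋₀ J₀)
      (_ : DistribMulAction GQ J₀) (Tr₀ : ℕ → 𝕋₀)
      (Φ0 : 𝕋₀ →+* Matrix (Fin d) (Fin d) Y.O),
      HkBase p Y.ρbar M S' d J₀ Tr₀ Φ0 ∧
      ∀ (n : ℕ) (qv : Fin h → ℕ),
        IsTWFamily p Y.ρbar (Y.Smin ∪ Finset.univ.image Y.r) n h qv →
        ∃ (L : ℕ) (𝕋 : Type) (_ : CommRing 𝕋) (J : Type) (_ : AddCommGroup J)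
          (_ : Module 𝕋 J) (_ : DistribMulAction GQ J) (Tr : ℕ → 𝕋)
          (Φ1 Φχ : 𝕋 →+* Matrix (Fin d) (Fin d) (RthkSn Y.O (Y.m h) (n + 1))),
          HkLevel p Y.lam Y.ρbar
            (Y.Smin ∪ (Finset.univ.image qv ∪ Finset.univ.image Y.r)) Y.σ Y.tχ (Y.m h) h d
            (n + 1) (fun ℓ => Φ0 (Tr₀ ℓ)) L J Tr Φ1 Φχ ∧
          HkUnipJ p Y.Smin J

theorem stmtHkConcTopW_iff_at (p : ℕ) : StmtHkConcTopW p ↔
    ∀ [Fact p.Prime] (W : WeierstrassCurve ℤ) (M q : ℕ) [NeZero M], W.Δ ≠ 0 →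
      W.IsSemistableModel → W.ModRepIsIrreducible p → Squarefree M → ¬ p ∣ M → q.Prime →
      q ≠ p → q ∣ M → s59lq_Unram W p q → W.IsResiduallyModularOfLevel p M →
      (∀ r : ℕ, r.Prime → r ≠ p → r ∣ M → s59lq_Unram W p r → s59lq_IsTrivialPrime W p r) →
      ∀ (Y : s59lk_KSetupW W p M) (h : ℕ), HkConcTopAtW Y h :=
  Iff.rfl

section atY

variable {W : WeierstrassCurve ℤ} {p M : ℕ} [hp : Fact p.Prime] [NeZero M]
  (Y : s59lk_KSetupW W p M) (h : ℕ)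

/-- **HK-CONC at one setup**: the concrete contract gives the module side. -/
theorem rthkct_modSide_atW (hTop : HkConcTopAtW Y h) : HkModSideAtW Y h := by
  obtain ⟨d, hd, S', hpS', hNS', 𝕋₀, i1, J₀, i2, i3, i4, Tr₀, Φ0, hbase, hlev⟩ := hTop
  refine ⟨d, hd, S', hpS', hNS', 𝕋₀, i1, J₀, i2, i3, i4, Tr₀, Φ0, hbase, ?_⟩
  intro n qv hqv
  obtain ⟨L, M', j1, j2, j3, 𝔲, ℓ₀, j4, H', J, j5, j6, j7, Tr, b, ψ1, ψχ, hside, hUJ⟩ :=
    hlev n qv hqv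
  letI := rthkcaAlg Y.O (Y.m h) (n + 1)
  haveI := rthkca_tower Y.O (Y.m h) (n + 1)
  have hconc := rthk_conc_side hside
  have hW := rthk_conc hconc
  exact ⟨L, _, _, J, _, _, _, _, _, _, rthk_sub hW, hUJ⟩

/-- **HECKE-final at one setup** (the proof of `rthk_finalW`). -/
theorem rthk_final_atW (hcheb : Cheb.WeakChebotarev) (hB : StmtHkAbsBW p)
    (hL : StmtHkAbsLW) (hPack : StmtHkPackW p) (hRes : StmtHkResW p)
    (hMod : HkModSideAtW Y h) : Nonempty (HeckeDataW Y h) := by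
  obtain ⟨⟨σ₀, τ₀, hξ⟩, hunip⟩ := hRes W M Y
  obtain ⟨d, hd, S', hpS', hNS', 𝕋₀, i1, J₀, i2, i3, i4, Tr₀, Φ0, hbase, hlev⟩ := hMod
  obtain ⟨B⟩ := hB hcheb W M Y d hd σ₀ τ₀ hξ S' hpS' hNS' 𝕋₀ J₀ Tr₀ Φ0 hbase
  refine ⟨{ d := d, hd := hd, T0 := B.T0, j0 := B.j0, hj0 := B.hj0, ρ0 := B.ρ0, b0 := B.b0,
            hdet0 := B.hdet0, ι0 := B.ι0, hres0 := B.hres0, habs0 := B.habs0, S' := S',
            hpS' := B.hpS', hNS' := B.hNS', a := B.a, hocc := B.hocc, hcong := B.hcong,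
            hfrob := B.hfrob, level := ?_ }⟩
  intro n qv hqv
  obtain ⟨L, 𝕋, j1, J, j2, j3, j4, Tr, Φ1, Φχ, hlevel, hUJ⟩ := hlev n qv hqv
  have htrace : ∀ ℓ : ℕ, ℓ.Prime → ℓ ∉ S' →
      ∀ A : ValuationSubring (AlgebraicClosure ℚ), A.LiesOverPrime ℓ →
        ∀ τ : GQ, A.IsFrobeniusAt τ ℓ →
          B.j0 (LinearMap.trace B.T0 B.ρ0.V (B.ρ0.ρ τ)) = Φ0 (Tr₀ ℓ) := by
    intro ℓ hℓ hℓS A hA τ hτ
    have h1 := B.hfrob ⟨ℓ, hℓ⟩ hℓS A hA τ hτ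
    rw [Fermat.Agent.S31.trace_of_charpoly B.ρ0.finrank_eq (B.ρ0.ρ τ) _ _ h1]
    exact B.ha0 ⟨ℓ, hℓ⟩ hℓS
  obtain ⟨A₀, k1, k2, k3, ιA, ρ, b, φ1, φχ, hout⟩ :=
    hL hcheb p Y.hyp.hp2 Y.O Y.lam Y.half Y.hlam Y.hyp.hp𝒪 (rthk_f_halfW Y) Y.ρbar
      Y.hyp.habs Y.hyp.hdet Y.Smin (Finset.univ.image qv ∪ Finset.univ.image Y.r)
      (fun r _ hrp hrne => hunip r hrp hrne)
      Y.ι Y.σ Y.φ Y.tχ (Y.m h) h d (n + 1) hd (Nat.succ_pos n) σ₀ τ₀ hξ B.T0 B.j0 B.ρ0 B.b0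
      B.u0 B.hdet0 B.hmat B.hu0 S' (fun ℓ => Φ0 (Tr₀ ℓ)) htrace L 𝕋 J Tr Φ1 Φχ hlevel hUJ
  have hdown := rthk_d_out (n := n) (Nat.le_succ n) hout
  exact hPack W M Y h d n (Finset.univ.image qv) B.T0 B.j0 _ _ A₀ ιA ρ b _ _ hdown

/-- **HECKE at one setup from the concrete contract** (HK-ABS-B, HK-ABS-L, HECKE-PACK, HK-RES,
weak Chebotarev filled in). -/
theorem rthkct_hecke_atW (hTop : HkConcTopAtW Y h) : Nonempty (HeckeDataW Y h) :=
  rthk_final_atW Y h Fermat.Agent.Cheb.weakChebotarev_holds (stmtHkAbsBW p) stmtHkAbsLW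
    (stmtHkPackW p) (stmtHkResW p) (rthkct_modSide_atW Y h hTop)

end atY

/-- **HECKE for `W` without the prime `q`** (levels `M ≥ 2` prime to `p`): over every setup,
for every `h`, the Hecke side delivers its data.  This is the form which R1 (the minimal level)
needs. -/
def StmtHeckeNW (p : ℕ) : Prop :=
  ∀ [Fact p.Prime] (W : WeierstrassCurve ℤ) (M : ℕ) [NeZero M], W.Δ ≠ 0 →
    W.IsSemistableModel → W.ModRepIsIrreducible p → Squarefree M → ¬ p ∣ M → 2 ≤ M →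
    W.IsResiduallyModularOfLevel p M →
    ∀ (Y : s59lk_KSetupW W p M) (h : ℕ), Nonempty (HeckeDataW Y h)

/-- the form with the prime `q` follows -/
theorem stmtHeckeW_of_NW {p : ℕ} (hN : StmtHeckeNW p) : StmtHeckeW p := by
  intro _ W M q _ hΔ hss hirr hsq hpM hq hqp hqM hunr hmod htriv Y h
  exact hN W M hΔ hss hirr hsq hpM
    (le_trans hq.two_le (Nat.le_of_dvd (Nat.pos_of_ne_zero (NeZero.ne M)) hqM)) hmod Y h

end Fermat.Agent.S59.LowK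

end
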