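import Fermat.Agent.S59.LowK.NZIntrW

/-!
# S59, walls M3 / R1, K-machine for a general curve: the `W`-twin of the projector forms of
`RT/K5/NZSetup.lean` (helper46)

`S59/LowK/NZIntrW.lean` (helper22) holds the twins of the intrinsic forms (`k5nzBadW`,
`k5nz_setup_intrW`, `k5nz_setup_intrMemW`).  Here: the twins of the two projector forms, with
the SAME set `Sbad = k5nzBadW W p N`:

* `k5nz_setupW` (twin of `k5nz_setup`): for every projector `k5lcExpr ℓ a n l` (`n > 0`,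
  `ℓ i ∉ Sbad` primes, `a i = a_{ℓ i}(W)`), every prime `ℓ₀ ∉ Sbad` with `a_ℓ₀(W) ≢ ℓ₀ + 1` and
  every `ν ≥ 1` the `Θ`-part of `Hom(Γ₀(N), 𝒪 ⧸ 𝔪 ^ ν)` contains a nonzero parabolic eigenvector;
* `k5nz_setup_existsW` (twin of `k5nz_setup_exists`): such primes `ℓ₀` exist outside every
  finite set (`rthk_r_nonEisW`).
-/

set_option autoImplicit false
set_option linter.style.haveILetI false
set_option linter.unusedSectionVars false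
set_option linter.unusedVariables false

noncomputable section

namespace Fermat.Agent.S59.LowK

open CongruenceSubgroup Matrix ModularCurve ModularCurve.Period ModularFormClass
open scoped MatrixGroups
open Fermat.Agent.ES1 (gammaH diamHom pmH)
open Fermat.Agent.ES Fermat.Agent.RT.Base Fermat.Agent.RT Fermat.Agent.RT.Prod
  Fermat.Agent.RT.K5 IsLocalRing
open WeierstrassCurve WeierstrassCurve.Affine WeierstrassCurve.Affine.Point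

section setup

variable {W : WeierstrassCurve ℤ} {p N : ℕ} [hp : Fact p.Prime] [NeZero N]

/-- the congruences of the residual modularity of `W` in the form of `k5nz_lc` -/
theorem k5nz_keyW (hΔ : W.Δ ≠ 0) (f : CuspForm (Gamma0 N) 2) (𝔪 : Ideal Zbar)
    (hcong : ∀ ℓ : ℕ, ℓ.Prime → W.IsGoodPrimeFor ℓ → ¬ ℓ ∣ N → ℓ ≠ p →
      ∃ a : integralClosure ℤ ℂ, (a : ℂ) = ModularFormClass.qCoeff f ℓ ∧
        a - ((W.apOfModel ℓ : ℤ) : integralClosure ℤ ℂ) ∈ 𝔪)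
    (x : ℕ) (hx : x.Prime) (hxS : x ∉ k5nzBadW W p N) :
    x.Prime ∧ ¬ x ∣ N ∧ x ≠ p ∧
      ∃ z ∈ 𝔪, (z : ℂ) = qCoeff ⇑f x - ((W.apOfModel x : ℤ) : ℂ) := by
  obtain ⟨h1, h2, h3⟩ := k5nz_not_mem_badW (p := p) (N := N) hΔ hx hxS
  obtain ⟨a, ha, ha𝔪⟩ := hcong x hx h3 h2 h1
  refine ⟨hx, h2, h1, a - ((W.apOfModel x : ℤ) : Zbar), ha𝔪, ?_⟩
  rw [← ha]
  push_cast
  rfl

/-- **K5-NZ over a setup for `W`, projector form** (twin of `k5nz_setup`). -/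
theorem k5nz_setupW (Y : s59lk_KSetupW W p N) (hΔ : W.Δ ≠ 0)
    (hmod : W.IsResiduallyModularOfLevel p N) :
    ∃ Sbad : Finset ℕ, p ∈ Sbad ∧ (∀ ℓ : ℕ, ℓ.Prime → ℓ ∣ N → ℓ ∈ Sbad) ∧
      (∀ ℓ : ℕ, ℓ.Prime → ℓ ∉ Sbad → W.IsGoodPrimeFor ℓ) ∧
      ∀ (M : ℕ) [Fact (M ∣ N)] {ι : Type} (ℓ : ι → ℕ) (n : ℕ), 0 < n → ∀ l : List ι,
        (∀ i ∈ l, (ℓ i).Prime ∧ ℓ i ∉ Sbad) →
        ∀ (ℓ₀ : ℕ) [NeZero ℓ₀], ℓ₀.Prime → ℓ₀ ∉ Sbad →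
          ((W.apOfModel ℓ₀ : ℤ) : ResidueField Y.O) ≠ (ℓ₀ : ResidueField Y.O) + 1 →
          ∀ ν : ℕ, 0 < ν →
            ∃ φ ∈ etaPart (thetaN
                ((k5lcExpr ℓ (fun i => ((W.apOfModel (ℓ i) : ℤ) : Y.O)) n l).eval N M) ℓ₀
                (Y.O ⧸ maximalIdeal Y.O ^ ν) (⊤ : Subgroup (ZMod M)ˣ)), φ ≠ 0 ∧
              IsParabolicHom (gammaH N M (⊤ : Subgroup (ZMod M)ˣ)) φ ∧
              tS N M ℓ₀ ⊤ (Y.O ⧸ maximalIdeal Y.O ^ ν) φ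
                = ((W.apOfModel ℓ₀ : ℤ) : Y.O) • φ ∧
              ∀ i ∈ l, ∀ [NeZero (ℓ i)], tS N M (ℓ i) ⊤ (Y.O ⧸ maximalIdeal Y.O ^ ν) φ
                = ((W.apOfModel (ℓ i) : ℤ) : Y.O) • φ := by
  obtain ⟨f, 𝔪, hf, h𝔪max, hp𝔪, hcong⟩ := hmod
  refine ⟨k5nzBadW W p N, k5nz_p_mem_badW, fun ℓ hℓ hℓN => k5nz_mem_badW_of_dvd hℓ hℓN,
    fun ℓ hℓ hℓS => (k5nz_not_mem_badW (p := p) (N := N) hΔ hℓ hℓS).2.2, ?_⟩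
  intro M _ ι ℓ n hn l hl ℓ₀ _ hℓ₀ hℓ₀S hne ν hν
  have key := k5nz_keyW (p := p) (N := N) hΔ f 𝔪 hcong
  have hne' : ((W.apOfModel ℓ₀ : ℤ) : Y.O) - ((ℓ₀ : Y.O) + 1) ∉ maximalIdeal Y.O := by
    intro hmem
    apply hne
    have h0 := (residue_eq_zero_iff _).mpr hmem
    rw [map_sub, map_add, map_one, map_intCast, map_natCast, sub_eq_zero] at h0
    exact h0
  obtain ⟨φ, hφ, hφ0, hφP, hφ₀, hφl⟩ := k5nz_lc (𝒪 := Y.O) (M := M) (p := p) Y.hyp.hp𝒪 f hf 𝔪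
    h𝔪max.ne_top hp𝔪 ℓ (fun x => W.apOfModel x) n hn l
    (fun i hi => key (ℓ i) (hl i hi).1 (hl i hi).2) ℓ₀ (key ℓ₀ hℓ₀ hℓ₀S) hne' ν hν
  exact ⟨φ, hφ, hφ0, hφP, hφ₀, hφl⟩

/-- **K5-NZ over a setup for `W`, with the auxiliary prime** (twin of `k5nz_setup_exists`):
outside every finite set there is a prime `ℓ₀` as in `k5nz_setupW`. -/
theorem k5nz_setup_existsW (hcheb : Cheb.WeakChebotarev) (Y : s59lk_KSetupW W p N)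
    (hΔ : W.Δ ≠ 0) (hmod : W.IsResiduallyModularOfLevel p N) :
    ∃ Sbad : Finset ℕ, p ∈ Sbad ∧ (∀ ℓ : ℕ, ℓ.Prime → ℓ ∣ N → ℓ ∈ Sbad) ∧
      (∀ ℓ : ℕ, ℓ.Prime → ℓ ∉ Sbad → W.IsGoodPrimeFor ℓ) ∧
      ∀ S₀ : Finset ℕ, ∃ ℓ₀ : ℕ, ℓ₀.Prime ∧ ℓ₀ ∉ S₀ ∧ ℓ₀ ∉ Sbad ∧
        ((W.apOfModel ℓ₀ : ℤ) : ResidueField Y.O) ≠ (ℓ₀ : ResidueField Y.O) + 1 ∧
        ∀ (M : ℕ) [Fact (M ∣ N)] [NeZero ℓ₀] {ι : Type} (ℓ : ι → ℕ) (n : ℕ), 0 < n →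
          ∀ l : List ι, (∀ i ∈ l, (ℓ i).Prime ∧ ℓ i ∉ Sbad) → ∀ ν : ℕ, 0 < ν →
            ∃ φ ∈ etaPart (thetaN
                ((k5lcExpr ℓ (fun i => ((W.apOfModel (ℓ i) : ℤ) : Y.O)) n l).eval N M) ℓ₀
                (Y.O ⧸ maximalIdeal Y.O ^ ν) (⊤ : Subgroup (ZMod M)ˣ)), φ ≠ 0 := by
  obtain ⟨Sbad, h1, h2, h3, h4⟩ := k5nz_setupW Y hΔ hmod
  refine ⟨Sbad, h1, h2, h3, fun S₀ => ?_⟩
  obtain ⟨ℓ₀, hℓ₀, hℓ₀S, -, -, hne, -⟩ := rthk_r_nonEisW Y hΔ hcheb (S₀ ∪ Sbad)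
  rw [Finset.mem_union, not_or] at hℓ₀S
  refine ⟨ℓ₀, hℓ₀, hℓ₀S.1, hℓ₀S.2, hne, fun M _ _ ι ℓ n hn l hl ν hν => ?_⟩
  obtain ⟨φ, hφ, hφ0, -⟩ := h4 M ℓ n hn l hl ℓ₀ hℓ₀ hℓ₀S.2 hne ν hν
  exact ⟨φ, hφ, hφ0⟩

end setup

end Fermat.Agent.S59.LowK

end
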