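/-
S59, walls M3 / R1, the K-machine for a general curve `W`: KSETUP-W over the BIG coefficient
ring (helper22; asked by the captain: R1 must run over the SAME `𝒪` as R2 / GEN).

`s59lk_exists_setupW` (SetupW.lean) produces the setup over `k1o2Ring p` only.  Here the
coefficient ring is ANY complete discrete valuation ring `𝒪` of characteristic `0` with finite
residue field and a local homomorphism `φ : ℤ_[p] →+* 𝒪` in which the monic integer polynomial

  `s59lkP0 p = Φ_p · ∏_{a, b < p} (X² + a X + b)`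

splits (E-BIG, `s59big_isBig`, gives such a ring for every monic `P₀` of our choice).

* `s59lkP0 p`, `s59lkP0_monic`;
* `s59lkbig_exists_zeta` : a primitive `p`-th root of unity in `𝒪`;
* `s59lkbig_hK` : every monic quadratic polynomial over `𝔽_p` splits in the residue field;
* `s59lkbig_isUnit_two`, `s59lkbig_exists_sqrt` (Hensel);
* `s59lkbig_twHyp` : `TWHyp 𝒪 p (s59feBar W hΔ p φ hφ) S (s59feSmin W hΔ p)`;
* `s59lk_setupBigW … : s59lk_KSetupW W p M`, a DEFINITION with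
  `.O = 𝒪`, `.ρbar = s59feBar W hΔ p φ hφ`, `.Smin = s59feSmin W hΔ p`,
  `.ι = s59lkT W hΔ p M`, `.r = Subtype.val`  (all by `rfl`: `s59lk_setupBigW_O`, `_rho`, `_Smin`,
  `_r`), and `s59lk_exists_setupBigW` (the `Nonempty` form).
-/
import Fermat.Agent.S59.LowK.SetupW

set_option autoImplicit false
set_option linter.unusedSectionVars false
set_option linter.unusedVariables false
set_option linter.style.haveILetI false
set_option linter.style.longLine false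

noncomputable section

namespace Fermat.Agent.S59.LowK

open IsLocalRing Polynomial Fermat.Agent.TW Fermat.Agent.RT Fermat.Agent.RT.K1
  Fermat.Agent.RT.Prod Fermat.Agent.EC Fermat.Agent.S59 Fermat.Agent.S59.LowQ ExtCitation
open WeierstrassCurve WeierstrassCurve.Affine WeierstrassCurve.Affine.Point

/-! ### The polynomial `P₀` -/

/-- the quadratic polynomial `X² + a X + b` -/
def s59lkQuad (a b : ℕ) : ℤ[X] := X ^ 2 + (C (a : ℤ) * X + C (b : ℤ))

theorem s59lkQuad_monic (a b : ℕ) : (s59lkQuad a b).Monic :=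
  monic_X_pow_add (lt_of_le_of_lt (degree_linear_le) (by norm_num))

theorem s59lkQuad_natDegree (a b : ℕ) : (s59lkQuad a b).natDegree = 2 := by
  have h : (C (a : ℤ) * X + C (b : ℤ) : ℤ[X]).degree < ((X : ℤ[X]) ^ 2).degree := by
    rw [degree_X_pow]
    exact lt_of_le_of_lt degree_linear_le (by norm_num)
  rw [s59lkQuad, natDegree_add_eq_left_of_degree_lt h, natDegree_X_pow]

/-- **the polynomial to split**: `Φ_p · ∏_{a, b < p} (X² + a X + b)` -/
def s59lkP0 (p : ℕ) : ℤ[X] :=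
  cyclotomic p ℤ * ∏ a ∈ Finset.range p, ∏ b ∈ Finset.range p, s59lkQuad a b

theorem s59lkP0_monic (p : ℕ) : (s59lkP0 p).Monic :=
  (cyclotomic.monic p ℤ).mul
    (monic_prod_of_monic _ _ fun a _ => monic_prod_of_monic _ _ fun b _ => s59lkQuad_monic a b)

section Big

variable {p : ℕ} [hp : Fact p.Prime] {𝒪 : Type} [CommRing 𝒪] [IsDomain 𝒪]

theorem s59lkbig_map_ne_zero : (s59lkP0 p).map (Int.castRingHom 𝒪) ≠ 0 :=
  ((s59lkP0_monic p).map _).ne_zero

theorem s59lkbig_cyclo_splits (hsp : ((s59lkP0 p).map (Int.castRingHom 𝒪)).Splits) :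
    (cyclotomic p 𝒪).Splits := by
  refine hsp.of_dvd s59lkbig_map_ne_zero ?_
  rw [s59lkP0, Polynomial.map_mul, map_cyclotomic]
  exact dvd_mul_right _ _

theorem s59lkbig_quad_splits (hsp : ((s59lkP0 p).map (Int.castRingHom 𝒪)).Splits) {a b : ℕ}
    (ha : a < p) (hb : b < p) : ((s59lkQuad a b).map (Int.castRingHom 𝒪)).Splits := by
  refine hsp.of_dvd s59lkbig_map_ne_zero (Polynomial.map_dvd _ ?_)
  rw [s59lkP0]
  refine Dvd.dvd.mul_left ?_ _
  exact (Finset.dvd_prod_of_mem _ (Finset.mem_range.2 hb)).trans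
    (Finset.dvd_prod_of_mem (fun a => ∏ b ∈ Finset.range p, s59lkQuad a b)
      (Finset.mem_range.2 ha))

/-- **a primitive `p`-th root of unity** -/
theorem s59lkbig_exists_zeta [CharZero 𝒪]
    (hsp : ((s59lkP0 p).map (Int.castRingHom 𝒪)).Splits) : ∃ ζ : 𝒪, IsPrimitiveRoot ζ p := by
  haveI : NeZero (p : 𝒪) := ⟨Nat.cast_ne_zero.2 hp.out.ne_zero⟩
  have hdeg : (cyclotomic p 𝒪).degree ≠ 0 := by
    rw [degree_cyclotomic, Nat.totient_prime hp.out]
    have := hp.out.two_le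
    intro h
    have h' : p - 1 = 0 := by exact_mod_cast h
    omega
  obtain ⟨ζ, hζ⟩ := (s59lkbig_cyclo_splits hsp).exists_eval_eq_zero hdeg
  exact ⟨ζ, isRoot_cyclotomic_iff.1 hζ⟩

variable [IsDiscreteValuationRing 𝒪]

/-- **every monic quadratic polynomial over `𝔽_p` splits in the residue field** -/
theorem s59lkbig_hK (hsp : ((s59lkP0 p).map (Int.castRingHom 𝒪)).Splits)
    (ψ : ZMod p →+* ResidueField 𝒪) (f : (ZMod p)[X]) (hf : f.Monic) (hd : f.natDegree = 2) :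
    ∃ α β : ResidueField 𝒪, f.map ψ = (X - C α) * (X - C β) := by
  have hdeg : ((s59lkQuad (f.coeff 1).val (f.coeff 0).val).map (Int.castRingHom 𝒪)).degree
      ≠ 0 := by
    have hnd : ((s59lkQuad (f.coeff 1).val (f.coeff 0).val).map
        (Int.castRingHom 𝒪)).natDegree = 2 := by
      rw [(s59lkQuad_monic _ _).natDegree_map, s59lkQuad_natDegree]
    intro h0
    have h1 := natDegree_eq_zero_iff_degree_le_zero.2 (le_of_eq h0)
    omega
  obtain ⟨x, hx⟩ := (s59lkbig_quad_splits hsp (ZMod.val_lt (f.coeff 1))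
    (ZMod.val_lt (f.coeff 0))).exists_eval_eq_zero hdeg
  have hx' : x ^ 2 + ((((f.coeff 1).val : ℕ) : 𝒪) * x + (((f.coeff 0).val : ℕ) : 𝒪)) = 0 := by
    have := hx
    simp only [s59lkQuad, Polynomial.map_add, Polynomial.map_pow, Polynomial.map_mul, map_X,
      eval_add, eval_pow, eval_mul, eval_X, eq_intCast,
      Int.cast_natCast, Polynomial.map_natCast, eval_natCast] at this
    exact this
  have hroot : (f.map ψ).IsRoot (residue 𝒪 x) := by
    rw [IsRoot.def, eval_map, hf.as_sum, hd]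
    simp only [Finset.sum_range_succ, Finset.sum_range_zero, zero_add, pow_zero, mul_one,
      pow_one, eval₂_add, eval₂_pow, eval₂_X, eval₂_mul, eval₂_C]
    have h1 : ψ (f.coeff 1) = (((f.coeff 1).val : ℕ) : ResidueField 𝒪) := by
      conv_lhs => rw [← ZMod.natCast_zmod_val (f.coeff 1)]
      rw [map_natCast]
    have h0 : ψ (f.coeff 0) = (((f.coeff 0).val : ℕ) : ResidueField 𝒪) := by
      conv_lhs => rw [← ZMod.natCast_zmod_val (f.coeff 0)]
      rw [map_natCast]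
    rw [h1, h0]
    have h2 := congrArg (residue 𝒪) hx'
    simp only [map_add, map_pow, map_mul, map_natCast, _root_.map_zero] at h2
    linear_combination h2
  have hd' : (f.map ψ).natDegree = 2 := by rw [hf.natDegree_map, hd]
  obtain ⟨β, hβ⟩ := k1o2_split_of_root (hf.map ψ) hd' hroot
  exact ⟨_, β, hβ⟩

/-- `2` is a unit (`p` odd) -/
theorem s59lkbig_isUnit_two (hp2 : p ≠ 2) (hpO : (p : 𝒪) ∈ maximalIdeal 𝒪) :
    IsUnit (2 : 𝒪) := by
  by_contra h2
  have h2m : (2 : 𝒪) ∈ maximalIdeal 𝒪 := by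
    rw [mem_maximalIdeal, mem_nonunits_iff]; exact h2
  have hodd : p % 2 = 1 := by
    rcases hp.out.eq_two_or_odd with h | h
    · exact absurd h hp2
    · exact h
  have h1 : (1 : 𝒪) = (p : 𝒪) - 2 * ((p / 2 : ℕ) : 𝒪) := k1o_one_eq_sub p hodd
  have h5 : (1 : 𝒪) ∈ maximalIdeal 𝒪 := by
    rw [h1]
    exact Ideal.sub_mem _ hpO (Ideal.mul_mem_right _ _ h2m)
  exact (Ideal.ne_top_iff_one _).1 (maximalIdeal.isMaximal _).ne_top h5

/-- square roots of the elements `≡ 1 mod 𝔪` (Hensel, `p` odd) -/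
theorem s59lkbig_exists_sqrt [IsAdicComplete (maximalIdeal 𝒪) 𝒪] (hp2 : p ≠ 2)
    (hpO : (p : 𝒪) ∈ maximalIdeal 𝒪) (q : 𝒪) (hq : q - 1 ∈ maximalIdeal 𝒪) :
    ∃ s : 𝒪, s ^ 2 = q ∧ s - 1 ∈ maximalIdeal 𝒪 := by
  have hH := HenselianRing.is_henselian (R := 𝒪) (I := maximalIdeal 𝒪)
    (X ^ 2 - C q) (monic_X_pow_sub_C q (by norm_num)) 1
    (by
      simp only [eval_sub, eval_pow, eval_X, eval_C, one_pow]
      have := Ideal.neg_mem_iff _ |>.mpr hq
      rwa [neg_sub] at this)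
    (by
      simp only [derivative_sub, derivative_X_pow, derivative_C, sub_zero, eval_mul,
        eval_X, eval_C, Nat.cast_ofNat, Nat.add_one_sub_one, pow_one, mul_one]
      exact (s59lkbig_isUnit_two hp2 hpO).map _)
  obtain ⟨a, ha, ha1⟩ := hH
  refine ⟨a, ?_, ha1⟩
  rw [IsRoot.def] at ha
  simp only [eval_sub, eval_pow, eval_X, eval_C] at ha
  exact sub_eq_zero.1 ha

/-- the square root of a natural number `r ≡ 1 mod p` -/
theorem s59lkbig_exists_sqrt_nat [IsAdicComplete (maximalIdeal 𝒪) 𝒪] (hp2 : p ≠ 2)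
    (hpO : (p : 𝒪) ∈ maximalIdeal 𝒪) (r : ℕ) (hr : (p : ℤ) ∣ (r : ℤ) - 1) :
    ∃ s : 𝒪, s ^ 2 = (r : 𝒪) ∧ s - 1 ∈ maximalIdeal 𝒪 := by
  refine s59lkbig_exists_sqrt hp2 hpO _ ?_
  obtain ⟨c, hc⟩ := hr
  have h1 : (r : 𝒪) - 1 = (p : 𝒪) * (c : 𝒪) := by
    have := congrArg (Int.cast : ℤ → 𝒪) hc
    push_cast at this
    exact this
  rw [h1]
  exact Ideal.mul_mem_right _ _ hpO

end Big

/-! ### The residual representation over `𝒪` -/

section Rho

variable (W : WeierstrassCurve ℤ) (hΔ : W.Δ ≠ 0) (p : ℕ) [hp : Fact p.Prime]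
  [hp2 : Fact (p ≠ 2)]
variable {𝒪 : Type} [CommRing 𝒪] [IsDomain 𝒪] [IsDiscreteValuationRing 𝒪]
  [IsAdicComplete (maximalIdeal 𝒪) 𝒪] [Finite (ResidueField 𝒪)]
  (φ : ℤ_[p] →+* 𝒪) (hφ : IsLocalHom φ)

/-- `G_ℚ` -/
local notation "GQ" => (AlgebraicClosure ℚ ≃ₐ[ℚ] AlgebraicClosure ℚ)

/-- the dictionary for `ρbar` over `𝒪` -/
theorem s59lkbig_rho_unram_iff (q : ℕ) :
    (s59feBar W hΔ p φ hφ).IsUnramifiedAt q ↔ s59lq_Unram W p q := by
  rw [s59feBar, rtphw_isUnramifiedAt_iff]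
  exact s59lk_rho1_unram_iff W hΔ p q

/-- `ρbar` over `𝒪` is unipotent on inertia at every prime `q ≠ p`. -/
theorem s59lkbig_rho_unip (hss : W.IsSemistableModel) {q : ℕ} (hq : q.Prime) (hqp : q ≠ p)
    (A : ValuationSubring (AlgebraicClosure ℚ)) (hA : A.LiesOverPrime q)
    (s : GQ) (hs : s ∈ A.inertiaSubgroupIn ℚ) :
    LinearMap.charpoly ((s59feBar W hΔ p φ hφ).ρ s) = (X - 1) ^ 2 := by
  have h1 := Fermat.Agent.RED.tateRepInt_isUnipotentOnInertiaAt_of_semistable_all W hΔ hss p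
    hp2.out hq hqp A hA s hs
  have h2 : LinearMap.charpoly ((s59lkRho₁ W hΔ p).ρ s) = (X - 1) ^ 2 := by
    have h3 := rtphw_charpoly_residual (tateRepInt W hΔ p) s
    rw [h1] at h3
    simpa using h3
  rw [s59feBar, rtphw_charpoly, h2]
  simp

/-- `Smin` for `ρbar` over `𝒪` -/
theorem s59lkbig_Smin_mem (q : ℕ) (hq : q.Prime) :
    q ∈ s59feSmin W hΔ p ↔ q = p ∨ ¬ (s59feBar W hΔ p φ hφ).IsUnramifiedAt q := by
  by_cases hqp : q = p
  · subst hqp
    exact ⟨fun _ => Or.inl rfl, fun _ => s59fe_p_mem_Smin W hΔ q⟩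
  · rw [s59fe_hmin W hΔ p φ hφ hq hqp]
    exact ⟨fun h => Or.inr h, fun h => h.resolve_left hqp⟩

/-- **`TWHyp` over the big ring**, `p ∈ {3, 5}` -/
theorem s59lkbig_twHyp (hp35 : p = 3 ∨ p = 5)
    (hsp : ((s59lkP0 p).map (Int.castRingHom 𝒪)).Splits) (hss : W.IsSemistableModel)
    (hirr : W.ModRepIsIrreducible p) (S : Finset ℕ) (hSmin : s59feSmin W hΔ p ⊆ S)
    (hS : ∀ q ∈ S, q.Prime) :
    TWHyp 𝒪 p (s59feBar W hΔ p φ hφ) S (s59feSmin W hΔ p) :=
  s59fe_twHyp W hΔ p φ hφ hp35 (fun ψ f hf hd => s59lkbig_hK hsp ψ f hf hd) hss hirr S hSmin hS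

/-- the trivial primes form a trivial set for `ρbar` over `𝒪` -/
theorem s59lkbig_isTrivSet (M : ℕ) (hM : M ≠ 0)
    (htriv : ∀ r : ℕ, r.Prime → r ≠ p → r ∣ M → s59lq_Unram W p r →
      s59lq_IsTrivialPrime W p r) :
    IsTrivSet p (s59feBar W hΔ p φ hφ) (s59feSmin W hΔ p) (s59lkT W hΔ p M) := by
  have hTmem := s59lk_mem_T W hΔ p hM
  intro r hr
  obtain ⟨h1, h2, h3⟩ := (hTmem r).1 hr
  have hrp : r ≠ p := fun h => h3 (by rw [h]; exact s59fe_p_mem_Smin W hΔ p)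
  have hunr : (s59feBar W hΔ p φ hφ).IsUnramifiedAt r := by
    by_contra h
    exact h3 ((s59lkbig_Smin_mem W hΔ p φ hφ r h1).2 (Or.inr h))
  have hunr' : s59lq_Unram W p r := (s59lkbig_rho_unram_iff W hΔ p φ hφ r).1 hunr
  have htr : s59lq_IsTrivialPrime W p r := htriv r h1 hrp h2 hunr'
  refine ⟨h1, h3, htr.2.2.1, ?_⟩
  intro A hA σ hσ
  show (s59feBar W hΔ p φ hφ).ρ σ = 1 ∨ (s59feBar W hΔ p φ hφ).ρ σ = -1
  rw [s59feBar, rtphw_one_iff, rtphw_neg_one_iff]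
  exact s59lk_rho1_triv W hΔ p htr ((s59lk_rho1_unram_iff W hΔ p r).2 hunr') A hA σ hσ

/-- **the data of the setup**: LOC-gen generators and square roots with signs -/
theorem s59lkbig_exists_data (M : ℕ) (hM : M ≠ 0)
    (htriv : ∀ r : ℕ, r.Prime → r ≠ p → r ∣ M → s59lq_Unram W p r →
      s59lq_IsTrivialPrime W p r) :
    ∃ (σ φ' : s59lkT W hΔ p M → RtpaG) (s : s59lkT W hΔ p M → 𝒪),
      (∀ i : s59lkT W hΔ p M, ∀ [Fact (i : ℕ).Prime], IsLocGenAt p (i : ℕ) (σ i) (φ' i)) ∧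
      (∀ i, s i ^ 2 = (((i : ℕ) : ℕ) : 𝒪)) ∧
      ∀ i, ((s59feBar W hΔ p φ hφ).ρ (φ' i) = 1 ∧ s i - 1 ∈ maximalIdeal 𝒪) ∨
        ((s59feBar W hΔ p φ hφ).ρ (φ' i) = -1 ∧ s i + 1 ∈ maximalIdeal 𝒪) := by
  have hTmem := s59lk_mem_T W hΔ p hM
  have hT := s59lkbig_isTrivSet W hΔ p φ hφ M hM htriv
  have hpO : (p : 𝒪) ∈ maximalIdeal 𝒪 := s59fe_p_mem p φ hφ
  have hprime : ∀ i : s59lkT W hΔ p M, (i : ℕ).Prime := fun i => ((hTmem _).1 i.2).1
  have hne : ∀ i : s59lkT W hΔ p M, (i : ℕ) ≠ p := by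
    intro i h
    exact ((hTmem _).1 i.2).2.2 (by rw [h]; exact s59fe_p_mem_Smin W hΔ p)
  have hloc : ∀ i : s59lkT W hΔ p M, ∃ σ φ' : RtpaG,
      ∀ [Fact (i : ℕ).Prime], IsLocGenAt p (i : ℕ) σ φ' := by
    intro i
    haveI : Fact (i : ℕ).Prime := ⟨hprime i⟩
    obtain ⟨σ, φ', h⟩ := exists_isLocGenAt Fermat.Agent.RT.K1.stmtLocGen p (i : ℕ) (hne i)
    exact ⟨σ, φ', fun {_} => h⟩
  choose σ φ' hσφ using hloc
  have hsq : ∀ i : s59lkT W hΔ p M, ∃ s : 𝒪, s ^ 2 = ((i : ℕ) : 𝒪) ∧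
      (((s59feBar W hΔ p φ hφ).ρ (φ' i) = 1 ∧ s - 1 ∈ maximalIdeal 𝒪) ∨
        ((s59feBar W hΔ p φ hφ).ρ (φ' i) = -1 ∧ s + 1 ∈ maximalIdeal 𝒪)) := by
    intro i
    haveI : Fact (i : ℕ).Prime := ⟨hprime i⟩
    have htr' := hT (i : ℕ) i.2
    have hdvd : (p : ℤ) ∣ ((i : ℕ) : ℤ) - 1 := rtps_int_dvd (hprime i).one_le htr'.2.2.1
    obtain ⟨s, hs2, hs1⟩ := s59lkbig_exists_sqrt_nat hp2.out hpO (i : ℕ) hdvd
    rcases rtps_sign hT i.2 (hσφ i).frob with h1 | h1
    · exact ⟨s, hs2, Or.inl ⟨h1, hs1⟩⟩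
    · refine ⟨-s, by rw [neg_pow_two, hs2], Or.inr ⟨h1, ?_⟩⟩
      have : -s + 1 = -(s - 1) := by ring
      rw [this]
      exact (Ideal.neg_mem_iff _).2 hs1
  choose s hs2 hs using hsq
  exact ⟨σ, φ', s, fun i => hσφ i, hs2, hs⟩

end Rho

/-! ### The setup over the big ring -/

section Setup

variable (p : ℕ) [hp : Fact p.Prime] (hp35 : p = 3 ∨ p = 5)
  (W : WeierstrassCurve ℤ) (hΔ : W.Δ ≠ 0) (hss : W.IsSemistableModel)
  (hirr : W.ModRepIsIrreducible p) (M : ℕ) (hM : M ≠ 0)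
  (htriv : ∀ r : ℕ, r.Prime → r ≠ p → r ∣ M → s59lq_Unram W p r →
    s59lq_IsTrivialPrime W p r)
  (𝒪 : Type) [CommRing 𝒪] [IsDomain 𝒪] [IsDiscreteValuationRing 𝒪]
  [IsAdicComplete (maximalIdeal 𝒪) 𝒪] [Finite (ResidueField 𝒪)] [CharZero 𝒪]
  (φ : ℤ_[p] →+* 𝒪) (hφ : IsLocalHom φ)
  (hsp : ((s59lkP0 p).map (Int.castRingHom 𝒪)).Splits)

include hp35 in
theorem s59lkbig_ne_two : p ≠ 2 := by rcases hp35 with rfl | rfl <;> decide

/-- **KSETUP-W over the big ring `𝒪`** (a definition: the fields `O`, `ρbar`, `Smin`, `ι`, `r`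
are the given ones by `rfl`). -/
@[reducible] def s59lk_setupBigW : s59lk_KSetupW W p M :=
  haveI : Fact (p ≠ 2) := ⟨s59lkbig_ne_two p hp35⟩
  { O := 𝒪
    lam := Classical.choose (IsDiscreteValuationRing.exists_irreducible 𝒪)
    hlam := (Classical.choose_spec (IsDiscreteValuationRing.exists_irreducible 𝒪)).maximalIdeal_eq
    h2 := s59lkbig_isUnit_two (s59lkbig_ne_two p hp35) (s59fe_p_mem p φ hφ)
    ζ := Classical.choose (s59lkbig_exists_zeta hsp)
    hζ := Classical.choose_spec (s59lkbig_exists_zeta hsp)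
    ρbar := s59feBar W hΔ p φ hφ
    Smin := s59feSmin W hΔ p
    hSmin_mem := s59lkbig_Smin_mem W hΔ p φ hφ
    ι := s59lkT W hΔ p M
    r := fun i => (i : ℕ)
    r_inj := Subtype.val_injective
    hr := fun ℓ => by rw [rtps_image_val]; exact s59lk_mem_T W hΔ p hM ℓ
    hyp := by
      rw [rtps_image_val]
      exact s59lkbig_twHyp W hΔ p φ hφ hp35 hsp hss hirr _ Finset.subset_union_left
        (fun q hq => by
          rcases Finset.mem_union.1 hq with h | h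
          · exact s59fe_prime_of_mem_Smin W hΔ p h
          · exact ((s59lk_mem_T W hΔ p hM q).1 h).1)
    hT := by
      rw [rtps_image_val]
      exact s59lkbig_isTrivSet W hΔ p φ hφ M hM htriv
    σ := Classical.choose (s59lkbig_exists_data W hΔ p φ hφ M hM htriv)
    φ := Classical.choose (Classical.choose_spec (s59lkbig_exists_data W hΔ p φ hφ M hM htriv))
    hloc := (Classical.choose_spec (Classical.choose_spec (Classical.choose_spec
      (s59lkbig_exists_data W hΔ p φ hφ M hM htriv)))).1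
    s := Classical.choose (Classical.choose_spec (Classical.choose_spec
      (s59lkbig_exists_data W hΔ p φ hφ M hM htriv)))
    hs2 := (Classical.choose_spec (Classical.choose_spec (Classical.choose_spec
      (s59lkbig_exists_data W hΔ p φ hφ M hM htriv)))).2.1
    hs := (Classical.choose_spec (Classical.choose_spec (Classical.choose_spec
      (s59lkbig_exists_data W hΔ p φ hφ M hM htriv)))).2.2
    hbar := fun ℓ hℓ hne hgood A hA τ hτ =>
      rtphw_hbar W hΔ p _ hℓ hne hgood A hA τ hτ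
    hunip := fun q hq hqp A hA s hs => s59lkbig_rho_unip W hΔ p φ hφ hss hq hqp A hA s hs
    hunram := fun q => s59lkbig_rho_unram_iff W hΔ p φ hφ q }

theorem s59lk_setupBigW_O :
    (s59lk_setupBigW p hp35 W hΔ hss hirr M hM htriv 𝒪 φ hφ hsp).O = 𝒪 := rfl

theorem s59lk_setupBigW_rho :
    (s59lk_setupBigW p hp35 W hΔ hss hirr M hM htriv 𝒪 φ hφ hsp).ρbar
      = s59feBar W hΔ p φ hφ := rfl

theorem s59lk_setupBigW_Smin :
    (s59lk_setupBigW p hp35 W hΔ hss hirr M hM htriv 𝒪 φ hφ hsp).Smin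
      = s59feSmin W hΔ p := rfl

theorem s59lk_setupBigW_r (i : s59lkT W hΔ p M) :
    (s59lk_setupBigW p hp35 W hΔ hss hirr M hM htriv 𝒪 φ hφ hsp).r i = (i : ℕ) := rfl

include hp35 hΔ hss hirr hM htriv hφ hsp in
/-- **KSETUP-W over the big ring**, `Nonempty` form. -/
theorem s59lk_exists_setupBigW : Nonempty (s59lk_KSetupW W p M) :=
  ⟨s59lk_setupBigW p hp35 W hΔ hss hirr M hM htriv 𝒪 φ hφ hsp⟩

end Setup

end Fermat.Agent.S59.LowK

end
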