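import Fermat.Agent.S59.LowK.ConcFinalUEW
import Fermat.Agent.S59.LowK.ConcUnipUW
import Fermat.Agent.RT.K6T.TwChi3
import Fermat.Agent.RT.K6T.Grp3
import Fermat.Agent.RT.K6T.Final

/-!
# S59 M3/R1, leaf HK-UNIP-W at the EVEN levels, every odd `p` (`p = 3` included) (helper22)

The unipotency side `StmtHkfUnipUEW p` (`ConcFinalUEW.lean`) at the big modulus
`M' = rthkfMUW Y qv`, `2 ∣ N`, reduced to ONE leaf, the prime `2`:

* `s59lkuk_unip3`      : the K6 core (`UnipK6.lean`) fed with helper4's `StmtChiJDiv3`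
                         (`RT/K6T/Final.lean`: even levels, `r ≠ 2`, `p` odd);
* `StmtHkfUnipTwoEW p` : THE OPEN LEAF: the inertia groups at `2` act unipotently on
                         `es1inftwJ L M' H'' p χ` (when `2 ∈ Smin`, `p ∣ 2 ^ 2 - 1`, so `p = 3`);
* `rthkf_unipUEW`      : `StmtChiJDiv3 → StmtHkfUnipTwoEW p → StmtHkfUnipUEW p`:
    - `q' = 2`          : the leaf;
    - `q' ≠ 2`, `q' ∣ N` : `q' ∈ T`, `q' ∣ M'`, the classes at `q'` are in `H''`
                          (`rthkf_atR_memUW`, helper9), K6T with `δ = 1`;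
    - `q' ∤ N`          : `q' ∤ L p`, the inertia at `q'` acts trivially (`Rtk7bPkg.unram`);
* `rthkf_unipUEW_done` : the same with `rtk6t_stmtChiJDiv3` filled in;
* `rthkf_unipTwoEW_of_five_le` : for `5 ≤ p` the leaf is empty (`p ∤ 3`).
-/

set_option autoImplicit false
set_option linter.unusedSectionVars false
set_option linter.unusedVariables false
set_option linter.style.haveILetI false
set_option linter.style.longLine false

noncomputable section

namespace Fermat.Agent.S59.LowK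

open ModularCurve AlgebraicCurve Fermat.Agent.S48
open Fermat.Agent.RT Fermat.Agent.S59.LowQ
open IsLocalRing Fermat.Agent.ES Fermat.Agent.S30 Fermat.Agent.W1 Fermat.Agent.TW
open Fermat.Agent.ES1 Fermat.Agent.RT.K5 Fermat.Agent.RT.K6 Fermat.Agent.RT.K7F
open Fermat.Agent.RT.Prod
open ExtCitation WeierstrassCurve WeierstrassCurve.Affine WeierstrassCurve.Affine.Point
open scoped MatrixGroups

section core

variable {L M : ℕ} [NeZero L] [NeZero M] {H : Subgroup (ZMod M)ˣ} {p : ℕ}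
  [hML : Fact (M ∣ L)] [hp : Fact p.Prime]

/-- **HK-UNIP from `StmtChiJDiv3`** (`p` odd, `r ≠ 2`, even tame star-stable level). -/
theorem s59lkuk_unip3 (hChi : StmtChiJDiv3) (hp2 : p ≠ 2) (e : ℕ) {r : ℕ} (hr : r.Prime)
    (hrne : r ≠ 2) (hrM : r ∣ M) (hr2 : ¬ r ^ 2 ∣ L) (hrp : r ≠ p)
    (hstar : IsStarStable M r H) (htame : IsTameAt_t3 L M r H)
    (hHr : ∀ c : (ZMod M)ˣ, IsAtR M r c → c ∈ pmH H)
    (A : ValuationSubring (AlgebraicClosure ℚ)) (hA : A.LiesOverPrime r) (σ : GalQ)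
    (hσ : σ ∈ A.inertiaSubgroupIn ℚ) (x : es1inftwJ L M H p (k7ftwChar M e)) :
    σ • σ • x + x = σ • x + σ • x :=
  s59lkuk_unip_char
    (es1inftw_chiAt_of3 hChi (NeZero.ne L) hML.out hp.out hp2 hr hrne hrM hr2 hrp hstar htame)
    e hr hrM hr2 hHr A hA σ hσ x

end core

/-- **THE OPEN LEAF of the unipotency side at the even levels: the prime `2`.**  When
`2 ∈ Smin` and `p ∣ 2 ^ 2 - 1` (so `p = 3`), the inertia groups at `2` act unipotently on
`J = es1inftwJ L M' H'' p χ` at the big modulus. -/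
def StmtHkfUnipTwoEW (p : ℕ) : Prop :=
  ∀ [Fact p.Prime] (W : WeierstrassCurve ℤ) (N q : ℕ) [NeZero N], W.Δ ≠ 0 →
    W.IsSemistableModel → W.ModRepIsIrreducible p → Squarefree N → ¬ p ∣ N → 2 ∣ N → q.Prime →
    q ≠ p → q ∣ N → s59lq_Unram W p q → W.IsResiduallyModularOfLevel p N →
    (∀ r : ℕ, r.Prime → r ≠ p → r ∣ N → s59lq_Unram W p r → s59lq_IsTrivialPrime W p r) →
    ∀ (Y : s59lk_KSetupW W p N) (h n : ℕ) (qv : Fin h → ℕ),
      IsTWFamily p Y.ρbar (Y.Smin ∪ Finset.univ.image Y.r) n h qv →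
      ∀ (_ : NeZero (N * rthkdM qv)) (_ : NeZero (rthkfMUW Y qv))
        (_ : Fact (rthkfMUW Y qv ∣ N * rthkdM qv)),
        2 ∈ Y.Smin → p ∣ 2 ^ 2 - 1 →
        ∀ P : ValuationSubring (AlgebraicClosure ℚ), P.LiesOverPrime 2 →
          ∀ s ∈ P.inertiaSubgroupIn ℚ, ∀ (k : ℕ)
            (x : es1inftwJ (N * rthkdM qv) (rthkfMUW Y qv) (rthkfHUW Y qv n) p
              (k7ftwChar (rthkfMUW Y qv) (rthkdE p (n + 1)))), p ^ k • x = 0 →
            s • s • x + x = s • x + s • x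

/-- for `5 ≤ p` the leaf at `2` is empty -/
theorem rthkf_unipTwoEW_of_five_le {p : ℕ} (hp5 : 5 ≤ p) : StmtHkfUnipTwoEW p := by
  intro hp W N q _ hΔ hss hirr hcond hpN h2N hq hqp hqN hun hmod htriv Y h n qv hqv iL iM iML
    h2S hp3
  exfalso
  have h3 : p ≤ 3 := Nat.le_of_dvd (by norm_num) hp3
  omega

/-- **HK-UNIP-W at the even levels, every odd `p`**, from K6T and the leaf at `2`. -/
theorem rthkf_unipUEW {p : ℕ} (hChi : StmtChiJDiv3) (hTwo : StmtHkfUnipTwoEW p) :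
    StmtHkfUnipUEW p := by
  intro hp W N q _ hΔ hss hirr hcond hpN h2N hq hqp hqN hun hmod htriv Y h n qv hqv iL iM iML
    q' hq'S hq' hq'p hpq' P hP s hs k x hx
  have hN0 : N ≠ 0 := NeZero.ne N
  have hk : ∀ x : Fin h ⊕ Y.ι,
      (Sum.elim (fun _ => n + 1) (fun _ => 1) : Fin h ⊕ Y.ι → ℕ) x ≤ n + 1 := by
    rintro (j | i)
    · exact le_rfl
    · exact Nat.succ_le_succ (Nat.zero_le n)
  by_cases hq'2 : q' = 2
  · subst hq'2
    exact hTwo W N q hΔ hss hirr hcond hpN h2N hq hqp hqN hun hmod htriv Y h n qv hqv iL iM iML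
      hq'S hpq' P hP s hs k x hx
  by_cases hq'N : q' ∣ N
  · have hT : q' ∈ rthkfTUW Y := (rthkf_mem_TUW Y).mpr ⟨hq'S, hq', hq'p, hq'N, hpq'⟩
    have hr2 : ¬ q' ^ 2 ∣ N * rthkdM qv := fun hd =>
      hq'.not_isUnit (rthkf_sqfree_LW hcond hqv q' (by rwa [sq] at hd))
    exact s59lkuk_unip3 hChi Y.hyp.hp2 (rthkdE p (n + 1)) hq' hq'2
      (rthkfT_dvd_MUW Y qv hT) hr2 hq'p
      (rthkgb_isStarStable hp.out Y.hyp.hp2 (rthkdYv_injW hqv) (rthkdYv_primeW hqv)
        (rthkdY_pow_dvdW hqv) (rthkfMU_ne_zeroW hN0 hqv) _ hq' (rthkfT_dvd_MUW Y qv hT))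
      (rthkgb_isTameAt_t3 hp.out Y.hyp.hp2 (rthkdY_p_not_dvd_LW (Y := Y) hpN hqv)
        (Dvd.dvd.mul_right h2N _) _ q')
      (fun c hc => rthkf_atR_memUW hN0 hqv hT c hc) P hP s hs x
  · have hq'L : ¬ q' ∣ (N * rthkdM qv) * p := by
      intro hd
      rcases (Nat.Prime.dvd_mul hq').mp hd with h1 | h1
      · rcases (Nat.Prime.dvd_mul hq').mp h1 with h2 | h2
        · exact hq'N h2
        · obtain ⟨j, -, hj⟩ := Finset.mem_image.mp (rthkdY_dvd_prod_qvW hqv hq' h2)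
          apply (hqv.2.1 j).2.1
          rw [hj]
          exact Finset.mem_union_left _ hq'S
      · exact hq'p ((Nat.prime_dvd_prime_iff_eq hq' hp.out).mp h1)
    have hpkg := rthkp_pkg (L := N * rthkdM qv) (M := rthkfMUW Y qv)
      (rthkfHUW Y qv n) p (rthkdE p (n + 1)) (rthkp_one_le_half p (n + 1) hp.out.pos)
      (rthkd_pow_E_mem (hp.out.odd_of_ne_two Y.hyp.hp2) hk)
    have h1 := hpkg.unram q' hq' hq'L P hP s hs k x hx
    rw [h1, h1]

/-- **HK-UNIP-W at the even levels, every odd `p`**, K6T filled in: only the leaf at `2` is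
left. -/
theorem rthkf_unipUEW_done {p : ℕ} (hTwo : StmtHkfUnipTwoEW p) : StmtHkfUnipUEW p :=
  rthkf_unipUEW rtk6t_stmtChiJDiv3 hTwo

end Fermat.Agent.S59.LowK

end
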